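import Fermat.Agent.Mazur3.Branch

/-!
# Roots of the modular equation at a prime and integrality of values

Points related by an isogeny of degree `η` solve the modular equation both ways, the valuations of
the roots at a pole of `j` leave three possibilities, and a function whose translates have series
with coefficients in an integrally closed ring takes values there where `j` does.
-/

set_option autoImplicit false
set_option linter.style.haveILetI false

noncomputable section

namespace Fermat.Agent.Mazur3.AtEta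

open UpperHalfPlane Polynomial Fermat.Agent.GalRep CongruenceSubgroup
open Fermat.Agent.Period (jFun Coset baseCoset)
open scoped MatrixGroups

/-! ## Isogenous points -/

/-- Points related by an isogeny of degree `eta` solve the modular equation both ways. -/
theorem biEval_jFun_isog (eta : ℕ) [Fact eta.Prime] [NeZero eta] {τ τ' : ℍ}
    (h : (∃ b : ℕ, (eta : ℂ) * τ' = τ + b) ∨ (τ' : ℂ) = eta * τ) :
    biEval (jFun τ) (jFun τ') (modPoly eta) = 0 ∧
      biEval (jFun τ') (jFun τ) (modPoly eta) = 0 := by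
  have key : ∀ σ : ℍ, biEval (jFun σ) (jFun (posMat _ (det_diagN eta) • σ)) (modPoly eta) = 0 :=
    fun σ => biEval_modPoly_apply (p := eta) σ
  have hT : ∀ (σ σ' : ℍ) (n : ℤ), (σ' : ℂ) = σ + n → jFun σ' = jFun σ := by
    intro σ σ' n hn
    have e : σ' = ((n : ℝ) +ᵥ σ) := UpperHalfPlane.ext (by rw [hn]; simp [add_comm])
    rw [e, ← modular_T_zpow_smul, Period.jFun_smul]
  have hη : (eta : ℂ) ≠ 0 := Nat.cast_ne_zero.mpr (NeZero.ne eta)
  -- if `σ' = η σ` the equation holds both ways
  have two : ∀ σ σ' : ℍ, (σ' : ℂ) = eta * σ →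
      biEval (jFun σ) (jFun σ') (modPoly eta) = 0 ∧
        biEval (jFun σ') (jFun σ) (modPoly eta) = 0 := by
    intro σ σ' hs
    refine ⟨?_, ?_⟩
    · have e : posMat _ (det_diagN eta) • σ = σ' :=
        UpperHalfPlane.ext (by rw [coe_posMat_smul, hs]; simp)
      simpa [e] using key σ
    · have h1 := key (ModularGroup.S • σ')
      rw [Period.jFun_smul] at h1
      have e : posMat _ (det_diagN eta) • (ModularGroup.S • σ') = ModularGroup.S • σ :=
        UpperHalfPlane.ext (by
          rw [coe_posMat_smul, UpperHalfPlane.modular_S_smul, UpperHalfPlane.modular_S_smul]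
          have hσ : (σ : ℂ) ≠ 0 := σ.ne_zero
          simp [hs]
          field_simp)
      rw [e, Period.jFun_smul] at h1
      exact h1
  rcases h with ⟨b, hb⟩ | h
  · let σ' : ℍ := (b : ℝ) +ᵥ τ
    have h1 : jFun σ' = jFun τ := hT τ σ' b (by simp [σ', add_comm])
    obtain ⟨e1, e2⟩ := two τ' σ' (by simp [σ', hb, add_comm])
    rw [h1] at e1 e2
    exact ⟨e2, e1⟩
  · exact two τ τ' h

/-! ## Valuations of roots at a pole -/

section Roots

variable (eta : ℕ) [Fact eta.Prime] [NeZero eta]

theorem natDegree_modPoly_lt : (modPoly eta).natDegree < eta + 2 := by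
  rw [modPoly, natDegree_orbitPoly, idx]
  rw [← Nat.card_congr (Eisenstein.cosetEquiv eta), Finite.card_option, Nat.card_zmod]
  omega

theorem biEval_modPoly_expand (X Y : ℂ) : biEval X Y (modPoly eta) =
    Y ^ (eta + 1) + (jCoeff eta 1).eval X * Y ^ eta +
      ∑ i ∈ Finset.Ico 2 (eta + 2), (jCoeff eta i).eval X * Y ^ (eta + 1 - i) := by
  rw [biEval, Polynomial.coe_eval₂RingHom,
    Polynomial.eval₂_eq_sum_range' _ (natDegree_modPoly_lt eta), ← Finset.sum_range_reflect,
    Finset.range_eq_Ico, Finset.sum_eq_sum_Ico_succ_bot (by omega),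
    Finset.sum_eq_sum_Ico_succ_bot (by omega)]
  simp only [show eta + 2 - 1 = eta + 1 by omega, AlgHom.toRingHom_eq_coe, RingHom.coe_coe,
    Polynomial.coe_aeval_eq_eval]
  rw [show (modPoly eta).coeff (eta + 1 - 0) = jCoeff eta 0 from rfl, jCoeff_zero,
    Polynomial.eval_one, one_mul, Nat.sub_zero, ← add_assoc]
  rfl

variable {eta} (B : ValuationSubring ℂ)

theorem val_jCoeff_le {X : ℂ} (hX : 1 ≤ B.valuation X) {i : ℕ} (hi : i ≤ eta + 1) :
    B.valuation ((jCoeff eta i).eval X) ≤ B.valuation X ^ (eta + 1) := by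
  rw [Polynomial.eval_eq_sum_range]
  refine B.valuation.map_sum_le fun e he => ?_
  rw [map_mul, map_pow]
  calc B.valuation ((jCoeff eta i).coeff e) * B.valuation X ^ e ≤ 1 * B.valuation X ^ (eta + 1) :=
        mul_le_mul' (val_of_isIntegral B ((jCoeff_spec eta hi).1 e))
          (pow_le_pow_right₀ hX (by
            have := (jCoeff_spec eta hi).2.1
            rw [Finset.mem_range] at he
            omega))
    _ = _ := one_mul _

theorem val_jCoeff_one {X : ℂ} (hX : 1 < B.valuation X) :
    B.valuation ((jCoeff eta 1).eval X) = B.valuation X ^ eta := by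
  have hwa : 0 < B.valuation X := zero_lt_one.trans hX
  obtain ⟨hd, htop⟩ := (jCoeff_spec eta (i := 1) (by omega)).2.2 rfl
  rw [Polynomial.eval_eq_sum_range' (Nat.lt_succ_of_le hd), Finset.sum_range_succ, htop,
    Valuation.map_add_eq_of_lt_right]
  · rw [neg_one_mul, Valuation.map_neg, map_pow]
  · rw [neg_one_mul, Valuation.map_neg, map_pow]
    refine B.valuation.map_sum_lt' (pow_pos hwa _) fun e he => ?_
    rw [Finset.mem_range] at he
    rw [map_mul, map_pow]
    calc B.valuation ((jCoeff eta 1).coeff e) * B.valuation X ^ e ≤ 1 * B.valuation X ^ e :=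
          mul_le_mul_left (val_of_isIntegral B ((jCoeff_spec eta (by omega)).1 e)) _
      _ < B.valuation X ^ eta := by rw [one_mul]; exact pow_lt_pow_right₀ hX he

/-- A point related to a pole of `j` is a pole of `j`. -/
theorem one_lt_val_of_root {X Y : ℂ} (hX : 1 < B.valuation X)
    (h : biEval Y X (modPoly eta) = 0) : 1 < B.valuation Y := by
  by_contra hY
  rw [not_lt] at hY
  have hwa : 0 < B.valuation X := zero_lt_one.trans hX
  have hc : ∀ i ≤ eta + 1, B.valuation ((jCoeff eta i).eval Y) ≤ 1 := fun i hi => by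
    rw [Polynomial.eval_eq_sum_range]
    refine B.valuation.map_sum_le fun e _ => ?_
    rw [map_mul, map_pow]
    exact mul_le_one' (val_of_isIntegral B ((jCoeff_spec eta hi).1 e)) (pow_le_one₀ zero_le hY)
  have hlt : B.valuation ((jCoeff eta 1).eval Y * X ^ eta +
      ∑ i ∈ Finset.Ico 2 (eta + 2), (jCoeff eta i).eval Y * X ^ (eta + 1 - i)) <
      B.valuation (X ^ (eta + 1)) := by
    have hone : ∀ i, 1 ≤ i → i ≤ eta + 1 →
        B.valuation ((jCoeff eta i).eval Y * X ^ (eta + 1 - i)) <
          B.valuation (X ^ (eta + 1)) := fun i h1 h2 => by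
      rw [map_mul, map_pow, map_pow]
      calc _ ≤ 1 * B.valuation X ^ (eta + 1 - i) := mul_le_mul_left (hc i h2) _
        _ < _ := by rw [one_mul]; exact pow_lt_pow_right₀ hX (by omega)
    refine B.valuation.map_add_lt ?_ (B.valuation.map_sum_lt' ?_ fun i hi => ?_)
    · simpa using hone 1 le_rfl (by omega)
    · rw [map_pow]; exact pow_pos hwa _
    · rw [Finset.mem_Ico] at hi
      exact hone i (by omega) (by omega)
  have h0 := B.valuation.map_add_eq_of_lt_left hlt
  rw [← add_assoc, ← biEval_modPoly_expand, h, map_zero, map_pow] at h0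
  exact (pow_pos hwa _).ne h0

/-- A root larger than the pole is on the branch through infinity. -/
theorem val_eq_pow_of_lt {X Y : ℂ} (hX : 1 < B.valuation X) (h : biEval X Y (modPoly eta) = 0)
    (hXY : B.valuation X < B.valuation Y) : B.valuation Y = B.valuation X ^ eta := by
  by_contra hne
  have hη := (Fact.out : eta.Prime).two_le
  have hwa : 0 < B.valuation X := zero_lt_one.trans hX
  have hwb : 0 < B.valuation Y := hwa.trans hXY
  have hb1 : 1 < B.valuation Y := hX.trans hXY
  have hsum : ∀ i ∈ Finset.Ico 2 (eta + 2),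
      B.valuation ((jCoeff eta i).eval X * Y ^ (eta + 1 - i)) ≤
        B.valuation X ^ (eta + 1) * B.valuation Y ^ (eta - 1) := fun i hi => by
    rw [Finset.mem_Ico] at hi
    rw [map_mul, map_pow]
    exact mul_le_mul' (val_jCoeff_le B hX.le (by omega))
      (pow_le_pow_right₀ hb1.le (by omega))
  rw [biEval_modPoly_expand] at h
  rcases lt_or_gt_of_ne hne with hlt | hgt
  · -- the linear coefficient dominates
    have h1 : B.valuation (Y ^ (eta + 1) +
        ∑ i ∈ Finset.Ico 2 (eta + 2), (jCoeff eta i).eval X * Y ^ (eta + 1 - i)) <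
        B.valuation ((jCoeff eta 1).eval X * Y ^ eta) := by
      rw [map_mul, map_pow, val_jCoeff_one B hX]
      refine B.valuation.map_add_lt ?_ (B.valuation.map_sum_lt'
        (mul_pos (pow_pos hwa _) (pow_pos hwb _)) fun i hi => lt_of_le_of_lt (hsum i hi) ?_)
      · rw [map_pow, pow_succ, mul_comm (B.valuation X ^ eta)]
        exact mul_lt_mul_of_pos_left hlt (pow_pos hwb _)
      · obtain ⟨k, rfl⟩ : ∃ k, eta = k + 1 := ⟨eta - 1, by omega⟩
        rw [Nat.add_sub_cancel, pow_succ _ (k + 1), pow_succ _ k, pow_succ (B.valuation Y) k,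
          mul_assoc, mul_comm (B.valuation X) (B.valuation Y ^ k)]
        exact mul_lt_mul_of_pos_left (mul_lt_mul_of_pos_left hXY (pow_pos hwb _))
          (mul_pos (pow_pos hwa _) hwa)
    have h0 := B.valuation.map_add_eq_of_lt_left h1
    rw [← add_assoc, add_comm _ (Y ^ (eta + 1)), h, map_zero, map_mul, map_pow,
      val_jCoeff_one B hX] at h0
    exact (mul_pos (pow_pos hwa _) (pow_pos hwb _)).ne h0
  · have hXη : B.valuation X ≤ B.valuation X ^ eta := le_self_pow₀ hX.le (by omega)
    have h1 : B.valuation ((jCoeff eta 1).eval X * Y ^ eta +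
        ∑ i ∈ Finset.Ico 2 (eta + 2), (jCoeff eta i).eval X * Y ^ (eta + 1 - i)) <
        B.valuation (Y ^ (eta + 1)) := by
      rw [map_pow]
      refine B.valuation.map_add_lt ?_ (B.valuation.map_sum_lt' (pow_pos hwb _) fun i hi =>
        lt_of_le_of_lt (hsum i hi) ?_)
      · rw [map_mul, map_pow, val_jCoeff_one B hX, pow_succ' (B.valuation Y)]
        exact mul_lt_mul_of_pos_right hgt (pow_pos hwb _)
      · obtain ⟨k, rfl⟩ : ∃ k, eta = k + 1 := ⟨eta - 1, by omega⟩
        rw [Nat.add_sub_cancel, pow_succ (B.valuation X) (k + 1), pow_succ (B.valuation Y) (k + 1),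
          pow_succ (B.valuation Y) k, mul_assoc (B.valuation Y ^ k),
          mul_comm _ (B.valuation Y ^ k)]
        exact mul_lt_mul_of_pos_left (mul_lt_mul'' hgt hXY zero_le zero_le) (pow_pos hwb _)
    have h0 := B.valuation.map_add_eq_of_lt_left h1
    rw [← add_assoc, h, map_zero, map_pow] at h0
    exact (pow_pos hwb _).ne h0

/-- The three possible valuations of a point related to a pole. -/
theorem root_val_cases {X Y : ℂ} (hX : 1 < B.valuation X) (h1 : biEval X Y (modPoly eta) = 0)
    (h2 : biEval Y X (modPoly eta) = 0) :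
    B.valuation Y = B.valuation X ∨ B.valuation Y = B.valuation X ^ eta ∨
      B.valuation Y ^ eta = B.valuation X := by
  rcases lt_trichotomy (B.valuation Y) (B.valuation X) with h | h | h
  · exact Or.inr (Or.inr (val_eq_pow_of_lt B (one_lt_val_of_root B hX h2) h2 h).symm)
  · exact Or.inl h
  · exact Or.inr (Or.inl (val_eq_pow_of_lt B hX h1 h))

end Roots

/-- The `p`-th power cannot act on both coordinates in opposite directions. -/
theorem dichotomy_type {p eta : ℕ} (hp : p.Prime) [Fact eta.Prime] [NeZero eta] (hne : eta ≠ p)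
    (B : ValuationSubring ℂ) {X X' Y Y' : ℂ} (h1 : biEval X Y (modPoly eta) = 0)
    (h2 : biEval Y X (modPoly eta) = 0) (h3 : biEval X' Y' (modPoly eta) = 0)
    (h4 : biEval Y' X' (modPoly eta) = 0) (hX : 1 < B.valuation X)
    (hX' : B.valuation X' = B.valuation X ^ p) (hY : B.valuation Y' ^ p = B.valuation Y) :
    False := by
  have hX'1 : 1 < B.valuation X' := hX' ▸ one_lt_pow₀ hX hp.ne_zero
  have hη := (Fact.out : eta.Prime)
  have inj : ∀ {a b : ℕ}, B.valuation X ^ a = B.valuation X ^ b → a = b := fun {a b} e =>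
    pow_right_injective₀ (zero_lt_one.trans hX) hX.ne' e
  have hsq : ∀ {m : ℕ}, m ≠ 0 → p * p * m ≠ 1 := fun {m} _ e =>
    hp.ne_one (Nat.eq_one_of_mul_eq_one_right (Nat.eq_one_of_mul_eq_one_right e))
  have hnp : ¬ p ∣ eta := fun h => hne (((Nat.prime_dvd_prime_iff_eq hp hη).mp h).symm)
  rcases root_val_cases B hX h1 h2 with a | a | a <;>
    rcases root_val_cases B hX'1 h3 h4 with b | b | b <;> rw [hX'] at b <;> rw [← hY] at a
  · -- `(1, 1)`
    rw [b, ← pow_mul] at a
    nth_rw 2 [← pow_one (B.valuation X)] at a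
    exact hsq one_ne_zero (by rw [mul_one]; exact inj a)
  · rw [b, ← pow_mul, ← pow_mul] at a
    nth_rw 2 [← pow_one (B.valuation X)] at a
    exact hsq hη.ne_zero (by rw [← inj a]; ring)
  · have e := congrArg (· ^ eta) a
    simp only [← pow_mul] at e
    rw [mul_comm p eta, pow_mul, b, ← pow_mul] at e
    exact hnp ⟨p, (inj e).symm⟩
  · rw [b, ← pow_mul] at a
    exact hnp ⟨p, (inj a).symm⟩
  · rw [b, ← pow_mul, ← pow_mul] at a
    have e := inj a
    exact hp.ne_one (Nat.eq_one_of_mul_eq_one_right (m := p) (n := p)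
      (Nat.eq_of_mul_eq_mul_right hη.pos (by rw [one_mul]; linear_combination e)))
  · have e := congrArg (· ^ eta) a
    simp only [← pow_mul] at e
    rw [mul_comm p eta, pow_mul, b, ← pow_mul] at e
    have e1 := inj e
    exact hnp (or_self_iff.mp ((Nat.Prime.dvd_mul hp).mp (e1 ▸ dvd_mul_right p p)))
  · rw [b, ← pow_mul, ← pow_mul] at a
    nth_rw 2 [← pow_one (B.valuation X)] at a
    exact hsq hη.ne_zero (by rw [← inj a]; ring)
  · rw [b, ← pow_mul, ← pow_mul, ← pow_mul] at a
    nth_rw 2 [← pow_one (B.valuation X)] at a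
    exact hsq (mul_ne_zero hη.ne_zero hη.ne_zero) (by rw [← inj a]; ring)
  · rw [← pow_mul, mul_comm, pow_mul, b, ← pow_mul] at a
    nth_rw 2 [← pow_one (B.valuation X)] at a
    exact hsq one_ne_zero (by rw [mul_one]; exact inj a)

/-! ## Integrality of values -/

/-- A function all whose series have coefficients in `B` satisfies a monic equation over `B[j]`. -/
theorem exists_monic_over_j {M : ℕ} [NeZero M] (B : Subring ℂ)
    (hB : ∀ z : ℂ, IsIntegral B z → z ∈ B) (y : modFuns (Gamma M))
    (hy : ∀ (δ : SL(2, ℤ)) (m : ℤ), (serHom M (shift M δ y)).coeff m ∈ B) :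
    ∃ P : Polynomial (Polynomial ℂ), P.Monic ∧ (∀ k l, (P.coeff k).coeff l ∈ B) ∧
      (P.map (evJ (Gamma M)).toRingHom).eval y = 0 := by
  classical
  have hint : ∀ z : ℂ, IsIntegral ℤ z → z ∈ B := fun z hz => hB z hz.tower_top
  let LB : Subring (LaurentSeries ℂ) :=
    { carrier := {f | ∀ m, f.coeff m ∈ B}
      mul_mem' := fun {f g} hf hg m => by
        rw [HahnSeries.coeff_mul]
        exact B.sum_mem fun x _ => B.mul_mem (hf _) (hg _)
      one_mem' := fun m => by
        rw [HahnSeries.coeff_one]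
        split_ifs
        exacts [B.one_mem, B.zero_mem]
      add_mem' := fun {f g} hf hg m => by rw [HahnSeries.coeff_add]; exact B.add_mem (hf _) (hg _)
      zero_mem' := fun m => by simp
      neg_mem' := fun {f} hf m => by rw [HahnSeries.coeff_neg]; exact B.neg_mem (hf _) }
  have hjq : jq ∈ LB := fun m => hint _ (jq_mem_intLS m)
  -- polynomials in `j` with series over `B`
  have hcoef : ∀ (n : ℕ) (Q : ℂ[X]), Q.natDegree < n → Polynomial.aeval jq Q ∈ LB →
      ∀ k, Q.coeff k ∈ B := by
    intro n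
    induction n with
    | zero => intro Q h; omega
    | succ n ih =>
      intro Q hQ hmem k
      have hl : Q.leadingCoeff ∈ B := by
        rw [Polynomial.leadingCoeff, ← coeff_aeval_jq_top le_rfl]; exact hmem _
      by_cases hk : k = Q.natDegree
      · rw [hk]; exact hl
      rcases Nat.eq_zero_or_pos Q.natDegree with h0 | hpos
      · rw [Polynomial.coeff_eq_zero_of_natDegree_lt (by omega)]; exact B.zero_mem
      have he : Polynomial.aeval jq Q.eraseLead ∈ LB := by
        have e := congrArg (Polynomial.aeval jq) Q.eraseLead_add_C_mul_X_pow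
        simp only [map_add, map_mul, Polynomial.aeval_C, map_pow, Polynomial.aeval_X] at e
        rw [← sub_eq_iff_eq_add.2 e.symm]
        refine LB.sub_mem hmem (LB.mul_mem (fun m => ?_) (pow_mem hjq _))
        rw [HahnSeries.algebraMap_apply', PowerSeries.algebraMap_eq, HahnSeries.ofPowerSeries_C,
          HahnSeries.C_apply]
        by_cases hm : m = 0
        · subst hm; simpa using hl
        · rw [HahnSeries.coeff_single_of_ne hm]; exact B.zero_mem
      have := ih Q.eraseLead (by have := Polynomial.eraseLead_natDegree_le Q; omega) he k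
      rwa [Polynomial.eraseLead_coeff_of_ne k hk] at this
  -- the orbit polynomial
  have : (Gamma M).Normal := Gamma_normal M
  have : Fintype (SL(2, ℤ) ⧸ Gamma M) := Fintype.ofFinite _
  have hout : ∀ g : SL(2, ℤ), shift M (Quotient.out (g : SL(2, ℤ) ⧸ Gamma M)) y = shift M g y := by
    intro g
    obtain ⟨⟨h, hh⟩, hg⟩ := QuotientGroup.mk_out_eq_mul (Gamma M) g
    refine Subtype.ext (funext fun σ => ?_)
    rw [hg, shift_apply, shift_apply, mul_smul]
    have hc : g * h * g⁻¹ ∈ Gamma M := (Gamma_normal M).conj_mem h hh g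
    have h1 := y.2.invariant _ hc (g • σ)
    simp only [← mul_smul, inv_mul_cancel_right] at h1
    rw [mul_smul] at h1
    exact h1
  set P : (modFuns (Gamma M))[X] :=
    ∏ q : SL(2, ℤ) ⧸ Gamma M, (Polynomial.X - Polynomial.C (shift M q.out y)) with hP
  have hinv : ∀ g, P.map (shift M g).toRingHom = P := by
    intro g
    rw [hP, Polynomial.map_prod]
    refine Fintype.prod_equiv (Equiv.mulRight (g : SL(2, ℤ) ⧸ Gamma M)) _ _ fun q => ?_
    obtain ⟨h, rfl⟩ := QuotientGroup.mk_surjective q
    rw [Equiv.coe_mulRight]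
    beta_reduce
    rw [← QuotientGroup.mk_mul, hout, hout, Polynomial.map_sub, Polynomial.map_X,
      Polynomial.map_C, AlgHom.toRingHom_eq_coe, RingHom.coe_coe, shift_shift]
  obtain ⟨Q, hQ⟩ := exists_map_evJ_eq hinv
  have hQm : Q.Monic := Polynomial.monic_of_injective (f := (evJ (Gamma M)).toRingHom)
    (evJ_injective _) (by rw [hQ, hP]; exact Polynomial.monic_prod_X_sub_C _ _)
  have hser : ∀ R : ℂ[X], serHom M (evJ (Gamma M) R) =
      GalRep.expand M (NeZero.ne M) (Polynomial.aeval jq R) := fun R => by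
    refine qser_eq (NeZero.pos M) ?_
    have := ((hasQSeries_aeval_jFun R).refine_width one_pos M (NeZero.ne M))
    rw [one_mul] at this
    exact this.congr (.of_forall fun σ => (evJ_apply _ R σ).symm)
  have hcoeffP : ∀ n, serHom M (P.coeff n) ∈ LB := by
    intro n
    have hl : P.map (serHom M) ∈ Polynomial.lifts LB.subtype := by
      rw [hP, Polynomial.map_prod]
      refine prod_mem fun q _ => ?_
      rw [Polynomial.map_sub, Polynomial.map_X, Polynomial.map_C, sub_eq_add_neg, ← map_neg]
      exact add_mem (Polynomial.X_mem_lifts LB.subtype)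
        (Polynomial.C_mem_lifts LB.subtype (-(⟨_, fun m => hy q.out m⟩ : LB)))
    obtain ⟨a, ha⟩ := (Polynomial.lifts_iff_coeff_lifts _).mp hl n
    rw [← Polynomial.coeff_map, ← ha]
    exact a.2
  refine ⟨Q, hQm, fun k => hcoef _ _ (Nat.lt_succ_self _) fun m => ?_, ?_⟩
  · have h1 := hcoeffP k ((M : ℤ) * m)
    rw [← hQ, Polynomial.coeff_map, AlgHom.toRingHom_eq_coe, RingHom.coe_coe, hser,
      expand_coeff_mul] at h1
    exact h1
  · rw [hQ, hP, Polynomial.eval_prod]
    refine Finset.prod_eq_zero (Finset.mem_univ ((1 : SL(2, ℤ)) : SL(2, ℤ) ⧸ Gamma M)) ?_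
    rw [hout, Polynomial.eval_sub, Polynomial.eval_X, Polynomial.eval_C, sub_eq_zero]
    exact Subtype.ext (funext fun σ => by rw [shift_apply, one_smul])

/-- A function all whose series have coefficients in `B` takes values in `B` where `j` does. -/
theorem apply_mem_of_series_mem {M : ℕ} [NeZero M] (B : Subring ℂ)
    (hB : ∀ z : ℂ, IsIntegral B z → z ∈ B) (y : modFuns (Gamma M))
    (hy : ∀ (δ : SL(2, ℤ)) (m : ℤ), (serHom M (shift M δ y)).coeff m ∈ B) (τ : ℍ)
    (hj : jFun τ ∈ B) : (y : ℍ → ℂ) τ ∈ B := by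
  obtain ⟨Q, hQm, hQ, hQ0⟩ := exists_monic_over_j B hB y hy
  set QB : ℂ[X] := Q.map (Polynomial.evalRingHom (jFun τ)) with hQBdef
  have hQB : ∀ n, QB.coeff n ∈ B := fun n => by
    rw [hQBdef, Polynomial.coeff_map, Polynomial.coe_evalRingHom, Polynomial.eval_eq_sum_range]
    exact B.sum_mem fun e _ => B.mul_mem (hQ n e) (B.pow_mem hj e)
  let ev : modFuns (Gamma M) →+* ℂ :=
    ((Pi.evalAlgHom ℂ (fun _ : ℍ => ℂ) τ).comp (modFuns (Gamma M)).val).toRingHom
  have hroot : QB.eval ((y : ℍ → ℂ) τ) = 0 := by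
    have e : QB = (Q.map (evJ (Gamma M)).toRingHom).map ev := by
      rw [hQBdef, Polynomial.map_map]
      congr 1
      exact RingHom.ext fun R => (evJ_apply _ R τ).symm
    rw [e, Polynomial.eval_map, show (y : ℍ → ℂ) τ = ev y from rfl, Polynomial.eval₂_at_apply, hQ0,
      map_zero]
  obtain ⟨R, hR, -, hRm⟩ := Polynomial.lifts_and_degree_eq_and_monic
    (show QB ∈ Polynomial.lifts (algebraMap B ℂ) from (Polynomial.lifts_iff_coeff_lifts _).mpr
      fun n => ⟨⟨_, hQB n⟩, rfl⟩) (hQm.map _)
  refine hB _ ⟨R, hRm, ?_⟩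
  rw [← Polynomial.eval_map, hR, hroot]

end Fermat.Agent.Mazur3.AtEta
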