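import Fermat.Agent.Mazur3.AtEta.Point
import Fermat.Agent.Mazur3.AtEta.Roots

/-!
# Algebraic Taylor series

At the images of a rational point under the matrices of the transfer, Taylor series of modular
functions with algebraic expansions are integral over algebraic series, so their lowest coefficients
are algebraic.
-/

set_option autoImplicit false
set_option linter.unusedSectionVars false

noncomputable section

namespace Fermat.Agent.Mazur3.AtEta

open GalRep GalRep.Model
open UpperHalfPlane CongruenceSubgroup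
open Fermat.Agent.Period (jFun)
open scoped MatrixGroups Manifold PowerSeries

local notation "Q̄" => AlgebraicClosure ℚ

/-- The algebraic numbers inside `ℂ`. -/
def qC : Subfield ℂ := qbarToC.fieldRange

theorem qbarToC_mem_qC (y : Q̄) : qbarToC y ∈ qC := ⟨y, rfl⟩

theorem mem_qC_of_root {P : Polynomial Q̄} (hP : P ≠ 0) {z : ℂ}
    (hz : (P.map qbarToC).eval z = 0) : z ∈ qC := by
  have h0 : P.map qbarToC ≠ 0 := Polynomial.map_ne_zero hP
  have hroots := (IsAlgClosed.splits P).roots_map qbarToC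
  have hmem : z ∈ (P.map qbarToC).roots := (Polynomial.mem_roots h0).mpr hz
  rw [hroots] at hmem
  obtain ⟨y, -, rfl⟩ := Multiset.mem_map.mp hmem
  exact qbarToC_mem_qC y

theorem mem_qC_of_isIntegral (z : ℂ) (hz : IsIntegral qC.toSubring z) : z ∈ qC.toSubring := by
  obtain ⟨P, hP, hPz⟩ := hz
  obtain ⟨Q, hQ⟩ : ∃ Q : Polynomial Q̄, Q.map qbarToC = P.map qC.toSubring.subtype :=
    (Polynomial.mem_lifts _).mp ((Polynomial.lifts_iff_coeff_lifts _).mpr fun n => by
      rw [Polynomial.coeff_map]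
      exact (P.coeff n).2)
  refine mem_qC_of_root (fun h => (hP.map qC.toSubring.subtype).ne_zero ?_)
    (P := Q) ?_
  · rw [← hQ, h, Polynomial.map_zero]
  · rw [hQ, Polynomial.eval_map]
    exact hPz

/-- The lowest coefficient of a series integral over algebraic series is algebraic. -/
theorem lead_mem_of_isIntegral {f : ℂ⟦X⟧}
    (hf : (PowerSeries.map qbarToC).IsIntegralElem f) : lead f ∈ qC := by
  classical
  by_cases hf0 : f = 0
  · rw [hf0, show (lead (0 : ℂ⟦X⟧)) = 0 by simp [lead]]
    exact zero_mem _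
  obtain ⟨P, hPm, hP⟩ := hf
  set d := f.order.toNat with hd
  set g := f.divXPowOrder with hg
  have hfg : f = PowerSeries.X ^ d * g := (PowerSeries.X_pow_order_mul_divXPowOrder).symm
  set s := P.support with hs
  have hne : s.Nonempty := ⟨P.natDegree, Polynomial.natDegree_mem_support_of_nonzero hPm.ne_zero⟩
  let o : ℕ → ℕ := fun i => (P.coeff i).order.toNat + i * d
  obtain ⟨i0, hi0, hmin⟩ := Finset.exists_min_image s o hne
  set m := o i0 with hm
  -- the polynomial of the lowest terms
  set R : Polynomial Q̄ := ∑ i ∈ s,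
    if o i = m then Polynomial.monomial i (lead (P.coeff i)) else 0 with hR
  have hR0 : R ≠ 0 := fun h => by
    have h1 := congrArg (fun q : Polynomial Q̄ => q.coeff i0) h
    simp only [hR, Polynomial.finsetSum_coeff, Polynomial.coeff_zero] at h1
    rw [Finset.sum_eq_single i0 (fun i _ hii => by
        split_ifs <;> simp [Polynomial.coeff_monomial, hii])
      (fun h => absurd hi0 h), if_pos rfl, Polynomial.coeff_monomial, if_pos rfl] at h1
    exact lead_ne_zero (Polynomial.mem_support_iff.mp hi0) h1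
  refine mem_qC_of_root hR0 ?_
  have hsum := congrArg (PowerSeries.coeff m) hP
  rw [Polynomial.eval₂_eq_sum, Polynomial.sum_def, map_sum, map_zero] at hsum
  rw [← hsum, hR, Polynomial.map_sum, Polynomial.eval_finsetSum]
  refine Finset.sum_congr rfl fun i hi => ?_
  have hterm : PowerSeries.map qbarToC (P.coeff i) * f ^ i = PowerSeries.X ^ o i *
      (PowerSeries.map qbarToC (P.coeff i).divXPowOrder * g ^ i) := by
    conv_lhs => rw [hfg, ← PowerSeries.X_pow_order_mul_divXPowOrder (f := P.coeff i), map_mul,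
      map_pow, PowerSeries.map_X, mul_pow, ← pow_mul]
    rw [show o i = (P.coeff i).order.toNat + i * d from rfl, pow_add, mul_comm i d]
    ring
  rw [hterm, PowerSeries.coeff_X_pow_mul']
  by_cases h : o i = m
  · rw [if_pos h, if_pos h.le, h, Nat.sub_self, PowerSeries.coeff_zero_eq_constantCoeff_apply,
      map_mul, map_pow, Polynomial.map_monomial, Polynomial.eval_monomial]
    congr 1
  · rw [if_neg h, if_neg (fun hle => h (le_antisymm hle (hmin i hi))), Polynomial.map_zero,
      Polynomial.eval_zero]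

/-- Holomorphic functions on the upper half plane. -/
def mdRing : Subalgebra ℂ (ℍ → ℂ) where
  carrier := {F | MDifferentiable 𝓘(ℂ) 𝓘(ℂ) F}
  mul_mem' ha hb := MDifferentiable.mul ha hb
  add_mem' ha hb := MDifferentiable.add ha hb
  algebraMap_mem' _ := mdifferentiable_const

variable {p : ℕ} [NeZero p] (x : RatPoint p) {M : ℕ} [NeZero M]

/-- The Taylor map on holomorphic functions. -/
def tayHom : mdRing →ₐ[ℂ] ℂ⟦X⟧ where
  toFun F := x.tay (F : ℍ → ℂ)
  map_one' := x.tay_one
  map_zero' := by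
    show GalRep.taylorSeries (fun _ => (0 : ℂ)) = 0
    rw [GalRep.taylorSeries_const, map_zero]
  map_mul' F G := x.tay_mul F.2 G.2
  map_add' F G := GalRep.taylorSeries_add (x.analyticAt_comp F.2) (x.analyticAt_comp G.2)
  commutes' c := GalRep.taylorSeries_const c

theorem tay_jFun : x.tay jFun = PowerSeries.C (x.a : ℂ) + PowerSeries.X ^ eOf (x.a : ℂ) :=
  x.tayAlg_jMF

/-- The series of `j` along a map related by the modular equation is integral over algebraic
series. -/
theorem isIntegralElem_tay_jFun (η : ℕ) [Fact η.Prime] [NeZero η] (P : PMap)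
    (hP : ∀ τ : ℍ, biEval (jFun τ) (jFun (P.toFun τ)) (modPoly η) = 0) :
    (PowerSeries.map qbarToC).IsIntegralElem (x.tay (jFun ∘ P.toFun)) := by
  set J0 : mdRing := ⟨jFun, (jMF (Gamma η)).2.holo⟩
  set J1 : mdRing := ⟨jFun ∘ P.toFun, P.holo _ (jMF (Gamma η)).2.holo⟩
  have h0 : biEval J0 J1 (modPoly η) = 0 := Subtype.ext (funext fun τ => by
    have h := map_biEval ((Pi.evalAlgHom ℂ (fun _ : ℍ => ℂ) τ).comp mdRing.val) J0 J1 (modPoly η)
    exact h.trans (hP τ))
  have h1 := congrArg (tayHom x) h0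
  rw [map_biEval, map_zero] at h1
  change biEval (x.tay jFun) (x.tay (jFun ∘ P.toFun)) (modPoly η) = 0 at h1
  obtain ⟨PZ, hPZ⟩ := exists_modPolyInt η
  have hev : ((Polynomial.aeval (x.tay jFun)).toRingHom).comp
      (Polynomial.mapRingHom (Int.castRingHom ℂ)) =
      (PowerSeries.map qbarToC).comp (Polynomial.eval₂RingHom (Int.castRingHom Q̄⟦X⟧)
        (PowerSeries.C ((x.a : ℚ) : Q̄) + PowerSeries.X ^ eOf (x.a : ℂ))) := by
    refine Polynomial.ringHom_ext (fun n => by simp) ?_
    simp [tay_jFun x]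
  refine ⟨PZ.map (Polynomial.eval₂RingHom (Int.castRingHom Q̄⟦X⟧)
      (PowerSeries.C ((x.a : ℚ) : Q̄) + PowerSeries.X ^ eOf (x.a : ℂ))), ?_, ?_⟩
  · have hm : (modPoly η).Monic := orbitPoly_monic _
    rw [← hPZ] at hm
    exact (Polynomial.monic_of_injective
      (Polynomial.map_injective _ (Int.cast_injective (α := ℂ))) hm).map _
  · rw [Polynomial.eval₂_map, ← hev, ← Polynomial.eval₂_map, hPZ, ← Polynomial.eval_map,
      ← biEval_apply]
    exact h1

theorem isIntegralElem_tay_jFun_self :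
    (PowerSeries.map qbarToC).IsIntegralElem (x.tay jFun) := by
  rw [tay_jFun, show PowerSeries.C (x.a : ℂ) + PowerSeries.X ^ eOf (x.a : ℂ) =
    PowerSeries.map qbarToC (PowerSeries.C ((x.a : ℚ) : Q̄) + PowerSeries.X ^ eOf (x.a : ℂ)) by simp]
  exact RingHom.isIntegralElem_map _

/-- The Taylor series of a function with algebraic expansions is integral over algebraic series. -/
theorem isIntegralElem_tayP (P : PMap)
    (hP : (PowerSeries.map qbarToC).IsIntegralElem (x.tay (jFun ∘ P.toFun)))
    (y : modFuns (Gamma M))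
    (hy : ∀ (δ : SL(2, ℤ)) (m : ℤ), (serHom M (shift M δ y)).coeff m ∈ qC) :
    (PowerSeries.map qbarToC).IsIntegralElem (tayP x P y) := by
  let : Algebra Q̄⟦X⟧ ℂ⟦X⟧ := (PowerSeries.map qbarToC).toAlgebra
  obtain ⟨Q, hQm, hQ, hQ0⟩ := exists_monic_over_j qC.toSubring mem_qC_of_isIntegral y hy
  set I := integralClosure Q̄⟦X⟧ ℂ⟦X⟧
  have hJ : tayP x P (jMF (Gamma M)) = x.tay (jFun ∘ P.toFun) := rfl
  have hC : ∀ c ∈ qC, (PowerSeries.C c : ℂ⟦X⟧) ∈ I := by
    rintro _ ⟨y, rfl⟩
    rw [show PowerSeries.C (qbarToC y) = algebraMap Q̄⟦X⟧ ℂ⟦X⟧ (PowerSeries.C y) from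
      (PowerSeries.map_C _ y).symm]
    exact I.algebraMap_mem _
  have hcoef : ∀ k, ((Q.map (evJ (Gamma M)).toRingHom).map (tayP x P)).coeff k ∈ I := by
    intro k
    rw [Polynomial.coeff_map, Polynomial.coeff_map, AlgHom.toRingHom_eq_coe, RingHom.coe_coe,
      Polynomial.as_sum_range (Q.coeff k), map_sum, map_sum]
    refine sum_mem fun i _ => ?_
    rw [← Polynomial.C_mul_X_pow_eq_monomial, map_mul, map_pow, map_mul, map_pow,
      ← Polynomial.algebraMap_eq, AlgHom.commutes, tayP_algebraMap,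
      show evJ (Gamma M) Polynomial.X = jMF (Gamma M) by simp [evJ], hJ]
    exact mul_mem (hC _ (hQ k i)) (pow_mem hP _)
  have h0 : ((Q.map (evJ (Gamma M)).toRingHom).map (tayP x P)).eval (tayP x P y) = 0 := by
    rw [Polynomial.eval_map, Polynomial.eval₂_at_apply, hQ0, map_zero]
  obtain ⟨R, hR, -, hRm⟩ := Polynomial.lifts_and_natDegree_eq_and_monic
    ((Polynomial.lifts_iff_coeff_lifts _).mpr fun k =>
      (⟨⟨_, hcoef k⟩, rfl⟩ : _ ∈ Set.range I.val.toRingHom))
    ((hQm.map _).map _)
  exact isIntegral_trans (A := I) _ ⟨R, hRm, by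
    rw [← Polynomial.eval_map]
    exact (congrArg (Polynomial.eval (tayP x P y)) hR).trans h0⟩

/-- The lowest coefficient is algebraic. -/
theorem lead_tayP_mem (P : PMap)
    (hP : (PowerSeries.map qbarToC).IsIntegralElem (x.tay (jFun ∘ P.toFun)))
    (y : modFuns (Gamma M))
    (hy : ∀ (δ : SL(2, ℤ)) (m : ℤ), (serHom M (shift M δ y)).coeff m ∈ qC) :
    lead (tayP x P y) ∈ qC :=
  lead_mem_of_isIntegral (isIntegralElem_tayP x P hP y hy)

/-- The slope is algebraic. -/
theorem lead_tayP_sub_mem (P : PMap)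
    (hP : (PowerSeries.map qbarToC).IsIntegralElem (x.tay (jFun ∘ P.toFun)))
    (y : modFuns (Gamma M))
    (hy : ∀ (δ : SL(2, ℤ)) (m : ℤ), (serHom M (shift M δ y)).coeff m ∈ qC) {c : ℂ} (hc : c ∈ qC) :
    lead (tayP x P y - PowerSeries.C c) ∈ qC := by
  refine lead_mem_of_isIntegral ?_
  obtain ⟨c, rfl⟩ := hc
  rw [← PowerSeries.map_C]
  exact RingHom.IsIntegralElem.sub _ (isIntegralElem_tayP x P hP y hy)
    (RingHom.isIntegralElem_map _)

end Fermat.Agent.Mazur3.AtEta
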