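import Fermat.Agent.GalRep.Model.BaseField

/-!
# A base with the action of inertia

The complete base attached to a normal number field and a place carries the action of the inertia
group of the place: semilinear endomorphisms trivial on the residue field.
-/

set_option autoImplicit false

noncomputable section

namespace Fermat.Agent.Mazur3.AtEta

open IsLocalRing Fermat.Agent.Galois GalRep GalRep.Model

local notation "Q̄" => AlgebraicClosure ℚ

theorem apply_mem_bigField (ℓ : ℕ) (L : IntermediateField ℚ Q̄) [Normal ℚ L] (u : Q̄ ≃ₐ[ℚ] Q̄)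
    {x : Q̄} (hx : x ∈ bigField ℓ L) : u x ∈ bigField ℓ L := by
  have hcyc : ∀ y ∈ cycField ℓ, u y ∈ bigField ℓ L := by
    intro y hy
    induction hy using IntermediateField.adjoin_induction with
    | mem z hz =>
      obtain ⟨n, hn, hz⟩ := hz
      exact IntermediateField.algebraMap_mem (bigField ℓ L)
        (⟨u z, IntermediateField.subset_adjoin _ _ ⟨n, hn, by rw [← map_pow, hz, map_one]⟩⟩ :
          cycField ℓ)
    | algebraMap q =>
      rw [AlgEquiv.commutes]
      exact IntermediateField.algebraMap_mem (bigField ℓ L) (algebraMap ℚ (cycField ℓ) q)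
    | add a b _ _ ha hb => rw [map_add]; exact add_mem ha hb
    | inv a _ ha => rw [map_inv₀]; exact inv_mem ha
    | mul a b _ _ ha hb => rw [map_mul]; exact mul_mem ha hb
  induction hx using IntermediateField.adjoin_induction with
  | mem z hz =>
    refine IntermediateField.subset_adjoin _ _ ?_
    have h := AlgEquiv.restrictNormal_commutes u L ⟨z, hz⟩
    rw [show (u z : Q̄) = algebraMap L Q̄ (u.restrictNormal L ⟨z, hz⟩) from h.symm]
    exact (u.restrictNormal L ⟨z, hz⟩).2
  | algebraMap q => exact hcyc _ q.2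
  | add a b _ _ ha hb => rw [map_add]; exact add_mem ha hb
  | inv a _ ha => rw [map_inv₀]; exact inv_mem ha
  | mul a b _ _ ha hb => rw [map_mul]; exact mul_mem ha hb

theorem inertia_apply {A : ValuationSubring Q̄} {u : Q̄ ≃ₐ[ℚ] Q̄}
    (hu : u ∈ A.inertiaSubgroupIn ℚ) {x : Q̄} (hx : x ∈ A) :
    ∃ h : u x ∈ A, residue A ⟨u x, h⟩ = residue A ⟨x, hx⟩ := by
  obtain ⟨g, hg, rfl⟩ := hu
  have h1 : residue A (g • (⟨x, hx⟩ : A)) = residue A ⟨x, hx⟩ := by
    rw [ResidueField.residue_smul]
    exact congrArg (fun e => (e : RingAut (ResidueField A)) (residue A ⟨x, hx⟩))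
      (MonoidHom.mem_ker.mp hg)
  exact ⟨(g • (⟨x, hx⟩ : A)).2, h1⟩

set_option maxHeartbeats 2000000 in
set_option synthInstance.maxHeartbeats 400000 in
/-- A complete base at a place with the action of its inertia group. -/
theorem exists_base_inertia (ℓ : ℕ) (hℓ : ℓ.Prime) (A : ValuationSubring Q̄)
    (hA : A.LiesOverPrime ℓ) (L : IntermediateField ℚ Q̄) [FiniteDimensional ℚ L] [Normal ℚ L] :
    ∃ (O : Type) (_ : CommRing O) (_ : IsDomain O) (_ : IsDiscreteValuationRing O)
      (_ : IsAdicComplete (maximalIdeal O) O) (φ : O →+* ℂ), Function.Injective φ ∧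
      IsAlgClosed (ResidueField O) ∧ (ℓ : O) ∈ maximalIdeal O ∧
      (∀ x ∈ bigField ℓ L, x ∈ A →
        ∃ o, φ o = qbarToC x ∧ (x ∈ A.nonunits ↔ o ∈ maximalIdeal O)) ∧
      (∀ x ∈ bigField ℓ L, ∀ o, φ o = qbarToC x → x ∈ A) ∧
      ∀ u ∈ A.inertiaSubgroupIn ℚ, ∃ S : O →+* O, Function.Injective S ∧
        (∀ o, residue O (S o) = residue O o) ∧
        ∀ x ∈ bigField ℓ L, ∀ o, φ o = qbarToC x → φ (S o) = qbarToC (u x) := by
  classical
  obtain ⟨ϖ, hϖK, hϖ1, hϖmax, N, hN⟩ := exists_uniformizer A hℓ hA L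
  let K := bigField ℓ L
  let R : ValuationSubring K := A.comap (algebraMap K Q̄)
  have hunit : ∀ x : R, IsUnit x ↔ A.valuation ((x : K) : Q̄) = 1 := by
    intro x
    constructor
    · intro hx
      let x' : A := ⟨((x : K) : Q̄), x.2⟩
      have : IsUnit x' := hx.map (⟨⟨⟨fun y => (⟨((y : K) : Q̄), y.2⟩ : A), rfl⟩, fun _ _ => rfl⟩,
        rfl, fun _ _ => rfl⟩ : R →+* A)
      exact (A.valuation_eq_one_iff x').mp this
    · intro hx
      have hx0 : (x : K) ≠ 0 := fun h0 => by simp [h0] at hx
      have hinv : ((x : K)⁻¹ : K) ∈ R := by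
        show (algebraMap K Q̄ (x : K)⁻¹) ∈ A
        rw [← A.valuation_le_one_iff, map_inv₀, map_inv₀]
        exact le_of_eq (by rw [show algebraMap K Q̄ (x : K) = ((x : K) : Q̄) from rfl, hx, inv_one])
      exact isUnit_iff_exists_inv.mpr ⟨⟨_, hinv⟩, Subtype.ext (mul_inv_cancel₀ hx0)⟩
  let π : R := ⟨⟨ϖ, hϖK⟩, (A.valuation_le_one_iff _).mp hϖ1.le⟩
  have hle1 : ∀ x : R, A.valuation ((x : K) : Q̄) ≤ 1 := fun x =>
    (A.valuation_le_one_iff _).mpr x.2
  have hϖ0 : ϖ ≠ 0 := fun h0 => by
    rw [h0, map_zero] at hN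
    rcases Nat.eq_zero_or_pos N with hN0 | hN0
    · rw [hN0, pow_zero] at hN
      exact absurd (lt_of_le_of_lt hN (val_natCast_lt_one A hA)) (lt_irrefl _)
    · rw [zero_pow hN0.ne'] at hN
      have : (0 : A.ValueGroup) < A.valuation (ℓ : Q̄) :=
        zero_lt_iff.mpr (by simpa using hℓ.ne_zero)
      have hcontra := hϖmax (ℓ : Q̄) (natCast_mem _ ℓ) (val_natCast_lt_one A hA)
      rw [h0, map_zero] at hcontra
      exact absurd hcontra (not_le.mpr this)
  have hdvd : ∀ x : R, ¬ IsUnit x → π ∣ x := by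
    intro x hx
    have hlt : A.valuation ((x : K) : Q̄) < 1 :=
      lt_of_le_of_ne (hle1 x) fun h => hx ((hunit x).mpr h)
    have hle := hϖmax _ (x : K).2 hlt
    refine ⟨⟨(x : K) / (π : K), (A.valuation_le_one_iff _).mp ?_⟩,
      Subtype.ext (mul_div_cancel₀ _ (fun h => hϖ0 (congrArg Subtype.val h))).symm⟩
    rw [map_div₀, map_div₀]
    exact div_le_one_of_le₀ hle zero_le
  have hm : maximalIdeal R = Ideal.span {π} := by
    refine le_antisymm (fun x hx => Ideal.mem_span_singleton.mpr (hdvd x hx)) ?_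
    rw [Ideal.span_le, Set.singleton_subset_iff]
    exact fun h => hϖ1.ne ((hunit π).mp h)
  have hfac : ∀ x : R, x ≠ 0 → ∃ (k : ℕ) (u : Rˣ), π ^ k * u = x := by
    have key : ∀ (n : ℕ) (x : R), A.valuation ϖ ^ n ≤ A.valuation ((x : K) : Q̄) →
        ∃ (k : ℕ) (u : Rˣ), π ^ k * u = x := by
      intro n
      induction n with
      | zero =>
        intro x hx
        rw [pow_zero] at hx
        exact ⟨0, ((hunit x).mpr (le_antisymm (hle1 x) hx)).unit, by simp⟩
      | succ n ih =>
        intro x hx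
        by_cases hu : IsUnit x
        · exact ⟨0, hu.unit, by simp⟩
        obtain ⟨y, rfl⟩ := hdvd x hu
        have : A.valuation ϖ ^ n ≤ A.valuation ((y : K) : Q̄) := by
          have h2 : A.valuation (((π * y : R) : K) : Q̄) =
              A.valuation ϖ * A.valuation ((y : K) : Q̄) := map_mul _ _ _
          rw [h2, pow_succ'] at hx
          exact le_of_mul_le_mul_left hx (zero_lt_iff.mpr (by simpa using hϖ0))
        obtain ⟨k, u, hk⟩ := ih y this
        exact ⟨k + 1, u, by rw [pow_succ', mul_assoc, hk]⟩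
    intro x hx
    have hx0 : ((x : K) : Q̄) ≠ 0 := fun h => hx (Subtype.ext (Subtype.ext h))
    obtain ⟨m, hm0, hint⟩ := exists_multiple_integral_aux ((x : K) : Q̄)
    obtain ⟨k, hk⟩ := exists_pow_le_val A hℓ hA hint (mul_ne_zero (Int.cast_ne_zero.mpr hm0) hx0)
    refine key (N * k) x (le_trans ?_ (le_trans hk ?_))
    · rw [pow_mul]
      exact pow_le_pow_left₀ zero_le hN k
    · rw [map_mul]
      exact mul_le_of_le_one_left' ((A.valuation_le_one_iff _).mpr (intCast_mem A m))
  have hirr : Irreducible π := by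
    refine ⟨fun h => hϖ1.ne ((hunit π).mp h), fun a b hab => ?_⟩
    by_contra hne
    push Not at hne
    obtain ⟨a', rfl⟩ := hdvd a hne.1
    obtain ⟨b', rfl⟩ := hdvd b hne.2
    have hπ0 : π ≠ 0 := fun h => hϖ0 (congrArg (fun z : R => ((z : K) : Q̄)) h)
    have : IsUnit π := IsUnit.of_mul_eq_one (a' * b')
      (mul_left_cancel₀ hπ0 (by linear_combination -hab))
    exact hϖ1.ne ((hunit π).mp this)
  have : IsDiscreteValuationRing R :=
    IsDiscreteValuationRing.ofHasUnitMulPowIrreducibleFactorization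
      ⟨π, hirr, fun {x} hx => by
        obtain ⟨k, u, hu⟩ := hfac x hx
        exact ⟨k, u, hu⟩⟩
  let O := AdicCompletion (maximalIdeal R) R
  let ι : R →+* O := algebraMap R O
  have : IsLocalHom ι := inferInstanceAs (IsLocalHom (algebraMap R (AdicCompletion _ R)))
  have hιinj : Function.Injective ι := by
    rw [injective_iff_map_eq_zero]
    intro x hx
    refine IsHausdorff.haus (inferInstance : IsHausdorff (maximalIdeal R) R) x fun n => ?_
    have h := congrArg (fun z : O => z.val n) hx
    rw [SModEq.zero]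
    exact (Submodule.Quotient.mk_eq_zero _).mp h
  have hmO : maximalIdeal O = Ideal.span {ι π} := by
    have h1 : maximalIdeal O = (maximalIdeal R).map ι := AdicCompletion.maximalIdeal_eq_map
    have h2 : (maximalIdeal R).map ι = (Ideal.span {π}).map ι := congrArg (Ideal.map ι) hm
    rw [h1, h2, Ideal.map_span, Set.image_singleton]
  have hπn : ∀ n : ℕ, (ι π) ^ n ≠ 0 := fun n h => by
    rw [← map_pow] at h
    exact pow_ne_zero n hirr.ne_zero (hιinj (h.trans (map_zero ι).symm))
  obtain ⟨hdom, hdvr⟩ := isDiscreteValuationRing_of_complete hmO hπn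
  -- residue field
  let toA : R →+* A := ⟨⟨⟨fun y => (⟨((y : K) : Q̄), y.2⟩ : A), rfl⟩, fun _ _ => rfl⟩,
    rfl, fun _ _ => rfl⟩
  have : IsLocalHom toA := ⟨fun y hy => (hunit y).mpr ((A.valuation_eq_one_iff _).mp hy)⟩
  have hres : Function.Bijective (ResidueField.map toA) := by
    refine ⟨RingHom.injective _, fun r => ?_⟩
    rcases eq_or_ne r 0 with rfl | hr
    · exact ⟨0, map_zero _⟩
    obtain ⟨y, hy, rfl⟩ := exists_root_residue A hℓ hA r hr
    have hyK : (y : Q̄) ∈ K := by
      have : (y : Q̄) ∈ cycField ℓ := IntermediateField.subset_adjoin _ _ hy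
      exact IntermediateField.algebraMap_mem K (⟨_, this⟩ : cycField ℓ)
    exact ⟨residue R ⟨⟨(y : Q̄), hyK⟩, y.2⟩, ResidueField.map_residue _ _⟩
  have := residue_isAlgClosed A
  have hRclosed : IsAlgClosed (ResidueField R) :=
    IsAlgClosed.of_ringEquiv _ _ (RingEquiv.ofBijective _ hres).symm
  have hOclosed : IsAlgClosed (ResidueField O) :=
    IsAlgClosed.of_ringEquiv _ _ (RingEquiv.ofBijective _
      (AdicCompletion.residueField_map_bijective_of_fg
        (IsNoetherian.noetherian (maximalIdeal R))))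
  -- embedding
  let Ω := AlgebraicClosure (FractionRing O)
  have hcardQ : Countable Q̄ := Cardinal.mk_le_aleph0_iff.mp
    ((Algebra.IsAlgebraic.cardinalMk_le_max ℚ Q̄).trans (by simp))
  have : Countable R := Function.Injective.countable (f := fun y : R => ((y : K) : Q̄))
    (fun a b h => Subtype.ext (Subtype.ext h))
  obtain ⟨enc, henc⟩ := exists_injective_nat R
  have hcardO : Cardinal.mk O ≤ Cardinal.continuum := by
    let F : O → (ℕ → ℕ) := fun x n => enc (Quotient.out (x.val n))
    have hF : Function.Injective F := fun x y h => AdicCompletion.ext (fun n => by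
      have := henc (congrFun h n)
      rw [← Quotient.out_eq (x.val n), this, Quotient.out_eq])
    calc Cardinal.mk O ≤ Cardinal.mk (ℕ → ℕ) := Cardinal.mk_le_of_injective hF
      _ = Cardinal.continuum := by simp
  have hcardF : Cardinal.mk (FractionRing O) ≤ Cardinal.continuum :=
    calc Cardinal.mk (FractionRing O) ≤ Cardinal.mk (O × nonZeroDivisors O) :=
          Cardinal.mk_le_of_surjective (f := fun p : O × nonZeroDivisors O =>
            IsLocalization.mk' (FractionRing O) p.1 p.2)
            (fun z => by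
              obtain ⟨a, b, hz⟩ := IsLocalization.exists_mk'_eq (nonZeroDivisors O) z
              exact ⟨(a, b), hz⟩)
      _ ≤ Cardinal.continuum := by
          rw [Cardinal.mk_prod, Cardinal.lift_id, Cardinal.lift_id]
          exact (mul_le_mul' hcardO ((Cardinal.mk_subtype_le _).trans hcardO)).trans
            Cardinal.continuum_mul_self.le
  have hcardΩ : Cardinal.mk Ω ≤ Cardinal.continuum :=
    (Algebra.IsAlgebraic.cardinalMk_le_max (FractionRing O) Ω).trans
      (max_le hcardF Cardinal.aleph0_le_continuum)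
  let jR : R →+* FractionRing O := (algebraMap O (FractionRing O)).comp ι
  have hjR : Function.Injective jR := (IsFractionRing.injective O (FractionRing O)).comp hιinj
  let jK : K →+* Ω := (algebraMap (FractionRing O) Ω).comp
    (IsFractionRing.lift (A := R) (K := K) hjR)
  let : Algebra K Ω := jK.toAlgebra
  have : Algebra.IsAlgebraic K Q̄ := Algebra.IsAlgebraic.tower_top (K := ℚ) K
  let i : Q̄ →ₐ[K] Ω := IsAlgClosed.lift
  obtain ⟨ψ, hψ⟩ := exists_embedding_complex (i := i.toRingHom) hcardΩ
  let φ : O →+* ℂ := ψ.comp ((algebraMap (FractionRing O) Ω).comp (algebraMap O (FractionRing O)))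
  have hφR : ∀ y : R, φ (ι y) = qbarToC ((y : K) : Q̄) := fun y => by
    rw [← hψ]
    show ψ _ = ψ (i ((y : K) : Q̄))
    congr 1
    rw [show ((y : K) : Q̄) = algebraMap K Q̄ (y : K) from rfl, i.commutes]
    show _ = algebraMap (FractionRing O) Ω (IsFractionRing.lift hjR (algebraMap R K y))
    rw [IsFractionRing.lift_algebraMap]
    rfl
  have hφinj : Function.Injective φ := fun a b h => IsFractionRing.injective O (FractionRing O)
    ((algebraMap (FractionRing O) Ω).injective (ψ.injective h))
  have hlm : (ℓ : R) ∈ maximalIdeal R := fun h => by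
    have := (hunit _).mp h
    push_cast at this
    exact absurd this (val_natCast_lt_one A hA).ne
  have hback : ∀ (x : Q̄) (_ : x ∈ K) (o : O), φ o = qbarToC x → x ∈ A := by
    intro x hxK o ho
    by_contra hxA
    have hinv : x⁻¹ ∈ A := (A.mem_or_inv_mem x).resolve_left hxA
    set z : R := ⟨⟨x⁻¹, inv_mem hxK⟩, hinv⟩
    have hu : ι z * o = 1 := hφinj (by
      rw [map_mul, hφR, ho, map_one, ← map_mul, inv_mul_cancel₀ (fun h0 => hxA (by rw [h0]; exact zero_mem A)),
        map_one])
    have h1 := (hunit z).mp (isUnit_map_iff ι z |>.mp (IsUnit.of_mul_eq_one _ hu))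
    rw [show ((z : K) : Q̄) = x⁻¹ from rfl, map_inv₀, inv_eq_one] at h1
    exact hxA ((A.valuation_le_one_iff x).mp h1.le)
  refine ⟨O, inferInstance, hdom, hdvr, inferInstance, φ, hφinj, hOclosed, ?_,
    fun x hxK hxA => ⟨ι ⟨⟨x, hxK⟩, hxA⟩, hφR _, ?_⟩, hback, fun u hu => ?_⟩
  · rw [← map_natCast ι]
    exact map_nonunit ι _ hlm
  · rw [A.mem_nonunits_iff, IsLocalRing.mem_maximalIdeal, mem_nonunits_iff, isUnit_map_iff,
      hunit]
    exact ⟨fun h => h.ne, fun h => lt_of_le_of_ne ((A.valuation_le_one_iff _).mpr hxA) h⟩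
  · let uR : R →+* R :=
      { toFun := fun y => ⟨⟨u ((y : K) : Q̄), apply_mem_bigField ℓ L u (y : K).2⟩,
          (inertia_apply hu y.2).1⟩
        map_one' := Subtype.ext (Subtype.ext (map_one u))
        map_zero' := Subtype.ext (Subtype.ext (map_zero u))
        map_add' := fun a b => Subtype.ext (Subtype.ext (map_add u _ _))
        map_mul' := fun a b => Subtype.ext (Subtype.ext (map_mul u _ _)) }
    have hures : ∀ y : R, uR y - y ∈ maximalIdeal R := by
      intro y hy
      obtain ⟨h1, h2⟩ := inertia_apply hu (x := ((y : K) : Q̄)) y.2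
      rw [← sub_eq_zero, ← map_sub, residue_eq_zero_iff] at h2
      exact h2 (show IsUnit (toA (uR y - y)) from hy.map toA)
    have hum : ∀ y ∈ maximalIdeal R, uR y ∈ maximalIdeal R := fun y hy => by
      simpa using add_mem (hures y) hy
    have hle : ∀ n : ℕ, maximalIdeal R ^ n ≤ (maximalIdeal R ^ n).comap uR := fun n => by
      rw [← Ideal.map_le_iff_le_comap, Ideal.map_pow]
      exact Ideal.pow_right_mono (Ideal.map_le_iff_le_comap.mpr hum) n
    let f : ∀ n : ℕ, O →+* R ⧸ maximalIdeal R ^ n := fun n =>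
      (Ideal.quotientMap _ uR (hle n)).comp
        (AdicCompletion.evalₐ (maximalIdeal R) n : O →ₐ[R] _).toRingHom
    have hf : ∀ {a b : ℕ} (hab : a ≤ b),
        (Ideal.Quotient.factorPow (maximalIdeal R) hab).comp (f b) = f a := by
      intro a b hab
      refine RingHom.ext fun z => ?_
      obtain ⟨s, rfl⟩ := AdicCompletion.mk_surjective (maximalIdeal R) R z
      simp only [f, RingHom.comp_apply, AlgHom.toRingHom_eq_coe, RingHom.coe_coe]
      erw [AdicCompletion.evalₐ_mk, AdicCompletion.evalₐ_mk]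
      show (Ideal.Quotient.mk (maximalIdeal R ^ a)) (uR (s.val b)) =
        Ideal.Quotient.mk (maximalIdeal R ^ a) (uR (s.val a))
      rw [Ideal.Quotient.eq, ← map_sub]
      refine hle a ?_
      have h := SModEq.sub_mem.mp ((s.property hab).symm)
      rwa [smul_eq_mul, Ideal.mul_top] at h
    let S : O →+* O := AdicCompletion.liftRingHom (maximalIdeal R) f hf
    have hSι : ∀ y : R, S (ι y) = ι (uR y) := fun y => by
      refine AdicCompletion.ext_evalₐ fun n => ?_
      rw [AdicCompletion.evalₐ_liftRingHom]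
      show Ideal.quotientMap _ uR (hle n) (AdicCompletion.evalₐ (maximalIdeal R) n
        (algebraMap R (AdicCompletion (maximalIdeal R) R) y)) =
        AdicCompletion.evalₐ (maximalIdeal R) n
          (algebraMap R (AdicCompletion (maximalIdeal R) R) (uR y))
      rw [AlgHom.commutes, AlgHom.commutes]
      exact Ideal.quotientMap_mk
    have hdiff : ∀ o : O, S o - o ∈ maximalIdeal O := by
      intro o
      obtain ⟨r, hr⟩ := (AdicCompletion.residueField_map_bijective_of_fg
        (IsNoetherian.noetherian (maximalIdeal R))).2 (residue O o)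
      obtain ⟨y, rfl⟩ := residue_surjective r
      rw [ResidueField.map_residue] at hr
      rw [← sub_eq_zero, ← map_sub, residue_eq_zero_iff, hmO,
        Ideal.mem_span_singleton] at hr
      obtain ⟨q, hq⟩ := hr
      have hq' : o = ι y - ι π * q := by rw [← hq]; ring
      rw [hq', map_sub S, map_mul S, hSι, hSι]
      have h1 : ι (uR y) - ι y ∈ maximalIdeal O := by
        rw [← map_sub]; exact map_nonunit ι _ (hures y)
      have hπm : π ∈ maximalIdeal R := fun h => hϖ1.ne ((hunit π).mp h)
      have h2 : ι π * q - ι (uR π) * S q ∈ maximalIdeal O :=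
        sub_mem (Ideal.mul_mem_right _ _ (map_nonunit ι _ hπm))
          (Ideal.mul_mem_right _ _ (map_nonunit ι _ (hum π hπm)))
      convert add_mem h1 h2 using 1
      ring
    refine ⟨S, ?_, fun o => by rw [← sub_eq_zero, ← map_sub, residue_eq_zero_iff]; exact hdiff o,
      fun x hxK o ho => ?_⟩
    · rw [injective_iff_map_eq_zero]
      intro o ho
      by_contra ho0
      have hπO : Irreducible (ι π) := by
        rwa [IsDiscreteValuationRing.irreducible_iff_uniformizer]
      obtain ⟨k, w, rfl⟩ := IsDiscreteValuationRing.eq_unit_mul_pow_irreducible ho0 hπO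
      rw [map_mul, map_pow, hSι, mul_eq_zero] at ho
      rcases ho with ho | ho
      · exact (w.isUnit.map S).ne_zero ho
      · have h := eq_zero_of_pow_eq_zero ho
        have h' := hιinj (h.trans (map_zero ι).symm)
        have : u ϖ = 0 := congrArg (fun z : R => ((z : K) : Q̄)) h'
        exact hϖ0 ((map_eq_zero u).mp this)
    · have hxA := hback x hxK o ho
      have ho' : o = ι ⟨⟨x, hxK⟩, hxA⟩ := hφinj (by rw [ho, hφR])
      rw [ho', hSι, hφR]
      rfl

end Fermat.Agent.Mazur3.AtEta
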