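import Fermat.Agent.Mazur3.AtEta.Ratio
import Fermat.Agent.Mazur3.BoundedInertia
import Fermat.Agent.Mazur3.Class
import Fermat.Agent.Mazur3.Connected

/-!
# Reduction to an open subgroup of inertia, and algebraicity of the values

On bounded characters inertia is cyclotomic, so the defect of the congruence for the classes of a
point is a cocycle with `e(σ^D) = D c^(D-1) e(σ)`. Values of algebraic representatives at a rational
point are algebraic.
-/

set_option autoImplicit false
set_option linter.unusedSectionVars false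

noncomputable section

namespace Fermat.Agent.Mazur3.AtEta

open GalRep
open Fermat.Agent.Galois (GQ)
open UpperHalfPlane CongruenceSubgroup
open scoped MatrixGroups Manifold

local notation "Q̄" => AlgebraicClosure ℚ

/-- Boundedness passes to lower levels. -/
theorem isBoundedChar_cast {p m n : ℕ} [NeZero p] [NeZero m] [NeZero n]
    {A : ValuationSubring Q̄} (h : m ∣ n) {χ : ParHom p (ZMod n)} {χ' : ParHom p (ZMod m)}
    (hχ : IsBoundedChar p n A χ) (hc : IsCastHom h χ χ') : IsBoundedChar p m A χ' := by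
  obtain ⟨k, rfl⟩ := h
  obtain ⟨F, f, hF, hf, hmem⟩ := hχ
  exact ⟨F ^ k, f ^ k, Mazur3.isKummerRep_cast hF hc, hasQSeries_pow_seriesToC hf k,
    pow_mem hmem k⟩

/-- A number fixed by the automorphisms fixing algebraic numbers is algebraic. -/
theorem mem_qC_of_fixed {z : ℂ}
    (h : ∀ σ : ℂ ≃+* ℂ, (∀ y : Q̄, σ (qbarToC y) = qbarToC y) → σ z = z) : z ∈ qC := by
  classical
  by_cases hz : IsAlgebraic ℚ z
  · obtain ⟨y, rfl⟩ := exists_qbarToC_eq hz
    exact qbarToC_mem_qC y
  exfalso
  haveI : Algebra.IsAlgebraic ℚ (algebraicClosure ℚ ℂ) := algebraicClosure.isAlgebraic ℚ ℂ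
  have hz' : Transcendental (algebraicClosure ℚ ℂ) z := fun h' =>
    hz (IsAlgebraic.restrictScalars ℚ h')
  have hind : AlgebraicIndepOn (algebraicClosure ℚ ℂ) id ({z} : Set ℂ) :=
    algebraicIndependent_unique_type_iff.mpr hz'
  obtain ⟨s, hzs, hs⟩ := exists_isTranscendenceBasis_superset hind
  let i : s := ⟨z, hzs rfl⟩
  let f : MvPolynomial s (algebraicClosure ℚ ℂ) →ₐ[algebraicClosure ℚ ℂ]
      MvPolynomial s (algebraicClosure ℚ ℂ) :=
    MvPolynomial.aeval fun j => if j = i then -MvPolynomial.X j else MvPolynomial.X j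
  have hff : f.comp f = AlgHom.id (algebraicClosure ℚ ℂ) _ := by
    refine MvPolynomial.algHom_ext fun j => ?_
    rw [AlgHom.comp_apply, AlgHom.id_apply]
    simp only [f, MvPolynomial.aeval_X]
    by_cases hj : j = i
    · simp only [if_pos hj, map_neg, MvPolynomial.aeval_X, neg_neg]
    · simp only [if_neg hj, MvPolynomial.aeval_X]
  obtain ⟨σ, hσ⟩ :=
    Hecke.exists_complexAut_of_polyAut _ hs (AlgEquiv.ofAlgHom f f hff hff).toRingEquiv
  have hfix : ∀ y : Q̄, σ (qbarToC y) = qbarToC y := fun y => by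
    have hy : qbarToC y ∈ algebraicClosure ℚ ℂ := mem_algebraicClosure_iff'.mpr
      ((Algebra.IsIntegral.isIntegral y).map qbarToC.toRatAlgHom)
    have h1 := hσ (MvPolynomial.C ⟨_, hy⟩)
    rw [MvPolynomial.aeval_C] at h1
    refine h1.trans ?_
    show MvPolynomial.aeval _ (f (MvPolynomial.C _)) = _
    rw [show f (MvPolynomial.C _) = MvPolynomial.C (⟨qbarToC y, hy⟩ : algebraicClosure ℚ ℂ) from
      f.commutes _, MvPolynomial.aeval_C]
    rfl
  have h1 := hσ (MvPolynomial.X i)
  rw [MvPolynomial.aeval_X] at h1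
  have h2 : (AlgEquiv.ofAlgHom f f hff hff).toRingEquiv (MvPolynomial.X i) =
      -MvPolynomial.X i := by
    show f (MvPolynomial.X i) = _
    simp [f]
  rw [h2, map_neg, MvPolynomial.aeval_X] at h1
  change σ z = -z at h1
  rw [h σ hfix] at h1
  exact hz (by rw [show z = 0 from CharZero.eq_neg_self_iff.mp h1]; exact isAlgebraic_zero)

variable {p η : ℕ} [NeZero p]

/-- The value at the point of a representative with algebraic series is algebraic. -/
theorem val_rep_mem_qC {n : ℕ} [NeZero n] (x : RatPoint p) {χ : ParHom p (ZMod n)} {F : ℍ → ℂ}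
    (hF : IsKummerRep p n χ F) {f : LaurentSeries Q̄} (hf : HasQSeries 1 F (seriesToC f)) :
    x.val F ∈ qC := by
  obtain ⟨hG, hg⟩ := isModFun_pow_rep hF hf
  have hpow : x.val (F ^ n) ∈ qC := mem_qC_of_fixed fun σ hσ =>
    x.val_modFun σ hG hG hg (by
      rwa [show lmap σ.toRingHom (seriesToC (f ^ n)) = seriesToC (f ^ n) by
        rw [seriesToC_eq_lmap, lmap_lmap,
          show σ.toRingHom.comp qbarToC = qbarToC from RingHom.ext hσ]])
  rw [x.val_pow hF.holo] at hpow
  exact mem_qC_of_isIntegral _ ⟨Polynomial.X ^ n - Polynomial.C (⟨_, hpow⟩ : qC.toSubring),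
    Polynomial.monic_X_pow_sub_C _ (NeZero.ne n), by
      simp only [Polynomial.eval₂_sub, Polynomial.eval₂_pow, Polynomial.eval₂_X, Polynomial.eval₂_C]
      exact sub_self _⟩

variable [Fact η.Prime]

/-- The quotient of leading values of an algebraic representative is algebraic. -/
theorem heckeRatio_mem_qC {n : ℕ} [NeZero n] (hg : GoodIndex p η) (x : RatPoint p)
    {χ : ParHom p (ZMod n)} {F : ℍ → ℂ} (hF : IsKummerRep p n χ F) {f : LaurentSeries Q̄}
    (hf : HasQSeries 1 F (seriesToC f)) : heckeRatio x hg F ∈ qC := by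
  obtain ⟨w, hw, hws, -⟩ := exists_transfer_series hg hF hf
  exact div_mem (val_rep_mem_qC x hw hws) (pow_mem (val_rep_mem_qC x hF hf) _)

/-- Vanishing of the defect on an open subgroup of inertia gives a bounded multiple of zero. -/
theorem smul_eisenstein_eq_zero {K : ℕ} (hg : GoodIndex p η) (x : RatPoint p)
    {A : ValuationSubring Q̄} (hA : A.LiesOverPrime η) (L0 : IntermediateField ℚ Q̄)
    [FiniteDimensional ℚ L0] [Normal ℚ L0] {χK : ParHom p (ZMod (η ^ K))}
    (hχ : IsBoundedChar p (η ^ K) A χK)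
    (h : ∀ u ∈ A.inertiaSubgroupIn ℚ, (∀ z ∈ L0, u z = z) →
      x.kClass (liftAut u) (heckeHom hg χK) = (η + 1) • x.kClass (liftAut u) χK) :
    ∀ σ ∈ A.inertiaSubgroupIn ℚ, Module.finrank ℚ L0 •
      (x.kClass (liftAut σ) (heckeHom hg χK) - (η + 1) • x.kClass (liftAut σ) χK) = 0 := by
  intro σ hσ
  set e : GQ → ZMod (η ^ K) := fun s =>
    x.kClass (liftAut s) (heckeHom hg χK) - (η + 1) • x.kClass (liftAut s) χK with he
  have hgal : ∀ t ∈ A.inertiaSubgroupIn ℚ,
      (kummerGalois p (η ^ K)).galois t χK = (cycMod η K t).val • χK :=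
    fun t ht => boundedInertia p η hg.not_dvd K A hA t ht χK hχ
  have hgalT : ∀ t ∈ A.inertiaSubgroupIn ℚ, (kummerGalois p (η ^ K)).galois t (heckeHom hg χK) =
      (cycMod η K t).val • heckeHom hg χK := fun t ht => by
    rw [← map_nsmul, ← hgal t ht, (kummerGalois p (η ^ K)).galois_eq,
      (kummerGalois p (η ^ K)).galois_eq]
    exact autChar_transfer hg (liftAut t) χK
  have hmul : ∀ s, ∀ t ∈ A.inertiaSubgroupIn ℚ,
      e (s * t) = cycMod η K t * e s + cycMod η K s * e t := fun s t ht => by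
    simp only [he]
    rw [x.kClass_mul, x.kClass_mul, hgal t ht, hgalT t ht]
    simp only [← x.kClassHom_apply]
    simp only [map_nsmul, nsmul_eq_mul, ZMod.natCast_zmod_val]
    ring
  set c := cycMod η K σ with hc
  have hcu : IsUnit c := (cyc η σ).isUnit.map _
  have hcyc : ∀ k : ℕ, cycMod η K (σ ^ k) = c ^ k := fun k => by
    rw [hc, cycMod, cycMod, map_pow, Units.val_pow_eq_pow_val, map_pow]
  have hpow : ∀ k : ℕ, 0 < k → e (σ ^ k) = (k : ZMod (η ^ K)) * c ^ (k - 1) * e σ := by
    intro k hk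
    induction k, hk using Nat.le_induction with
    | base => simp
    | succ k hk ih =>
      rw [pow_succ, hmul _ σ hσ, ih, hcyc, Nat.add_sub_cancel]
      obtain ⟨j, rfl⟩ := Nat.exists_eq_add_of_le hk
      rw [Nat.add_sub_cancel_left, Nat.succ_eq_add_one, zero_add, add_comm 1 j, pow_succ]
      push_cast
      ring
  have : IsGalois ℚ L0 := ⟨⟩
  set D := Module.finrank ℚ L0 with hD
  have hD0 : 0 < D := Module.finrank_pos
  have hfix : ∀ z ∈ L0, (σ ^ D) z = z := fun z hz => by
    have hcard : Nat.card (L0 ≃ₐ[ℚ] L0) = D := IsGalois.card_aut_eq_finrank ℚ L0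
    have h1 : AlgEquiv.restrictNormalHom (F := ℚ) (K₁ := Q̄) L0 (σ ^ D) = 1 := by
      rw [map_pow, ← hcard]
      exact pow_card_eq_one'
    have h2 := AlgEquiv.restrictNormal_commutes (σ ^ D) L0 ⟨z, hz⟩
    rw [show (σ ^ D).restrictNormal L0 = 1 from h1] at h2
    exact h2.symm
  have h0 : e (σ ^ D) = 0 := sub_eq_zero.mpr (h _ (pow_mem hσ D) hfix)
  rw [hpow D hD0, mul_right_comm] at h0
  rw [nsmul_eq_mul]
  exact (hcu.pow _).mul_left_eq_zero.mp h0

end Fermat.Agent.Mazur3.AtEta
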