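import Fermat.Agent.Mazur3.AtEta.Alg
import Fermat.Agent.GalRep.KummerHecke

/-!
# Configurations of a point and its transfer on one disc

The point and its images under the matrices of the transfer, moved by `Γ₀(p)`, lie on one disc
with parameters fixed by semilinear maps fixing a number field.
-/

set_option autoImplicit false
set_option linter.unusedSectionVars false

noncomputable section

namespace Fermat.Agent.Mazur3.AtEta

open GalRep GalRep.Model IsLocalRing
open UpperHalfPlane CongruenceSubgroup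
open scoped MatrixGroups Manifold PowerSeries

local notation "Q̄" => AlgebraicClosure ℚ

/-- The point itself and the matrices of the transfer. -/
def pts {N η : ℕ} (hg : GoodIndex N η) : Option (Option (Fin η)) → PMap
  | none => PMap.refl
  | some i => PMap.ofMat (heckeRep η i) (det_heckeRep_pos hg i)

/-- A number of a base lying over a given algebraic number is fixed. -/
def FixesLifts {O : Type} [CommRing O] (φ : O →+* ℂ) (L₀ : IntermediateField ℚ Q̄) (S : O →+* O) :
    Prop :=
  ∀ z ∈ L₀, ∀ o, φ o = qbarToC z → S o = o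

/-- Integral elements of the field lift. -/
def HasLifts {O : Type} [CommRing O] [IsLocalRing O] (A : ValuationSubring Q̄) (φ : O →+* ℂ)
    (L₀ : IntermediateField ℚ Q̄) : Prop :=
  ∀ z ∈ L₀, z ∈ A → ∃ o, φ o = qbarToC z ∧ (z ∈ A.nonunits ↔ o ∈ maximalIdeal O)

variable {p η : ℕ} [NeZero p] (hg : GoodIndex p η) (x : RatPoint p)

/-- The data on one disc. -/
structure Config {M : ℕ} [NeZero M] {L : Lev M} {O : Type} [CommRing O] [IsDomain O]
    [IsDiscreteValuationRing O] [IsAdicComplete (maximalIdeal O) O] [IsAlgClosed (ResidueField O)]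
    (C : Cyc O M) (L₀ : IntermediateField ℚ Q̄) (M0 : ℕ) where
  D : Disc L C
  sheet : L.IsSheet C D.ι
  γ : Option (Option (Fin η)) → Gamma0 p
  pt : ∀ i, SheetPt x D ((pts hg i).smul (γ i : SL(2, ℤ)))
  small : ∀ i, (η : O) ∣ (pt i).a ^ M0
  slope_ne : ∀ i, (mkPt C (pt i).a (pt i).mem).evO (PowerSeries.derivative O D.t) ≠ 0
  slope : ∀ i, ∃ s ∈ L₀, qbarToC s = lead (tayP x ((pts hg i).smul (γ i : SL(2, ℤ))) (L.wMF C) -
    PowerSeries.C ((L.wMF C : ℍ → ℂ) (((pts hg i).smul (γ i : SL(2, ℤ))).toFun x.τ)))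
  fix_c : ∀ S : O →+* O, (∀ o, residue O (S o) = residue O o) → FixesLifts C.φ L₀ S →
    S C.ζ = C.ζ ∧ S D.c = D.c ∧ PowerSeries.map S D.t = D.t ∧ ∀ i, S (pt i).a = (pt i).a

end Fermat.Agent.Mazur3.AtEta
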