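import Fermat.Agent.Mazur3.AtEta.Roots
import Fermat.Agent.Mazur3.Connected
import Fermat.Agent.MCurve.Spec.GaloisRed
import Fermat.Agent.Galois.Places

/-!
# The congruence relation at a rational point

A modular function whose series at infinity is integral at a place over `η` is integral over
`A[j]`, and one whose series reduces to zero has values in the maximal ideal where `j` is integral
(independence of the reductions of the powers of `j(pτ)`). With the congruence relation on series
this gives that all the images of a rational point under the correspondence at `η` reduce to the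
point itself, also at auxiliary level.
-/

set_option autoImplicit false
set_option linter.style.haveILetI false

noncomputable section

namespace Fermat.Agent.Mazur3.AtEta

open UpperHalfPlane CongruenceSubgroup Polynomial IsLocalRing Fermat.Agent.GalRep
open Fermat.Agent.Period (jFun)
open scoped MatrixGroups Manifold

local notation "ℚb" => AlgebraicClosure ℚ

/-- A place inside the complex numbers. -/
def toComplex (A : ValuationSubring (AlgebraicClosure ℚ)) : A →+* ℂ := qbarToC.comp A.subtype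

variable {A : ValuationSubring (AlgebraicClosure ℚ)}

theorem toComplex_injective : Function.Injective (toComplex A) :=
  qbarToC.injective.comp Subtype.val_injective

theorem toComplex_apply (v : A) : toComplex A v = qbarToC (v : ℚb) := rfl

/-- A complex root of a monic equation over the place lies in the place. -/
theorem exists_val_of_root {R : Type*} [CommRing R] (ψ : R →+* A) {P : R[X]} (hP : P.Monic)
    {z : ℂ} (hz : P.eval₂ ((toComplex A).comp ψ) z = 0) :
    ∃ v : A, toComplex A v = z ∧ P.eval₂ ψ v = 0 := by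
  set Q : ℚb[X] := (P.map ψ).map A.subtype with hQdef
  have hQ : Q.Monic := (hP.map _).map _
  have hz' : (Q.map qbarToC).eval z = 0 := by
    rw [hQdef, Polynomial.map_map, Polynomial.map_map, Polynomial.eval_map]
    exact hz
  obtain ⟨y, rfl⟩ : ∃ y, qbarToC y = z := by
    have hsp := ((IsAlgClosed.splits Q).map qbarToC).eq_prod_roots_of_monic (hQ.map _)
    rw [Polynomial.Splits.roots_map (IsAlgClosed.splits Q) qbarToC] at hsp
    rw [hsp, Polynomial.eval_multiset_prod, Multiset.prod_eq_zero_iff, Multiset.map_map,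
      Multiset.map_map] at hz'
    obtain ⟨y, -, hy⟩ := Multiset.mem_map.mp hz'
    simp only [Function.comp_apply, Polynomial.eval_sub, Polynomial.eval_X, Polynomial.eval_C,
      sub_eq_zero] at hy
    exact ⟨y, hy.symm⟩
  have hyQ : (P.map ψ).eval₂ A.subtype y = 0 := by
    refine qbarToC.injective ?_
    rw [Polynomial.hom_eval₂, map_zero, Polynomial.eval₂_map]
    exact hz
  have hint : IsIntegral A y := ⟨P.map ψ, hP.map _, hyQ⟩
  obtain ⟨v, hv⟩ := IsIntegrallyClosed.isIntegral_iff.mp hint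
  refine ⟨v, congrArg qbarToC hv, toComplex_injective ?_⟩
  rw [Polynomial.hom_eval₂, map_zero, show toComplex A v = qbarToC y from congrArg qbarToC hv]
  exact hz

/-! ## Functions with integral series at infinity -/

section Integral

variable {N η : ℕ} [NeZero N] [Fact η.Prime] (hA : A.LiesOverPrime η) (hηN : ¬ η ∣ N)
include hA hηN

set_option maxHeartbeats 1000000 in
set_option synthInstance.maxHeartbeats 400000 in
/-- A function with integral series is integral over `A[j]`, with lower coefficients reducing to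
zero when the series does. -/
theorem exists_equation_of_integral (φ : modFuns (Gamma0 N)) {g : LaurentSeries ℚb}
    (hg : HasQSeries 1 (φ : ℍ → ℂ) (seriesToC g)) (hint : ∀ m, g.coeff m ∈ A) :
    ∃ p : Polynomial (Polynomial A), p.Monic ∧
      biEval (jMF (Gamma0 N)) φ (p.map (Polynomial.mapRingHom (toComplex A))) = 0 ∧
      (HasRed A g 0 →
        p.map (Polynomial.mapRingHom (residue A)) = Polynomial.X ^ p.natDegree) := by
  classical
  set J : LaurentSeries ℚb := ModularCurve.jqModC ℚb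
  obtain ⟨a, ha⟩ := mem_intSeriesA.mpr hint
  let z : ModularCurve.modularFunctionFieldBar N := ⟨g, MCurve.mem_bar_of_isModFun φ.2 hg⟩
  have hz : (z : LaurentSeries ℚb) ∈ MCurve.Spec.redRing A := by
    show g ∈ _
    rw [← ha]
    exact MCurve.Spec.sQ_mem A a
  -- series at the coordinate
  have hval : ∀ Q : Polynomial (Polynomial ℚb),
      ((Q.eval₂ (Polynomial.aeval (R := ℚb) (MCurve.jBar N ℚb)).toRingHom z :
        ModularCurve.modularFunctionFieldBar N) : LaurentSeries ℚb) = lEval J g Q := by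
    intro Q
    show (ModularCurve.modularFunctionFieldBar N).val.toRingHom _ = _
    rw [Polynomial.hom_eval₂, lEval, Polynomial.coe_eval₂RingHom]
    refine congrArg (fun f => Polynomial.eval₂ f g Q) (Polynomial.ringHom_ext (fun c => ?_) ?_)
    · simp only [RingHom.comp_apply, AlgHom.toRingHom_eq_coe, RingHom.coe_coe, Polynomial.aeval_C,
        IntermediateField.coe_val, Polynomial.coe_eval₂RingHom, Polynomial.eval₂_C]
      show algebraMap ℚb (LaurentSeries ℚb) c = _
      rw [ModularCurve.algebraMap_laurentSeries_eq_single, HahnSeries.C_apply]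
    · simp only [RingHom.comp_apply, AlgHom.toRingHom_eq_coe, RingHom.coe_coe, Polynomial.aeval_X,
        IntermediateField.coe_val, Polynomial.coe_eval₂RingHom, Polynomial.eval₂_X]
      exact MCurve.Spec.coe_jBar'
  have hC : ∀ Q : Polynomial (Polynomial ℚb), seriesToC (lEval J g Q) =
      biEval jq (seriesToC g) (Q.map (Polynomial.mapRingHom qbarToC)) := fun Q => by
    rw [seriesToC_eq_lmap, lmap_lEval, lEval_eq_biEval, ← seriesToC_eq_lmap, ← seriesToC_eq_lmap,
      MCurve.seriesToC_eq_coeffMap J, MCurve.coeffMap_jqModC, ← jq_eq_jqModC]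
  -- integrality over `ℚb[j]`
  obtain ⟨PA, hPA⟩ := exists_lift_of_fixed fun σ hσ =>
    gmap_orbitPoly_eq σ (φ := φ) hg (MCurve.lmap_fix_seriesToC hσ g)
  have hroot : (Polynomial.aeval (R := ℚb) (MCurve.jBar N ℚb)).toRingHom.IsIntegralElem z := by
    refine ⟨PA, Polynomial.monic_of_injective
      (f := Polynomial.mapRingHom qbarToC) (Polynomial.map_injective _ qbarToC.injective)
      (hPA ▸ orbitPoly_monic φ), Subtype.ext ((hval PA).trans (seriesToC_injective ?_))⟩
    rw [hC, hPA, show ((0 : ModularCurve.modularFunctionFieldBar N) : LaurentSeries ℚb) = 0 from rfl,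
      seriesToC_eq_lmap (f := (0 : LaurentSeries ℚb)), map_zero]
    have h := hasQSeries_biEval (F := φ) hg (orbitPoly φ)
    rw [biEval_orbitPoly_self] at h
    exact h.eq_zero one_pos
  obtain ⟨p, hp, hp0, hpred⟩ := MCurve.Spec.exists_chart_relation hA hηN
    (MCurve.Spec.chartVarJ A) hz hroot
  refine ⟨p, hp, ?_, fun hred => hpred ?_⟩
  · have h1 : lEval J g (p.map (Polynomial.mapRingHom A.subtype)) = 0 := by
      rw [← hval, Polynomial.eval₂_map]
      exact congrArg Subtype.val hp0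
    have h2 := hC (p.map (Polynomial.mapRingHom A.subtype))
    rw [h1, Polynomial.map_map, Polynomial.mapRingHom_comp, seriesToC_eq_lmap, map_zero] at h2
    refine Subtype.ext (eq_of_hasQSeries (biEval (jMF (Gamma0 N)) φ _).2.holo mdifferentiable_const
      ?_ (HasQSeries.zero 1))
    have h3 := hasQSeries_biEval (F := φ) hg
      (p.map (Polynomial.mapRingHom (qbarToC.comp A.subtype)))
    rwa [← h2] at h3
  · rw [show (⟨_, hz⟩ : MCurve.Spec.redRing A) = ⟨_, MCurve.Spec.sQ_mem A a⟩ from Subtype.ext ha.symm,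
      MCurve.Spec.redS_sQ]
    refine HahnSeries.ext (funext fun m => ?_)
    obtain ⟨h, he⟩ := hred m
    rw [HahnSeries.coeff_zero] at he ⊢
    exact (congrArg (residue A) (Subtype.ext
      (congrArg (fun f : LaurentSeries ℚb => f.coeff m) ha))).trans he

/-- Values where `j` is integral. -/
theorem exists_val_of_integral (φ : modFuns (Gamma0 N)) {g : LaurentSeries ℚb}
    (hg : HasQSeries 1 (φ : ℍ → ℂ) (seriesToC g)) (hint : ∀ m, g.coeff m ∈ A) {τ : ℍ} {a : A}
    (ha : jFun τ = toComplex A a) :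
    ∃ v : A, toComplex A v = (φ : ℍ → ℂ) τ ∧ (HasRed A g 0 → residue A v = 0) := by
  obtain ⟨p, hp, hp0, hpred⟩ := exists_equation_of_integral hA hηN φ hg hint
  have h1 := map_biEval ((Pi.evalAlgHom ℂ (fun _ : ℍ => ℂ) τ).comp (modFuns (Gamma0 N)).val)
    (jMF (Gamma0 N)) φ (p.map (Polynomial.mapRingHom (toComplex A)))
  rw [hp0, map_zero] at h1
  have hz : p.eval₂ ((toComplex A).comp (Polynomial.evalRingHom a)) ((φ : ℍ → ℂ) τ) = 0 := by
    refine Eq.trans ?_ h1.symm
    rw [biEval, Polynomial.coe_eval₂RingHom, Polynomial.eval₂_map]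
    refine congrArg (fun f => Polynomial.eval₂ f ((φ : ℍ → ℂ) τ) p)
      (Polynomial.ringHom_ext (fun c => by simp) ?_)
    simp only [RingHom.comp_apply, Polynomial.coe_evalRingHom, Polynomial.eval_X,
      Polynomial.coe_mapRingHom, Polynomial.map_X, AlgHom.toRingHom_eq_coe, RingHom.coe_coe,
      Polynomial.aeval_X]
    exact ha.symm
  obtain ⟨v, hv, hv0⟩ := exists_val_of_root (Polynomial.evalRingHom a) hp hz
  refine ⟨v, hv, fun hred => ?_⟩
  have h2 := congrArg (residue A) hv0
  rw [Polynomial.hom_eval₂, map_zero,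
    show (residue A).comp (Polynomial.evalRingHom a) = (Polynomial.evalRingHom (residue A a)).comp
      (Polynomial.mapRingHom (residue A)) from Polynomial.ringHom_ext (fun c => by simp) (by simp),
    ← Polynomial.eval₂_map, hpred hred, Polynomial.eval₂_X_pow] at h2
  exact eq_zero_of_pow_eq_zero h2

end Integral

/-! ## The congruence at the point -/

theorem hasRed_sub {f g : LaurentSeries ℚb} {F G : LaurentSeries (ResidueField A)}
    (hf : HasRed A f F) (hg : HasRed A g G) : HasRed A (f - g) (F - G) := by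
  obtain ⟨a, rfl, rfl⟩ := HasRed.iff_exists.mp hf
  obtain ⟨b, rfl, rfl⟩ := HasRed.iff_exists.mp hg
  exact HasRed.iff_exists.mpr ⟨a - b, map_sub _ _ _, map_sub _ _ _⟩

variable {p η : ℕ} [NeZero p] [Fact η.Prime]

/-- Conjugates of functions with algebraic series. -/
theorem exists_conj_modFun (φ : modFuns (Gamma0 p)) {g : LaurentSeries ℚb}
    (hg : HasQSeries 1 (φ : ℍ → ℂ) (seriesToC g)) (s : Galois.GQ) :
    ∃ φ' : modFuns (Gamma0 p), HasQSeries 1 (φ' : ℍ → ℂ) (seriesToC (seriesConj s g)) := by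
  rcases eq_or_ne (φ : ℍ → ℂ) 0 with h0 | h0
  · refine ⟨0, ?_⟩
    have hg0 : g = 0 := seriesToC_injective (((h0 ▸ hg : HasQSeries 1 (0 : ℍ → ℂ) _).eq_zero
      one_pos).trans (by rw [seriesToC_eq_lmap, map_zero]))
    rw [hg0, seriesConj_eq_lmap, map_zero, seriesToC_eq_lmap, map_zero]
    exact HasQSeries.zero 1
  have hF : IsKummerRep p 1 (0 : ParHom p (ZMod 1)) (φ : ℍ → ℂ) :=
    ⟨φ.2.holo, h0, fun γ τ => by rw [φ.2.invariant _ γ.2]; simp, φ.2.cusps⟩
  obtain ⟨F', hF', hf'⟩ := (kummerGalois p 1).galois_spec s 0 _ g hF hg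
  rw [map_zero] at hF'
  exact ⟨⟨F', hF'.isModFun⟩, hf'⟩

/-- The series of the transfer. -/
theorem exists_transfer_modFun (hg : GoodIndex p η) (φ : modFuns (Gamma0 p))
    {g : LaurentSeries ℚb} (hφ : HasQSeries 1 (φ : ℍ → ℂ) (seriesToC g)) :
    ∃ (ψ : modFuns (Gamma0 p)) (w : LaurentSeries ℚb), (ψ : ℍ → ℂ) = heckeProd hg (φ : ℍ → ℂ) ∧
      HasQSeries 1 (ψ : ℍ → ℂ) (seriesToC w) ∧
      expand η (NeZero.ne η) w = heckeSeriesA η g := by
  rcases eq_or_ne (φ : ℍ → ℂ) 0 with h0 | h0
  · have hg0 : g = 0 := seriesToC_injective (((h0 ▸ hφ : HasQSeries 1 (0 : ℍ → ℂ) _).eq_zero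
      one_pos).trans (by rw [seriesToC_eq_lmap, map_zero]))
    refine ⟨0, 0, funext fun τ => ?_, ?_, ?_⟩
    · rw [heckeProd, h0, Finset.prod_apply]
      exact (Finset.prod_eq_zero (Finset.mem_univ none) rfl).symm
    · rw [seriesToC_eq_lmap, map_zero]; exact HasQSeries.zero 1
    · simp [heckeSeriesA, hg0]
  have hF : IsKummerRep p 1 (0 : ParHom p (ZMod 1)) (φ : ℍ → ℂ) :=
    ⟨φ.2.holo, h0, fun γ τ => by rw [φ.2.invariant _ γ.2]; simp, φ.2.cusps⟩
  obtain ⟨w, hw, hwf, hwe⟩ := exists_transfer_series hg hF hφ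
  rw [map_zero] at hw
  exact ⟨⟨_, hw.isModFun⟩, w, rfl, hwf, hwe⟩

variable (hA : A.LiesOverPrime η)
include hA

set_option maxHeartbeats 1000000 in
/-- The congruence relation at a rational point. -/
theorem prod_residue_eq (hg : GoodIndex p η) (x : RatPoint p) {a : A}
    (ha : jFun x.τ = toComplex A a) (φ : modFuns (Gamma0 p)) {g : LaurentSeries ℚb}
    (hφ : HasQSeries 1 (φ : ℍ → ℂ) (seriesToC g)) (hint : ∀ m, g.coeff m ∈ A)
    {v : A} (hv : toComplex A v = (φ : ℍ → ℂ) x.τ) (w : Option (Fin η) → A)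
    (hw : ∀ i, toComplex A (w i) =
      (φ : ℍ → ℂ) (posMat (heckeRep η i) (det_heckeRep_pos hg i) • x.τ)) :
    ∏ i, residue A (w i) = residue A v ^ (η + 1) := by
  have hη : η.Prime := Fact.out
  haveI := charP_residue hη hA
  obtain ⟨s, hs, hfrob⟩ := Galois.exists_isFrobeniusAt hη hA
  set Fr := frobenius (ResidueField A) η with hFr
  have hpres : ∀ (y : A), s (y : ℚb) ∈ A := fun y =>
    ((⟨s, hs⟩ : A.decompositionSubgroup ℚ) • y).2
  have hpres' : ∀ (y : A), s⁻¹ (y : ℚb) ∈ A := fun y =>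
    ((⟨s, hs⟩ : A.decompositionSubgroup ℚ)⁻¹ • y).2
  have hres : ∀ y : A, residue A ⟨s (y : ℚb), hpres y⟩ = residue A y ^ η := fun y => by
    rw [← hfrob (residue A y), ← ResidueField.residue_smul]
    rfl
  -- the conjugates
  obtain ⟨φ0, hφ0⟩ := exists_conj_modFun φ hφ s⁻¹
  set g0 := seriesConj s⁻¹ g
  have hsg : seriesConj s g0 = g := HahnSeries.ext (funext fun m => s.apply_symm_apply _)
  obtain ⟨φ2, hφ2⟩ := exists_conj_modFun φ hφ s
  obtain ⟨ψ, wT, hψ, hwT, hwe⟩ := exists_transfer_modFun hg φ hφ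
  have hint0 : ∀ m, g0.coeff m ∈ A := fun m => hpres' ⟨_, hint m⟩
  obtain ⟨Φ, hΦ⟩ := exists_hasRed (mem_intSeriesA.mpr hint0)
  have hconj : ∀ {f : LaurentSeries ℚb} {Ψ : LaurentSeries (ResidueField A)},
      HasRed A f Ψ → HasRed A (seriesConj s f) (lmap Fr Ψ) := fun h =>
    h.conj hs (ρ := Fr) fun y => by rw [hfrob, hFr, frobenius_def]
  have h1 : HasRed A g (lmap Fr Φ) := hsg ▸ hconj hΦ
  have h2 : HasRed A (seriesConj s g) (lmap Fr (lmap Fr Φ)) := hconj h1
  have hU : HasRed A wT (lmap Fr (lmap Fr Φ) * Φ ^ η) := by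
    refine HasRed.of_expand η (NeZero.ne η) ?_
    rw [hwe]
    have h := h1.heckeSeriesA η
    rw [pow_char_eq_expand (lmap Fr Φ)] at h
    rwa [mul_comm (lmap Fr (lmap Fr Φ)), map_mul, pow_char_eq_expand Φ]
  have hG : HasRed A (wT - seriesConj s g * g0 ^ η) 0 := by
    have := hasRed_sub hU (h2.mul (hΦ.pow η))
    rwa [sub_self] at this
  -- the values
  obtain ⟨v0, hv0, -⟩ := exists_val_of_integral hA hg.not_dvd φ0 hφ0 hint0 ha
  obtain ⟨v2, hv2, -⟩ := exists_val_of_integral hA hg.not_dvd φ2 hφ2 h2.integral ha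
  obtain ⟨vG, hvG, hvG0⟩ := exists_val_of_integral hA hg.not_dvd (ψ - φ2 * φ0 ^ η)
    (g := wT - seriesConj s g * g0 ^ η) (by
      rw [seriesToC_eq_lmap, map_sub, map_mul, map_pow, ← seriesToC_eq_lmap, ← seriesToC_eq_lmap,
        ← seriesToC_eq_lmap]
      exact hwT.sub (hφ2.mul (hφ0.pow η))) hG.integral ha
  -- automorphisms act on values
  have hact : ∀ (F F' : modFuns (Gamma0 p)) (f : LaurentSeries ℚb) (u : A),
      HasQSeries 1 (F : ℍ → ℂ) (seriesToC f) →
      HasQSeries 1 (F' : ℍ → ℂ) (seriesToC (seriesConj s f)) →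
      toComplex A u = (F : ℍ → ℂ) x.τ →
      toComplex A ⟨s (u : ℚb), hpres u⟩ = (F' : ℍ → ℂ) x.τ := by
    intro F F' f u hF hF' hu
    have h := x.map_tay_modFun (liftAut s) F.2 F'.2 hF
      (by rw [lmap_seriesToC (liftAut_spec s)]; exact hF')
    have hc : ∀ G : ℍ → ℂ, PowerSeries.constantCoeff (x.tay G) = G x.τ := fun G => by
      rw [← PowerSeries.coeff_zero_eq_constantCoeff_apply]
      simp [RatPoint.tay, taylorSeries, x.coord_zero]
    have h0 := congrArg PowerSeries.constantCoeff h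
    rw [← PowerSeries.coeff_zero_eq_constantCoeff_apply, PowerSeries.coeff_map,
      PowerSeries.coeff_zero_eq_constantCoeff_apply, hc, hc, ← hu] at h0
    rw [← h0, toComplex_apply, toComplex_apply]
    exact (liftAut_spec s _).symm
  have e0 : v = ⟨s (v0 : ℚb), hpres v0⟩ :=
    toComplex_injective (hv.trans (hact φ0 φ g0 v0 hφ0 (hsg.symm ▸ hφ) hv0).symm)
  have e2 : v2 = ⟨s (v : ℚb), hpres v⟩ :=
    toComplex_injective (hv2.trans (hact φ φ2 g v hφ hφ2 hv).symm)
  have eG : vG = ∏ i, w i - v2 * v0 ^ η := by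
    refine toComplex_injective ?_
    rw [hvG, map_sub, map_prod, map_mul, map_pow, hv2, hv0,
      show ∏ i, toComplex A (w i) = heckeProd hg (φ : ℍ → ℂ) x.τ by
        rw [heckeProd, Finset.prod_apply]; exact Finset.prod_congr rfl fun i _ => hw i,
      ← hψ]
    simp
  have h3 := hvG0 hG
  rw [eG, map_sub, map_prod, map_mul, map_pow, sub_eq_zero, e2, hres v] at h3
  rw [h3, pow_succ]
  congr 1
  rw [e0, hres v0]

omit hA in
/-- The points related to the point at `η` have integral `j`. -/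
theorem exists_jFun_heckePoint (hg : GoodIndex p η) (x : RatPoint p) {a : A}
    (ha : jFun x.τ = toComplex A a) (i : Option (Fin η)) :
    ∃ b : A, jFun (posMat (heckeRep η i) (det_heckeRep_pos hg i) • x.τ) = toComplex A b := by
  have hroot : biEval (jFun x.τ) (jFun (posMat (heckeRep η i) (det_heckeRep_pos hg i) • x.τ))
      (modPoly η) = 0 := by
    refine (biEval_jFun_isog η ?_).1
    rcases i with _ | b
    · exact Or.inr (by rw [coe_posMat_smul]; simp [heckeRep])
    · refine Or.inl ⟨b, ?_⟩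
      rw [coe_posMat_smul]
      have : (η : ℂ) ≠ 0 := Nat.cast_ne_zero.mpr (NeZero.ne η)
      simp [heckeRep]
      field_simp
  obtain ⟨P, hP⟩ := exists_modPolyInt η
  have hPm : P.Monic := Polynomial.monic_of_injective
    (f := Polynomial.mapRingHom (Int.castRingHom ℂ))
    (Polynomial.map_injective _ Int.cast_injective) (hP ▸ orbitPoly_monic _)
  obtain ⟨b, hb, -⟩ := exists_val_of_root (Polynomial.eval₂RingHom (Int.castRingHom A) a) hPm
    (z := jFun (posMat (heckeRep η i) (det_heckeRep_pos hg i) • x.τ)) (by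
      rw [← hP, biEval, Polynomial.coe_eval₂RingHom, Polynomial.eval₂_map] at hroot
      refine Eq.trans ?_ hroot
      refine congrArg (fun f => Polynomial.eval₂ f
        (jFun (posMat (heckeRep η i) (det_heckeRep_pos hg i) • x.τ)) P)
        (Polynomial.ringHom_ext (fun c => by simp) ?_)
      simp [ha])
  exact ⟨b, hb.symm⟩

omit hA in
/-- Series with coefficients in a subring. -/
def coeffSubring (B : Subring ℂ) : Subring (LaurentSeries ℂ) where
  carrier := {f | ∀ m, f.coeff m ∈ B}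
  mul_mem' {f g} hf hg m := by
    rw [HahnSeries.coeff_mul]
    exact B.sum_mem fun x _ => B.mul_mem (hf _) (hg _)
  one_mem' m := by
    rw [HahnSeries.coeff_one]
    split_ifs
    exacts [B.one_mem, B.zero_mem]
  add_mem' {f g} hf hg m := by rw [HahnSeries.coeff_add]; exact B.add_mem (hf _) (hg _)
  zero_mem' m := by simp
  neg_mem' {f} hf m := by rw [HahnSeries.coeff_neg]; exact B.neg_mem (hf _)

set_option maxHeartbeats 1000000 in
/-- At auxiliary level every image under the correspondence has the residue of the point, up to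
translation by `Γ₀(p)`. -/
theorem exists_residue_match_aux (hg : GoodIndex p η) (x : RatPoint p) {M : ℕ} [NeZero M]
    (hle : Gamma M ≤ Gamma0 p) {a : A} (ha : jFun x.τ = toComplex A a) {k : ℕ}
    (ξ : Fin k → modFuns (Gamma M))
    (hξ : ∀ l (δ : SL(2, ℤ)) (m : ℤ),
      (serHom M (shift M δ (ξ l))).coeff m ∈ (toComplex A).range)
    (i : Option (Fin η)) :
    ∃ γ : SL(2, ℤ), γ ∈ Gamma0 p ∧ ∀ l, ∃ v v' : A,
      toComplex A v = (ξ l : ℍ → ℂ) (γ • posMat (heckeRep η i) (det_heckeRep_pos hg i) • x.τ) ∧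
      toComplex A v' = (ξ l : ℍ → ℂ) x.τ ∧ residue A v = residue A v' := by
  classical
  set B := (toComplex A).range with hBdef
  have hB : ∀ z : ℂ, IsIntegral B z → z ∈ B := by
    rintro z ⟨P, hP, hPz⟩
    obtain ⟨Q, hQ, -, hQm⟩ := Polynomial.lifts_and_degree_eq_and_monic
      ((Polynomial.mem_lifts P).mpr (Polynomial.map_surjective (toComplex A).rangeRestrict
        (toComplex A).rangeRestrict_surjective P)) hP
    obtain ⟨v, hv, -⟩ := exists_val_of_root (RingHom.id A) hQm (z := z) (by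
      rw [← hQ, Polynomial.eval₂_map] at hPz
      exact hPz)
    exact ⟨v, hv⟩
  set P := fun i => posMat (heckeRep η i) (det_heckeRep_pos hg i) • x.τ with hPdef
  choose b hb using exists_jFun_heckePoint hg x ha
  have hval : ∀ (l : Fin k) (γ : SL(2, ℤ)) (i : Option (Fin η)),
      ∃ v : A, toComplex A v = (ξ l : ℍ → ℂ) (γ • P i) := fun l γ i => by
    obtain ⟨v, hv⟩ := apply_mem_of_series_mem B hB (ξ l) (hξ l) (γ • P i)
      (by rw [Period.jFun_smul]; exact ⟨b i, (hb i).symm⟩)
    exact ⟨v, hv⟩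
  have hval0 : ∀ l : Fin k, ∃ v : A, toComplex A v = (ξ l : ℍ → ℂ) x.τ := fun l => by
    obtain ⟨v, hv⟩ := apply_mem_of_series_mem B hB (ξ l) (hξ l) x.τ ⟨a, ha.symm⟩
    exact ⟨v, hv⟩
  choose V hV using hval
  choose V0 hV0 using hval0
  -- representatives
  have : (Gamma M).Normal := Gamma_normal M
  have : Fintype (SL(2, ℤ) ⧸ Gamma M) := Fintype.ofFinite _
  let D : Finset (SL(2, ℤ) ⧸ Gamma M) := Finset.univ.filter fun q => q.out ∈ Gamma0 p
  have hmk : ∀ h : SL(2, ℤ), h ∈ Gamma0 p ↔ (h : SL(2, ℤ) ⧸ Gamma M) ∈ D := fun h => by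
    obtain ⟨⟨e, he⟩, heq⟩ := QuotientGroup.mk_out_eq_mul (Gamma M) h
    simp only [D, Finset.mem_filter, Finset.mem_univ, true_and, heq]
    exact ((Gamma0 p).mul_mem_cancel_right (hle he)).symm
  have hout : ∀ (g : SL(2, ℤ)) (y : modFuns (Gamma M)),
      shift M (Quotient.out (g : SL(2, ℤ) ⧸ Gamma M)) y = shift M g y := fun g y => by
    obtain ⟨⟨h, hh⟩, hgo⟩ := QuotientGroup.mk_out_eq_mul (Gamma M) g
    refine Subtype.ext (funext fun σ => ?_)
    rw [hgo, shift_apply, shift_apply, mul_smul]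
    have hc : g * h * g⁻¹ ∈ Gamma M := (Gamma_normal M).conj_mem h hh g
    have h1 := y.2.invariant _ hc (g • σ)
    simp only [← mul_smul, inv_mul_cancel_right] at h1
    rw [mul_smul] at h1
    exact h1
  -- for each combination some representative works
  have key : ∀ t : A, ∃ q ∈ D, ∑ l : Fin k, (residue A (V l q.out i) - residue A (V0 l)) *
      residue A t ^ (l : ℕ) = 0 := by
    intro t
    let cst : A →+* modFuns (Gamma M) := (algebraMap ℂ (modFuns (Gamma M))).comp (toComplex A)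
    let ξt : modFuns (Gamma M) := ∑ l : Fin k, cst t ^ (l : ℕ) * ξ l
    let c : A := ∑ l : Fin k, t ^ (l : ℕ) * V0 l
    let Ψ : modFuns (Gamma M) := ∏ q ∈ D, (cst c - shift M q.out ξt)
    have hev : ∀ (q : SL(2, ℤ) ⧸ Gamma M) (σ : ℍ), ((cst c - shift M q.out ξt : modFuns (Gamma M)) :
        ℍ → ℂ) σ = toComplex A c -
          ∑ l : Fin k, toComplex A t ^ (l : ℕ) * (ξ l : ℍ → ℂ) (q.out • σ) := fun q σ => by
      simp [cst, ξt, AddSubgroupClass.coe_sub]
    have hinv : ∀ γ ∈ Gamma0 p, shift M γ Ψ = Ψ := fun γ hγ => by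
      rw [map_prod]
      refine Finset.prod_equiv (Equiv.mulRight (γ : SL(2, ℤ) ⧸ Gamma M)) (fun q => ?_) fun q _ => ?_
      · obtain ⟨h, rfl⟩ := QuotientGroup.mk_surjective q
        rw [← hmk, Equiv.coe_mulRight]
        beta_reduce
        rw [← QuotientGroup.mk_mul, ← hmk]
        exact ((Gamma0 p).mul_mem_cancel_right hγ).symm
      · obtain ⟨h, rfl⟩ := QuotientGroup.mk_surjective q
        rw [Equiv.coe_mulRight]
        beta_reduce
        rw [← QuotientGroup.mk_mul, map_sub, hout, hout, shift_shift]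
        simp [cst]
    let φ : modFuns (Gamma0 p) := ⟨(Ψ : ℍ → ℂ), Ψ.2.holo,
      fun γ hγ σ => congrFun (congrArg Subtype.val (hinv γ hγ)) σ, Ψ.2.cusps⟩
    obtain ⟨f, hf⟩ := exists_hasQSeries_of_periodic (N := 1) Ψ.2.holo (fun σ => by
      have hT : ModularGroup.T ^ (1 : ℤ) ∈ Gamma0 p := by simp [Gamma0_mem, ModularGroup.coe_T]
      have h := φ.2.invariant _ hT σ
      rw [modular_T_zpow_smul] at h
      simpa [φ] using h) (NeZero.pos M) (hasQSeries_serHom Ψ)
    have hcst : ∀ r : A, serHom M (cst r) ∈ coeffSubring B := fun r m => by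
      rw [show serHom M (cst r) = HahnSeries.C (toComplex A r) from serHom_algebraMap _]
      rw [HahnSeries.C_apply, HahnSeries.coeff_single]
      split_ifs
      exacts [⟨r, rfl⟩, B.zero_mem]
    have hserB : serHom M Ψ ∈ coeffSubring B := by
      rw [map_prod]
      refine prod_mem fun q _ => ?_
      rw [map_sub]
      refine sub_mem (hcst c) ?_
      rw [map_sum, map_sum]
      refine sum_mem fun l _ => ?_
      rw [map_mul, map_mul, map_pow, map_pow]
      refine mul_mem (pow_mem ?_ _) fun m => hξ l q.out m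
      rw [show shift M q.out (cst t) = cst t from AlgHom.commutes _ _]
      exact hcst t
    have hfB : ∀ m, f.coeff m ∈ B := fun m => by
      have h := hf.refine_width one_pos M (NeZero.ne M)
      rw [one_mul] at h
      rw [← expand_coeff_mul M (NeZero.ne M) f m, h.unique (NeZero.pos M) (hasQSeries_serHom Ψ)]
      exact hserB _
    obtain ⟨g, rfl⟩ := exists_seriesToC_eq (f := f) fun m => by
      obtain ⟨v, hv⟩ := hfB m
      exact hv ▸ (Algebra.IsAlgebraic.isAlgebraic (v : ℚb)).algHom qbarToC.toRatAlgHom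
    have hgA : ∀ m, g.coeff m ∈ A := fun m => by
      obtain ⟨v, hv⟩ := hfB m
      have : (v : ℚb) = g.coeff m := qbarToC.injective hv
      exact this ▸ v.2
    -- values
    let u : A := ∏ q ∈ D, (c - ∑ l : Fin k, t ^ (l : ℕ) * V l q.out i)
    have hu : toComplex A u = (φ : ℍ → ℂ) (P i) := by
      show _ = (Ψ : ℍ → ℂ) (P i)
      simp only [u, Ψ, map_prod, SubmonoidClass.coe_finsetProd, Finset.prod_apply]
      exact Finset.prod_congr rfl fun q _ => by simp [hev, hV]
    have hzero : (φ : ℍ → ℂ) x.τ = 0 := by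
      show (Ψ : ℍ → ℂ) x.τ = 0
      simp only [Ψ, SubmonoidClass.coe_finsetProd, Finset.prod_apply]
      refine Finset.prod_eq_zero ((hmk 1).mp (one_mem _)) ?_
      rw [hev]
      have h1 : ∀ l : Fin k, (ξ l : ℍ → ℂ) (Quotient.out ((1 : SL(2, ℤ)) : SL(2, ℤ) ⧸ Gamma M) • x.τ)
          = (ξ l : ℍ → ℂ) x.τ := fun l => by
        have := congrFun (congrArg Subtype.val (hout 1 (ξ l))) x.τ
        rwa [shift_apply, shift_apply, one_smul] at this
      rw [sub_eq_zero]
      simp only [c, map_sum, map_mul, map_pow, hV0]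
      exact Finset.sum_congr rfl fun l _ => by rw [h1]
    let E : modFuns (Gamma0 p) := algebraMap ℂ _ (toComplex A u) - φ
    have hE : HasQSeries 1 (E : ℍ → ℂ) (seriesToC (HahnSeries.C (u : ℚb) - g)) := by
      rw [seriesToC_eq_lmap, map_sub, lmap_C, ← seriesToC_eq_lmap]
      exact (HasQSeries.const 1 (toComplex A u)).sub hf
    have hEA : ∀ m, (HahnSeries.C (u : ℚb) - g).coeff m ∈ A := fun m => by
      rw [HahnSeries.coeff_sub, HahnSeries.C_apply, HahnSeries.coeff_single]
      split_ifs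
      exacts [sub_mem u.2 (hgA m), sub_mem A.zero_mem (hgA m)]
    have hEj : ∀ j, ∃ v : A, toComplex A v = (E : ℍ → ℂ) (P j) := fun j => by
      obtain ⟨v, hv, -⟩ := exists_val_of_integral hA hg.not_dvd E hE hEA (hb j)
      exact ⟨v, hv⟩
    choose W hW using hEj
    have h := prod_residue_eq hA hg x ha E hE hEA (v := u) (by simp [E, hzero]) W hW
    have hWi : W i = 0 := toComplex_injective (by
      rw [hW, map_zero, AddSubgroupClass.coe_sub, Pi.sub_apply, ← hu]
      exact sub_self _)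
    rw [Finset.prod_eq_zero (Finset.mem_univ i) (by rw [hWi, map_zero])] at h
    have hu0 : residue A u = 0 := eq_zero_of_pow_eq_zero h.symm
    rw [map_prod, Finset.prod_eq_zero_iff] at hu0
    obtain ⟨q, hq, h0⟩ := hu0
    refine ⟨q, hq, ?_⟩
    rw [map_sub, map_sum, map_sum, ← Finset.sum_sub_distrib] at h0
    rw [← neg_eq_zero, ← Finset.sum_neg_distrib]
    refine Eq.trans (Finset.sum_congr rfl fun l _ => ?_) h0
    rw [map_mul, map_mul, map_pow]
    ring
  -- pigeonhole
  haveI := Model.residue_isAlgClosed A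
  let R : SL(2, ℤ) ⧸ Gamma M → (ResidueField A)[X] := fun q =>
    ∑ l : Fin k, Polynomial.C (residue A (V l q.out i) - residue A (V0 l)) * Polynomial.X ^ (l : ℕ)
  obtain ⟨q, hq, hR⟩ : ∃ q ∈ D, R q = 0 := by
    by_contra hno
    push Not at hno
    have hne : ∏ q ∈ D, R q ≠ 0 := Finset.prod_ne_zero_iff.mpr hno
    obtain ⟨r, hr⟩ := Infinite.exists_notMem_finset (∏ q ∈ D, R q).roots.toFinset
    obtain ⟨t, rfl⟩ := residue_surjective r
    obtain ⟨q, hq, h0⟩ := key t
    refine hr (Multiset.mem_toFinset.mpr ((Polynomial.mem_roots hne).mpr ?_))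
    rw [Polynomial.IsRoot, Polynomial.eval_prod]
    exact Finset.prod_eq_zero hq (by simpa [R, Polynomial.eval_finsetSum] using h0)
  refine ⟨q.out, (Finset.mem_filter.mp hq).2, fun l => ⟨V l q.out i, V0 l, hV l q.out i, hV0 l, ?_⟩⟩
  have h := congrArg (fun Q : (ResidueField A)[X] => Q.coeff (l : ℕ)) hR
  simp only [R, Polynomial.finsetSum_coeff, Polynomial.coeff_C_mul_X_pow, Fin.val_inj,
    Finset.sum_ite_eq, Finset.mem_univ, if_true, Polynomial.coeff_zero] at h
  exact sub_eq_zero.mp h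

omit hA in
/-- The images of a rational point at `η` reduce to the point, up to translation by `Γ₀(p)`. -/
theorem exists_residue_match {p η : ℕ} [NeZero p] [Fact η.Prime] (hg : GoodIndex p η)
    (x : RatPoint p) {A : ValuationSubring (AlgebraicClosure ℚ)} (hA : A.LiesOverPrime η)
    {M : ℕ} [NeZero M] (hle : Gamma M ≤ Gamma0 p) (_hηM : ¬ η ∣ M)
    (ha : (x.a : AlgebraicClosure ℚ) ∈ A) {k : ℕ} (ξ : Fin k → modFuns (Gamma M))
    (hξ : ∀ l (δ : SL(2, ℤ)) (m : ℤ), ∃ v : AlgebraicClosure ℚ, v ∈ A ∧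
      qbarToC v = (serHom M (shift M δ (ξ l))).coeff m) (i : Option (Fin η)) :
    ∃ γ : SL(2, ℤ), γ ∈ Gamma0 p ∧ ∀ l, ∃ v v' : AlgebraicClosure ℚ, v ∈ A ∧ v' ∈ A ∧
      qbarToC v = (ξ l : ℍ → ℂ) (γ • posMat (heckeRep η i) (det_heckeRep_pos hg i) • x.τ) ∧
      qbarToC v' = (ξ l : ℍ → ℂ) x.τ ∧ v - v' ∈ A.nonunits := by
  have haj : jFun x.τ = toComplex A ⟨_, ha⟩ := by
    rw [x.hj, toComplex_apply, map_ratCast]
  have hξ' : ∀ l (δ : SL(2, ℤ)) (m : ℤ),
      (serHom M (shift M δ (ξ l))).coeff m ∈ (toComplex A).range := fun l δ m => by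
    obtain ⟨v, hv, he⟩ := hξ l δ m
    exact ⟨⟨v, hv⟩, he⟩
  obtain ⟨γ, hγ, h⟩ := exists_residue_match_aux hA hg x hle haj ξ hξ' i
  refine ⟨γ, hγ, fun l => ?_⟩
  obtain ⟨v, v', hv, hv', hr⟩ := h l
  refine ⟨v, v', v.2, v'.2, hv, hv', ?_⟩
  rw [← sub_eq_zero, ← map_sub, residue_eq_zero_iff] at hr
  exact ValuationSubring.coe_mem_nonunits_iff.mpr hr

end Fermat.Agent.Mazur3.AtEta
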