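import Fermat.Agent.Mazur3.AtEta.Point

/-!
# Conjugate values and cross ratios

Values that are quotients of numbers of the base are conjugated by a semilinear map. The cross
ratio of a family indexed by the point and its transfer is multiplicative.
-/

set_option autoImplicit false

noncomputable section

namespace Fermat.Agent.Mazur3.AtEta

open IsLocalRing

/-! ## Conjugation -/

section Conj

variable {O : Type*} [CommRing O] [IsDomain O] (φ : O →+* ℂ) (S : O →+* O)

/-- Two complex numbers are quotients of conjugate elements of the base. -/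
def ConjVal (v v' : ℂ) : Prop := ∃ o o2 : O, o2 ≠ 0 ∧ v * φ o2 = φ o ∧ v' * φ (S o2) = φ (S o)

namespace ConjVal

variable {φ S} {v v' w w' : ℂ}

theorem of (o : O) : ConjVal φ S (φ o) (φ (S o)) := ⟨o, 1, one_ne_zero, by simp, by simp⟩

theorem fixed {o : O} (h : S o = o) : ConjVal φ S (φ o) (φ o) := by
  simpa only [h] using of (φ := φ) (S := S) o

theorem one : ConjVal φ S 1 1 := by simpa using of (φ := φ) (S := S) 1

theorem mul (h : ConjVal φ S v v') (h' : ConjVal φ S w w') : ConjVal φ S (v * w) (v' * w') := by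
  obtain ⟨a, b, hb, h1, h2⟩ := h
  obtain ⟨c, d, hd, h3, h4⟩ := h'
  refine ⟨a * c, b * d, mul_ne_zero hb hd, ?_, ?_⟩
  · rw [map_mul, map_mul, ← h1, ← h3]; ring
  · rw [map_mul S, map_mul S, map_mul φ, map_mul φ, ← h2, ← h4]; ring

theorem pow (h : ConjVal φ S v v') : ∀ k : ℕ, ConjVal φ S (v ^ k) (v' ^ k)
  | 0 => by simpa using one (φ := φ) (S := S)
  | k + 1 => by simpa only [pow_succ] using (pow h k).mul h

theorem prod {ι : Type*} (s : Finset ι) {f f' : ι → ℂ} (h : ∀ i ∈ s, ConjVal φ S (f i) (f' i)) :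
    ConjVal φ S (∏ i ∈ s, f i) (∏ i ∈ s, f' i) := by
  induction s using Finset.cons_induction with
  | empty => simpa using one (φ := φ) (S := S)
  | cons a s ha ih =>
    rw [Finset.prod_cons, Finset.prod_cons]
    exact (h a (Finset.mem_cons_self a s)).mul (ih fun i hi => h i (Finset.mem_cons.mpr (Or.inr hi)))

theorem inv (hφ : Function.Injective φ) (hS : Function.Injective S) (h : ConjVal φ S v v') :
    ConjVal φ S v⁻¹ v'⁻¹ := by
  obtain ⟨a, b, hb, h1, h2⟩ := h
  have hb1 : φ b ≠ 0 := (map_ne_zero_iff φ hφ).mpr hb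
  have hb2 : φ (S b) ≠ 0 := (map_ne_zero_iff φ hφ).mpr ((map_ne_zero_iff S hS).mpr hb)
  by_cases ha : a = 0
  · subst ha
    rw [map_zero, mul_eq_zero, or_iff_left hb1] at h1
    rw [map_zero, map_zero, mul_eq_zero, or_iff_left hb2] at h2
    subst h1 h2
    exact ⟨0, 1, one_ne_zero, by simp, by simp⟩
  · refine ⟨b, a, ha, ?_, ?_⟩
    · rw [← h1, inv_mul_cancel_left₀]
      intro h0
      rw [h0, zero_mul, eq_comm, map_eq_zero_iff φ hφ] at h1
      exact ha h1
    · rw [← h2, inv_mul_cancel_left₀]
      intro h0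
      rw [h0, zero_mul, eq_comm, map_eq_zero_iff φ hφ, map_eq_zero_iff S hS] at h2
      exact ha h2

theorem div (hφ : Function.Injective φ) (hS : Function.Injective S) (h : ConjVal φ S v v')
    (h' : ConjVal φ S w w') : ConjVal φ S (v / w) (v' / w') := by
  simpa only [div_eq_mul_inv] using h.mul (h'.inv hφ hS)

omit [IsDomain O] in
theorem eq (hφ : Function.Injective φ) (hS : Function.Injective S) (h : ConjVal φ S v v')
    (h' : ConjVal φ S v w') : v' = w' := by
  obtain ⟨a, b, hb, h1, h2⟩ := h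
  obtain ⟨c, d, hd, h3, h4⟩ := h'
  have hb2 : φ (S b) ≠ 0 := (map_ne_zero_iff φ hφ).mpr ((map_ne_zero_iff S hS).mpr hb)
  have hd2 : φ (S d) ≠ 0 := (map_ne_zero_iff φ hφ).mpr ((map_ne_zero_iff S hS).mpr hd)
  have h5 : a * d = c * b := hφ (by rw [map_mul, map_mul, ← h1, ← h3]; ring)
  have h6 := congrArg (fun z => φ (S z)) h5
  simp only [map_mul, ← h2, ← h4] at h6
  exact mul_right_cancel₀ (mul_ne_zero hb2 hd2) (by linear_combination h6)

end ConjVal

end Conj

/-! ## Cross ratios -/

section Cross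

variable {ι : Type*} [Fintype ι] {R : Type*} [CommMonoidWithZero R]

/-- The product over the transfer divided by a power of the value at the point. -/
def crossRatio (k : ℕ) (v : Option ι → R) : R := (∏ i, v (some i)) * Ring.inverse (v none ^ k)

theorem crossRatio_mul (k : ℕ) (v w : Option ι → R) :
    crossRatio k (fun i => v i * w i) = crossRatio k v * crossRatio k w := by
  rw [crossRatio, crossRatio, crossRatio, Finset.prod_mul_distrib, mul_pow,
    Ring.mul_inverse_rev]
  ac_rfl

theorem crossRatio_one (k : ℕ) : crossRatio k (fun _ : Option ι => (1 : R)) = 1 := by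
  simp [crossRatio]

theorem crossRatio_pow (k : ℕ) (v : Option ι → R) :
    ∀ j : ℕ, crossRatio k (fun i => v i ^ j) = crossRatio k v ^ j
  | 0 => by simp only [pow_zero, crossRatio_one]
  | j + 1 => by simp only [pow_succ, crossRatio_mul, crossRatio_pow k v j]

theorem crossRatio_ne_zero {F : Type*} [Field F] {k : ℕ} {v : Option ι → F} (h : ∀ i, v i ≠ 0) :
    crossRatio k v ≠ 0 := by
  rw [crossRatio, Ring.inverse_eq_inv']
  exact mul_ne_zero (Finset.prod_ne_zero_iff.mpr fun i _ => h _) (inv_ne_zero (pow_ne_zero _ (h _)))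

theorem map_crossRatio {A B : Type*} [CommRing A] [CommRing B] (f : A →+* B) (k : ℕ)
    {v : Option ι → A} (h : IsUnit (v none)) :
    f (crossRatio k v) = crossRatio k fun i => f (v i) := by
  simp only [crossRatio, map_mul, map_prod]
  congr 1
  obtain ⟨u, hu⟩ := h.pow k
  rw [← hu, Ring.inverse_unit, ← map_pow, ← hu]
  exact (Ring.inverse_unit (Units.map (f : A →* B) u)).symm

theorem isUnit_crossRatio {A : Type*} [CommRing A] {k : ℕ} {v : Option ι → A}
    (h : ∀ i, IsUnit (v i)) : IsUnit (crossRatio k v) := by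
  obtain ⟨u, hu⟩ := (h none).pow k
  rw [crossRatio, ← hu, Ring.inverse_unit]
  exact (IsUnit.prod_iff.mpr fun i _ => h _).mul u⁻¹.isUnit

theorem crossRatio_sub_one_mem {A : Type*} [CommRing A] {I : Ideal A} {k : ℕ} {v : Option ι → A}
    {c : A} (hcard : Fintype.card ι = k) (hu : IsUnit (v none)) (h : ∀ i, v i - c ∈ I) :
    crossRatio k v - 1 ∈ I := by
  have hq : ∀ i, Ideal.Quotient.mk I (v i) = Ideal.Quotient.mk I c := fun i =>
    Ideal.Quotient.eq.mpr (h i)
  rw [← Ideal.Quotient.eq, map_one, map_crossRatio _ k hu, crossRatio]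
  simp only [hq, Finset.prod_const, Finset.card_univ, hcard]
  exact Ring.mul_inverse_cancel _ ((hq none ▸ hu.map _).pow k)

theorem ConjVal.crossRatio {O : Type*} [CommRing O] [IsDomain O] {φ : O →+* ℂ} {S : O →+* O}
    (hφ : Function.Injective φ) (hS : Function.Injective S) {k : ℕ} {v v' : Option ι → ℂ}
    (h : ∀ i, ConjVal φ S (v i) (v' i)) :
    ConjVal φ S (crossRatio k v) (crossRatio k v') := by
  simp only [AtEta.crossRatio, Ring.inverse_eq_inv']
  exact (ConjVal.prod _ fun i _ => h _).mul (((h none).pow k).inv hφ hS)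

end Cross

end Fermat.Agent.Mazur3.AtEta
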