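import Fermat.Agent.Mazur3.AtEta.Values
import Fermat.Agent.Mazur3.EvalModFun

/-!
# Points on the discs at the cusps

A point whose coordinate reduces to a finite cusp value lies on a cusp disc with a parameter fixed
by semilinear maps fixing a root, and can be brought to the disc at one of the two cusps of `Γ₀(p)`.
On such a disc a function with a simple expansion has valuation given by that of the parameter.
-/

set_option autoImplicit false
set_option linter.unusedSectionVars false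

noncomputable section

namespace Fermat.Agent.Mazur3.AtEta

open GalRep GalRep.Model IsLocalRing
open UpperHalfPlane CongruenceSubgroup
open Fermat.Agent.Period (jFun)
open scoped MatrixGroups Manifold PowerSeries

variable {p : ℕ} [NeZero p] {x : RatPoint p} {M : ℕ} [NeZero M] {L : Lev M} {O : Type} [CommRing O]
  [IsDomain O] [IsDiscreteValuationRing O] [IsAdicComplete (maximalIdeal O) O]
  [IsAlgClosed (ResidueField O)] {C : Cyc O M}

local notation "al" => algebraMap (PowerSeries O) (SeriesField O)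

/-! ## Evaluation -/

theorem evO_coe (z : MPoint O) (r : Polynomial O) : z.evO (r : O⟦X⟧) = r.eval z.a := by
  have h : z.evO.comp Polynomial.coeToPowerSeries.ringHom = Polynomial.evalRingHom z.a :=
    Polynomial.ringHom_ext (fun c => by simp) (by simp)
  simpa using RingHom.congr_fun h r

theorem dvd_evO_sub (z z' : MPoint O) (g : O⟦X⟧) : z'.a - z.a ∣ z'.evO g - z.evO g := by
  obtain ⟨r, q, rfl⟩ := z.exists_decomp g 0
  simp only [map_add, map_mul, map_sub, MPoint.evO_X, MPoint.evO_C, evO_coe, sub_self, zero_add,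
    pow_one, zero_mul, add_zero]
  rw [add_sub_right_comm]
  exact dvd_add (Polynomial.sub_dvd_eval_sub z'.a z.a r) (dvd_mul_right _ _)

theorem residue_evO (z : MPoint O) (g : O⟦X⟧) :
    residue O (z.evO g) = residue O (PowerSeries.constantCoeff g) := by
  obtain ⟨h, hh⟩ := PowerSeries.X_dvd_iff.mpr
    (show PowerSeries.constantCoeff (g - PowerSeries.C (PowerSeries.constantCoeff g)) = 0 by simp)
  have h1 := congrArg z.evO hh
  rw [map_sub, map_mul, MPoint.evO_C, MPoint.evO_X] at h1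
  rw [← sub_eq_zero, ← map_sub, h1, residue_eq_zero_iff]
  exact Ideal.mul_mem_right _ _ z.mem

theorem phi_z_zpow (C : Cyc O M) (a : ℤ) : C.φ ((C.z ^ a : Oˣ) : O) = zetaC M ^ a := by
  have := congrArg Units.val (map_zpow (Units.map (C.φ : O →* ℂ)) C.z a)
  rw [Units.coe_map, Units.val_zpow_eq_zpow_val, Units.coe_map] at this
  refine this.trans ?_
  congr 1
  exact C.map_ζ

theorem map_z_zpow (S : O →+* O) (hζ : S C.ζ = C.ζ) (a : ℤ) :
    S ((C.z ^ a : Oˣ) : O) = ((C.z ^ a : Oˣ) : O) := by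
  have h1 : Units.map (S : O →* O) C.z = C.z := Units.ext (by simp [Cyc.z, hζ])
  have := congrArg Units.val (map_zpow (Units.map (S : O →* O)) C.z a)
  rwa [h1, Units.coe_map] at this

/-- A root of a fixed equation congruent to a fixed root is fixed. -/
theorem fixed_of_pow_mul (φ : O →+* ℂ) (hφ : Function.Injective φ) {e : ℕ} (he : IsUnit (e : O))
    {U : O⟦X⟧} (hU : IsUnit U) {a r0 : O} (ha : a ∈ maximalIdeal O)
    (hpow : a ^ e * (⟨φ, hφ, a, ha⟩ : MPoint O).evO U = r0 ^ e) (hr0 : r0 ≠ 0) {S : O →+* O}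
    (hres : ∀ o, residue O (S o) = residue O o) (hr : S r0 = r0)
    (hSU : PowerSeries.map S U = U) : S a = a := by
  have he0 : e ≠ 0 := fun h => not_isUnit_zero (M₀ := O) (by simp [h] at he)
  set z : MPoint O := ⟨φ, hφ, a, ha⟩ with hz
  have ha0 : a ≠ 0 := fun h => by
    rw [h, zero_pow he0, zero_mul] at hpow
    exact pow_ne_zero e hr0 hpow.symm
  obtain ⟨u, hu⟩ := (IsIntegrallyClosed.pow_dvd_pow_iff (R := O) he0).mp ⟨_, hpow.symm⟩
  have hue : u ^ e = z.evO U := by
    rw [hu, mul_pow] at hpow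
    exact (mul_left_cancel₀ (pow_ne_zero e ha0) hpow).symm
  have hb : S a ∈ maximalIdeal O := by
    rw [← residue_eq_zero_iff, hres, residue_eq_zero_iff]; exact ha
  set z' : MPoint O := ⟨φ, hφ, S a, hb⟩ with hz'
  have hu' : S u ^ e = z'.evO U := by
    rw [← map_pow, hue, map_evO_eq z z' S rfl U, hSU]
  have hS : S a * S u = r0 := by rw [← map_mul, ← hu, hr]
  have huu : IsUnit u := (isUnit_pow_iff he0).mp (hue ▸ hU.map _)
  set sm := ∑ i ∈ Finset.range e, S u ^ i * u ^ (e - 1 - i) with hsm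
  have hsum : sm * (S u - u) = S u ^ e - u ^ e := geom_sum₂_mul (S u) u e
  have hsu : IsUnit sm := by
    rw [← residue_ne_zero_iff_isUnit, hsm, map_sum]
    simp only [map_mul, map_pow, hres]
    rw [geom_sum₂_self, mul_ne_zero_iff]
    exact ⟨by rw [← map_natCast (residue O)]; exact (residue_ne_zero_iff_isUnit _).mpr he,
      pow_ne_zero _ ((residue_ne_zero_iff_isUnit _).mpr huu)⟩
  obtain ⟨k, hk⟩ : S a - a ∣ S u - u := by
    refine (hsu.dvd_mul_left).mp ?_
    rw [hsum, hu', hue]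
    exact dvd_evO_sub z z' U
  have h0 : (S a - a) * (u + S a * k) = 0 := by linear_combination hS - hu.symm - S a * hk
  refine sub_eq_zero.mp ((mul_eq_zero.mp h0).resolve_right fun h => ?_)
  rw [← neg_eq_iff_add_eq_zero] at h
  refine (mem_maximalIdeal u).mp ?_ huu
  rw [show u = -(S a * k) by rw [← h, neg_neg]]
  exact neg_mem (Ideal.mul_mem_right _ _ hb)

theorem evO_derivative_ne (z : MPoint O) (ha : z.a ≠ 0) {e : ℕ} (he : IsUnit (e : O)) {U : O⟦X⟧}
    (hU : IsUnit U) : z.evO (PowerSeries.derivative O (PowerSeries.X ^ e * U)) ≠ 0 := by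
  obtain ⟨k, rfl⟩ : ∃ k, e = k + 1 :=
    Nat.exists_eq_succ_of_ne_zero fun h => not_isUnit_zero (M₀ := O) (by simp [h] at he)
  have h : PowerSeries.derivative O (PowerSeries.X ^ (k + 1) * U) =
      PowerSeries.X ^ k * (((k + 1 : ℕ) : O⟦X⟧) * U +
        PowerSeries.X * PowerSeries.derivative O U) := by
    rw [Derivation.leibniz, Derivation.leibniz_pow, PowerSeries.derivative_X]
    simp [smul_eq_mul, pow_succ]
    ring
  rw [h, map_mul, map_pow, MPoint.evO_X]
  refine mul_ne_zero (pow_ne_zero _ ha) (IsUnit.ne_zero (IsUnit.map _ ?_))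
  rw [PowerSeries.isUnit_iff_constantCoeff, map_add, map_mul, map_mul, PowerSeries.constantCoeff_X,
    zero_mul, add_zero, map_natCast]
  exact he.mul (PowerSeries.isUnit_constantCoeff _ hU)

/-! ## Transport of points -/

/-- A point on a disc with the same embedding. -/
def SheetPt.ofι {D D' : Disc L C} {P : PMap} (S : SheetPt x D P) (h : D'.ι = D.ι) :
    SheetPt x D' P where
  a := S.a
  mem := S.mem
  A := S.A
  hA := S.hA
  spec y g hy := S.spec y g (h ▸ hy)

/-- A point given by an equal map. -/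
def SheetPt.ofFun {D : Disc L C} {P P' : PMap} (S : SheetPt x D P) (h : P'.toFun = P.toFun) :
    SheetPt x D P' where
  a := S.a
  mem := S.mem
  A := S.A
  hA := S.hA
  spec y g hy := by
    rw [← S.spec y g hy, tayP_apply, tayP_apply, h]

theorem SheetPt.ofFun_a {D : Disc L C} {P P' : PMap} (S : SheetPt x D P)
    (h : P'.toFun = P.toFun) : (S.ofFun h).a = S.a := rfl

theorem serAt_mul_T (δ : SL(2, ℤ)) (k : ℤ) (y : holRing C) {g : O⟦X⟧}
    (hy : serAt C δ (y : lvlField C) = al g) :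
    serAt C (δ * ModularGroup.T ^ k) (y : lvlField C) =
      al (PowerSeries.rescale ((C.z ^ k : Oˣ) : O) g) := by
  refine C.toC.injective ?_
  have hf : serHom M (shift M δ (toMF C y)) = C.gC g := by
    rw [serHom_shift_eq C (algebraMap_toMF C y), hy, C.toC_algebraMap]
  rw [C.toC_algebraMap, ← serHom_shift_eq C (algebraMap_toMF C y), ← shift_shift]
  refine HahnSeries.ext (funext fun n => ?_)
  rw [coeff_serHom_shift_T, hf]
  rcases lt_or_ge n 0 with hn | hn
  · rw [coeff_gC_neg C _ hn, coeff_gC_neg C _ hn, zero_mul]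
  · obtain ⟨l, rfl⟩ := Int.eq_ofNat_of_zero_le hn
    simp only [Cyc.gC, RingHom.comp_apply, HahnSeries.ofPowerSeries_apply_coeff,
      PowerSeries.coeff_map, PowerSeries.coeff_rescale, map_mul, map_pow, phi_z_zpow]
    rw [mul_comm, zpow_mul, zpow_natCast]

theorem rescale_const (u o : O) : PowerSeries.rescale u (PowerSeries.C o) = PowerSeries.C o := by
  ext n
  rw [PowerSeries.coeff_rescale, PowerSeries.coeff_C]
  split_ifs with hn
  · rw [hn, pow_zero, one_mul]
  · rw [mul_zero]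

/-- A point on the disc of `δ ∞` moved to the disc of `δ₀ ∞`. -/
def SheetPt.toCusp {D D' : Disc L C} {P : PMap} (S : SheetPt x D P) {δ δ₀ : SL(2, ℤ)}
    (hD : D.ι = serAt C δ) (hD' : D'.ι = serAt C δ₀) (h : SL(2, ℤ)) (k : ℤ)
    (hh : h * δ = δ₀ * ModularGroup.T ^ k) : SheetPt x D' (P.smul h) where
  a := ((C.z ^ k : Oˣ) : O) * S.a
  mem := Ideal.mul_mem_left _ _ S.mem
  A := PowerSeries.C (C.φ ((C.z ^ k : Oˣ) : O)) * S.A
  hA := by rw [map_mul, map_mul, PowerSeries.constantCoeff_C, S.hA]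
  spec y g hy := by
    rw [hD'] at hy
    rw [← tayP_shift, show shift M h (toMF C y) =
      toMF C ⟨fShift C h y, fShift_mem_holRing C h y.2⟩ from (toMF_eq C
        (by rw [← wShift_algebraMap, algebraMap_toMF]; rfl)).symm,
      S.spec _ (PowerSeries.rescale ((C.z ^ k : Oˣ) : O) g)
        (by rw [hD, serAt_fShift, hh]; exact serAt_mul_T δ₀ k y hy)]
    refine RingHom.congr_fun (MPoint.eq_evAt (mkPt C (((C.z ^ k : Oˣ) : O) * S.a)
      (Ideal.mul_mem_left _ _ S.mem)) _ (Ψ := ((mkPt C S.a S.mem).evAt S.A S.hA).comp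
        (PowerSeries.rescale ((C.z ^ k : Oˣ) : O))) (fun o => ?_) ?_) g
    · rw [RingHom.comp_apply, rescale_const, MPoint.evAt_C]
    · rw [RingHom.comp_apply, PowerSeries.rescale_X, map_mul, MPoint.evAt_C, MPoint.evAt_X]

/-! ## Cusp discs -/

theorem map_cuspDisc_param (S : O →+* O) (hres : ∀ a, residue O (S a) = residue O a)
    (hζ : S C.ζ = C.ζ) {i : Fin 4} (hi : i ∈ L.J) {δ : SL(2, ℤ)} (h : L.IsCusp i δ) :
    PowerSeries.map S (cuspDisc L C hi h).t = (cuspDisc L C hi h).t := by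
  set D := cuspDisc L C hi h
  have he : al (PowerSeries.C D.c + D.t) =
      serAt C 1 (rat C ((wQuad L).mul δ)) * al 1 := by
    rw [← D.ι_w, map_one, mul_one, serAt_rat, Quad.mul_one, ← serAt_rat]
    rfl
  have h1 := mul_den_eq (C := C) ((wQuad L).mul δ) he
  rw [mul_one] at h1
  have h2 := map_eq_of_mul_eq S (den_ne_zero C _)
    (by rw [map_sub, map_pO_of_fix S hres hζ, map_pO_of_fix S hres hζ])
    (by rw [map_sub, map_pO_of_fix S hres hζ, map_pO_of_fix S hres hζ]) h1
  rw [map_add, PowerSeries.map_C, show D.c = L.cval C i from rfl,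
    map_cval L C S hres hζ] at h2
  exact add_left_cancel h2

/-- A point next to a finite cusp lies on a cusp disc. -/
theorem exists_cusp_point {i : Fin 4} (hi : i ∈ L.J) {P : PMap} {w0 r0 : O}
    (hw : C.φ w0 = (L.wMF C : ℍ → ℂ) (P.toFun x.τ)) (hr : r0 ^ L.e = w0 - L.cval C i)
    (hwm : w0 - L.cval C i ∈ maximalIdeal O) :
    ∃ (δ : SL(2, ℤ)) (D : Disc L C) (S : SheetPt x D P), D.ι = serAt C δ ∧ S.a ≠ 0 ∧
      (∀ (d : O) (N : ℕ), d ∣ (w0 - L.cval C i) ^ N → d ∣ S.a ^ (N * L.e)) ∧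
      ∀ s : O →+* O, (∀ o, residue O (s o) = residue O o) → s C.ζ = C.ζ → s r0 = r0 →
        s S.a = S.a := by
  have hv := (L.mem_J.mp hi).1
  set D0 := cuspDisc L C hi (L.isCusp_cuspMat i hv)
  set U : (PowerSeries O)ˣ := (L.serAt_w_finite C hi (L.isCusp_cuspMat i hv)).choose
  have ht : D0.t = PowerSeries.X ^ L.e * (U : PowerSeries O) := rfl
  have hne : w0 - L.cval C i ≠ 0 := fun h => L.w_ne_cval C hi (P.toFun x.τ)
    (by rw [← hw, sub_eq_zero.mp h])
  have hr0 : r0 ≠ 0 := fun h => hne (by rw [← hr, h, zero_pow L.e_pos.ne'])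
  obtain ⟨a, ha, A', hA', hW, -⟩ := exists_param_cusp D0 (L.isUnit_e C) U.isUnit ht
    (W := tayP x P (L.wMF C)) (by rw [constantCoeff_tayP, hw]) hr hr0 hwm
  obtain ⟨σ, ⟨S⟩⟩ := exists_sheetPt x D0 P ha hA' hW
  obtain ⟨γ, hγ, rfl⟩ := L.exists_eq_galOf C σ
  have heq : S.a ^ L.e * (mkPt C S.a S.mem).evO (U : PowerSeries O) = r0 ^ L.e := by
    refine C.inj ?_
    have h1 := congrArg PowerSeries.constantCoeff S.tay_w
    rw [map_add, PowerSeries.constantCoeff_C, MPoint.constantCoeff_evAt, constantCoeff_tayP,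
      ← hw, show (D0.twist (L.galOf C hγ)).t = D0.t from rfl, ht, map_mul, map_pow,
      MPoint.evO_X, ← map_add] at h1
    rw [hr]
    exact (congrArg C.φ (sub_eq_iff_eq_add'.mpr (C.inj h1))).symm
  refine ⟨γ * cuspMat i, D0.twist (L.galOf C hγ), S, ?_, fun h => ?_, fun d N hd => ?_,
    fun s hres hζ hsr => ?_⟩
  · refine RingHom.ext fun y => ?_
    show serAt C (cuspMat i) (L.galOf C hγ • y) = _
    rw [L.serAt_smul C hγ]
  · exact pow_ne_zero _ hr0 (heq.symm.trans
      (mul_eq_zero_of_left (by rw [h, zero_pow L.e_pos.ne']) _))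
  · rw [← hr, ← heq, mul_pow, ← pow_mul] at hd
    rw [mul_comm]
    exact ((U.isUnit.map _).pow N).dvd_mul_right.mp hd
  · refine fixed_of_pow_mul C.φ C.inj (L.isUnit_e C) U.isUnit S.mem heq hr0 hres hsr ?_
    have h1 := map_cuspDisc_param s hres hζ hi (L.isCusp_cuspMat i hv)
    change PowerSeries.map s D0.t = D0.t at h1
    rw [ht, map_mul, map_pow, PowerSeries.map_X] at h1
    exact mul_left_cancel₀ (pow_ne_zero _ PowerSeries.X_ne_zero) h1

theorem cuspMat_two : cuspMat 2 = 1 := rfl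

/-- The two cusps of `Γ₀(p)`. -/
theorem exists_gamma0_decomp (hp : p.Prime) (δ : SL(2, ℤ)) : ∃ j : Fin 4, (j = 2 ∨ j = 0) ∧
    ∃ g ∈ Gamma0 p, ∃ k : ℤ, δ = g * cuspMat j * ModularGroup.T ^ k := by
  have := Fact.mk hp
  by_cases h : (δ 1 0 : ZMod p) = 0
  · exact ⟨2, Or.inl rfl, δ, Gamma0_mem.mpr h, 0, by rw [cuspMat_two]; simp⟩
  obtain ⟨k, hk⟩ : ∃ k : ℤ, (k : ZMod p) = (δ 1 1 : ZMod p) / (δ 1 0 : ZMod p) :=
    ZMod.intCast_surjective _
  refine ⟨0, Or.inr rfl, δ * ModularGroup.T ^ (-k) * (cuspMat 0)⁻¹, Gamma0_mem.mpr ?_, k, by group⟩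
  have e : (δ * ModularGroup.T ^ (-k) * (cuspMat 0)⁻¹ : SL(2, ℤ)) 1 0 =
      -(δ 1 1 - k * δ 1 0) := by
    have hinv : (((cuspMat 0)⁻¹ : SL(2, ℤ)) : Matrix (Fin 2) (Fin 2) ℤ) = !![0, 1; -1, 0] := by
      rw [Matrix.SpecialLinearGroup.coe_inv,
        show ((cuspMat 0 : SL(2, ℤ)) : Matrix (Fin 2) (Fin 2) ℤ) = !![0, -1; 1, 0] from rfl]
      simp [Matrix.adjugate_fin_two]
    simp only [Matrix.SpecialLinearGroup.coe_mul, ModularGroup.coe_T_zpow, hinv, Matrix.mul_apply,
      Fin.sum_univ_two]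
    simp
    ring
  rw [e]
  push_cast
  rw [hk, div_mul_cancel₀ _ h, sub_self, neg_zero]

theorem isCusp_sel {j : Fin 4} (hj : j = 2 ∨ j = 0) : j ∈ L.J ∧ L.IsCusp j (cuspMat j) := by
  rcases hj with rfl | rfl
  · exact ⟨two_mem_J L, L.isCusp_cuspMat 2 L.valid2⟩
  · exact ⟨L.mem_J.mpr ⟨L.valid0, by decide⟩, L.isCusp_cuspMat 0 L.valid0⟩

/-! ## Valuations on a cusp disc -/

theorem exists_unit_expand (C : Cyc O M) (d : ℕ) (hd : d ≠ 0) : ∃ g : (PowerSeries O)ˣ,
    expand d hd jq = HahnSeries.single (-(d : ℤ)) 1 * C.gC (g : PowerSeries O) := by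
  have hu : IsUnit (PowerSeries.expand d hd (zSer ModularCurve.jNum : PowerSeries O)) := by
    refine PowerSeries.isUnit_iff_constantCoeff.mpr ?_
    have h := PowerSeries.coeff_expand_mul d hd (zSer ModularCurve.jNum : PowerSeries O) 0
    rw [mul_zero, PowerSeries.coeff_zero_eq_constantCoeff_apply,
      PowerSeries.coeff_zero_eq_constantCoeff_apply] at h
    rw [h, zSer, ← PowerSeries.coeff_zero_eq_constantCoeff_apply, PowerSeries.coeff_map,
      PowerSeries.coeff_zero_eq_constantCoeff_apply, ModularCurve.constantCoeff_jNum, map_one]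
    exact isUnit_one
  refine ⟨hu.unit, ?_⟩
  rw [IsUnit.unit_spec, Mazur3.jq_eq_intSer, map_mul, Mazur3.expand_single_nat,
    Mazur3.intSer_eq_toLaurent C.φ, Mazur3.expand_toLaurent_nat, mul_neg_one]
  rfl

theorem exists_unit_expand_expand (C : Cyc O M) (a b : ℕ) (ha : a ≠ 0) (hb : b ≠ 0) :
    ∃ g : (PowerSeries O)ˣ, expand a ha (expand b hb jq) =
      HahnSeries.single (-((a * b : ℕ) : ℤ)) 1 * C.gC (g : PowerSeries O) := by
  obtain ⟨g, hg⟩ := exists_unit_expand C b hb
  have hu : IsUnit (PowerSeries.expand a ha (g : PowerSeries O)) := g.isUnit.map _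
  refine ⟨hu.unit, ?_⟩
  rw [IsUnit.unit_spec, hg, map_mul, Mazur3.expand_single_nat,
    show C.gC (g : PowerSeries O) = Mazur3.toLaurent C.φ (g : PowerSeries O) from rfl,
    Mazur3.expand_toLaurent_nat]
  push_cast
  rw [mul_neg]
  rfl

/-- A function with a simple expansion at the cusp, evaluated at a point of the disc. -/
theorem exists_unit_val {i : Fin 4} (hi : i ∈ L.J) {δ : SL(2, ℤ)} (hδ : L.IsCusp i δ) {P : PMap}
    (S : SheetPt x (cuspDisc L C hi hδ) P) (f : modFuns (Gamma M))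
    (hf : algebraMap (modFuns (Gamma M)) (WFld M) f ∈ lvlField C) {d : ℕ} {g : (PowerSeries O)ˣ}
    (hser : serHom M (shift M δ f) =
      HahnSeries.single (-(d : ℤ)) 1 * C.gC (g : PowerSeries O)) (ha : S.a ≠ 0) :
    ∃ u : O, IsUnit u ∧ (f : ℍ → ℂ) (P.toFun x.τ) * C.φ S.a ^ d = C.φ u := by
  let D := cuspDisc L C hi hδ
  set U : (PowerSeries O)ˣ := (L.serAt_w_finite C hi hδ).choose
  set z := mkPt C S.a S.mem with hzdef
  have ht : D.t = PowerSeries.X ^ L.e * (U : PowerSeries O) := rfl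
  let fd : holRing C := ⟨⟨_, hf⟩, ⟨f, rfl⟩⟩
  have hfd : serAt C δ (fd : lvlField C) * al (PowerSeries.X ^ d) = al (g : PowerSeries O) := by
    refine C.toC.injective ?_
    rw [map_mul, ← serHom_shift_eq C (f := f) rfl, hser, C.toC_algebraMap, C.toC_algebraMap,
      C.gC_X_pow, mul_right_comm, HahnSeries.single_mul_single, neg_add_cancel, mul_one,
      show HahnSeries.single (0 : ℤ) (1 : ℂ) = 1 from rfl, one_mul]
  let yw : holRing C := ⟨L.w C, rat_mem_holRing C _⟩ - ⟨_, algebraMap_mem_holRing C D.c⟩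
  have hyw : D.ι (yw : lvlField C) = al (PowerSeries.X ^ L.e * (U : PowerSeries O)) := by
    show D.ι (L.w C - algebraMap O (lvlField C) D.c) = _
    rw [map_sub, D.ι_w, D.ι_O, ← map_sub, add_sub_cancel_left, ht]
  obtain ⟨k, hk⟩ : ∃ k, L.e = k + 1 := Nat.exists_eq_succ_of_ne_zero L.e_pos.ne'
  have hy : D.ι ((fd * yw ^ d : holRing C) : lvlField C) =
      al ((g : PowerSeries O) * PowerSeries.X ^ (k * d) * (U : PowerSeries O) ^ d) := by
    show D.ι ((fd : lvlField C) * (yw : lvlField C) ^ d) = _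
    rw [map_mul, map_pow, hyw, map_mul al (_ * _), map_mul al (g : PowerSeries O), ← hfd,
      show D.ι (fd : lvlField C) = serAt C δ (fd : lvlField C) from rfl, hk, map_mul, mul_pow,
      map_pow, map_pow, map_pow, map_pow, ← pow_mul]
    ring
  have hval := congrArg PowerSeries.constantCoeff (S.spec _ _ hy)
  rw [MPoint.constantCoeff_evAt, constantCoeff_tayP] at hval
  have hW := congrArg PowerSeries.constantCoeff S.tay_w
  rw [constantCoeff_tayP, map_add, PowerSeries.constantCoeff_C, MPoint.constantCoeff_evAt] at hW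
  have hyv : (toMF C (fd * yw ^ d) : ℍ → ℂ) (P.toFun x.τ) =
      (f : ℍ → ℂ) (P.toFun x.τ) * C.φ (z.evO D.t) ^ d := by
    show valAt C (P.toFun x.τ) (fd * yw ^ d) = _
    rw [map_mul, map_pow, map_sub, L.valAt_w, valAt_algebraMap, hW, add_sub_cancel_left,
      valAt_apply, toMF_eq C (f := f) rfl]
  rw [hyv, ht] at hval
  simp only [map_mul, map_pow, MPoint.evO_X] at hval
  refine ⟨z.evO (g : PowerSeries O), g.isUnit.map _, ?_⟩
  refine mul_right_cancel₀ (b := C.φ S.a ^ (k * d) * C.φ (z.evO (U : PowerSeries O)) ^ d) ?_ ?_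
  · exact mul_ne_zero (pow_ne_zero _ ((map_ne_zero_iff _ C.inj).mpr ha))
      (pow_ne_zero _ ((U.isUnit.map z.evO).map C.φ).ne_zero)
  · rw [← mul_assoc (C.φ _), ← hval]
    simp only [hzdef, hk, mul_pow, ← pow_mul, one_mul, pow_add]
    ring

/-- A place of `ℂ` dominating the base. -/
theorem exists_dominating_place (φ : O →+* ℂ) (hφ : Function.Injective φ) :
    ∃ B : ValuationSubring ℂ, (∀ u : O, IsUnit u → B.valuation (φ u) = 1) ∧
      ∀ a ∈ maximalIdeal O, B.valuation (φ a) < 1 := by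
  let e : O ≃+* φ.range := RingEquiv.ofBijective φ.rangeRestrict
    ⟨fun a b h => hφ (congrArg Subtype.val h), φ.rangeRestrict_surjective⟩
  obtain ⟨B, hle, hB⟩ := Ideal.image_subset_nonunits_valuationSubring
    ((maximalIdeal O).comap e.symm.toRingHom)
    (Ideal.comap_ne_top _ (maximalIdeal.isMaximal O).ne_top)
  have hm : ∀ a ∈ maximalIdeal O, B.valuation (φ a) < 1 := fun a ha =>
    B.mem_nonunits_iff.mp (hB ⟨e a, by simpa using ha, rfl⟩)
  refine ⟨B, fun u hu => ?_, hm⟩
  have h1 : ∀ o : O, B.valuation (φ o) ≤ 1 := fun o =>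
    (B.valuation_le_one_iff _).mpr (hle ⟨o, rfl⟩)
  have h2 : B.valuation (φ u) * B.valuation (φ (hu.unit⁻¹ : Oˣ)) = 1 := by
    rw [← map_mul, ← map_mul, IsUnit.mul_val_inv, map_one, map_one]
  refine le_antisymm (h1 u) ?_
  calc (1 : B.ValueGroup) = _ := h2.symm
    _ ≤ B.valuation (φ u) := mul_le_of_le_one_right' (h1 _)

end Fermat.Agent.Mazur3.AtEta
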