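import Fermat.Agent.Mazur3.AtEta.Disc

/-!
# Derivatives, semilinear maps and identification of discs

Divisibility of the derivative by a power of the uniformiser passes from infinity to every disc,
series on a disc commute with a semilinear map fixing the disc, and a disc is determined by the
residues of the generators.
-/

set_option autoImplicit false
set_option linter.unusedSectionVars false

noncomputable section

namespace Fermat.Agent.Mazur3.AtEta

open GalRep GalRep.Model CongruenceSubgroup Polynomial IsLocalRing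
open scoped MatrixGroups PowerSeries

/-- The chain rule for a polynomial over polynomials. -/
theorem exists_chain_rule {O : Type*} [CommRing O] (P : O[X][X]) :
    ∃ Pw : O[X][X], ∀ u g : PowerSeries O,
      PowerSeries.derivative O (P.eval₂ (Polynomial.aeval u).toRingHom g) =
        (derivative P).eval₂ (Polynomial.aeval u).toRingHom g * PowerSeries.derivative O g +
          Pw.eval₂ (Polynomial.aeval u).toRingHom g * PowerSeries.derivative O u := by
  induction P using Polynomial.induction_on' with
  | add p q hp hq =>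
    obtain ⟨a, ha⟩ := hp
    obtain ⟨b, hb⟩ := hq
    refine ⟨a + b, fun u g => ?_⟩
    rw [map_add, Polynomial.eval₂_add, Polynomial.eval₂_add, Polynomial.eval₂_add, map_add, ha, hb]
    ring
  | monomial n a =>
    refine ⟨Polynomial.monomial n (derivative a), fun u g => ?_⟩
    simp only [Polynomial.eval₂_monomial, Polynomial.derivative_monomial, Derivation.leibniz,
      Derivation.leibniz_pow, AlgHom.toRingHom_eq_coe, RingHom.coe_coe,
      (PowerSeries.derivative O).map_aeval, smul_eq_mul, map_mul, map_natCast, nsmul_eq_mul]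
    ring

theorem prime_C {O : Type*} [CommRing O] [IsDomain O] [IsDiscreteValuationRing O] {π : O}
    (hπ : Irreducible π) : Prime (PowerSeries.C π) := by
  refine ⟨fun h => hπ.ne_zero (PowerSeries.C_injective (h.trans (map_zero _).symm)), fun h => ?_,
    fun a b h => ?_⟩
  · exact hπ.not_isUnit (by simpa using PowerSeries.isUnit_constantCoeff _ h)
  · rw [← red_eq_zero_iff hπ.maximalIdeal_eq] at h ⊢
    rw [← red_eq_zero_iff hπ.maximalIdeal_eq]
    rw [map_mul] at h
    exact mul_eq_zero.mp h

theorem not_dvd_of_red_ne_zero {O : Type*} [CommRing O] [IsDomain O] [IsDiscreteValuationRing O]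
    {π : O} (hπ : Irreducible π) {f : PowerSeries O} (h : red f ≠ 0) :
    ¬ PowerSeries.C π ∣ f :=
  fun h' => h ((red_eq_zero_iff hπ.maximalIdeal_eq f).mpr h')

variable {M : ℕ} [NeZero M] (L : Lev M) {O : Type} [CommRing O] [IsDomain O]
  [IsDiscreteValuationRing O] [IsAdicComplete (maximalIdeal O) O] [IsAlgClosed (ResidueField O)]
  (C : Cyc O M)

local notation "al" => algebraMap (PowerSeries O) (SeriesField O)

local notation "Ch" => chartRing O (Lev.w L C)

/-- An element all of whose translates by multiples of the uniformiser separate the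
automorphisms. -/
theorem exists_sep {π : O} (hπ : Irreducible π) [Fintype (L.gal C)] :
    ∃ θ ∈ Algebra.adjoin O (Set.range (sgR L C)), ∀ x : Ch,
      ¬ algebraMap O Ch π ∣ diffProd L C (θ + algebraMap O Ch π * x) := by
  classical
  obtain ⟨θ, hθ, hd⟩ := exists_theta L C hπ
  refine ⟨θ, hθ, fun x h => hd ?_⟩
  rw [pi_dvd_iff hπ, diffProd, map_prod, map_prod] at h ⊢
  rw [← h]
  refine Finset.prod_congr rfl fun σ _ => ?_
  rw [map_add (chartGal L C σ), map_mul (chartGal L C σ), chartGal_const, add_sub_add_comm,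
    ← mul_sub, map_add, map_add, Disc.red_ser_pi_mul _ hπ, add_zero]

variable {L C}

theorem Disc.ser_eval_zero (D : Disc L C) {P : O[X][X]} {x : Ch}
    (h : P.eval₂ (wHom L C) x = 0) :
    P.eval₂ (Polynomial.aeval (PowerSeries.C D.c + D.t)).toRingHom (D.ser x) = 0 := by
  rw [← D.ser_eval, h, map_zero]

/-- Divisibility of the derivative passes from infinity to every disc. -/
theorem Disc.pow_dvd_derivative (D : Disc L C) {π : O} (hπ : Irreducible π) {k : ℕ} (x : Ch)
    (h : PowerSeries.C π ^ k ∣ PowerSeries.derivative O ((inftyDisc L C).ser x)) :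
    PowerSeries.C π ^ k ∣ PowerSeries.derivative O (D.ser x) := by
  classical
  have := Fintype.ofFinite (L.gal C)
  obtain ⟨θ, -, hsep⟩ := exists_sep L C hπ
  set y : Ch := θ + algebraMap O Ch π * x with hy
  obtain ⟨P0, hP0, hP0d⟩ := exists_equation L C θ
  obtain ⟨P1, hP1, hP1d⟩ := exists_equation L C y
  obtain ⟨W0, hW0⟩ := exists_chain_rule P0
  obtain ⟨W1, hW1⟩ := exists_chain_rule P1
  set N : Ch := W1.eval₂ (wHom L C) y * diffProd L C θ - W0.eval₂ (wHom L C) θ * diffProd L C y
  have key : ∀ E : Disc L C, PowerSeries.C π * (E.ser (diffProd L C y * diffProd L C θ) *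
      PowerSeries.derivative O (E.ser x)) = -(PowerSeries.derivative O E.t * E.ser N) := by
    intro E
    have h0 := congrArg (PowerSeries.derivative O) (E.ser_eval_zero hP0)
    have h1 := congrArg (PowerSeries.derivative O) (E.ser_eval_zero hP1)
    rw [map_zero, hW0, ← E.ser_eval, ← E.ser_eval, hP0d, map_add, PowerSeries.derivative_C,
      zero_add] at h0
    have hdy : PowerSeries.derivative O (E.ser y) = PowerSeries.derivative O (E.ser θ) +
        PowerSeries.C π * PowerSeries.derivative O (E.ser x) := by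
      rw [hy, map_add E.ser, map_mul E.ser, E.ser_const, map_add, Derivation.leibniz,
        PowerSeries.derivative_C, smul_zero, add_zero, smul_eq_mul]
    rw [map_zero, hW1, ← E.ser_eval, ← E.ser_eval, hP1d, hdy, map_add, PowerSeries.derivative_C,
      zero_add] at h1
    rw [map_mul, map_sub, map_mul, map_mul]
    linear_combination E.ser (diffProd L C θ) * h1 - E.ser (diffProd L C y) * h0
  have hsepθ : ¬ algebraMap O Ch π ∣ diffProd L C θ := by
    have := hsep 0
    rwa [mul_zero, add_zero] at this
  have hN : algebraMap O Ch π ^ (k + 1) ∣ N := by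
    refine dvd_of_infty L C hπ N (k + 1)
      ((prime_C hπ).pow_dvd_of_dvd_mul_left _ (not_dvd_of_red_ne_zero hπ (inftyDisc L C).t_der)
        (dvd_neg.mp ?_))
    rw [← key, pow_succ']
    exact mul_dvd_mul_left _ (dvd_mul_of_dvd_right h _)
  have h2 : PowerSeries.C π * PowerSeries.C π ^ k ∣ PowerSeries.C π *
      (D.ser (diffProd L C y * diffProd L C θ) * PowerSeries.derivative O (D.ser x)) := by
    rw [← pow_succ', key, dvd_neg]
    exact dvd_mul_of_dvd_right (D.dvd_ser hN) _
  refine (prime_C hπ).pow_dvd_of_dvd_mul_left _ (not_dvd_of_red_ne_zero hπ ?_)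
    ((mul_dvd_mul_iff_left (prime_C hπ).ne_zero).mp h2)
  rw [map_mul, map_mul]
  exact mul_ne_zero (D.red_ser_ne_zero hπ (hsep x)) (D.red_ser_ne_zero hπ hsepθ)

/-! ## Semilinear maps -/

section Semilinear

variable (S : O →+* O)

theorem map_isUnit_iff (hres : ∀ a, residue O (S a) = residue O a) (a : O) :
    IsUnit (S a) ↔ IsUnit a := by
  rw [← residue_ne_zero_iff_isUnit, ← residue_ne_zero_iff_isUnit, hres]

theorem map_ringInverse (hres : ∀ a, residue O (S a) = residue O a) (a : O) :
    S (Ring.inverse a) = Ring.inverse (S a) := by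
  by_cases h : IsUnit a
  · refine (h.map S).mul_left_cancel ?_
    rw [← map_mul, Ring.mul_inverse_cancel _ h, map_one, Ring.mul_inverse_cancel _ (h.map S)]
  · rw [Ring.inverse_non_unit _ h, map_zero,
      Ring.inverse_non_unit _ (mt (map_isUnit_iff S hres a).mp h)]

theorem red_map (hres : ∀ a, residue O (S a) = residue O a) (f : PowerSeries O) :
    red (PowerSeries.map S f) = red f := by
  ext n
  simp [red, hres]

theorem map_pO_of_fix (hres : ∀ a, residue O (S a) = residue O a) (hζ : S C.ζ = C.ζ)
    (u : ℤ × ℤ) : PowerSeries.map S (pO C u) = pO C u := by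
  have hz : ∀ a : ℤ, S ((C.z ^ a : Oˣ) : O) = ((C.z ^ a : Oˣ) : O) := fun a => by
    have h1 : Units.map (S : O →* O) C.z = C.z := Units.ext (by simp [Cyc.z, hζ])
    have := congrArg Units.val (map_zpow (Units.map (S : O →* O)) C.z a)
    rwa [h1, Units.coe_map] at this
  ext n
  simp only [PowerSeries.coeff_map, pO, PowerSeries.coeff_mk, apply_ite S, map_zero, map_sum,
    map_mul, map_add, map_natCast, hz, fVal, map_ringInverse S hres, map_pow, map_sub, map_one]

/-- An element determined by fixed series is fixed. -/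
theorem map_eq_of_mul_eq {g a b : PowerSeries O} (ha : a ≠ 0) (hSa : PowerSeries.map S a = a)
    (hSb : PowerSeries.map S b = b) (h : g * a = b) : PowerSeries.map S g = g := by
  have h1 := congrArg (PowerSeries.map S) h
  rw [map_mul, hSa, hSb, ← h] at h1
  exact mul_right_cancel₀ ha h1

theorem mul_den_eq {g h : PowerSeries O} (q : Quad M)
    (he : al g = serAt C 1 (rat C q) * al h) :
    g * (pO C q.u' - pO C q.t') = (pO C q.u - pO C q.t) * h := by
  apply IsFractionRing.injective (PowerSeries O) (SeriesField O)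
  have hd : al (pO C q.u' - pO C q.t') ≠ 0 := by
    rw [Ne, map_eq_zero_iff _ (IsFractionRing.injective _ _)]
    exact den_ne_zero C q
  rw [map_mul, map_mul, he, serAt_rat, Quad.mul_one, qSer]
  field_simp

variable (L C)

theorem map_inftyDisc_w (hres : ∀ a, residue O (S a) = residue O a) (hζ : S C.ζ = C.ζ) :
    PowerSeries.map S (PowerSeries.C (inftyDisc L C).c + (inftyDisc L C).t) =
      PowerSeries.C (inftyDisc L C).c + (inftyDisc L C).t := by
  have h := mul_den_eq (C := C) (g := PowerSeries.C (inftyDisc L C).c + (inftyDisc L C).t) (h := 1)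
    (L.vq 0 1 0 2 L.valid0 L.valid2 (by decide))
    (by rw [← (inftyDisc L C).ι_w, map_one, mul_one]; rfl)
  rw [mul_one] at h
  exact map_eq_of_mul_eq S (den_ne_zero C _)
    (by rw [map_sub, map_pO_of_fix S hres hζ, map_pO_of_fix S hres hζ])
    (by rw [map_sub, map_pO_of_fix S hres hζ, map_pO_of_fix S hres hζ]) h

theorem map_kappa (hres : ∀ a, residue O (S a) = residue O a) (hζ : S C.ζ = C.ζ) :
    S (L.kappa C) = L.kappa C := by
  by_cases h3 : L.m = 3
  · set q := L.vq 2 3 1 3 L.valid1 (Or.inr h3) (by decide)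
    have hκ : algebraMap O (lvlField C) (L.kappa C) = L.w C * rat C q := by
      rw [Lev.kappa, dif_pos h3]
      exact (L.exists_kappa C h3).choose_spec.symm
    have h := mul_den_eq (C := C) (g := PowerSeries.C (L.kappa C))
      (h := PowerSeries.C (inftyDisc L C).c + (inftyDisc L C).t) q (by
        rw [← (inftyDisc L C).ι_w, ← (inftyDisc L C).ι_O, inftyDisc_ι, ← map_mul, mul_comm, hκ])
    refine PowerSeries.C_injective ?_
    rw [← PowerSeries.map_C]
    exact map_eq_of_mul_eq S (den_ne_zero C q)
      (by rw [map_sub, map_pO_of_fix S hres hζ, map_pO_of_fix S hres hζ])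
      (by rw [map_mul, map_sub, map_pO_of_fix S hres hζ, map_pO_of_fix S hres hζ,
        map_inftyDisc_w L C S hres hζ]) h
  · rw [Lev.kappa, dif_neg h3, map_zero]

theorem map_cval (hres : ∀ a, residue O (S a) = residue O a) (hζ : S C.ζ = C.ζ) (i : Fin 4) :
    S (L.cval C i) = L.cval C i := by
  fin_cases i <;> simp [Lev.cval, map_kappa L C S hres hζ]

theorem map_inftyDisc_sgR (hres : ∀ a, residue O (S a) = residue O a) (hζ : S C.ζ = C.ζ)
    (y : L.genSet C) :
    PowerSeries.map S ((inftyDisc L C).ser (sgR L C y)) = (inftyDisc L C).ser (sgR L C y) := by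
  obtain ⟨p, hp⟩ := (L.mem_genSet C).mp y.2
  obtain ⟨q, hq⟩ : ∃ q : Quad M, L.gen C p = rat C q := ⟨_, rfl⟩
  have hcusp : PowerSeries.map S (Polynomial.aeval
      (PowerSeries.C (inftyDisc L C).c + (inftyDisc L C).t) (L.cuspPoly C)) =
      Polynomial.aeval (PowerSeries.C (inftyDisc L C).c + (inftyDisc L C).t) (L.cuspPoly C) := by
    simp only [Lev.cuspPoly, map_prod, map_sub (Polynomial.aeval _), Polynomial.aeval_X,
      Polynomial.aeval_C, map_sub (PowerSeries.map S), PowerSeries.algebraMap_apply,
      PowerSeries.map_C, Algebra.algebraMap_self, RingHom.id_apply, map_cval L C S hres hζ,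
      map_inftyDisc_w L C S hres hζ]
  have h := mul_den_eq (C := C) (g := (inftyDisc L C).ser (sgR L C y))
    (h := Polynomial.aeval (PowerSeries.C (inftyDisc L C).c + (inftyDisc L C).t) (L.cuspPoly C)) q
    (by
      rw [Disc.al_ser, ← ι_aeval_of _ (inftyDisc L C).ι_O (inftyDisc L C).ι_w, inftyDisc_ι,
        ← map_mul, show ((sgR L C y : Ch) : lvlField C) =
          y * Polynomial.aeval (L.w C) (L.cuspPoly C) from rfl, ← hp, hq])
  exact map_eq_of_mul_eq S (den_ne_zero C q)
    (by rw [map_sub, map_pO_of_fix S hres hζ, map_pO_of_fix S hres hζ])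
    (by rw [map_mul, map_sub, map_pO_of_fix S hres hζ, map_pO_of_fix S hres hζ, hcusp]) h

theorem exists_conj_adjoin (hres : ∀ a, residue O (S a) = residue O a) (hζ : S C.ζ = C.ζ)
    {θ : Ch} (hθ : θ ∈ Algebra.adjoin O (Set.range (sgR L C))) :
    ∃ θ' : Ch, (inftyDisc L C).ser θ' = PowerSeries.map S ((inftyDisc L C).ser θ) := by
  induction hθ using Algebra.adjoin_induction with
  | mem x hx =>
    obtain ⟨y, rfl⟩ := hx
    exact ⟨sgR L C y, (map_inftyDisc_sgR L C S hres hζ y).symm⟩
  | algebraMap a =>
    exact ⟨algebraMap O Ch (S a), by rw [Disc.ser_const, Disc.ser_const, PowerSeries.map_C]⟩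
  | add x y _ _ hx hy =>
    obtain ⟨a, ha⟩ := hx
    obtain ⟨b, hb⟩ := hy
    exact ⟨a + b, by rw [map_add, ha, hb, map_add, map_add]⟩
  | mul x y _ _ hx hy =>
    obtain ⟨a, ha⟩ := hx
    obtain ⟨b, hb⟩ := hy
    exact ⟨a * b, by rw [map_mul, ha, hb, map_mul, map_mul]⟩

variable {L C}

theorem map_eval₂ (P : O[X][X]) (u g : PowerSeries O) :
    PowerSeries.map S (P.eval₂ (Polynomial.aeval u).toRingHom g) =
      (P.map (Polynomial.mapRingHom S)).eval₂
        (Polynomial.aeval (PowerSeries.map S u)).toRingHom (PowerSeries.map S g) := by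
  rw [Polynomial.hom_eval₂, Polynomial.eval₂_map]
  congr 1
  refine Polynomial.ringHom_ext (fun a => ?_) ?_
  · simp
  · simp

theorem eq_of_eval_eq_zero {A : Type*} [CommRing A] [IsDomain A] {k : Type*} [CommRing k]
    (r : A →+* k) (f : A[X]) {a b : A} (ha : f.eval a = 0) (hb : f.eval b = 0)
    (hab : r a = r b) (hd : r (f.derivative.eval b) ≠ 0) : a = b := by
  obtain ⟨k', hk⟩ := Polynomial.binomExpansion f b (a - b)
  rw [add_sub_cancel, ha, hb, zero_add] at hk
  have h : (f.derivative.eval b + k' * (a - b)) * (a - b) = 0 := by linear_combination -hk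
  rcases mul_eq_zero.mp h with h | h
  · refine absurd ?_ hd
    have := congrArg r h
    rwa [map_add, map_mul, map_sub, hab, sub_self, mul_zero, add_zero, map_zero] at this
  · exact sub_eq_zero.mp h

/-- Series on a fixed disc commute with a semilinear map. -/
theorem Disc.ser_conj (D : Disc L C) (hS : Function.Injective S)
    (hres : ∀ a, residue O (S a) = residue O a) (hζ : S C.ζ = C.ζ) (hc : S D.c = D.c)
    (ht : PowerSeries.map S D.t = D.t) {x x' : Ch}
    (h : (inftyDisc L C).ser x' = PowerSeries.map S ((inftyDisc L C).ser x)) :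
    D.ser x' = PowerSeries.map S (D.ser x) := by
  classical
  obtain ⟨π, hπ⟩ := IsDiscreteValuationRing.exists_irreducible O
  have := Fintype.ofFinite (L.gal C)
  obtain ⟨θ, hθ, hsep⟩ := exists_sep L C hπ
  obtain ⟨θ', hθ'⟩ := exists_conj_adjoin L C S hres hζ hθ
  have hu : PowerSeries.map S (PowerSeries.C D.c + D.t) = PowerSeries.C D.c + D.t := by
    rw [map_add, PowerSeries.map_C, hc, ht]
  have key : ∀ y y' : Ch, ¬ algebraMap O Ch π ∣ diffProd L C y →
      (inftyDisc L C).ser y' = PowerSeries.map S ((inftyDisc L C).ser y) →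
      D.ser y' = PowerSeries.map S (D.ser y) := by
    intro y y' hsep hy'
    obtain ⟨P, hP, hPd⟩ := exists_equation L C y
    have hroot : (P.map (Polynomial.mapRingHom S)).eval₂ (wHom L C) y' = 0 := by
      refine (inftyDisc L C).ser_injective ?_
      rw [map_zero, Disc.ser_eval, hy']
      conv_lhs =>
        arg 1
        rw [← map_inftyDisc_w L C S hres hζ]
      rw [← map_eval₂, (inftyDisc L C).ser_eval_zero hP, map_zero]
    refine eq_of_eval_eq_zero red ((P.map (Polynomial.mapRingHom S)).map
      (Polynomial.aeval (PowerSeries.C D.c + D.t)).toRingHom) ?_ ?_ ?_ ?_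
    · rw [Polynomial.eval_map]
      exact D.ser_eval_zero hroot
    · rw [Polynomial.eval_map, ← hu, ← map_eval₂, D.ser_eval_zero hP, map_zero]
    · rw [red_map S hres]
      have hd : algebraMap O Ch π ∣ y' - y := by
        rw [pi_dvd_iff hπ, map_sub, map_sub, hy', red_map S hres, sub_self]
      obtain ⟨z, hz⟩ := hd
      rw [← sub_eq_zero, ← map_sub, ← map_sub, hz, D.red_ser_pi_mul hπ]
    · rw [Polynomial.derivative_map, Polynomial.derivative_map, Polynomial.eval_map, ← hu,
        ← map_eval₂, red_map S hres, ← D.ser_eval, hPd]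
      exact D.red_ser_ne_zero hπ hsep
  have h0 : D.ser θ' = PowerSeries.map S (D.ser θ) := key θ θ' (by
    have := hsep 0
    rwa [mul_zero, add_zero] at this) hθ'
  have h1 := key (θ + algebraMap O Ch π * x) (θ' + algebraMap O Ch (S π) * x') (hsep x) (by
    rw [map_add, map_add, map_mul, map_mul, Disc.ser_const, Disc.ser_const, map_add, map_mul,
      PowerSeries.map_C, hθ', h])
  rw [map_add, map_add, map_mul, map_mul, Disc.ser_const, Disc.ser_const, map_add, map_mul,
    PowerSeries.map_C, h0, add_right_inj] at h1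
  refine mul_left_cancel₀ (fun hh => hπ.ne_zero (hS ?_)) h1
  exact PowerSeries.C_injective (by rw [hh, map_zero, map_zero])

end Semilinear

/-! ## Identification -/

/-- A disc away from the cusps is determined by the residues of the generators. -/
theorem Disc.ι_eq (D D' : Disc L C) (hc : D.c = D'.c) (ht : D.t = D'.t)
    (hu : ∀ i ∈ L.J, IsUnit (D.c - L.cval C i))
    (h : ∀ y, residue O (PowerSeries.constantCoeff (D.ser (sgR L C y))) =
      residue O (PowerSeries.constantCoeff (D'.ser (sgR L C y)))) : D.ι = D'.ι := by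
  classical
  obtain ⟨P0, -, hP0⟩ := L.exists_genPoly C
  obtain ⟨D0, hD0, hD0u⟩ := L.exists_disc C
  have hroot : ∀ y : L.genSet C, P0.eval₂ (wHom L C) (sgR L C y) = 0 := fun y => by
    refine Subtype.ext ?_
    show (chartRing O (L.w C)).val.toRingHom (P0.eval₂ (wHom L C) (sgR L C y)) = 0
    rw [Polynomial.hom_eval₂]
    have : (chartRing O (L.w C)).val.toRingHom.comp (wHom L C) =
        (Polynomial.aeval (L.w C) : O[X] →ₐ[O] lvlField C).toRingHom :=
      RingHom.ext fun P => coe_polyVal (L.w C) P
    rw [this, ← Polynomial.eval_map, hP0, Polynomial.eval_prod]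
    exact Finset.prod_eq_zero y.2 (by simp [sgR])
  have hmap : ∀ E : Disc L C,
      P0.map (Polynomial.aeval (PowerSeries.C E.c + E.t)).toRingHom =
        ∏ y : L.genSet C, (Polynomial.X - Polynomial.C (E.ser (sgR L C y))) := by
    intro E
    refine Polynomial.map_injective al (IsFractionRing.injective _ _) ?_
    have h1 := congrArg (Polynomial.map E.ι) hP0
    rw [Polynomial.map_map, Polynomial.map_prod] at h1
    rw [Polynomial.map_map, Polynomial.map_prod]
    refine Eq.trans (Eq.trans ?_ h1) ?_
    · congr 1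
      exact RingHom.ext fun P => (ι_aeval_of E.ι E.ι_O E.ι_w P).symm
    · rw [← Finset.prod_coe_sort (L.genSet C)]
      refine Finset.prod_congr rfl fun y _ => ?_
      simp [E.al_ser, sgR]
  have hser : ∀ y, D.ser (sgR L C y) = D'.ser (sgR L C y) := by
    intro y
    have h1 := D.ser_eval_zero (hroot y)
    rw [← Polynomial.eval_map, hc, ht, hmap D', Polynomial.eval_prod, Finset.prod_eq_zero_iff]
      at h1
    obtain ⟨y', -, hy'⟩ := h1
    rw [Polynomial.eval_sub, Polynomial.eval_X, Polynomial.eval_C, sub_eq_zero] at hy'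
    by_contra hne
    have hyy : y' ≠ y := fun e => hne (e ▸ hy')
    have hres := h y
    rw [hy'] at hres
    have hmem : ((y' : lvlField C), (y : lvlField C)) ∈ (L.genSet C).offDiag :=
      Finset.mem_offDiag.mpr ⟨y'.2, y.2, fun he => hyy (Subtype.ext he)⟩
    have hD := congrArg D'.ι hD0
    rw [map_prod, ι_aeval_of D'.ι D'.ι_O D'.ι_w] at hD
    have hfac : ∀ p ∈ ((L.genSet C).offDiag).attach,
        D'.ι (L.sgen C p.1.1 - L.sgen C p.1.2) = al (D'.ser
          (sgR L C ⟨p.1.1, (Finset.mem_offDiag.mp p.2).1⟩ -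
            sgR L C ⟨p.1.2, (Finset.mem_offDiag.mp p.2).2.1⟩)) := fun p _ => by
      rw [map_sub D'.ser, map_sub (algebraMap (PowerSeries O) (SeriesField O)), D'.al_ser,
        D'.al_ser, map_sub]
      rfl
    rw [← Finset.prod_attach, Finset.prod_congr rfl hfac, ← map_prod] at hD
    have hD' := congrArg (fun f => residue O (PowerSeries.constantCoeff f))
      (IsFractionRing.injective (PowerSeries O) (SeriesField O) hD)
    simp only [map_prod] at hD'
    rw [Finset.prod_eq_zero (Finset.mem_attach _ ⟨_, hmem⟩)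
      (by rw [map_sub, map_sub, map_sub, hres, sub_self])] at hD'
    refine residue_ne_zero_iff_isUnit _ |>.mpr (hD0u D'.c (hc ▸ hu)) ?_
    rw [hD']
    congr 1
    have : (PowerSeries.constantCoeff).comp
        (Polynomial.aeval (R := O) (PowerSeries.C D'.c + D'.t)).toRingHom =
        Polynomial.evalRingHom D'.c :=
      Polynomial.ringHom_ext (fun a => by simp)
        (by simp [D'.t_zero])
    exact (congrArg (fun f => f D0) this).symm
  have hcusp : D.ι (Polynomial.aeval (L.w C) (L.cuspPoly C)) =
      D'.ι (Polynomial.aeval (L.w C) (L.cuspPoly C)) := by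
    rw [ι_aeval_of D.ι D.ι_O D.ι_w, ι_aeval_of D'.ι D'.ι_O D'.ι_w, hc, ht]
  have htop := L.subfield_eq_top C (RingHom.eqLocusField D.ι D'.ι)
    (fun a => by show D.ι _ = D'.ι _; rw [D.ι_O, D'.ι_O]) fun y hy => by
      have h1 := congrArg al (hser ⟨y, hy⟩)
      rw [D.al_ser, D'.al_ser] at h1
      change D.ι (y * Polynomial.aeval (L.w C) (L.cuspPoly C)) =
        D'.ι (y * Polynomial.aeval (L.w C) (L.cuspPoly C)) at h1
      rw [map_mul, map_mul, hcusp] at h1
      exact mul_right_cancel₀ (by
        rw [← hcusp]; exact (map_ne_zero D.ι).mpr (L.aeval_cuspPoly_ne_zero C)) h1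
  exact RingHom.ext fun x => htop.ge (Subfield.mem_top x)

end Fermat.Agent.Mazur3.AtEta
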