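import Fermat.Agent.GalRep.Model.HolIntegral
import Fermat.Agent.GalRep.Model.SheetRoots
import Fermat.Agent.GalRep.Model.WildRoot

/-!
# Discs on the level field

A disc is an embedding of the level field into series in which the coordinate has nonconstant
reduction of derivative. Divisibility by a power of the uniformiser, integrality and separation of
the automorphisms pass from the disc at infinity to every disc.
-/

set_option autoImplicit false
set_option linter.unusedSectionVars false

noncomputable section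

namespace Fermat.Agent.Mazur3.AtEta

open GalRep GalRep.Model CongruenceSubgroup Polynomial IsLocalRing
open scoped MatrixGroups PowerSeries

variable {M : ℕ} [NeZero M] (L : Lev M) {O : Type} [CommRing O] [IsDomain O]
  [IsDiscreteValuationRing O] [IsAdicComplete (maximalIdeal O) O] [IsAlgClosed (ResidueField O)]
  (C : Cyc O M)

local notation "al" => algebraMap (PowerSeries O) (SeriesField O)

local notation "Ch" => chartRing O (Lev.w L C)

/-- Polynomials in the coordinate. -/
def wHom : O[X] →+* chartRing O (L.w C) :=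
  (Polynomial.aeval (R := O) (⟨L.w C, self_mem_chartRing (L.w C)⟩ : chartRing O (L.w C))).toRingHom

theorem wHom_apply (P : O[X]) : wHom L C P = polyVal (L.w C) P := rfl

theorem wHom_C (a : O) : wHom L C (Polynomial.C a) = algebraMap O Ch a := by simp [wHom]

/-! ## Fixed elements -/

/-- Invariant elements of the chart are polynomials in the coordinate. -/
theorem exists_wHom_of_fixed (x : Ch) (h : ∀ σ : L.gal C, σ • (x : lvlField C) = x) :
    ∃ P : O[X], x = wHom L C P := by
  obtain ⟨P, Q, hQ, hPQ⟩ := L.fixedRational C x h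
  set g : FractionRing O[X] →+* lvlField C :=
    IsFractionRing.lift (g := (Polynomial.aeval (R := O) (L.w C)).toRingHom)
      (L.aeval_w_injective C)
  have hg : ∀ S : O[X], g (algebraMap _ _ S) = Polynomial.aeval (L.w C) S := fun S =>
    IsFractionRing.lift_algebraMap (g := (Polynomial.aeval (R := O) (L.w C)).toRingHom)
      (L.aeval_w_injective C) S
  set z : FractionRing O[X] := algebraMap _ _ P / algebraMap _ _ Q
  have hz : g z = x := by rw [map_div₀, hg, hg, ← hPQ, mul_div_cancel_right₀ _ hQ]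
  obtain ⟨S, hS, hS0⟩ :=
    (isIntegral_adjoin_iff (O := O) (L.w C) (x : lvlField C)).mp (mem_chartRing_iff.mp x.2)
  have hint : IsIntegral O[X] z := by
    refine ⟨S, hS, g.injective ?_⟩
    rw [Polynomial.hom_eval₂, map_zero, hz, ← hS0]
    congr 1
    exact RingHom.ext hg
  obtain ⟨P', hP'⟩ := IsIntegrallyClosed.isIntegral_iff.mp hint
  refine ⟨P', Subtype.ext ?_⟩
  rw [wHom_apply, coe_polyVal, ← hg, hP', hz]

/-! ## The action on the chart -/

theorem smul_mem_chart (σ : L.gal C) {x : lvlField C} (hx : x ∈ chartRing O (L.w C)) :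
    σ • x ∈ chartRing O (L.w C) := by
  obtain ⟨S, hS, hS0⟩ := (isIntegral_adjoin_iff (O := O) (L.w C) x).mp (mem_chartRing_iff.mp hx)
  refine mem_chartRing_iff.mpr ((isIntegral_adjoin_iff (O := O) (L.w C) _).mpr ⟨S, hS, ?_⟩)
  have h1 := congrArg (MulSemiringAction.toRingHom (L.gal C) (lvlField C) σ) hS0
  rw [Polynomial.hom_eval₂, map_zero] at h1
  rw [← h1]
  congr 1
  exact RingHom.ext fun P => (L.smul_aeval C σ P).symm

/-- An automorphism over the coordinate, on the chart. -/
def chartGal (σ : L.gal C) : chartRing O (L.w C) →+* chartRing O (L.w C) :=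
  ((MulSemiringAction.toRingHom (L.gal C) (lvlField C) σ).comp
    (chartRing O (L.w C)).val.toRingHom).codRestrict _ fun x => smul_mem_chart L C σ x.2

@[simp] theorem coe_chartGal (σ : L.gal C) (x : Ch) :
    ((chartGal L C σ x : Ch) : lvlField C) = σ • (x : lvlField C) := rfl

theorem chartGal_wHom (σ : L.gal C) (P : O[X]) : chartGal L C σ (wHom L C P) = wHom L C P :=
  Subtype.ext (by rw [coe_chartGal, wHom_apply, coe_polyVal, L.smul_aeval])

theorem chartGal_const (σ : L.gal C) (a : O) :
    chartGal L C σ (algebraMap O Ch a) = algebraMap O Ch a := by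
  rw [← wHom_C, chartGal_wHom]

theorem chartGal_one (x : Ch) : chartGal L C 1 x = x := Subtype.ext (by rw [coe_chartGal, one_smul])

/-- The product of the differences with the other conjugates. -/
def diffProd [Fintype (L.gal C)] (x : chartRing O (L.w C)) : chartRing O (L.w C) := by
  classical exact ∏ σ ∈ Finset.univ.erase (1 : L.gal C), (x - chartGal L C σ x)

/-- The equation of an element over the coordinate. -/
theorem exists_equation [Fintype (L.gal C)] (x : Ch) : ∃ P : O[X][X],
    P.eval₂ (wHom L C) x = 0 ∧ (derivative P).eval₂ (wHom L C) x = diffProd L C x := by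
  classical
  set Pr : (chartRing O (L.w C))[X] :=
    ∏ σ : L.gal C, (Polynomial.X - Polynomial.C (chartGal L C σ x)) with hPr
  have hl : Pr ∈ Polynomial.lifts (wHom L C) := by
    rw [Polynomial.lifts_iff_coeff_lifts]
    intro k
    obtain ⟨P, hP⟩ := exists_wHom_of_fixed L C (Pr.coeff k) fun τ => by
      rw [← coe_chartGal, ← Polynomial.coeff_map]
      refine congrArg (fun Q : (chartRing O (L.w C))[X] => ((Q.coeff k : Ch) : lvlField C)) ?_
      rw [hPr, Polynomial.map_prod]
      refine Fintype.prod_equiv (Equiv.mulLeft τ) _ _ fun σ => ?_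
      rw [Polynomial.map_sub, Polynomial.map_X, Polynomial.map_C]
      exact congrArg (fun z => Polynomial.X - Polynomial.C z) (Subtype.ext (by simp [mul_smul]))
    exact ⟨P, hP.symm⟩
  obtain ⟨P, hP⟩ := (Polynomial.mem_lifts _).mp hl
  have hsplit : Pr = (Polynomial.X - Polynomial.C x) *
      ∏ σ ∈ Finset.univ.erase (1 : L.gal C), (Polynomial.X - Polynomial.C (chartGal L C σ x)) := by
    rw [hPr, ← Finset.mul_prod_erase _ _ (Finset.mem_univ (1 : L.gal C)), chartGal_one]
  refine ⟨P, ?_, ?_⟩
  · rw [← Polynomial.eval_map, hP, hsplit, Polynomial.eval_mul, Polynomial.eval_sub,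
      Polynomial.eval_X, Polynomial.eval_C, sub_self, zero_mul]
  · rw [← Polynomial.eval_map, ← Polynomial.derivative_map, hP, hsplit,
      Polynomial.derivative_mul, Polynomial.derivative_sub, Polynomial.derivative_X,
      Polynomial.derivative_C, sub_zero, one_mul, Polynomial.eval_add, Polynomial.eval_mul,
      Polynomial.eval_sub, Polynomial.eval_X, Polynomial.eval_C, sub_self, zero_mul, add_zero,
      Polynomial.eval_prod, diffProd]
    exact Finset.prod_congr rfl fun σ _ => by simp

/-! ## Discs -/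

/-- An embedding in series in which the coordinate is `c + t`. -/
structure Disc where
  ι : lvlField C →+* SeriesField O
  c : O
  t : PowerSeries O
  t_zero : PowerSeries.constantCoeff t = 0
  ι_O : ∀ a, ι (algebraMap O (lvlField C) a) = al (PowerSeries.C a)
  ι_w : ι (L.w C) = al (PowerSeries.C c + t)
  t_der : red (PowerSeries.derivative O t) ≠ 0

variable {L C} (D : Disc L C)

/-- The series of an element of the chart. -/
def Disc.ser : chartRing O (L.w C) →+* PowerSeries O where
  toFun f := (exists_series_of_mem D.ι D.ι_O D.ι_w f).choose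
  map_one' := IsFractionRing.injective _ (SeriesField O) (by
    rw [(exists_series_of_mem D.ι D.ι_O D.ι_w (1 : Ch)).choose_spec]; simp)
  map_zero' := IsFractionRing.injective _ (SeriesField O) (by
    rw [(exists_series_of_mem D.ι D.ι_O D.ι_w (0 : Ch)).choose_spec]; simp)
  map_mul' f g := IsFractionRing.injective _ (SeriesField O) (by
    rw [map_mul, (exists_series_of_mem D.ι D.ι_O D.ι_w (f * g)).choose_spec,
      (exists_series_of_mem D.ι D.ι_O D.ι_w f).choose_spec,
      (exists_series_of_mem D.ι D.ι_O D.ι_w g).choose_spec]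
    simp)
  map_add' f g := IsFractionRing.injective _ (SeriesField O) (by
    rw [map_add, (exists_series_of_mem D.ι D.ι_O D.ι_w (f + g)).choose_spec,
      (exists_series_of_mem D.ι D.ι_O D.ι_w f).choose_spec,
      (exists_series_of_mem D.ι D.ι_O D.ι_w g).choose_spec]
    simp)

theorem Disc.al_ser (f : Ch) : al (D.ser f) = D.ι f :=
  (exists_series_of_mem D.ι D.ι_O D.ι_w f).choose_spec

theorem Disc.ser_injective : Function.Injective D.ser := fun f g h =>
  Subtype.ext (D.ι.injective (by rw [← D.al_ser, ← D.al_ser, h]))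

theorem Disc.ser_wHom_eq : D.ser.comp (wHom L C) =
    (Polynomial.aeval (PowerSeries.C D.c + D.t)).toRingHom := by
  refine RingHom.ext fun P => IsFractionRing.injective _ (SeriesField O) ?_
  rw [RingHom.comp_apply, D.al_ser, wHom_apply, coe_polyVal, ι_aeval_of D.ι D.ι_O D.ι_w]
  rfl

theorem Disc.ser_const (a : O) : D.ser (algebraMap O Ch a) = PowerSeries.C a :=
  IsFractionRing.injective _ (SeriesField O) (by rw [D.al_ser]; exact D.ι_O a)

theorem Disc.ser_eval (P : O[X][X]) (x : Ch) : D.ser (P.eval₂ (wHom L C) x) =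
    P.eval₂ (Polynomial.aeval (PowerSeries.C D.c + D.t)).toRingHom (D.ser x) := by
  rw [Polynomial.hom_eval₂, D.ser_wHom_eq]

variable {π : O}

theorem Disc.red_t_ne_zero (hπ : Irreducible π) : red D.t ≠ 0 := fun h => by
  obtain ⟨q, hq⟩ := (red_eq_zero_iff hπ.maximalIdeal_eq _).mp h
  refine D.t_der ?_
  rw [hq, Derivation.leibniz, PowerSeries.derivative_C, smul_zero, add_zero, smul_eq_mul, map_mul,
    (red_eq_zero_iff hπ.maximalIdeal_eq _).mpr (dvd_refl _), zero_mul]

theorem Disc.red_ser_wHom_ne_zero (hπ : Irreducible π) {P : O[X]} (hP : ¬ Polynomial.C π ∣ P) :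
    red (D.ser (wHom L C P)) ≠ 0 := by
  rw [← RingHom.comp_apply D.ser, D.ser_wHom_eq, AlgHom.toRingHom_eq_coe, RingHom.coe_coe]
  have h : Polynomial.aeval (PowerSeries.C D.c + D.t) P =
      (Model.taylorSeries D.c P).subst D.t := by
    show _ = ((P.taylor D.c : O[X]) : PowerSeries O).subst D.t
    rw [subst_coe_eq_aeval D.t_zero, Polynomial.taylor_apply, Polynomial.aeval_comp]
    congr 1
    simp [add_comm]
  rw [h, show red ((Model.taylorSeries D.c P).subst D.t) = _ from
    map_subst_series (residue O) D.t_zero]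
  refine subst_ne_zero_of_ne_zero ?_ (D.red_t_ne_zero hπ)
    (fun h0 => hP ((red_taylorSeries_eq_zero_iff hπ.maximalIdeal_eq D.c P).mp h0))
  · rw [← PowerSeries.coeff_zero_eq_constantCoeff_apply, PowerSeries.coeff_map,
      PowerSeries.coeff_zero_eq_constantCoeff_apply, D.t_zero, map_zero]

theorem Disc.red_ser_pi_mul (hπ : Irreducible π) (f : Ch) :
    red (D.ser (algebraMap O Ch π * f)) = 0 := by
  rw [map_mul, D.ser_const, red_eq_zero_iff hπ.maximalIdeal_eq]
  exact dvd_mul_right _ _

theorem red_derivative_X_pow_mul {e : ℕ} (he : IsUnit (e : O)) (U : (PowerSeries O)ˣ) :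
    red (PowerSeries.derivative O (PowerSeries.X ^ e * (U : PowerSeries O))) ≠ 0 := by
  obtain ⟨k, rfl⟩ : ∃ k, e = k + 1 :=
    Nat.exists_eq_succ_of_ne_zero fun h => not_isUnit_zero (M₀ := O) (by simp [h] at he)
  have h : PowerSeries.derivative O (PowerSeries.X ^ (k + 1) * (U : PowerSeries O)) =
      PowerSeries.X ^ k * (((k + 1 : ℕ) : PowerSeries O) * (U : PowerSeries O) +
        PowerSeries.X * PowerSeries.derivative O (U : PowerSeries O)) := by
    rw [Derivation.leibniz, Derivation.leibniz_pow, PowerSeries.derivative_X]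
    simp [smul_eq_mul, pow_succ]
    ring
  rw [h, map_mul, map_pow, PowerSeries.map_X]
  refine mul_ne_zero (pow_ne_zero _ PowerSeries.X_ne_zero) (IsUnit.ne_zero (IsUnit.map _ ?_))
  rw [PowerSeries.isUnit_iff_constantCoeff, map_add, map_mul, map_mul, PowerSeries.constantCoeff_X,
    zero_mul, add_zero, map_natCast]
  exact he.mul (PowerSeries.isUnit_constantCoeff _ U.isUnit)

variable (L C)

/-- The cusp `δ ∞` over a finite value of the coordinate as a disc. -/
def cuspDisc {i : Fin 4} (hi : i ∈ L.J) {δ : SL(2, ℤ)} (h : L.IsCusp i δ) : Disc L C where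
  ι := serAt C δ
  c := L.cval C i
  t := PowerSeries.X ^ L.e * ((L.serAt_w_finite C hi h).choose : PowerSeries O)
  t_zero := by simp [zero_pow L.e_pos.ne']
  ι_O := serAt_algebraMap C δ
  ι_w := (L.serAt_w_finite C hi h).choose_spec
  t_der := red_derivative_X_pow_mul (L.isUnit_e C) _

theorem two_mem_J : (2 : Fin 4) ∈ L.J := L.mem_J.mpr ⟨L.valid2, by decide⟩

theorem isCusp_two_one : L.IsCusp 2 (1 : SL(2, ℤ)) := by
  simpa [cuspMat] using L.isCusp_cuspMat 2 L.valid2

/-- The disc at infinity. -/
def inftyDisc : Disc L C := cuspDisc L C (two_mem_J L) (isCusp_two_one L)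

theorem inftyDisc_ι : (inftyDisc L C).ι = serAt C 1 := rfl

/-- Divisibility at infinity is divisibility in the chart. -/
theorem dvd_of_infty {π : O} (hπ : Irreducible π) (f : Ch) :
    ∀ k : ℕ, PowerSeries.C π ^ k ∣ (inftyDisc L C).ser f → algebraMap O Ch π ^ k ∣ f := by
  intro k hk
  obtain ⟨j, hj⟩ := L.exists_sheet_one C (O := O)
  refine (L.model C).pi_pow_dvd_of_ser hπ 0 j k f ?_
  convert hk using 1
  apply IsFractionRing.injective (PowerSeries O) (SeriesField O)
  rw [Disc.al_ser, Sheets.algebraMap_ser, hj, inftyDisc_ι]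

variable {L C}

theorem Disc.dvd_ser {π : O} {k : ℕ} {f : Ch} (h : algebraMap O Ch π ^ k ∣ f) :
    PowerSeries.C π ^ k ∣ D.ser f := by
  obtain ⟨g, rfl⟩ := h
  rw [map_mul, map_pow, D.ser_const]
  exact dvd_mul_right _ _

theorem pi_dvd_iff {π : O} (hπ : Irreducible π) (f : Ch) :
    algebraMap O Ch π ∣ f ↔ red ((inftyDisc L C).ser f) = 0 := by
  rw [red_eq_zero_iff hπ.maximalIdeal_eq]
  refine ⟨fun h => ?_, fun h => ?_⟩
  · rw [← pow_one (PowerSeries.C π)]
    exact (inftyDisc L C).dvd_ser (by rwa [pow_one])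
  · rw [← pow_one (algebraMap O Ch π)]
    exact dvd_of_infty L C hπ f 1 (by rwa [pow_one])

/-- An element with nonzero reduction at infinity has nonzero reduction on every disc. -/
theorem Disc.red_ser_ne_zero {π : O} (hπ : Irreducible π) {f : Ch}
    (hf : ¬ algebraMap O Ch π ∣ f) : red (D.ser f) ≠ 0 := by
  classical
  have := Fintype.ofFinite (L.gal C)
  set g : Ch := ∏ σ : L.gal C, chartGal L C σ f with hg
  obtain ⟨P, hP⟩ := exists_wHom_of_fixed L C g fun τ => by
    rw [← coe_chartGal, hg, map_prod]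
    refine congrArg Subtype.val (Fintype.prod_equiv (Equiv.mulLeft τ) _ _ fun σ => ?_)
    exact Subtype.ext (by simp [mul_smul])
  have hgd : ¬ algebraMap O Ch π ∣ g := by
    intro h
    rw [pi_dvd_iff hπ, hg, map_prod, map_prod, Finset.prod_eq_zero_iff] at h
    obtain ⟨σ, -, h⟩ := h
    obtain ⟨u, hu⟩ := (pi_dvd_iff hπ _).mpr h
    refine hf ⟨chartGal L C σ⁻¹ u, ?_⟩
    have h1 := congrArg (chartGal L C σ⁻¹) hu
    rw [map_mul, chartGal_const] at h1
    rw [← h1]
    exact Subtype.ext (by simp)
  intro h0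
  have hP' : ¬ Polynomial.C π ∣ P := fun ⟨Q, hQ⟩ => hgd ⟨wHom L C Q, by
    rw [hP, hQ, map_mul, wHom_C]⟩
  refine D.red_ser_wHom_ne_zero hπ hP' ?_
  rw [← hP, hg, map_prod, map_prod]
  exact Finset.prod_eq_zero (Finset.mem_univ (1 : L.gal C)) (by rw [chartGal_one, h0])

/-! ## A separating element -/

variable (L C)

/-- The scaled generators in the chart. -/
def sgR (y : L.genSet C) : chartRing O (L.w C) :=
  ⟨L.sgen C y, L.mem_chartRing C (L.sgen_mem C y.2)⟩

theorem chartGal_sgR (σ : L.gal C) (y : L.genSet C) :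
    chartGal L C σ (sgR L C y) = sgR L C ⟨σ • (y : lvlField C), L.smul_gen_mem C σ y.2⟩ :=
  Subtype.ext (by simp [sgR, Lev.sgen, smul_mul', L.smul_aeval])

theorem sgR_sub_not_dvd {π : O} (hπ : Irreducible π) {y y' : L.genSet C} (h : y ≠ y') :
    ¬ algebraMap O Ch π ∣ sgR L C y - sgR L C y' := by
  classical
  obtain ⟨D0, hD0, hD0u⟩ := L.exists_disc C
  obtain ⟨c, hc⟩ := Infinite.exists_notMem_finset
    (L.J.image fun i => residue O (L.cval C i))
  obtain ⟨c, rfl⟩ := residue_surjective c
  have hu : IsUnit (D0.eval c) := hD0u c fun i hi => by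
    rw [← residue_ne_zero_iff_isUnit, map_sub, sub_ne_zero]
    exact fun he => hc (Finset.mem_image.mpr ⟨i, hi, he.symm⟩)
  have hD0' : ¬ Polynomial.C π ∣ D0 := by
    rintro ⟨Q, rfl⟩
    rw [Polynomial.eval_mul, Polynomial.eval_C] at hu
    exact hπ.not_isUnit (isUnit_of_mul_isUnit_left hu)
  intro hd
  refine (inftyDisc L C).red_ser_wHom_ne_zero hπ hD0' ?_
  rw [← pi_dvd_iff hπ]
  refine hd.trans ?_
  have hmem : ((y : lvlField C), (y' : lvlField C)) ∈ (L.genSet C).offDiag :=
    Finset.mem_offDiag.mpr ⟨y.2, y'.2, fun he => h (Subtype.ext he)⟩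
  refine ⟨∏ p ∈ ((L.genSet C).offDiag.erase ((y : lvlField C), (y' : lvlField C))).attach,
    (sgR L C ⟨p.1.1, (Finset.mem_offDiag.mp (Finset.mem_of_mem_erase p.2)).1⟩ -
      sgR L C ⟨p.1.2, (Finset.mem_offDiag.mp (Finset.mem_of_mem_erase p.2)).2.1⟩), Subtype.ext ?_⟩
  rw [wHom_apply, coe_polyVal, ← hD0, ← Finset.mul_prod_erase _ _ hmem, MulMemClass.coe_mul,
    SubmonoidClass.coe_finsetProd]
  congr 1
  rw [← Finset.prod_attach]
  rfl

/-- An element whose conjugates differ on the special fibre. -/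
theorem exists_theta {π : O} (hπ : Irreducible π) [Fintype (L.gal C)] :
    ∃ θ ∈ Algebra.adjoin O (Set.range (sgR L C)), ¬ algebraMap O Ch π ∣ diffProd L C θ := by
  classical
  let k := Fintype.card (L.genSet C)
  let en : Fin k ≃ L.genSet C := (Fintype.equivFin _).symm
  let rs : Ch →+* (ResidueField O)⟦X⟧ := red.comp (inftyDisc L C).ser
  let Pσ : L.gal C → ((ResidueField O)⟦X⟧)[X] := fun σ =>
    ∑ i : Fin k, Polynomial.C (rs (sgR L C (en i) - chartGal L C σ (sgR L C (en i)))) *
      Polynomial.X ^ (i : ℕ)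
  have hne : ∀ σ ∈ Finset.univ.erase (1 : L.gal C), Pσ σ ≠ 0 := by
    intro σ hσ h0
    obtain ⟨y, hy, hne⟩ : ∃ y ∈ L.genSet C, σ • y ≠ y := by
      by_contra hall
      push Not at hall
      exact (Finset.mem_erase.mp hσ).1 (L.gal_eq_of_smul_eq C fun y hy => by
        rw [hall y hy, one_smul])
    have hd : ¬ algebraMap O Ch π ∣ sgR L C ⟨y, hy⟩ - chartGal L C σ (sgR L C ⟨y, hy⟩) := by
      rw [chartGal_sgR]
      exact sgR_sub_not_dvd L C hπ fun he => hne (congrArg Subtype.val he).symm
    refine hd ((pi_dvd_iff hπ _).mpr ?_)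
    have h1 := congrArg (fun p : ((ResidueField O)⟦X⟧)[X] =>
      p.coeff ((en.symm ⟨y, hy⟩ : Fin k) : ℕ)) h0
    simp only [Pσ, Polynomial.finsetSum_coeff, Polynomial.coeff_C_mul_X_pow, Fin.val_inj,
      Finset.sum_ite_eq, Finset.mem_univ, if_true, Polynomial.coeff_zero,
      Equiv.apply_symm_apply] at h1
    exact h1
  let bad : Finset ((ResidueField O)⟦X⟧) :=
    (Finset.univ.erase (1 : L.gal C)).biUnion fun σ => (Pσ σ).roots.toFinset
  obtain ⟨r, hr⟩ := Infinite.exists_notMem_finset (bad.preimage _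
    (PowerSeries.C_injective (R := ResidueField O)).injOn)
  obtain ⟨r, rfl⟩ := residue_surjective r
  rw [Finset.mem_preimage] at hr
  refine ⟨∑ i : Fin k, algebraMap O Ch r ^ (i : ℕ) * sgR L C (en i),
    sum_mem fun i _ => mul_mem (pow_mem (Subalgebra.algebraMap_mem _ r) _)
      (Algebra.subset_adjoin ⟨_, rfl⟩), ?_⟩
  rw [pi_dvd_iff hπ]
  unfold diffProd
  rw [map_prod, map_prod, Finset.prod_eq_zero_iff]
  rintro ⟨σ, hσ, h0⟩
  refine hr (Finset.mem_biUnion.mpr ⟨σ, hσ, Multiset.mem_toFinset.mpr
    ((Polynomial.mem_roots (hne σ hσ)).mpr ?_)⟩)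
  rw [Polynomial.IsRoot, ← h0, map_sum, ← Finset.sum_sub_distrib]
  simp only [Pσ, Polynomial.eval_finsetSum, Polynomial.eval_mul, Polynomial.eval_C,
    Polynomial.eval_pow, Polynomial.eval_X, map_sum, rs, RingHom.comp_apply]
  refine Finset.sum_congr rfl fun i _ => ?_
  rw [map_mul (chartGal L C σ), map_pow (chartGal L C σ), chartGal_const, ← mul_sub, map_mul,
    map_mul, map_pow, map_pow, Disc.ser_const, PowerSeries.map_C, mul_comm]

end Fermat.Agent.Mazur3.AtEta
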