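import Fermat.Agent.GalRep.Model.LocalRoots
import Mathlib.RingTheory.PowerSeries.Substitution

/-!
# Evaluation of series at a point of the maximal ideal

For `a` in the maximal ideal of a complete base inside `ℂ`, series evaluate at `a`, and more
generally at any complex series with constant term `a`; the homomorphism is determined by the image
of the variable.
-/

set_option autoImplicit false
set_option linter.unusedSectionVars false

noncomputable section

namespace Fermat.Agent.Mazur3.AtEta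

open GalRep.Model IsLocalRing PowerSeries

/-- The lowest nonzero coefficient. -/
def lead {k : Type*} [CommRing k] [IsDomain k] (f : k⟦X⟧) : k :=
  constantCoeff (divXPowOrder f)

section Lead

variable {k : Type*} [CommRing k] [IsDomain k]

theorem lead_mul (f g : k⟦X⟧) : lead (f * g) = lead f * lead g := by
  rw [lead, lead, lead, ← map_mul, divXPowOrder_mul]

theorem lead_ne_zero {f : k⟦X⟧} (hf : f ≠ 0) : lead f ≠ 0 := by
  rw [lead, constantCoeff_divXPowOrder]
  exact coeff_order hf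

theorem lead_of_constantCoeff_ne_zero {f : k⟦X⟧} (hf : constantCoeff f ≠ 0) :
    lead f = constantCoeff f := by
  have h : f.order = 0 := le_antisymm (order_le 0 (by rwa [coeff_zero_eq_constantCoeff_apply]))
    zero_le
  rw [lead, constantCoeff_divXPowOrder, h, ENat.toNat_zero, coeff_zero_eq_constantCoeff_apply]

theorem lead_one : lead (1 : k⟦X⟧) = 1 := by
  rw [lead_of_constantCoeff_ne_zero (by simp), map_one]

theorem lead_pow (f : k⟦X⟧) (n : ℕ) : lead (f ^ n) = lead f ^ n := by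
  induction n with
  | zero => rw [pow_zero, pow_zero, lead_one]
  | succ n ih => rw [pow_succ, pow_succ, lead_mul, ih]

theorem lead_C (c : k) : lead (C c) = c := by
  by_cases hc : c = 0
  · simp [lead, hc]
  · rw [lead_of_constantCoeff_ne_zero (by simpa using hc), constantCoeff_C]

theorem lead_prod {ι : Type*} (s : Finset ι) (f : ι → k⟦X⟧) :
    lead (∏ i ∈ s, f i) = ∏ i ∈ s, lead (f i) := by
  induction s using Finset.cons_induction with
  | empty => simp [lead_one]
  | cons a s ha ih => rw [Finset.prod_cons, Finset.prod_cons, lead_mul, ih]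

end Lead

variable {O : Type} [CommRing O] [IsDomain O] [IsDiscreteValuationRing O]
  [IsAdicComplete (maximalIdeal O) O]

/-- A point of the maximal ideal of a base inside `ℂ`. -/
structure MPoint (O : Type) [CommRing O] [IsDomain O] [IsDiscreteValuationRing O] : Type where
  φ : O →+* ℂ
  injective : Function.Injective φ
  a : O
  mem : a ∈ maximalIdeal O

namespace MPoint

variable (x : MPoint O)

/-- The zero `a` of `X - a`. -/
def zero : DiscZero O x.φ where
  P := Polynomial.X - Polynomial.C x.a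
  dist := by
    refine ⟨⟨fun {i} hi => ?_⟩, Polynomial.monic_X_sub_C _⟩
    rw [Polynomial.natDegree_X_sub_C] at hi
    obtain rfl : i = 0 := by omega
    simpa using neg_mem x.mem
  z := x.φ x.a
  root := by simp

theorem coe_zero_P : ((x.zero.P : Polynomial O) : O⟦X⟧) = X - C x.a := by
  show ((Polynomial.X - Polynomial.C x.a : Polynomial O) : O⟦X⟧) = _
  rw [Polynomial.coe_sub, Polynomial.coe_X, Polynomial.coe_C]

theorem exists_decomp (g : O⟦X⟧) (N : ℕ) :
    ∃ (r : Polynomial O) (q : O⟦X⟧), g = (r : O⟦X⟧) + (X - C x.a) ^ (N + 1) * q := by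
  obtain ⟨r, q, hq⟩ := x.zero.exists_poly N g
  refine ⟨r, q, ?_⟩
  rw [← x.coe_zero_P, ← Polynomial.coe_pow, ← hq]
  ring

/-- The expansion at `a`, coefficientwise. -/
def shiftFun (g : O⟦X⟧) : ℂ⟦X⟧ :=
  PowerSeries.mk fun k => Jet.coef k (Nat.lt_succ_self k) (x.zero.ev k g)

theorem ev_shiftFun (g : O⟦X⟧) (N : ℕ) :
    x.zero.ev N g = Ideal.Quotient.mk _ (x.shiftFun g) := by
  obtain ⟨r, hr⟩ := x.zero.exists_poly N g
  rw [x.zero.ev_eq_of_dvd N hr, Jet.mk_eq_mk_iff, X_pow_dvd_iff]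
  intro k hk
  have hk' : ((x.zero.P ^ (k + 1) : Polynomial O) : O⟦X⟧) ∣ g - (r : O⟦X⟧) :=
    (map_dvd (Polynomial.coeToPowerSeries.ringHom (R := O))
      (pow_dvd_pow x.zero.P (show k + 1 ≤ N + 1 by omega))).trans hr
  rw [map_sub, shiftFun, coeff_mk, x.zero.ev_eq_of_dvd k hk', Jet.coef_mk, sub_self]

theorem eq_shiftFun {g : O⟦X⟧} {h : ℂ⟦X⟧}
    (hh : ∀ N, x.zero.ev N g = Ideal.Quotient.mk _ h) : x.shiftFun g = h := by
  refine PowerSeries.ext fun k => ?_
  rw [shiftFun, coeff_mk, hh, Jet.coef_mk]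

/-- The expansion at `a`. -/
def shift : O⟦X⟧ →+* ℂ⟦X⟧ where
  toFun := x.shiftFun
  map_one' := x.eq_shiftFun fun N => by simp
  map_zero' := x.eq_shiftFun fun N => by simp
  map_mul' f g := x.eq_shiftFun fun N => by
    rw [map_mul, x.ev_shiftFun, x.ev_shiftFun, map_mul]
  map_add' f g := x.eq_shiftFun fun N => by
    rw [map_add, x.ev_shiftFun, x.ev_shiftFun, map_add]

theorem shift_C (o : O) : x.shift (C o) = C (x.φ o) :=
  x.eq_shiftFun fun N => by rw [DiscZero.ev_C]

theorem shift_X : x.shift X = C (x.φ x.a) + X :=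
  x.eq_shiftFun fun N => by rw [DiscZero.ev_X]; rfl

theorem exists_const (g : O⟦X⟧) : ∃ o : O, x.φ o = constantCoeff (x.shift g) := by
  obtain ⟨r, q, rfl⟩ := x.exists_decomp g 0
  refine ⟨r.eval x.a, ?_⟩
  rw [map_add, map_mul, map_pow, map_sub, shift_X, shift_C, map_add, map_mul, map_pow,
    add_sub_cancel_left, constantCoeff_X, zero_add, pow_one, zero_mul, add_zero]
  induction r using Polynomial.induction_on' with
  | add a b ha hb => rw [Polynomial.eval_add, map_add, ha, hb, Polynomial.coe_add, map_add, map_add]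
  | monomial n c =>
    rw [Polynomial.eval_monomial, ← Polynomial.C_mul_X_pow_eq_monomial, Polynomial.coe_mul,
      Polynomial.coe_C, Polynomial.coe_pow, Polynomial.coe_X, map_mul, map_mul, map_pow, map_pow,
      shift_C, shift_X, map_mul, map_pow, map_add, constantCoeff_C, constantCoeff_C,
      constantCoeff_X, add_zero]

/-- The value at `a`, pointwise. -/
def evOFun (g : O⟦X⟧) : O := (x.exists_const g).choose

theorem map_evOFun (g : O⟦X⟧) : x.φ (x.evOFun g) = constantCoeff (x.shift g) :=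
  (x.exists_const g).choose_spec

/-- The value at `a`. -/
def evO : O⟦X⟧ →+* O where
  toFun := x.evOFun
  map_one' := x.injective (by rw [map_evOFun]; simp)
  map_zero' := x.injective (by rw [map_evOFun]; simp)
  map_mul' f g := x.injective (by
    rw [map_evOFun, map_mul, map_mul, map_mul, map_evOFun, map_evOFun])
  map_add' f g := x.injective (by
    rw [map_evOFun, map_add, map_add, map_add, map_evOFun, map_evOFun])

theorem map_evO (g : O⟦X⟧) : x.φ (x.evO g) = constantCoeff (x.shift g) :=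
  x.map_evOFun g

@[simp] theorem evO_C (o : O) : x.evO (C o) = o :=
  x.injective (by rw [map_evO, shift_C, constantCoeff_C])

@[simp] theorem evO_X : x.evO X = x.a :=
  x.injective (by rw [map_evO, shift_X, map_add, constantCoeff_C, constantCoeff_X, add_zero])

/-- Two homomorphisms agreeing on constants and at the variable agree. -/
theorem hom_ext_of_eval {R : Type*} [CommRing R] {Ψ Φ : O⟦X⟧ →+* R⟦X⟧}
    (hC : ∀ o, Ψ (C o) = Φ (C o)) (hX : Ψ X = Φ X)
    (h0 : constantCoeff (Φ X - Φ (C x.a)) = 0) : Ψ = Φ := by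
  refine RingHom.ext fun g => sub_eq_zero.mp (PowerSeries.ext fun n => ?_)
  obtain ⟨r, q, rfl⟩ := x.exists_decomp g n
  have hr : Ψ (r : O⟦X⟧) = Φ (r : O⟦X⟧) := by
    have h : Ψ.comp (Polynomial.coeToPowerSeries.ringHom) =
        Φ.comp (Polynomial.coeToPowerSeries.ringHom) :=
      Polynomial.ringHom_ext (fun c => by simpa using hC c) (by simpa using hX)
    simpa using RingHom.congr_fun h r
  have hd : X ^ (n + 1) ∣ (Φ X - Φ (C x.a)) ^ (n + 1) :=
    pow_dvd_pow_of_dvd (X_dvd_iff.mpr h0) _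
  rw [map_zero, map_add Ψ, map_add Φ, hr, add_sub_add_left_eq_sub, map_mul Ψ, map_mul Φ,
    map_pow Ψ, map_pow Φ, map_sub Ψ, map_sub Φ, hC, hX, ← mul_sub]
  exact X_pow_dvd_iff.mp (hd.mul_right _) n (Nat.lt_succ_self n)

/-- The evaluation at a series with constant term `a`. -/
def evAt (A : ℂ⟦X⟧) (hA : constantCoeff A = x.φ x.a) : O⟦X⟧ →+* ℂ⟦X⟧ :=
  (substAlgHom (R := ℂ) (HasSubst.of_constantCoeff_zero'
    (show constantCoeff (A - C (x.φ x.a)) = 0 by simp [hA]))).toRingHom.comp x.shift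

variable {A : ℂ⟦X⟧} (hA : constantCoeff A = x.φ x.a)

@[simp] theorem evAt_C (o : O) : x.evAt A hA (C o) = C (x.φ o) := by
  rw [evAt, RingHom.comp_apply, shift_C, AlgHom.toRingHom_eq_coe, RingHom.coe_coe,
    show C (x.φ o) = algebraMap ℂ ℂ⟦X⟧ (x.φ o) from rfl, AlgHom.commutes]

@[simp] theorem evAt_X : x.evAt A hA X = A := by
  rw [evAt, RingHom.comp_apply, shift_X, AlgHom.toRingHom_eq_coe, RingHom.coe_coe, map_add,
    substAlgHom_X]
  refine Eq.trans (congrArg (· + _) (AlgHom.commutes _ (x.φ x.a))) ?_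
  exact add_sub_cancel _ _

/-- Evaluation is characterised by the image of the variable. -/
theorem eq_evAt {Ψ : O⟦X⟧ →+* ℂ⟦X⟧} (hC : ∀ o, Ψ (C o) = C (x.φ o)) (hX : Ψ X = A) :
    Ψ = x.evAt A hA :=
  x.hom_ext_of_eval (fun o => by rw [hC, evAt_C]) (by rw [hX, evAt_X]) (by
    rw [evAt_X, evAt_C, map_sub, constantCoeff_C, hA, sub_self])

theorem constantCoeff_evAt (g : O⟦X⟧) : constantCoeff (x.evAt A hA g) = x.φ (x.evO g) := by
  obtain ⟨r, q, rfl⟩ := x.exists_decomp g 0
  simp only [map_add, map_mul, map_sub, evAt_X, evAt_C, evO_X, evO_C, constantCoeff_C,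
    hA, sub_self, zero_add, pow_one, zero_mul, add_zero]
  induction r using Polynomial.induction_on' with
  | add a b ha hb =>
    rw [Polynomial.coe_add, map_add, map_add, map_add, map_add, ha, hb]
  | monomial n c =>
    rw [← Polynomial.C_mul_X_pow_eq_monomial, Polynomial.coe_mul,
      Polynomial.coe_C, Polynomial.coe_pow, Polynomial.coe_X, map_mul, map_mul, map_mul, map_mul,
      map_pow, map_pow, map_pow, map_pow, evAt_C, evAt_X, evO_C, evO_X, constantCoeff_C, hA]

end MPoint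

/-! ## Congruences -/

section Congr

theorem charZero_of_hom {φ : O →+* ℂ} (_hφ : Function.Injective φ) : CharZero O :=
  ⟨fun a b h => Nat.cast_injective (R := ℂ) (by simpa using congrArg φ h)⟩

theorem exists_one_add_pow_eq {A : Type*} [CommRing A] (z : A) (n : ℕ) :
    ∃ k : A, (1 + z) ^ n = 1 + (n : A) * z + z ^ 2 * k := by
  induction n with
  | zero => exact ⟨0, by simp⟩
  | succ n ih =>
    obtain ⟨k, hk⟩ := ih
    exact ⟨k + z * k + n, by rw [pow_succ, hk]; push_cast; ring⟩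

theorem isUnit_one_add_of_mem {z : O} (hz : z ∈ maximalIdeal O) : IsUnit (1 + z) := by
  by_contra h
  exact (maximalIdeal O).ne_top_iff_one.mp (maximalIdeal.isMaximal O).ne_top
    (by simpa using sub_mem ((mem_maximalIdeal _).mpr h) hz)

variable {η : ℕ} [hη : Fact η.Prime]

theorem sq_le_two_pow (j : ℕ) : j * j ≤ 2 ^ (j + 1) := by
  induction j with
  | zero => simp
  | succ j ih =>
    rcases Nat.lt_or_ge j 3 with h | h
    · interval_cases j <;> norm_num
    · rw [pow_succ]; nlinarith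

theorem isUnit_natCast_of_not_dvd (hm : (η : O) ∈ maximalIdeal O) {i : ℕ} (hi : ¬ η ∣ i) :
    IsUnit (i : O) := by
  by_contra h
  obtain ⟨u, v, huv⟩ := Nat.Coprime.isCoprime ((Nat.Prime.coprime_iff_not_dvd hη.out).mpr hi)
  refine (maximalIdeal O).ne_top_iff_one.mp (maximalIdeal.isMaximal O).ne_top ?_
  have := congrArg (Int.cast : ℤ → O) huv
  push_cast at this
  rw [← this]
  exact add_mem (Ideal.mul_mem_left _ _ hm) (Ideal.mul_mem_left _ _ ((mem_maximalIdeal _).mpr h))

/-- Coefficientwise congruence of `i g_i` gives congruence of the values. -/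
theorem MPoint.pow_dvd_evO_sub (x : MPoint O) (hm : (η : O) ∈ maximalIdeal O) {M0 : ℕ}
    (hM0 : 0 < M0) (ha : (η : O) ∣ x.a ^ M0) {m : ℕ} {g : O⟦X⟧}
    (hg : ∀ i : ℕ, (η : O) ^ m ∣ (i : O) * coeff i g) :
    (η : O) ^ (m - 2 * M0) ∣ x.evO g - constantCoeff g := by
  have : CharZero O := charZero_of_hom x.injective
  have hη0 : (η : O) ≠ 0 := Nat.cast_ne_zero.mpr hη.out.ne_zero
  have key : ∀ i, 0 < i → (η : O) ^ (m - 2 * M0) ∣ coeff i g * x.a ^ i := by
    intro i hi
    obtain ⟨j, i', hi', rfl⟩ := Nat.exists_eq_pow_mul_and_not_dvd hi.ne' η hη.out.one_lt.ne'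
    have hij : η ^ j ≤ η ^ j * i' := Nat.le_mul_of_pos_right _ (Nat.pos_of_ne_zero fun h => hi' (h ▸ dvd_zero η))
    obtain ⟨d, hdd⟩ : ∃ d, (η ^ j * i') / M0 = d := ⟨_, rfl⟩
    have hjb : j ≤ d + 2 * M0 := by
      rcases Nat.lt_or_ge (2 * M0) j with h | h
      · rw [← hdd]
        refine le_add_right ((Nat.le_div_iff_mul_le hM0).mpr ?_)
        have h2 : 2 ^ j ≤ η ^ j := Nat.pow_le_pow_left hη.out.two_le j
        have h3 := sq_le_two_pow j
        rw [pow_succ] at h3
        nlinarith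
      · omega
    have hpow : (η : O) ^ d ∣ x.a ^ (η ^ j * i') := by
      rw [← hdd]
      refine (pow_dvd_pow_of_dvd ha _).trans ?_
      rw [← pow_mul]
      exact pow_dvd_pow _ (Nat.mul_div_le _ _)
    rcases Nat.lt_or_ge j m with hjm | hjm
    · have h1 : (η : O) ^ (m - j) ∣ coeff (η ^ j * i') g := by
        have h := hg (η ^ j * i')
        rw [show m = j + (m - j) by omega, pow_add, Nat.cast_mul, Nat.cast_pow, mul_assoc,
          mul_dvd_mul_iff_left (pow_ne_zero _ hη0)] at h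
        exact (isUnit_natCast_of_not_dvd hm hi').dvd_mul_left.mp h
      refine (pow_dvd_pow _ (show m - 2 * M0 ≤ m - j + d by omega)).trans ?_
      rw [pow_add]
      exact mul_dvd_mul h1 hpow
    · exact dvd_mul_of_dvd_right
        ((pow_dvd_pow _ (show m - 2 * M0 ≤ d by omega)).trans hpow) _
  set N := M0 * m + 1
  have hd : g = (trunc N g : O⟦X⟧) + X ^ N * PowerSeries.mk fun i => coeff (i + N) g := by
    ext i
    rw [map_add, Polynomial.coeff_coe, coeff_trunc, coeff_X_pow_mul', coeff_mk]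
    split_ifs with h1 h2 <;> first | omega | simp [*]
  conv_rhs => arg 1; rw [hd]
  rw [map_add, map_mul, map_pow, MPoint.evO_X, add_sub_right_comm]
  refine dvd_add ?_ (dvd_mul_of_dvd_left ?_ _)
  · have htr : (trunc N g : O⟦X⟧) = ∑ i ∈ Finset.range N, C (coeff i g) * X ^ i := by
      ext i
      rw [Polynomial.coeff_coe, coeff_trunc, map_sum]
      simp [coeff_C_mul, coeff_X_pow]
    rw [htr, map_sum, Finset.range_eq_Ico, Finset.sum_eq_sum_Ico_succ_bot (Nat.succ_pos _),
      map_mul, map_pow, pow_zero, mul_one, MPoint.evO_C, coeff_zero_eq_constantCoeff_apply,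
      add_sub_cancel_left]
    refine Finset.dvd_sum fun i hi => ?_
    rw [map_mul, map_pow, MPoint.evO_C, MPoint.evO_X]
    exact key i (by rw [Finset.mem_Ico] at hi; omega)
  · refine (pow_dvd_pow_of_dvd ha (m - 2 * M0)).trans ?_
    rw [← pow_mul]
    exact pow_dvd_pow _ ((Nat.mul_le_mul_left M0 (Nat.sub_le m _)).trans (Nat.le_succ _))

/-- A high power of a principal unit is close to `1`. -/
theorem exists_pow_sub_one_dvd {φ : O →+* ℂ} (hφ : Function.Injective φ)
    (hm : (η : O) ∈ maximalIdeal O) {M0 : ℕ} (hM0 : 0 < M0) {a : O} (ha : (η : O) ∣ a ^ M0)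
    (k : ℕ) : (η : O) ^ k ∣ (1 + a) ^ η ^ (k + 2 * M0) - 1 := by
  have hmem : a ∈ maximalIdeal O :=
    (maximalIdeal.isMaximal O).isPrime.mem_of_pow_mem M0 (Ideal.mem_of_dvd _ ha hm)
  have hd : ∀ i : ℕ, (η : O) ^ (k + 2 * M0) ∣
      (i : O) * coeff i ((1 + X : O⟦X⟧) ^ η ^ (k + 2 * M0)) := by
    intro i
    have h : d⁄dX O ((1 + X : O⟦X⟧) ^ η ^ (k + 2 * M0)) =
        C ((η : O) ^ (k + 2 * M0)) * (1 + X) ^ (η ^ (k + 2 * M0) - 1) := by
      rw [Derivation.leibniz_pow, map_add, Derivation.map_one_eq_zero, derivative_X]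
      simp
    cases i with
    | zero => simp
    | succ i =>
      have h1 := congrArg (coeff i) h
      rw [coeff_derivative, coeff_C_mul] at h1
      exact ⟨_, by rw [← h1]; push_cast; ring⟩
  have h := (⟨φ, hφ, a, hmem⟩ : MPoint O).pow_dvd_evO_sub hm hM0 ha hd
  rwa [Nat.add_sub_cancel, map_pow, map_add, map_one, MPoint.evO_X, map_pow, map_add, map_one,
    constantCoeff_X, add_zero, one_pow] at h

/-- A unit close to `1` has an `η`-th root close to `1`. -/
theorem exists_root_near_one {φ : O →+* ℂ} (hφ : Function.Injective φ)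
    (hm : (η : O) ∈ maximalIdeal O) {m : ℕ} (hm2 : 2 ≤ m) {v : O}
    (hv : (η : O) ^ (m + 2) ∣ v - 1) :
    ∃ y : O, y ^ η = v ∧ (η : O) ^ (m + 1) ∣ y - 1 := by
  have : CharZero O := charZero_of_hom hφ
  obtain ⟨w, hw⟩ := hv
  obtain ⟨k, hk⟩ : ∃ k : O⟦X⟧, (1 + C ((η : O) ^ m) * X) ^ η =
      1 + (η : O⟦X⟧) * (C ((η : O) ^ m) * X) + (C ((η : O) ^ m) * X) ^ 2 * k :=
    exists_one_add_pow_eq _ η
  set f : O⟦X⟧ := X + C ((η : O) ^ (m - 1)) * X ^ 2 * k with hf
  have hf1 : coeff 1 f = 1 := by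
    rw [hf, map_add, coeff_one_X, mul_comm (C _) (X ^ 2), mul_assoc, coeff_X_pow_mul',
      if_neg (by omega), add_zero]
  have hf0 : constantCoeff f = 0 := by simp [hf]
  have hfe : (1 + C ((η : O) ^ m) * X) ^ η = 1 + C ((η : O) ^ (m + 1)) * f := by
    rw [hk, hf]
    have h1 : C ((η : O) ^ (m + 1)) * C ((η : O) ^ (m - 1)) = C ((η : O) ^ m) ^ 2 := by
      rw [← map_mul, ← map_pow, ← pow_add, ← pow_mul]
      congr 2
      omega
    have h2 : (η : O⟦X⟧) * C ((η : O) ^ m) = C ((η : O) ^ (m + 1)) := by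
      rw [pow_succ', map_mul, map_natCast]
    linear_combination X * h2 - X ^ 2 * k * h1
  let F : O⟦X⟧ := substInvOfIsUnit f (hf1 ▸ isUnit_one)
  have hF0 : constantCoeff F = 0 := constantCoeff_substInvOfIsUnit _ _
  let x : MPoint O := ⟨φ, hφ, (η : O) * w, Ideal.mul_mem_right _ _ hm⟩
  refine ⟨1 + (η : O) ^ m * x.evO F, ?_, ?_⟩
  · have h := congrArg (PowerSeries.subst F) hfe
    have hs : HasSubst F := HasSubst.of_constantCoeff_zero' hF0
    rw [← coe_substAlgHom hs] at h
    simp only [map_add, map_mul, map_pow, map_one, substAlgHom_X] at h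
    rw [show substAlgHom hs f = X from by
      rw [coe_substAlgHom hs]; exact subst_substInvOfIsUnit_right _ hf0 _] at h
    simp only [map_natCast] at h
    have h' := congrArg x.evO h
    simp only [map_add, map_mul, map_pow, map_one, map_natCast, MPoint.evO_X] at h'
    rw [h', show x.a = (η : O) * w from rfl, ← mul_assoc, ← pow_succ, ← hw]
    ring
  · rw [add_sub_cancel_left, pow_succ]
    refine mul_dvd_mul_left _ ?_
    obtain ⟨G, hG⟩ := X_dvd_iff.mpr hF0
    rw [hG, map_mul, MPoint.evO_X]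
    exact dvd_mul_of_dvd_left (dvd_mul_right _ _) _

theorem exists_pow_root_near_one {φ : O →+* ℂ} (hφ : Function.Injective φ)
    (hm : (η : O) ∈ maximalIdeal O) : ∀ (K m : ℕ) {v : O}, 3 ≤ m → (η : O) ^ (m + K) ∣ v - 1 →
      ∃ y : O, y ^ η ^ K = v ∧ (η : O) ^ m ∣ y - 1
  | 0, m, v, _, hv => ⟨v, by simp, hv⟩
  | K + 1, m, v, h3, hv => by
    obtain ⟨y, hy, hy1⟩ := exists_root_near_one hφ hm (m := m + K - 1) (by omega)
      ((pow_dvd_pow _ (by omega)).trans hv)
    obtain ⟨z, hz, hz1⟩ := exists_pow_root_near_one hφ hm K m h3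
      ((pow_dvd_pow _ (by omega)).trans hy1)
    exact ⟨z, by rw [pow_succ, pow_mul, hz, hy], hz1⟩

/-- A root of unity of `η`-power order close to `1` is `1`. -/
theorem eq_one_of_pow_eq_one {φ : O →+* ℂ} (hφ : Function.Injective φ)
    (hm : (η : O) ∈ maximalIdeal O) : ∀ (K : ℕ) {y : O}, y ^ η ^ K = 1 → (η : O) ^ 2 ∣ y - 1 →
      y = 1
  | 0, y, h, _ => by simpa using h
  | K + 1, y, h, ⟨z, hz⟩ => by
    have : CharZero O := charZero_of_hom hφ
    have hy : y = 1 + (η : O) ^ 2 * z := by rw [← hz]; ring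
    obtain ⟨k, hk⟩ : ∃ k : O, (1 + (η : O) ^ 2 * z) ^ η =
        1 + (η : O) * ((η : O) ^ 2 * z) + ((η : O) ^ 2 * z) ^ 2 * k := exists_one_add_pow_eq _ η
    have h1 : y ^ η = 1 := eq_one_of_pow_eq_one hφ hm K (by rw [← pow_mul, ← pow_succ']; exact h)
      ⟨(η : O) * z + (η : O) ^ 2 * z ^ 2 * k, by rw [hy, hk]; ring⟩
    rw [hy, hk] at h1
    have hu : IsUnit (1 + (η : O) * z * k) :=
      isUnit_one_add_of_mem (Ideal.mul_mem_right _ _ (Ideal.mul_mem_right _ _ hm))
    have h2 : (η : O) ^ 3 * z * (1 + (η : O) * z * k) = 0 := by linear_combination h1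
    rw [hy]
    rcases mul_eq_zero.mp h2 with h2 | h2
    · rw [(mul_eq_zero.mp h2).resolve_left
        (pow_ne_zero _ (Nat.cast_ne_zero.mpr hη.out.ne_zero)), mul_zero, add_zero]
    · exact absurd h2 hu.ne_zero

end Congr

end Fermat.Agent.Mazur3.AtEta
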