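import Fermat.Agent.Mazur3.AtEta.Deriv
import Fermat.Agent.GalRep.Model.WildSeries

/-!
# Factorisations of powers on a disc

The series on a disc of the power of a function by the cusp factors is the power of a distinguished
polynomial times a unit whose derivative is divisible by the exponent.
-/

set_option autoImplicit false
set_option linter.unusedSectionVars false

noncomputable section

namespace Fermat.Agent.Mazur3.AtEta

open GalRep GalRep.Model IsLocalRing
open UpperHalfPlane CongruenceSubgroup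
open scoped MatrixGroups Manifold PowerSeries

variable {M : ℕ} [NeZero M] {L : Lev M} {O : Type} [CommRing O] [IsDomain O]
  [IsDiscreteValuationRing O] [IsAdicComplete (maximalIdeal O) O] [IsAlgClosed (ResidueField O)]
  {C : Cyc O M}

local notation "al" => algebraMap (PowerSeries O) (SeriesField O)

local notation "Ch" => chartRing O (Lev.w L C)

variable (L C) in
/-- The product of the differences with the finite cusp values. -/
def cuspElt : holRing C :=
  ⟨Polynomial.aeval (L.w C) (L.cuspPoly C), aeval_mem_holRing C _ (rat_mem_holRing C _)⟩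

/-- A factorisation on a disc of a function times a power of the cusp factors. -/
structure Fac (D : Disc L C) (n : ℕ) (H : modFuns (Gamma M)) where
  N : ℕ
  y : Ch
  yhol : holRing C
  hy : (yhol : lvlField C) = (y : lvlField C)
  htoMF : toMF C yhol = H * toMF C (cuspElt L C) ^ (n * N)
  Q : Polynomial O
  dist : Q.IsDistinguishedAt (maximalIdeal O)
  h : O⟦X⟧
  unit : IsUnit h
  eq : D.ser y = (Q : O⟦X⟧) ^ n * h
  small : PowerSeries.C (n : O) ∣ PowerSeries.derivative O h

namespace Fac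

variable {D : Disc L C} {n : ℕ} {H H' : modFuns (Gamma M)}

/-- The product of two factorisations. -/
def mul (F : Fac D n H) (F' : Fac D n H') : Fac D n (H * H') where
  N := F.N + F'.N
  y := F.y * F'.y
  yhol := F.yhol * F'.yhol
  hy := by
    show (F.yhol : lvlField C) * (F'.yhol : lvlField C) = _
    rw [F.hy, F'.hy]; rfl
  htoMF := by rw [map_mul, F.htoMF, F'.htoMF, Nat.mul_add, pow_add]; ring
  Q := F.Q * F'.Q
  dist := F.dist.mul F'.dist
  h := F.h * F'.h
  unit := F.unit.mul F'.unit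
  eq := by rw [map_mul, F.eq, F'.eq, Polynomial.coe_mul, mul_pow]; ring
  small := by
    rw [Derivation.leibniz, smul_eq_mul, smul_eq_mul]
    exact dvd_add (F'.small.mul_left _) (F.small.mul_left _)

/-- A factorisation of the same function given by an equal one. -/
def cast (F : Fac D n H) (h : H = H') : Fac D n H' :=
  { F with htoMF := h ▸ F.htoMF }

/-- The factorisation of one. -/
def one : Fac D n (1 : modFuns (Gamma M)) where
  N := 0
  y := 1
  yhol := 1
  hy := rfl
  htoMF := by rw [map_one, mul_zero, pow_zero, one_mul]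
  Q := 1
  dist := ⟨⟨fun {i} hi => by simp at hi⟩, Polynomial.monic_one⟩
  h := 1
  unit := isUnit_one
  eq := by rw [map_one, Polynomial.coe_one, one_pow, one_mul]
  small := by simp

/-- The powers of a factorisation. -/
def pow (F : Fac D n H) : (k : ℕ) → Fac D n (H ^ k)
  | 0 => one.cast (pow_zero H).symm
  | k + 1 => ((F.pow k).mul F).cast (pow_succ H k).symm

end Fac

theorem isDistinguishedAt_map {Q : Polynomial O} (hQ : Q.IsDistinguishedAt (maximalIdeal O))
    (S : O →+* O) (hres : ∀ o, residue O (S o) = residue O o) :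
    (Q.map S).IsDistinguishedAt (maximalIdeal O) := by
  refine ⟨⟨fun {i} hi => ?_⟩, hQ.monic.map S⟩
  rw [hQ.monic.natDegree_map] at hi
  rw [Polynomial.coeff_map, ← residue_eq_zero_iff, hres, residue_eq_zero_iff]
  exact hQ.mem hi

namespace Fac

variable {D : Disc L C} {n : ℕ} {H H' : modFuns (Gamma M)}

/-- The factorisation of a conjugate function. -/
def conj (F : Fac D n H) (S : O →+* O) (hres : ∀ o, residue O (S o) = residue O o) (y' : Ch)
    (yhol' : holRing C) (hy' : (yhol' : lvlField C) = (y' : lvlField C))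
    (htoMF' : toMF C yhol' = H' * toMF C (cuspElt L C) ^ (n * F.N))
    (hser : D.ser y' = PowerSeries.map S (D.ser F.y)) : Fac D n H' where
  N := F.N
  y := y'
  yhol := yhol'
  hy := hy'
  htoMF := htoMF'
  Q := F.Q.map S
  dist := isDistinguishedAt_map F.dist S hres
  h := PowerSeries.map S F.h
  unit := F.unit.map _
  eq := by rw [hser, F.eq, map_mul, map_pow, Polynomial.polynomial_map_coe]
  small := by
    obtain ⟨q, hq⟩ := F.small
    refine ⟨PowerSeries.map S q, ?_⟩
    have h1 := congrArg (PowerSeries.map S) hq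
    rw [map_mul, PowerSeries.map_C, map_natCast] at h1
    rw [← h1]
    ext i
    simp [PowerSeries.coeff_derivative]

end Fac

theorem C_dvd_iff_pow {π : O} {c : O} {k : ℕ} {u : Oˣ} (hc : c = u * π ^ k) (f : O⟦X⟧) :
    PowerSeries.C c ∣ f ↔ PowerSeries.C π ^ k ∣ f := by
  rw [hc, map_mul, map_pow]
  exact (u.isUnit.map PowerSeries.C).mul_left_dvd

/-- The series of the cusp factors at infinity. -/
theorem exists_inftyDisc_cusp : ∃ (c : Ch) (g : O⟦X⟧),
    (c : lvlField C) = (cuspElt L C : lvlField C) ∧ (inftyDisc L C).ser c = g ∧ red g ≠ 0 := by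
  obtain ⟨V, hV⟩ := L.serAt_cuspPoly C (L.mem_J.mpr ⟨L.valid2, by decide⟩)
    (δ := (1 : SL(2, ℤ))) (isCusp_two_one L)
  refine ⟨wHom L C (L.cuspPoly C), PowerSeries.X ^ L.e * (V : O⟦X⟧), coe_polyVal (L.w C) _, ?_, ?_⟩
  · refine IsFractionRing.injective (PowerSeries O) (SeriesField O) ?_
    rw [Disc.al_ser, inftyDisc_ι, wHom_apply, coe_polyVal]
    exact hV
  · rw [map_mul, map_pow, red, PowerSeries.map_X]
    exact mul_ne_zero (pow_ne_zero _ PowerSeries.X_ne_zero) (V.isUnit.map _).ne_zero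

/-- A polynomial divisible by a distinguished one as a series is divisible by it. -/
theorem exists_eq_mul_of_series {D P : Polynomial O} (hD : D.IsDistinguishedAt (maximalIdeal O))
    {v : O⟦X⟧} (h : (P : O⟦X⟧) = (D : O⟦X⟧) * v) : ∃ q : Polynomial O, P = D * q ∧ (q : O⟦X⟧) = v := by
  have h0 : Ideal.Quotient.mk (Ideal.span {(D : O⟦X⟧)}) (P : O⟦X⟧) = 0 :=
    Ideal.Quotient.eq_zero_iff_mem.mpr (Ideal.mem_span_singleton.mpr ⟨v, h⟩)
  have h1 : hD.algEquivQuotient (Ideal.Quotient.mk _ P) = 0 := by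
    simpa [Polynomial.IsDistinguishedAt.algEquivQuotient_apply] using h0
  rw [map_eq_zero_iff _ hD.algEquivQuotient.injective, Ideal.Quotient.eq_zero_iff_mem,
    Ideal.mem_span_singleton] at h1
  obtain ⟨q, rfl⟩ := h1
  refine ⟨q, rfl, mul_left_cancel₀ ?_ ((Polynomial.coe_mul D q).symm.trans h)⟩
  exact fun hz => hD.monic.ne_zero (Polynomial.coe_eq_zero_iff.mp hz)

/-- A monic root of a distinguished polynomial is distinguished. -/
theorem exists_distinguished_root {P Q : Polynomial O} {n : ℕ} (hn : n ≠ 0)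
    (hP : P.IsDistinguishedAt (maximalIdeal O)) (hQ : Q ^ n = P) :
    ∃ R : Polynomial O, R ^ n = P ∧ R.IsDistinguishedAt (maximalIdeal O) := by
  have hlc : Q.leadingCoeff ^ n = 1 := by
    rw [← Polynomial.leadingCoeff_pow, hQ]; exact hP.monic
  obtain ⟨m, rfl⟩ := Nat.exists_eq_succ_of_ne_zero hn
  set R := Polynomial.C (Q.leadingCoeff ^ m) * Q with hR
  have hRm : R.Monic := by
    rw [Polynomial.Monic, hR, Polynomial.leadingCoeff_mul, Polynomial.leadingCoeff_C, ← pow_succ]
    exact hlc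
  have hRn : R ^ (m + 1) = P := by
    rw [hR, mul_pow, ← map_pow, ← pow_mul, mul_comm m, pow_mul, hlc, one_pow, map_one, one_mul, hQ]
  refine ⟨R, hRn, ⟨⟨fun {i} hi => ?_⟩, hRm⟩⟩
  have hdvd : R.map (residue O) ∣ Polynomial.X ^ P.natDegree := by
    rw [show (Polynomial.X : Polynomial (ResidueField O)) ^ P.natDegree = P.map (residue O) from
      hP.map_eq_X_pow.symm, ← hRn, Polynomial.map_pow]
    exact dvd_pow_self _ (Nat.succ_ne_zero m)
  obtain ⟨j, -, hj⟩ := (dvd_prime_pow Polynomial.prime_X _).mp hdvd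
  have he : R.map (residue O) = Polynomial.X ^ j :=
    Polynomial.eq_of_monic_of_associated (hRm.map _) (Polynomial.monic_X_pow j) hj
  have hdeg : R.natDegree = j := by
    rw [← hRm.natDegree_map (residue O), he, Polynomial.natDegree_X_pow]
  rw [← residue_eq_zero_iff, ← Polynomial.coeff_map, he, Polynomial.coeff_X_pow,
    if_neg (by omega)]

theorem red_coe_of_distinguished {Q : Polynomial O} (hQ : Q.IsDistinguishedAt (maximalIdeal O)) :
    red (Q : O⟦X⟧) = PowerSeries.X ^ Q.natDegree := by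
  rw [red, ← Polynomial.polynomial_map_coe,
    show Q.map (residue O) = Polynomial.X ^ Q.natDegree from hQ.map_eq_X_pow, Polynomial.coe_pow,
    Polynomial.coe_X]

/-- The zeros of a series on a sheet of a function with orders divisible by `n`. -/
theorem dvd_mult_of_sheet (D : Disc L C) (hD : L.IsSheet C D.ι) {n : ℕ} (hn : 0 < n) (y : Ch)
    (yhol : holRing C) (hy : (yhol : lvlField C) = (y : lvlField C)) (hred : red (D.ser y) ≠ 0)
    (hord : ∀ τ : ℍ, n ∣ (analyticOrderAt ((toMF C yhol : ℍ → ℂ) ∘ ofComplex) (τ : ℂ)).toNat)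
    (hcusp : ∀ δ : SL(2, ℤ), (n : ℤ) ∣ (serHom M (shift M δ (toMF C yhol))).order)
    {P0 : Polynomial O} {h0 : O⟦X⟧} (hfac : (D.ser y).IsWeierstrassFactorization P0 h0) (z : ℂ) :
    n ∣ (P0.map C.φ).rootMultiplicity z := by
  classical
  obtain ⟨P, h, K', hh, hPm, hP, hdiv⟩ := L.exists_sheet_factor C hD hn yhol
    (hy ▸ y.2) ⟨0, D.ser y, by rw [pow_zero, map_one, mul_one, hy, D.al_ser], hred⟩ hord hcusp
  have hXd : ((Polynomial.X : Polynomial O) ^ (n * K')).IsDistinguishedAt (maximalIdeal O) := by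
    refine ⟨⟨fun {i} hi => ?_⟩, Polynomial.monic_X_pow _⟩
    rw [Polynomial.natDegree_X_pow] at hi
    rw [Polynomial.coeff_X_pow, if_neg hi.ne]
    exact zero_mem _
  have hDd := hfac.isDistinguishedAt.mul hXd
  have heq : (P : O⟦X⟧) =
      ((P0 * Polynomial.X ^ (n * K') : Polynomial O) : O⟦X⟧) * (h0 * (hh.unit⁻¹ : O⟦X⟧ˣ)) := by
    have h1 := IsFractionRing.injective (PowerSeries O) (SeriesField O)
      (show al (D.ser y * PowerSeries.X ^ (n * K')) = al ((P : O⟦X⟧) * h) by
        rw [map_mul, D.al_ser, ← hy, hP])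
    rw [hfac.eq_mul] at h1
    rw [Polynomial.coe_mul, Polynomial.coe_pow, Polynomial.coe_X]
    have h2 : h * (hh.unit⁻¹ : O⟦X⟧ˣ) = 1 := hh.mul_val_inv
    linear_combination -((hh.unit⁻¹ : O⟦X⟧ˣ) : O⟦X⟧) * h1 - (P : O⟦X⟧) * h2
  obtain ⟨q, rfl, hq⟩ := exists_eq_mul_of_series hDd heq
  have hd := hdiv z
  rw [Polynomial.map_mul, Polynomial.map_mul, Polynomial.map_pow, Polynomial.map_X] at hd
  have hP0 : P0.map C.φ ≠ 0 := (hfac.isDistinguishedAt.monic.map _).ne_zero
  have hX0 : (Polynomial.X ^ (n * K') : Polynomial ℂ) ≠ 0 := pow_ne_zero _ Polynomial.X_ne_zero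
  have hq0 : q.map C.φ ≠ 0 := fun h0 => (hPm.map C.φ).ne_zero (by
    rw [Polynomial.map_mul, h0, mul_zero])
  rw [Polynomial.rootMultiplicity_mul (mul_ne_zero (mul_ne_zero hP0 hX0) hq0),
    Polynomial.rootMultiplicity_mul (mul_ne_zero hP0 hX0)] at hd
  by_cases hz : (P0.map C.φ).IsRoot z
  swap
  · rw [Polynomial.rootMultiplicity_eq_zero hz]; exact dvd_zero n
  let Z : DiscZero O C.φ := ⟨P0, hfac.isDistinguishedAt, z, hz⟩
  have hqz : (q.map C.φ).rootMultiplicity z = 0 := by
    refine Polynomial.rootMultiplicity_eq_zero fun hr => ?_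
    have hu : IsUnit (Z.ev 0 (q : O⟦X⟧)) := by
      rw [hq]
      exact ((hfac.isUnit.mul (Units.isUnit _))).map _
    rw [Jet.isUnit_iff, DiscZero.ev_coe, Jet.const_mk, constantCoeff_polyShift] at hu
    exact hu hr
  rw [hqz, add_zero] at hd
  have hX : n ∣ (Polynomial.X ^ (n * K') : Polynomial ℂ).rootMultiplicity z := by
    by_cases hz0 : z = 0
    · subst hz0
      rw [show (Polynomial.X : Polynomial ℂ) = Polynomial.X - Polynomial.C 0 by simp,
        Polynomial.rootMultiplicity_X_sub_C_pow]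
      exact dvd_mul_right _ _
    · rw [Polynomial.rootMultiplicity_eq_zero (by simp [Polynomial.IsRoot, hz0])]
      exact dvd_zero n
  exact (Nat.dvd_add_left hX).mp hd

/-- The factorisation of the power of a function with integral series at infinity. -/
theorem exists_fac (D : Disc L C) (hD : L.IsSheet C D.ι) {n : ℕ} (hn : 0 < n) (xH : holRing C)
    {F : ℍ → ℂ} (hol : MDifferentiable 𝓘(ℂ) 𝓘(ℂ) F)
    (hser : ∀ δ : SL(2, ℤ), ∃ f, HasQSeries M (fun τ => F (δ • τ)) f)
    (hH : ((toMF C xH : modFuns (Gamma M)) : ℍ → ℂ) = F ^ n) {K₀ : ℕ} {g : O⟦X⟧}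
    (hg : serAt C 1 (xH : lvlField C) * al (PowerSeries.X ^ (n * K₀)) = al (g ^ n))
    (hg0 : red g ≠ 0) :
    ∃ K₁, ∀ K, K₁ ≤ K → ∃ Fc : Fac D n (toMF C xH), Fc.N = K := by
  classical
  obtain ⟨π, hπ⟩ := IsDiscreteValuationRing.exists_irreducible O
  have : CharZero O := C.φ.charZero
  obtain ⟨k, u, hu⟩ := IsDiscreteValuationRing.eq_unit_mul_pow_irreducible
    (Nat.cast_ne_zero.mpr hn.ne' : (n : O) ≠ 0) hπ
  obtain ⟨K₁, hK⟩ := L.exists_mem_chartRing C xH.2 (K0 := n * K₀) ⟨g ^ n, hg.symm⟩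
  refine ⟨K₁, fun K hKK => ?_⟩
  set yhol : holRing C := xH * cuspElt L C ^ (n * K) with hyhol
  have hyc : (yhol : lvlField C) ∈ chartRing O (L.w C) := by
    show (xH : lvlField C) * (Polynomial.aeval (L.w C) (L.cuspPoly C)) ^ (n * K) ∈ _
    rw [← map_pow]
    exact hK _ (hKK.trans (Nat.le_mul_of_pos_left K hn))
  set y : Ch := ⟨_, hyc⟩
  obtain ⟨c, gc, hc, hgc, hgc0⟩ := exists_inftyDisc_cusp (L := L) (C := C)
  have hinf : (inftyDisc L C).ser y * PowerSeries.X ^ (n * K₀) = (g * gc ^ K) ^ n := by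
    refine IsFractionRing.injective (PowerSeries O) (SeriesField O) ?_
    rw [map_mul, Disc.al_ser, inftyDisc_ι, mul_pow, map_mul, ← hg, ← pow_mul, mul_comm K n]
    show serAt C 1 ((xH : lvlField C) * (cuspElt L C : lvlField C) ^ (n * K)) * _ = _
    rw [← hgc]
    simp only [map_pow, map_mul, Disc.al_ser, inftyDisc_ι, hc]
    ring
  have hredI : red ((inftyDisc L C).ser y) ≠ 0 := fun h0 => by
    have h1 := congrArg red hinf
    rw [map_mul, h0, zero_mul, eq_comm, map_pow, map_mul, map_pow] at h1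
    exact pow_ne_zero n (mul_ne_zero hg0 (pow_ne_zero K hgc0)) h1
  have hdI : PowerSeries.C π ^ k ∣ PowerSeries.derivative O ((inftyDisc L C).ser y) := by
    have h1 := congrArg (PowerSeries.derivative O) hinf
    rw [Derivation.leibniz, Derivation.leibniz_pow, Derivation.leibniz_pow, smul_eq_mul,
      smul_eq_mul, nsmul_eq_mul, nsmul_eq_mul, smul_eq_mul, smul_eq_mul] at h1
    have hn' : (n : O⟦X⟧) = PowerSeries.C π ^ k * PowerSeries.C (u : O) := by
      rw [← map_natCast (PowerSeries.C (R := O)), hu, map_mul, map_pow, mul_comm]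
    refine (prime_C hπ).pow_dvd_of_dvd_mul_left (a := PowerSeries.X ^ (n * K₀)) k
      (not_dvd_of_red_ne_zero hπ (by
        rw [map_pow, red, PowerSeries.map_X]; exact pow_ne_zero _ PowerSeries.X_ne_zero)) ?_
    rw [eq_sub_of_add_eq' h1, Nat.cast_mul, hn']
    simp only [mul_assoc]
    exact dvd_sub (dvd_mul_right _ _) ((dvd_mul_right _ _).mul_left _)
  have hy0 : ¬ algebraMap O Ch π ∣ y := fun h => hredI ((pi_dvd_iff hπ y).mp h)
  have hred := D.red_ser_ne_zero hπ hy0
  have hdy := D.pow_dvd_derivative hπ y hdI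
  obtain ⟨P0, h0, hfac⟩ := PowerSeries.exists_isWeierstrassFactorization hred
  set cf : ℍ → ℂ := ((toMF C (cuspElt L C) : modFuns (Gamma M)) : ℍ → ℂ) with hcf
  have hyf : ((toMF C yhol : modFuns (Gamma M)) : ℍ → ℂ) = (F * cf ^ K) ^ n := by
    rw [hyhol, map_mul, map_pow, MulMemClass.coe_mul, SubmonoidClass.coe_pow, hH, mul_pow,
      ← pow_mul, mul_comm n K, hcf]
  have hchol : MDifferentiable 𝓘(ℂ) 𝓘(ℂ) (F * cf ^ K) :=
    hol.mul ((toMF C (cuspElt L C)).2.holo.pow K)
  have hord : ∀ τ : ℍ,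
      n ∣ (analyticOrderAt ((toMF C yhol : ℍ → ℂ) ∘ ofComplex) (τ : ℂ)).toNat := by
    intro τ
    have han : AnalyticAt ℂ ((F * cf ^ K) ∘ ofComplex) (τ : ℂ) :=
      ((UpperHalfPlane.mdifferentiable_iff.mp hchol).analyticOnNhd isOpen_upperHalfPlaneSet) _
        τ.im_pos
    rw [hyf, show ((F * cf ^ K) ^ n) ∘ ofComplex = ((F * cf ^ K) ∘ ofComplex) ^ n from rfl,
      analyticOrderAt_pow han, nsmul_eq_mul, ENat.toNat_mul, ENat.toNat_natCast]
    exact dvd_mul_right _ _
  have hcusp : ∀ δ : SL(2, ℤ), (n : ℤ) ∣ (serHom M (shift M δ (toMF C yhol))).order := by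
    intro δ
    obtain ⟨fd, hfd⟩ := hser δ
    have h1 := (hfd.mul ((hasQSeries_serHom (shift M δ (toMF C (cuspElt L C)))).pow K)).pow n
    rw [(hasQSeries_serHom (shift M δ (toMF C yhol))).unique (NeZero.pos M) (h1.congr
      (.of_forall fun τ => ?_)), HahnSeries.order_pow, nsmul_eq_mul]
    · exact dvd_mul_right _ _
    · rw [shift_apply, hyf]
      rfl
  obtain ⟨Q, hQ⟩ := exists_monic_root_charZero hn.ne' C.φ C.inj hfac.isDistinguishedAt.monic
    fun z => dvd_mult_of_sheet D hD hn y yhol rfl hred hord hcusp hfac z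
  obtain ⟨Q, hQ, hQd⟩ := exists_distinguished_root hn.ne' hfac.isDistinguishedAt hQ
  have heq : D.ser y = (Q : O⟦X⟧) ^ n * h0 := by
    rw [hfac.eq_mul, ← hQ, Polynomial.coe_pow]
  refine ⟨⟨K, y, yhol, rfl, by rw [hyhol, map_mul, map_pow], Q, hQd, h0, hfac.isUnit, heq, ?_⟩,
    rfl⟩
  rw [C_dvd_iff_pow hu]
  have h2 := hdy
  rw [heq, Derivation.leibniz, Derivation.leibniz_pow, smul_eq_mul, smul_eq_mul, nsmul_eq_mul,
    smul_eq_mul] at h2
  have hn' : (n : O⟦X⟧) = PowerSeries.C π ^ k * PowerSeries.C (u : O) := by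
    rw [← map_natCast (PowerSeries.C (R := O)), hu, map_mul, map_pow, mul_comm]
  refine (prime_C hπ).pow_dvd_of_dvd_mul_left (a := (Q : O⟦X⟧) ^ n) k
    (not_dvd_of_red_ne_zero hπ ?_) ((dvd_add_left ?_).mp h2)
  · rw [map_pow, red_coe_of_distinguished hQd]
    exact pow_ne_zero _ (pow_ne_zero _ PowerSeries.X_ne_zero)
  · rw [hn']
    simp only [mul_assoc]
    exact (dvd_mul_right _ _).mul_left _

end Fermat.Agent.Mazur3.AtEta
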