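import Fermat.Agent.Mazur3.AtEta.RootUnit
import Fermat.Agent.Mazur3.AtEta.Base
import Fermat.Agent.Mazur3.BoundedInertia
import Fermat.Agent.Mazur3.Class

/-!
# Inertia on the quotient of values of a bounded class

For a bounded Kummer class of high level and an element of inertia fixing the field of the
configuration, a power of the quotient of the value of the transfer by the power of the value at
the point is mapped to the same quantity for the conjugate representative.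
-/

set_option autoImplicit false
set_option linter.unusedSectionVars false
set_option linter.style.haveILetI false

noncomputable section

namespace Fermat.Agent.Mazur3.AtEta

open GalRep GalRep.Model IsLocalRing
open Fermat.Agent.Galois (GQ)
open UpperHalfPlane CongruenceSubgroup
open scoped MatrixGroups Manifold PowerSeries

local notation "Q̄" => AlgebraicClosure ℚ

theorem gamma_le_Gamma0 {p M : ℕ} (h : p ∣ M) : Gamma M ≤ Gamma0 p := fun γ hγ =>
  Gamma_le_Gamma0 p (by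
    rw [Gamma_mem] at hγ ⊢
    obtain ⟨a, b, c, d⟩ := hγ
    exact ⟨by simpa [ZMod.cast_one h] using congrArg (ZMod.castHom h (ZMod p)) a,
      by simpa using congrArg (ZMod.castHom h (ZMod p)) b,
      by simpa using congrArg (ZMod.castHom h (ZMod p)) c,
      by simpa [ZMod.cast_one h] using congrArg (ZMod.castHom h (ZMod p)) d⟩)

theorem bigK_le {η : ℕ} {L L' : IntermediateField ℚ Q̄} (h : L ≤ L') {x : Q̄}
    (hx : x ∈ Inertia.bigK η L) : x ∈ bigField η L' :=
  IntermediateField.adjoin.mono (cycField η) (L : Set Q̄) (L' : Set Q̄) h (Inertia.mem_bigK.mp hx)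

/-- An algebraic number of the field is conjugated by the semilinear map. -/
theorem conjVal_of_lift {O : Type} [CommRing O] [IsDomain O] [IsLocalRing O] {φ : O →+* ℂ}
    (hφ : Function.Injective φ) {S : O →+* O} (hS : Function.Injective S)
    {A : ValuationSubring Q̄} {K : Set Q̄} (hK : ∀ z ∈ K, z⁻¹ ∈ K) {u : GQ}
    (hlift : ∀ z ∈ K, z ∈ A → ∃ o, φ o = qbarToC z ∧ (z ∈ A.nonunits ↔ o ∈ maximalIdeal O))
    (hSu : ∀ z ∈ K, ∀ o, φ o = qbarToC z → φ (S o) = qbarToC (u z)) {z : Q̄} (hz : z ∈ K) :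
    ConjVal φ S (qbarToC z) (qbarToC (u z)) := by
  have key : ∀ w ∈ K, w ∈ A → ConjVal φ S (qbarToC w) (qbarToC (u w)) := fun w hw hwA => by
    obtain ⟨o, ho, -⟩ := hlift w hw hwA
    rw [← ho, ← hSu w hw o ho]
    exact ConjVal.of o
  rcases A.mem_or_inv_mem z with h | h
  · exact key z hz h
  · simpa using (key _ (hK z hz) h).inv hφ hS

section Setup

variable {M : ℕ} [NeZero M] {L : Lev M} {O : Type} [CommRing O] [IsDomain O]
  [IsDiscreteValuationRing O] [IsAdicComplete (maximalIdeal O) O] [IsAlgClosed (ResidueField O)]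
  {C : Cyc O M}

local notation "al" => algebraMap (PowerSeries O) (SeriesField O)

/-- A series of lifts is the expansion at infinity. -/
theorem serAt_eq_of_lifts {H : modFuns (Gamma M)}
    (hH : algebraMap (modFuns (Gamma M)) (WFld M) H ∈ lvlField C) {e : LaurentSeries Q̄} {n : ℕ}
    (hser : serHom M H = seriesToC (e ^ n)) {K₀ : ℕ} (hK : ∀ k : ℤ, k < -(K₀ : ℤ) → e.coeff k = 0)
    (g : O⟦X⟧) (hg : ∀ i : ℕ, C.φ (PowerSeries.coeff i g) = qbarToC (e.coeff ((i : ℤ) - K₀))) :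
    serAt C 1 (⟨_, hH⟩ : lvlField C) * al (PowerSeries.X ^ (n * K₀)) = al (g ^ n) := by
  have key : C.gC g = HahnSeries.single ((K₀ : ℕ) : ℤ) 1 * seriesToC e := by
    ext k
    rw [HahnSeries.coeff_single_mul, one_mul]
    rcases lt_or_ge k 0 with hk | hk
    · rw [coeff_gC_neg C _ hk]
      show (0 : ℂ) = qbarToC (e.coeff (k - (K₀ : ℤ)))
      rw [hK _ (by omega), map_zero]
    · obtain ⟨i, rfl⟩ := Int.eq_ofNat_of_zero_le hk
      rw [Cyc.gC, RingHom.comp_apply, HahnSeries.ofPowerSeries_apply_coeff, PowerSeries.coeff_map]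
      exact hg i
  apply C.toC.injective
  rw [map_mul, toC_serAt, C.toC_algebraMap, C.toC_algebraMap, C.gC_X_pow, wShift_one,
    wSer_algebraMap, hser, map_pow C.gC, key, mul_pow, HahnSeries.single_pow, one_pow,
    seriesToC_eq_lmap, seriesToC_eq_lmap, map_pow, nsmul_eq_mul, Nat.cast_mul, mul_comm]

/-- The expansion at infinity of a factorised element. -/
theorem infty_ser_eq {D : Disc L C} {n : ℕ} {xH : holRing C} (Fc : Fac D n (toMF C xH)) {K₀ : ℕ}
    {g : O⟦X⟧} (hg : serAt C 1 (xH : lvlField C) * al (PowerSeries.X ^ (n * K₀)) = al (g ^ n)) :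
    (inftyDisc L C).ser Fc.y * PowerSeries.X ^ (n * K₀) =
      (g * Polynomial.aeval (PowerSeries.C (inftyDisc L C).c + (inftyDisc L C).t)
        (L.cuspPoly C) ^ Fc.N) ^ n := by
  have hy : Fc.yhol = xH * cuspElt L C ^ (n * Fc.N) :=
    toMF_injective C (by rw [Fc.htoMF, map_mul, map_pow])
  refine IsFractionRing.injective (PowerSeries O) (SeriesField O) ?_
  rw [map_mul, Disc.al_ser, ← Fc.hy, hy, mul_pow, map_mul al (g ^ n), ← hg, ← pow_mul,
    mul_comm Fc.N n, map_pow al (Polynomial.aeval _ _),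
    ← ι_aeval_of _ (inftyDisc L C).ι_O (inftyDisc L C).ι_w, inftyDisc_ι]
  show serAt C 1 ((xH : lvlField C) * (cuspElt L C : lvlField C) ^ (n * Fc.N)) * _ = _
  rw [map_mul, map_pow (serAt C 1)]
  show _ * serAt C 1 (Polynomial.aeval (L.w C) (L.cuspPoly C)) ^ _ * _ = _
  ring

theorem map_inftyCusp (S : O →+* O) (hres : ∀ a, residue O (S a) = residue O a)
    (hζ : S C.ζ = C.ζ) :
    PowerSeries.map S (Polynomial.aeval
      (PowerSeries.C (inftyDisc L C).c + (inftyDisc L C).t) (L.cuspPoly C)) =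
      Polynomial.aeval (PowerSeries.C (inftyDisc L C).c + (inftyDisc L C).t) (L.cuspPoly C) := by
  simp only [Lev.cuspPoly, map_prod, map_sub (Polynomial.aeval _), Polynomial.aeval_X,
    Polynomial.aeval_C, map_sub (PowerSeries.map S), PowerSeries.algebraMap_apply,
    PowerSeries.map_C, Algebra.algebraMap_self, RingHom.id_apply, map_cval L C S hres hζ,
    map_inftyDisc_w L C S hres hζ]

/-- Conjugate expansions at infinity give conjugate series on a fixed disc. -/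
theorem exists_conj_fac {D : Disc L C} {n : ℕ} {xH xH' : holRing C} (Fc : Fac D n (toMF C xH))
    (Fc' : Fac D n (toMF C xH')) (hN : Fc'.N = Fc.N) {K₀ : ℕ} {g : O⟦X⟧}
    (hg : serAt C 1 (xH : lvlField C) * al (PowerSeries.X ^ (n * K₀)) = al (g ^ n))
    {S : O →+* O} (hS : Function.Injective S) (hres : ∀ a, residue O (S a) = residue O a)
    (hζ : S C.ζ = C.ζ) (hc : S D.c = D.c) (ht : PowerSeries.map S D.t = D.t)
    (hg' : serAt C 1 (xH' : lvlField C) * al (PowerSeries.X ^ (n * K₀)) =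
      al (PowerSeries.map S g ^ n)) :
    ∃ Fc'' : Fac D n (toMF C xH'), Fc''.N = Fc.N ∧ Fc''.Q = Fc.Q.map S ∧
      Fc''.h = PowerSeries.map S Fc.h := by
  have hinf : (inftyDisc L C).ser Fc'.y = PowerSeries.map S ((inftyDisc L C).ser Fc.y) := by
    refine mul_right_cancel₀ (pow_ne_zero (n * K₀) (PowerSeries.X_ne_zero (R := O))) ?_
    have h1 := congrArg (PowerSeries.map S) (infty_ser_eq Fc hg)
    rw [map_mul, map_pow, PowerSeries.map_X, map_pow, map_mul, map_pow,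
      map_inftyCusp S hres hζ] at h1
    rw [infty_ser_eq Fc' hg', h1, hN]
  exact ⟨Fc.conj S hres Fc'.y Fc'.yhol Fc'.hy (by rw [Fc'.htoMF, hN])
    (D.ser_conj S hS hres hζ hc ht hinf), rfl, rfl, rfl⟩

/-- A function of level `Γ₀(p)` with algebraic series, as an element of the level field. -/
theorem exists_descent_modFun (L : Lev M) {p : ℕ} (hle : Gamma M ≤ Gamma0 p) {G : ℍ → ℂ}
    (hG : IsModFun (Gamma0 p) G) {f : LaurentSeries Q̄} (hf : HasQSeries 1 G (seriesToC f)) :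
    ∃ s : Finset Q̄, serHom M (⟨G, modFuns_anti hle hG⟩ : modFuns (Gamma M)) =
        seriesToC (expand M (NeZero.ne M) f) ∧
      ∀ (O : Type) [CommRing O] [IsDomain O] (C : Cyc O M), (∀ z ∈ s, qbarToC z ∈ C.kC) →
        algebraMap (modFuns (Gamma M)) (WFld M)
          (⟨G, modFuns_anti hle hG⟩ : modFuns (Gamma M)) ∈ lvlField C := by
  have hser : serHom M (⟨G, modFuns_anti hle hG⟩ : modFuns (Gamma M)) =
      seriesToC (expand M (NeZero.ne M) f) := by
    refine (hasQSeries_serHom _).unique (NeZero.pos M) ?_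
    have := hf.refine_width one_pos M (NeZero.ne M)
    rw [one_mul] at this
    rw [seriesToC_eq_lmap, lmap_expand, ← seriesToC_eq_lmap]
    exact this
  obtain ⟨s, hs⟩ := L.exists_descent (⟨G, modFuns_anti hle hG⟩ : modFuns (Gamma M))
    fun k => ⟨(expand M (NeZero.ne M) f).coeff k, by rw [hser]; rfl⟩
  exact ⟨s, hser, hs⟩

end Setup

/-- A representative of a bounded class with integral series, one coefficient being a unit. -/
theorem exists_primitive_rep {p η e : ℕ} [NeZero p] [Fact η.Prime] {A : ValuationSubring Q̄}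
    (hA : A.LiesOverPrime η) {χ : ParHom p (ZMod (η ^ e))}
    (hχ : IsBoundedChar p (η ^ e) A χ) {L : IntermediateField ℚ Q̄} [FiniteDimensional ℚ L]
    (hL : ∀ (χ : ParHom p (ZMod (η ^ e))) (F : ℍ → ℂ) (f : LaurentSeries Q̄),
      IsNormal χ F (seriesToC f) → f ∈ LSer L) :
    ∃ (F : ℍ → ℂ) (f : LaurentSeries Q̄), IsKummerRep p (η ^ e) χ F ∧
      HasQSeries 1 F (seriesToC f) ∧ (∀ k, f.coeff k ∈ A ∧ f.coeff k ∈ Inertia.bigK η L) ∧
      ∃ k, f.coeff k ∉ A.nonunits := by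
  have hη : η.Prime := Fact.out
  obtain ⟨ϖ, hϖ⟩ := Inertia.exists_isUnif (A := A) hη hA L
  obtain ⟨F₀, r, hF₀⟩ := exists_algebraic_rep χ
  obtain ⟨c, hc, hcr⟩ := Inertia.exists_bound_of_isBoundedChar hη hA hχ hF₀
  have hrb : r ∈ Inertia.bddSer A (Inertia.bigK η L) := Inertia.mem_bddSer_of_bound
    (mem_LSer.mpr fun k => Inertia.le_bigK (mem_LSer.mp (hL χ F₀ r hF₀) k)) hc hcr
  obtain ⟨m, v, hv, hvK, hrv⟩ :=
    Inertia.exists_factor hη hA hϖ hrb (Base.rep_series_ne_zero hF₀.rep hF₀.series)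
  have hϖ0 := hϖ.ne_zero hη hA
  refine ⟨fun τ => qbarToC (ϖ ^ (-m)) * F₀ τ, Inertia.incA A v,
    hF₀.rep.const_mul ((map_ne_zero _).mpr (zpow_ne_zero _ hϖ0)), ?_,
    fun k => ⟨(v.coeff k).2, mem_LSer.mp hvK k⟩, ?_⟩
  · rw [show Inertia.incA A v = HahnSeries.C (ϖ ^ (-m)) * r by
      rw [hrv, ← mul_assoc, ← map_mul, ← zpow_add₀ hϖ0, neg_add_cancel, zpow_zero, map_one,
        one_mul], seriesToC_eq_lmap, map_mul, lmap_C]
    exact hF₀.series.smul _
  · by_contra hall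
    push Not at hall
    refine hv ?_
    ext k
    exact (residue_eq_zero_iff _).mpr (ValuationSubring.coe_mem_nonunits_iff.mp (hall k))

set_option maxHeartbeats 1000000 in
/-- Inertia fixing the field of the configuration commutes with the quotient of values. -/
theorem exists_rep_heckeRatio_conj {p η : ℕ} [NeZero p] [Fact η.Prime] (hg : GoodIndex p η)
    (x : RatPoint p) {A : ValuationSubring Q̄} (hA : A.LiesOverPrime η)
    {M : ℕ} [NeZero M] {L : Lev M} {L₀ : IntermediateField ℚ Q̄} [FiniteDimensional ℚ L₀] {M0 : ℕ}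
    (hpM : p ∣ M) (hM0 : 0 < M0)
    (hcfg : ∀ (O : Type) [CommRing O] [IsDomain O] [IsDiscreteValuationRing O]
      [IsAdicComplete (maximalIdeal O) O] [IsAlgClosed (ResidueField O)] (φ : O →+* ℂ),
      Function.Injective φ → (η : O) ∈ maximalIdeal O → HasLifts A φ L₀ →
        ∃ C : Cyc O M, C.φ = φ ∧ Nonempty (Config hg x C (L := L) L₀ M0))
    (hqC : ∀ (n : ℕ) [NeZero n] (χ : ParHom p (ZMod n)) (F : ℍ → ℂ) (f : LaurentSeries Q̄),
      IsKummerRep p n χ F → HasQSeries 1 F (seriesToC f) → heckeRatio x hg F ∈ qC)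
    {e K : ℕ} (he : 2 * M0 + 3 + K ≤ e) {χ : ParHom p (ZMod (η ^ e))}
    (hχ : IsBoundedChar p (η ^ e) A χ) {u : GQ} (hu : u ∈ A.inertiaSubgroupIn ℚ)
    (hfixu : ∀ z ∈ L₀, u z = z) :
    ∃ (F F' : ℍ → ℂ) (f : LaurentSeries Q̄), IsKummerRep p (η ^ e) χ F ∧
      HasQSeries 1 F (seriesToC f) ∧
      IsKummerRep p (η ^ e) ((kummerGalois p (η ^ e)).galois u χ) F' ∧
      HasQSeries 1 F' (seriesToC (seriesConj u f)) ∧
      liftAut u (heckeRatio x hg F ^ η ^ (e - K)) = heckeRatio x hg F' ^ η ^ (e - K) := by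
  classical
  have hη : η.Prime := Fact.out
  obtain ⟨ζ, hζn, hζpow⟩ := Inertia.exists_zeta (η ^ e)
  obtain ⟨L1, _, _, hζL, hL1⟩ := Inertia.exists_normal_field p (η ^ e) ζ
  obtain ⟨F, f, hF, hf, hfmem, k0, hk0⟩ := exists_primitive_rep hA hχ hL1
  obtain ⟨F', hF', hf'⟩ := (kummerGalois p (η ^ e)).galois_spec u χ F f hF hf
  set c : ℕ := ((cyc η u).val.toZModPow e).val with hcdef
  have hχ' : (kummerGalois p (η ^ e)).galois u χ = c • χ :=
    boundedInertia p η hg.not_dvd e A hA u hu χ hχ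
  have hcn : c ≤ (η ^ e) := (ZMod.val_lt _).le
  refine ⟨F, F', f, hF, hf, hF', hf', ?_⟩
  set G : ℍ → ℂ := F' * F ^ ((η ^ e) - c) with hGdef
  have hGrep : IsKummerRep p (η ^ e) (0 : ParHom p (ZMod (η ^ e))) G := by
    have h := hF'.mul (hF.pow ((η ^ e) - c))
    rwa [hχ', ← add_nsmul, Nat.add_sub_cancel' hcn, show (η ^ e) • χ = 0 from
      Subtype.ext (AddMonoidHom.ext fun z => by simp)] at h
  have hGser : HasQSeries 1 G (seriesToC (seriesConj u f * f ^ ((η ^ e) - c))) :=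
    hasQSeries_mul_seriesToC hf' (hasQSeries_pow_seriesToC hf _)
  have hle : Gamma M ≤ Gamma0 p := gamma_le_Gamma0 hpM
  obtain ⟨s1, hsH, hd1⟩ := exists_descent_modFun L hle hF.isModFun_pow
    (hasQSeries_pow_seriesToC hf (η ^ e))
  obtain ⟨s2, hsH', hd2⟩ := exists_descent_modFun L hle hF'.isModFun_pow
    (hasQSeries_pow_seriesToC hf' (η ^ e))
  obtain ⟨s3, -, hd3⟩ := exists_descent_modFun L hle hGrep.isModFun hGser
  set m := η ^ (e - K) with hmdef
  obtain ⟨zr, hzr⟩ := hqC (η ^ e) χ F f hF hf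
  set s : Finset Q̄ := insert zr (s1 ∪ s2 ∪ s3)
  set L2 : IntermediateField ℚ Q̄ := L1 ⊔ L₀ ⊔ IntermediateField.adjoin ℚ (s : Set Q̄)
  haveI : FiniteDimensional ℚ (IntermediateField.adjoin ℚ (s : Set Q̄)) :=
    IntermediateField.finiteDimensional_adjoin fun z _ => Algebra.IsIntegral.isIntegral z
  haveI : Normal ℚ Q̄ := IsGalois.to_normal
  set L' := IntermediateField.normalClosure ℚ L2 Q̄
  haveI : Normal ℚ L' := normalClosure.normal ℚ L2 Q̄
  have hle1 : L1 ≤ L' := (le_sup_left.trans le_sup_left).trans (IntermediateField.le_normalClosure L2)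
  have hle0 : L₀ ≤ L' := (le_sup_right.trans le_sup_left).trans (IntermediateField.le_normalClosure L2)
  have hls : ∀ z ∈ s, z ∈ L' := fun z hz => IntermediateField.le_normalClosure L2
    ((le_sup_right : _ ≤ L2) (IntermediateField.subset_adjoin _ _ hz))
  have hbig : ∀ z ∈ L', z ∈ bigField η L' := fun z hz => IntermediateField.subset_adjoin _ _ hz
  obtain ⟨O, _, _, _, _, φ, hφ, _, hm, hlift, -, hSex⟩ := exists_base_inertia η hη A hA L'
  obtain ⟨S, hS, hres, hSu⟩ := hSex u hu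
  have hlifts : HasLifts A φ L₀ := fun z hz hzA => hlift z (hbig z (hle0 hz)) hzA
  obtain ⟨C, hCφ, ⟨Cf⟩⟩ := hcfg O φ hφ hm hlifts
  subst hCφ
  have hfix : FixesLifts C.φ L₀ S := fun z hz o ho => C.inj (by
    rw [hSu z (hbig z (hle0 hz)) o ho, hfixu z hz, ho])
  obtain ⟨hζC, hcD, htD, -⟩ := Cf.fix_c S hres hfix
  have hkC : ∀ z ∈ s, qbarToC z ∈ C.kC := by
    intro z hz
    rcases A.mem_or_inv_mem z with h1 | h1
    · obtain ⟨o, ho, -⟩ := hlift z (hbig z (hls z hz)) h1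
      exact Subfield.subset_closure ⟨o, ho⟩
    · obtain ⟨o, ho, -⟩ := hlift z⁻¹ (inv_mem (hbig z (hls z hz))) h1
      rw [← inv_inv z, map_inv₀]
      exact inv_mem (Subfield.subset_closure ⟨o, ho⟩)
  have hm1 := hd1 O C fun z hz => hkC z (by simp [s, hz])
  have hm2 := hd2 O C fun z hz => hkC z (by simp [s, hz])
  have hm3 := hd3 O C fun z hz => hkC z (by simp [s, hz])
  set H : modFuns (Gamma M) := ⟨F ^ (η ^ e), modFuns_anti hle hF.isModFun_pow⟩
  set H' : modFuns (Gamma M) := ⟨F' ^ (η ^ e), modFuns_anti hle hF'.isModFun_pow⟩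
  set Gm : modFuns (Gamma M) := ⟨G, modFuns_anti hle hGrep.isModFun⟩
  set xH : holRing C := ⟨⟨_, hm1⟩, H, rfl⟩
  set xH' : holRing C := ⟨⟨_, hm2⟩, H', rfl⟩
  set yG : holRing C := ⟨⟨_, hm3⟩, Gm, rfl⟩
  have htH : toMF C xH = H := toMF_eq C rfl
  have htH' : toMF C xH' = H' := toMF_eq C rfl
  -- the series at infinity
  set ex : LaurentSeries Q̄ := expand M (NeZero.ne M) f
  set ex' : LaurentSeries Q̄ := expand M (NeZero.ne M) (seriesConj u f)
  have hex' : ∀ k, ex'.coeff k = u (ex.coeff k) := fun k => by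
    simp only [ex', ex, seriesConj_eq_lmap, ← lmap_expand]
    rfl
  have hexmem : ∀ k, ex.coeff k ∈ A ∧ ex.coeff k ∈ bigField η L' := fun k =>
    coeff_expand_mem (P := fun z => z ∈ A ∧ z ∈ bigField η L') ⟨zero_mem A, zero_mem _⟩
      (fun i => ⟨(hfmem i).1, bigK_le hle1 (hfmem i).2⟩) (NeZero.ne M) k
  have hlo : ∀ k, ∃ o, C.φ o = qbarToC (ex.coeff k) ∧
      (ex.coeff k ∈ A.nonunits ↔ o ∈ maximalIdeal O) := fun k =>
    hlift _ (hexmem k).2 (hexmem k).1
  choose o ho hom using hlo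
  obtain ⟨K₀, hK₀⟩ : ∃ K₀ : ℕ, ∀ k : ℤ, k < -(K₀ : ℤ) → ex.coeff k = 0 :=
    ⟨(-ex.order).toNat, fun k hk => HahnSeries.coeff_eq_zero_of_lt_order (by omega)⟩
  set g : O⟦X⟧ := PowerSeries.mk fun i => o ((i : ℤ) - K₀) with hgdef
  have hgs : serAt C 1 (xH : lvlField C) * algebraMap (PowerSeries O) (SeriesField O)
      (PowerSeries.X ^ ((η ^ e) * K₀)) = algebraMap (PowerSeries O) (SeriesField O) (g ^ (η ^ e)) :=
    serAt_eq_of_lifts hm1 (by rw [hsH, map_pow]) hK₀ g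
      fun i => by rw [hgdef, PowerSeries.coeff_mk, ho]
  have hgs' : serAt C 1 (xH' : lvlField C) * algebraMap (PowerSeries O) (SeriesField O)
      (PowerSeries.X ^ ((η ^ e) * K₀)) =
      algebraMap (PowerSeries O) (SeriesField O) (PowerSeries.map S g ^ (η ^ e)) :=
    serAt_eq_of_lifts hm2 (e := ex') (by rw [hsH', map_pow])
      (fun k hk => by rw [hex', hK₀ k hk, map_zero]) _ fun i => by
        rw [PowerSeries.coeff_map, hgdef, PowerSeries.coeff_mk, hex']
        exact hSu _ (hexmem _).2 _ (ho _)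
  have hg0 : red g ≠ 0 := by
    intro h0
    have hk : -(K₀ : ℤ) ≤ (M : ℤ) * k0 := not_lt.mp fun hlt => hk0 (by
      have := hK₀ _ hlt
      rw [expand_coeff_mul] at this
      rw [this, A.mem_nonunits_iff, map_zero]
      exact zero_lt_one)
    obtain ⟨i, hi⟩ : ∃ i : ℕ, (M : ℤ) * k0 = (i : ℤ) - K₀ :=
      ⟨((M : ℤ) * k0 + K₀).toNat, by omega⟩
    have h1 := congrArg (PowerSeries.coeff i) h0
    rw [red, PowerSeries.coeff_map, map_zero, hgdef, PowerSeries.coeff_mk, residue_eq_zero_iff,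
      ← hom, ← hi, expand_coeff_mul] at h1
    exact hk0 h1
  have hg0' : red (PowerSeries.map S g) ≠ 0 := by rwa [red_map S hres]
  have hser : ∀ {ψ : ParHom p (ZMod (η ^ e))} {Φ : ℍ → ℂ}, IsKummerRep p (η ^ e) ψ Φ → ∀ δ : SL(2, ℤ),
      ∃ q, HasQSeries M (fun τ => Φ (δ • τ)) q := fun hΦ δ =>
    exists_series_cusp hle ⟨hΦ.holo, hΦ.ne_zero, hΦ.equivariant, hΦ.cusps⟩ δ
  obtain ⟨Ka, hKa⟩ := exists_fac Cf.D Cf.sheet (NeZero.pos (η ^ e)) xH hF.holo (hser hF)
    (by rw [htH]) hgs hg0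
  obtain ⟨Kb, hKb⟩ := exists_fac Cf.D Cf.sheet (NeZero.pos (η ^ e)) xH' hF'.holo (hser hF')
    (by rw [htH']) hgs' hg0'
  obtain ⟨Fc, hFcN⟩ := hKa (max Ka Kb) (le_max_left _ _)
  obtain ⟨Fd, hFdN⟩ := hKb (max Ka Kb) (le_max_right _ _)
  obtain ⟨Fc', hN', hQ', hh'⟩ := exists_conj_fac Fc Fd (hFdN.trans hFcN.symm) hgs hS hres hζC hcD
    htD hgs'
  -- the roots of unity
  have hinv : ∀ {Φ : ℍ → ℂ}, IsModFun (Gamma0 p) Φ → ∀ (γ : Gamma0 p) (τ : ℍ),
      Φ ((γ : SL(2, ℤ)) • τ) = Φ τ := fun hΦ γ τ => hΦ.invariant _ γ.2 τ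
  obtain ⟨Z, hZ, hZK⟩ := Cf.exists_isZ hm hM0 he rfl Fc hF.holo hF.ne_zero (by rw [htH])
    (by rw [htH]; exact hinv hF.isModFun_pow)
  obtain ⟨Z', hZ', -⟩ := Cf.exists_isZ hm hM0 he rfl Fc' hF'.holo hF'.ne_zero (by rw [htH'])
    (by rw [htH']; exact hinv hF'.isModFun_pow)
  have hZn : Z ^ (η ^ e) = 1 := by
    rw [← Nat.add_sub_cancel' (by omega : K ≤ e), pow_add, pow_mul, hZK, one_pow]
  have hFk : F ^ ((η ^ e) - c) ≠ 0 := (hF.pow _).ne_zero
  have hZG := (hZ'.mul Cf hF'.holo hF'.ne_zero (hF.pow _).holo hFk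
    (hZ.pow Cf hF.holo hF.ne_zero ((η ^ e) - c))).eq_one Cf hm hM0 he rfl (G := Gm) (yG := yG) (toMF_eq C rfl)
    (by
      rw [htH, htH']
      refine Subtype.ext ?_
      show F' ^ (η ^ e) * (F ^ (η ^ e)) ^ ((η ^ e) - c) = (F' * F ^ ((η ^ e) - c)) ^ (η ^ e)
      rw [mul_pow, ← pow_mul, ← pow_mul, mul_comm (η ^ e)]) (hinv hGrep.isModFun)
  have hZ'eq : Z' = Z ^ c := by
    calc Z' = Z' * Z ^ (η ^ e) := by rw [hZn, mul_one]
      _ = Z' * Z ^ ((η ^ e) - c) * Z ^ c := by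
        rw [mul_assoc, ← pow_add, Nat.sub_add_cancel hcn]
      _ = Z ^ c := by rw [hZG, one_mul]
  obtain ⟨w, w', -, -, hww, hρ, hρ'⟩ :=
    Cf.exists_conj_part hm hS hres hζC hfix hlifts hN' hQ' hh' hZ hZ'
  have hconj : ∀ z ∈ bigField η L', ConjVal C.φ S (qbarToC z) (qbarToC (u z)) := fun z hz =>
    conjVal_of_lift C.inj hS (K := (bigField η L' : Set Q̄)) (fun _ h => inv_mem h)
      (fun z hz hzA => hlift z hz hzA) (fun z hz o ho => hSu z hz o ho) hz
  obtain ⟨a, ha⟩ := exists_stdAddChar_eq (n := η ^ e) hZn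
  have hZc : ConjVal C.φ S Z (Z ^ c) := by
    have h1 := hconj _ (hbig _ (hle1 (pow_mem hζL a.val)))
    rw [map_pow u, cyc_spec η u ζ hζn, ← hcdef, map_pow qbarToC, map_pow qbarToC,
      map_pow qbarToC] at h1
    rw [← ha, ← hζpow a]
    convert h1 using 1
    rw [← pow_mul, ← pow_mul, mul_comm]
  have hzm : qbarToC (zr ^ m) = heckeRatio x hg F ^ m := by rw [map_pow, hzr]
  have hρc := hconj _ (pow_mem (hbig _ (hls zr (Finset.mem_insert_self _ _))) m)
  rw [hzm, hρ] at hρc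
  have hfin := ConjVal.eq C.inj hS hρc (hZc.mul hww)
  rw [← hzm, liftAut_spec, hfin, hρ', hZ'eq]

end Fermat.Agent.Mazur3.AtEta
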