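import Fermat.Agent.Mazur3.AtEta.Deriv
import Fermat.Agent.Mazur3.AtEta.Eval
import Fermat.Agent.GalRep.Model.PointEval
import Fermat.Agent.Mazur3.Value

/-!
# Points on discs

A point of the upper half plane whose coordinate reduces to the centre of a disc is, up to an
automorphism over the coordinate, the evaluation of the series of the disc at a point of the
maximal ideal.
-/

set_option autoImplicit false
set_option linter.unusedSectionVars false

noncomputable section

namespace Fermat.Agent.Mazur3.AtEta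

open GalRep GalRep.Model IsLocalRing
open UpperHalfPlane CongruenceSubgroup
open scoped MatrixGroups Manifold PowerSeries

/-- A map of the upper half plane along which holomorphic functions pull back. -/
structure PMap where
  toFun : ℍ → ℍ
  holo : ∀ F : ℍ → ℂ, MDifferentiable 𝓘(ℂ) 𝓘(ℂ) F → MDifferentiable 𝓘(ℂ) 𝓘(ℂ) (F ∘ toFun)
  surj : Function.Surjective toFun

namespace PMap

/-- The identity. -/
def refl : PMap := ⟨id, fun _ h => h, Function.surjective_id⟩

/-- Composition with an element of `SL(2, ℤ)` on the left. -/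
def smul (g : SL(2, ℤ)) (P : PMap) : PMap where
  toFun := fun τ => g • P.toFun τ
  holo F hF := P.holo _ (mdifferentiable_comp_smul hF g)
  surj := fun τ => by
    obtain ⟨s, hs⟩ := P.surj (g⁻¹ • τ)
    exact ⟨s, by show g • P.toFun s = τ; rw [hs, smul_inv_smul]⟩

@[simp] theorem smul_toFun (g : SL(2, ℤ)) (P : PMap) (τ : ℍ) :
    (P.smul g).toFun τ = g • P.toFun τ := rfl

/-- The map of an integral matrix of positive determinant. -/
def ofMat (A : Matrix (Fin 2) (Fin 2) ℤ) (h : 0 < A.det) : PMap where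
  toFun := fun τ => posMat A h • τ
  holo _ hF := mdifferentiable_comp_posMat hF A h
  surj := fun τ => ⟨(posMat A h)⁻¹ • τ, smul_inv_smul _ τ⟩

theorem ne_zero (P : PMap) {F : ℍ → ℂ} (hF : F ≠ 0) : F ∘ P.toFun ≠ 0 := fun h => hF (funext fun τ => by
  obtain ⟨s, rfl⟩ := P.surj τ
  exact congrFun h s)

end PMap

variable {p : ℕ} [NeZero p] (x : RatPoint p) {M : ℕ} [NeZero M]

/-- The Taylor series at the point of the pull back. -/
def tayP (P : PMap) : modFuns (Gamma M) →+* ℂ⟦X⟧ where
  toFun f := x.tay ((f : ℍ → ℂ) ∘ P.toFun)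
  map_one' := x.tay_one
  map_zero' := by
    show GalRep.taylorSeries (fun _ => (0 : ℂ)) = 0
    rw [GalRep.taylorSeries_const, map_zero]
  map_mul' f g := x.tay_mul (P.holo _ f.2.holo) (P.holo _ g.2.holo)
  map_add' f g := GalRep.taylorSeries_add (x.analyticAt_comp (P.holo _ f.2.holo))
    (x.analyticAt_comp (P.holo _ g.2.holo))

theorem tayP_apply (P : PMap) (f : modFuns (Gamma M)) :
    tayP x P f = x.tay ((f : ℍ → ℂ) ∘ P.toFun) := rfl

theorem constantCoeff_tayP (P : PMap) (f : modFuns (Gamma M)) :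
    PowerSeries.constantCoeff (tayP x P f) = (f : ℍ → ℂ) (P.toFun x.τ) := by
  rw [← PowerSeries.coeff_zero_eq_constantCoeff_apply]
  simp [tayP_apply, RatPoint.tay, GalRep.taylorSeries, x.coord_zero]

theorem tayP_algebraMap (P : PMap) (c : ℂ) :
    tayP x P (algebraMap ℂ (modFuns (Gamma M)) c) = PowerSeries.C c :=
  GalRep.taylorSeries_const c

theorem tayP_ne_zero (P : PMap) {f : modFuns (Gamma M)} (hf : f ≠ 0) : tayP x P f ≠ 0 := by
  intro h
  refine x.val_ne_zero (P.holo _ f.2.holo) (P.ne_zero fun h0 => hf (Subtype.ext h0)) ?_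
  rw [RatPoint.val, ← tayP_apply, h]
  simp [Mazur3.lead]

theorem tayP_shift (P : PMap) (g : SL(2, ℤ)) (f : modFuns (Gamma M)) :
    tayP x P (shift M g f) = tayP x (P.smul g) f := rfl

variable {L : Lev M} {O : Type} [CommRing O] [IsDomain O]
  [IsDiscreteValuationRing O] [IsAdicComplete (maximalIdeal O) O] [IsAlgClosed (ResidueField O)]
  {C : Cyc O M}

local notation "al" => algebraMap (PowerSeries O) (SeriesField O)

local notation "Ch" => chartRing O (Lev.w L C)

/-- The disc composed with an automorphism over the coordinate. -/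
def Disc.twist (D : Disc L C) (σ : L.gal C) : Disc L C where
  ι := D.ι.comp (MulSemiringAction.toRingHom (L.gal C) (lvlField C) σ)
  c := D.c
  t := D.t
  t_zero := D.t_zero
  ι_O a := by
    show D.ι (σ • algebraMap O (lvlField C) a) = _
    rw [L.smul_algebraMap]; exact D.ι_O a
  ι_w := by
    show D.ι (σ • L.w C) = _
    rw [L.smul_w]; exact D.ι_w
  t_der := D.t_der

/-- The point of the maximal ideal with the embedding of the base. -/
abbrev mkPt (C : Cyc O M) (a : O) (ha : a ∈ maximalIdeal O) : MPoint O := ⟨C.φ, C.inj, a, ha⟩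

/-- A point lying on a disc. -/
structure SheetPt (x : RatPoint p) (D : Disc L C) (P : PMap) where
  a : O
  mem : a ∈ maximalIdeal O
  A : ℂ⟦X⟧
  hA : PowerSeries.constantCoeff A = C.φ a
  spec : ∀ (y : holRing C) (h : O⟦X⟧), D.ι (y : lvlField C) = al h →
    tayP x P (toMF C y) = (mkPt C a mem).evAt A hA h

theorem tayP_toMF_algebraMap (P : PMap) (c : O) :
    tayP x P (toMF C ⟨_, algebraMap_mem_holRing C c⟩) = PowerSeries.C (C.φ c) := by
  rw [toMF_eq C (f := algebraMap ℂ _ (C.φ c)) rfl, tayP_algebraMap]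

/-- A point whose coordinate is given on a disc lies on one of its twists. -/
theorem exists_sheetPt (D : Disc L C) (P : PMap) {a : O} (ha : a ∈ maximalIdeal O) {A : ℂ⟦X⟧}
    (hA : PowerSeries.constantCoeff A = C.φ a)
    (hw : tayP x P (L.wMF C) = PowerSeries.C (C.φ D.c) + (mkPt C a ha).evAt A hA D.t) :
    ∃ σ : L.gal C, Nonempty (SheetPt x (D.twist σ) P) := by
  classical
  set ev := (mkPt C a ha).evAt A hA with hev
  let E1 : L.intRing C →+* ℂ⟦X⟧ := ((tayP x P).comp (toMF C)).comp (L.intToHol C)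
  let toCh : L.intRing C →+* Ch :=
    (L.intRing C).subtype.codRestrict _ fun y => L.mem_chartRing C y.2
  let E2 : L.intRing C →+* ℂ⟦X⟧ := (ev.comp D.ser).comp toCh
  have h1c : ∀ c, E1 (L.cI C c) = PowerSeries.C (C.φ c) := fun c => tayP_toMF_algebraMap x P c
  have h1w : E1 (L.wI C) = tayP x P (L.wMF C) := by
    show tayP x P (toMF C (L.intToHol C (L.wI C))) = _
    rw [toMF_eq C (f := L.wMF C) (L.algebraMap_wMF C)]
  have h2c : ∀ c, E2 (L.cI C c) = PowerSeries.C (C.φ c) := fun c => by
    show ev (D.ser (toCh (L.cI C c))) = _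
    rw [show toCh (L.cI C c) = algebraMap O Ch c from Subtype.ext rfl, Disc.ser_const, hev,
      MPoint.evAt_C]
  have h2w : E2 (L.wI C) = tayP x P (L.wMF C) := by
    show ev (D.ser (toCh (L.wI C))) = _
    have : D.ser (toCh (L.wI C)) = PowerSeries.C D.c + D.t :=
      IsFractionRing.injective _ (SeriesField O) ((D.al_ser _).trans D.ι_w)
    rw [this, map_add, hev, MPoint.evAt_C, hw]
  have hagree : E2.comp (L.pI C) = E1.comp (L.pI C) := by
    rw [L.comp_pI C E2 (φ := PowerSeries.C.comp C.φ) h2c h2w,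
      L.comp_pI C E1 (φ := PowerSeries.C.comp C.φ) h1c h1w]
  have := Fintype.ofFinite (L.gal C)
  have : CharZero ℂ⟦X⟧ := charZero_of_injective_ringHom (PowerSeries.C_injective (R := ℂ))
  let k := Fintype.card (L.genSet C)
  let en : Fin k ≃ L.genSet C := (Fintype.equivFin _).symm
  have hsm : ∀ σ : L.gal C, ∃ f : L.intRing C →+* L.intRing C,
      ∀ y, (f y : lvlField C) = σ • (y : lvlField C) := fun σ =>
    ⟨((MulSemiringAction.toRingHom (L.gal C) (lvlField C) σ).comp (L.intRing C).subtype).codRestrict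
      (L.intRing C) (fun y => L.smul_mem_intRing C σ y.2), fun y => rfl⟩
  choose f hf using hsm
  let ξ : ℕ → L.intRing C := fun t => ∑ i : Fin k, (t : L.intRing C) ^ (i : ℕ) * L.sgI C (en i)
  have hkey : ∀ t, ∃ σ, E2 (ξ t) = E1 (f σ (ξ t)) := by
    intro t
    set Q0 : Polynomial (L.intRing C) :=
      ∏ σ : L.gal C, (Polynomial.X - Polynomial.C (f σ (ξ t)))
    have hmap : Q0.map (L.intRing C).subtype = L.orbitProd C (ξ t : lvlField C) := by
      simp only [Q0, Lev.orbitProd, Polynomial.map_prod, Polynomial.map_sub, Polynomial.map_X,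
        Polynomial.map_C, Subring.subtype_apply, hf]
    have heq : Q0.map E2 = Q0.map E1 := by
      ext j : 1
      obtain ⟨P', hP'⟩ := L.exists_orbit_poly C (ξ t).2 j
      have h1 : Q0.coeff j = L.pI C P' := Subtype.ext (by
        rw [L.coe_pI, ← hP', ← hmap, Polynomial.coeff_map]; rfl)
      rw [Polynomial.coeff_map, Polynomial.coeff_map, h1]
      exact RingHom.congr_fun hagree P'
    have h0 : (Q0.map E2).eval (E2 (ξ t)) = 0 := by
      rw [Polynomial.eval_map, Polynomial.eval₂_at_apply, Polynomial.eval_prod,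
        Finset.prod_eq_zero (Finset.mem_univ (1 : L.gal C)), map_zero]
      rw [Polynomial.eval_sub, Polynomial.eval_X, Polynomial.eval_C, sub_eq_zero]
      exact Subtype.ext (by rw [hf, one_smul])
    rw [heq, Polynomial.map_prod, Polynomial.eval_prod, Finset.prod_eq_zero_iff] at h0
    obtain ⟨σ, -, hσ⟩ := h0
    exact ⟨σ, by simpa [sub_eq_zero] using hσ⟩
  choose S hS using hkey
  obtain ⟨σ, hσ⟩ := Finite.exists_infinite_fiber S
  have hsg : ∀ y : L.genSet C, E2 (L.sgI C y) = E1 (f σ (L.sgI C y)) := by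
    intro y
    have hQ : (∑ i : Fin k, Polynomial.C (E2 (L.sgI C (en i)) - E1 (f σ (L.sgI C (en i)))) *
        Polynomial.X ^ (i : ℕ)) = 0 := by
      refine Polynomial.eq_zero_of_infinite_isRoot _ (Set.Infinite.mono
        (s := Nat.cast '' (S ⁻¹' {σ})) ?_
        ((Set.infinite_coe_iff.mp hσ).image Nat.cast_injective.injOn))
      rintro _ ⟨t, ht, rfl⟩
      show Polynomial.IsRoot _ _
      have h := hS t
      rw [show S t = σ from ht] at h
      simp only [ξ, map_sum, map_mul, map_pow, map_natCast] at h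
      simp [Polynomial.eval_finsetSum, sub_mul, Finset.sum_sub_distrib, mul_comm (E1 _),
        mul_comm (E2 _), h]
    have hi := congrArg (fun p : Polynomial ℂ⟦X⟧ => p.coeff ((en.symm y : Fin k) : ℕ)) hQ
    simp only [Polynomial.finsetSum_coeff, Polynomial.coeff_C_mul_X_pow, Fin.val_inj,
      Finset.sum_ite_eq, Finset.mem_univ, if_true, Polynomial.coeff_zero, Equiv.apply_symm_apply,
      sub_eq_zero] at hi
    exact hi
  have hfix : ∀ u : L.intRing C, σ • (u : lvlField C) = u → f σ u = u := fun u hu =>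
    Subtype.ext (by rw [hf, hu])
  have hgen : ∀ u ∈ L.genRing C, E2 u = E1 (f σ u) := by
    intro u hu
    induction hu using Subring.closure_induction with
    | mem u hu =>
      rcases hu with (⟨c, rfl⟩ | rfl) | ⟨y, rfl⟩
      · rw [hfix (L.cI C c) (L.smul_algebraMap C σ c), h1c, h2c]
      · rw [hfix (L.wI C) (L.smul_w C σ), h1w, h2w]
      · exact hsg y
    | zero => simp only [map_zero]
    | one => simp only [map_one]
    | add a b _ _ ha hb => simp only [map_add, ha, hb]
    | neg a _ ha => simp only [map_neg, ha]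
    | mul a b _ _ ha hb => simp only [map_mul, ha, hb]
  refine ⟨σ⁻¹, ⟨⟨a, ha, A, hA, fun y h hy => ?_⟩⟩⟩
  change D.ι (σ⁻¹ • (y : lvlField C)) = al h at hy
  obtain ⟨a', ha', b', hb', hb0, hab⟩ := L.exists_genRing_div C (σ⁻¹ • (y : lvlField C))
  have hser : h * D.ser (toCh b') = D.ser (toCh a') := by
    apply IsFractionRing.injective (PowerSeries O) (SeriesField O)
    rw [map_mul, D.al_ser, D.al_ser, ← hy, ← map_mul]
    exact congrArg D.ι hab
  have hy' : (y : holRing C) * L.intToHol C (f σ b') = L.intToHol C (f σ a') := by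
    refine Subtype.ext ?_
    show (y : lvlField C) * (f σ b' : lvlField C) = (f σ a' : lvlField C)
    rw [hf, hf, ← hab, smul_mul', smul_inv_smul]
  have h1 : tayP x P (toMF C y) * E2 b' = E2 a' := by
    rw [hgen b' hb', hgen a' ha']
    show _ * tayP x P (toMF C _) = tayP x P (toMF C _)
    rw [← map_mul, ← map_mul, hy']
  have h2 : ev h * E2 b' = E2 a' := by
    show ev h * ev (D.ser (toCh b')) = ev (D.ser (toCh a'))
    rw [← map_mul, hser]
  have hne : E2 b' ≠ 0 := by
    rw [hgen b' hb']
    refine tayP_ne_zero x P fun h0 => hb0 ?_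
    have h3 : (f σ b' : lvlField C) = 0 :=
      congrArg Subtype.val (toMF_injective C (h0.trans (map_zero (toMF C)).symm))
    rw [hf] at h3
    simpa using congrArg (σ⁻¹ • ·) h3
  exact mul_right_cancel₀ hne (h1.trans h2.symm)

variable {x}

/-- A point moved by an element of `SL(2, ℤ)` whose composition with the disc is another disc. -/
def SheetPt.move {D D' : Disc L C} {P : PMap} (S : SheetPt x D P) (g : SL(2, ℤ))
    (h : ∀ y : lvlField C, D'.ι y = D.ι (fShift C g y)) : SheetPt x D' (P.smul g) where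
  a := S.a
  mem := S.mem
  A := S.A
  hA := S.hA
  spec y k hy := by
    rw [← tayP_shift, show shift M g (toMF C y) =
      toMF C ⟨fShift C g y, fShift_mem_holRing C g y.2⟩ from (toMF_eq C
        (by rw [← wShift_algebraMap, algebraMap_toMF]; rfl)).symm]
    exact S.spec _ k (by rw [← h]; exact hy)

theorem SheetPt.tay_ser {D : Disc L C} {P : PMap} (S : SheetPt x D P) (y : holRing C) {f : Ch}
    (hyf : (y : lvlField C) = f) :
    tayP x P (toMF C y) = (mkPt C S.a S.mem).evAt S.A S.hA (D.ser f) :=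
  S.spec y _ (by rw [D.al_ser, hyf])

theorem SheetPt.tay_w {D : Disc L C} {P : PMap} (S : SheetPt x D P) :
    tayP x P (L.wMF C) = PowerSeries.C (C.φ D.c) + (mkPt C S.a S.mem).evAt S.A S.hA D.t := by
  have h := S.spec ⟨L.w C, rat_mem_holRing C _⟩ _ D.ι_w
  rw [toMF_eq C (f := L.wMF C) (L.algebraMap_wMF C), map_add, MPoint.evAt_C] at h
  exact h

theorem SheetPt.apply_eq {D : Disc L C} {P : PMap} (S : SheetPt x D P) (y : holRing C) {f : Ch}
    (hyf : (y : lvlField C) = f) :
    (toMF C y : ℍ → ℂ) (P.toFun x.τ) = C.φ ((mkPt C S.a S.mem).evO (D.ser f)) := by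
  rw [← constantCoeff_tayP, S.tay_ser y hyf, MPoint.constantCoeff_evAt]

/-! ## Evaluation and semilinear maps -/

/-- A homomorphism to the base is the evaluation at the image of the variable. -/
theorem eq_evO (z : MPoint O) {Ψ : O⟦X⟧ →+* O} (hC : ∀ o, Ψ (PowerSeries.C o) = o)
    (hX : Ψ PowerSeries.X = z.a) : Ψ = z.evO := by
  refine RingHom.ext fun g => ?_
  obtain ⟨r, q, rfl⟩ := z.exists_decomp g 0
  have hr : Ψ (r : O⟦X⟧) = z.evO (r : O⟦X⟧) := by
    have h : Ψ.comp Polynomial.coeToPowerSeries.ringHom =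
        z.evO.comp Polynomial.coeToPowerSeries.ringHom :=
      Polynomial.ringHom_ext (fun c => by simp [hC]) (by simp [hX])
    simpa using RingHom.congr_fun h r
  simp only [map_add, map_mul, map_sub, hr, hX, hC, MPoint.evO_X, MPoint.evO_C, sub_self,
    zero_add, pow_one, zero_mul]

/-- Evaluation commutes with a semilinear map. -/
theorem map_evO_eq (z z' : MPoint O) (S : O →+* O) (h : S z.a = z'.a) (g : O⟦X⟧) :
    S (z.evO g) = z'.evO (PowerSeries.map S g) := by
  obtain ⟨r, q, rfl⟩ := z.exists_decomp g 0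
  have hr : S (z.evO (r : O⟦X⟧)) = z'.evO (PowerSeries.map S (r : O⟦X⟧)) := by
    have h' : (S.comp z.evO).comp Polynomial.coeToPowerSeries.ringHom =
        (z'.evO.comp (PowerSeries.map S)).comp Polynomial.coeToPowerSeries.ringHom :=
      Polynomial.ringHom_ext (fun c => by simp) (by simp [h])
    simpa using RingHom.congr_fun h' r
  simp only [map_add, map_mul, map_sub, PowerSeries.map_X, PowerSeries.map_C,
    MPoint.evO_X, MPoint.evO_C, h, hr, sub_self, zero_add, pow_one, zero_mul, add_zero]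

/-! ## Coordinates on a disc -/

/-- The parameters of a point on a disc with coordinate `c + X`. -/
theorem exists_param_noncusp (D : Disc L C) (hX : D.t = PowerSeries.X) {W : ℂ⟦X⟧} {w0 : O}
    (hW : PowerSeries.constantCoeff W = C.φ w0) (hw : w0 - D.c ∈ maximalIdeal O) :
    ∃ (A : ℂ⟦X⟧) (hA : PowerSeries.constantCoeff A = C.φ (w0 - D.c)),
      W = PowerSeries.C (C.φ D.c) + (mkPt C (w0 - D.c) hw).evAt A hA D.t := by
  refine ⟨W - PowerSeries.C (C.φ D.c), by rw [map_sub, PowerSeries.constantCoeff_C, hW, map_sub],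
    ?_⟩
  rw [hX, MPoint.evAt_X]
  ring

theorem exists_root_series {e : ℕ} (he : 0 < e) {f : ℂ⟦X⟧} {c : ℂ} (hc : c ≠ 0)
    (hf : c ^ e = PowerSeries.constantCoeff f) :
    ∃ R : ℂ⟦X⟧, R ^ e = f ∧ PowerSeries.constantCoeff R = c := by
  obtain ⟨y, hy, hy'⟩ := HenselianRing.is_henselian
    (I := Ideal.span {(PowerSeries.X : ℂ⟦X⟧)})
    (Polynomial.X ^ e - Polynomial.C f) (Polynomial.monic_X_pow_sub_C f he.ne') (PowerSeries.C c)
    (Ideal.mem_span_singleton.mpr (PowerSeries.X_dvd_iff.mpr (by simp [hf])))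
    (IsUnit.map _ (PowerSeries.isUnit_iff_constantCoeff.mpr (by
      simp [Polynomial.derivative_X_pow, hc, he.ne'])))
  refine ⟨y, by simpa [sub_eq_zero] using hy, ?_⟩
  rw [Ideal.mem_span_singleton, PowerSeries.X_dvd_iff, map_sub, PowerSeries.constantCoeff_C,
    sub_eq_zero] at hy'
  exact hy'

/-- The data of a root of the parameter on a cusp disc. -/
theorem exists_cusp_inverse {e : ℕ} (he : IsUnit (e : O)) {U : O⟦X⟧} (hU : IsUnit U) :
    ∃ (V F : O⟦X⟧), PowerSeries.constantCoeff F = 0 ∧ V ^ e = U ∧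
      PowerSeries.subst F (PowerSeries.X * V) = PowerSeries.X ∧
      PowerSeries.subst (PowerSeries.X * V) F = PowerSeries.X := by
  obtain ⟨V, hV⟩ := exists_pow_eq_of_isUnit he hU
  have he0 : e ≠ 0 := fun h => not_isUnit_zero (M₀ := O) (by simp [h] at he)
  have hVu : IsUnit V := (isUnit_pow_iff he0).mp (hV ▸ hU)
  have h1 : IsUnit (PowerSeries.coeff 1 (PowerSeries.X * V)) := by
    rw [PowerSeries.coeff_succ_X_mul, PowerSeries.coeff_zero_eq_constantCoeff_apply]
    exact PowerSeries.isUnit_constantCoeff _ hVu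
  have h0 : PowerSeries.constantCoeff (PowerSeries.X * V) = 0 := by simp
  exact ⟨V, PowerSeries.substInvOfIsUnit _ h1, PowerSeries.constantCoeff_substInvOfIsUnit _ _, hV,
    PowerSeries.subst_substInvOfIsUnit_right _ h0 _,
    PowerSeries.subst_substInvOfIsUnit_left _ h0 _⟩

/-- The parameters of a point on a cusp disc, fixed by semilinear maps fixing a root. -/
theorem exists_param_cusp (D : Disc L C) {e : ℕ} (he : IsUnit (e : O)) {U : O⟦X⟧} (hU : IsUnit U)
    (hD : D.t = PowerSeries.X ^ e * U) {W : ℂ⟦X⟧} {w0 r0 : O}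
    (hW : PowerSeries.constantCoeff W = C.φ w0) (hr : r0 ^ e = w0 - D.c) (hr0 : r0 ≠ 0)
    (hw : w0 - D.c ∈ maximalIdeal O) :
    ∃ (a : O) (ha : a ∈ maximalIdeal O) (A : ℂ⟦X⟧) (hA : PowerSeries.constantCoeff A = C.φ a),
      W = PowerSeries.C (C.φ D.c) + (mkPt C a ha).evAt A hA D.t ∧
      ∀ S : O →+* O, (∀ o, residue O (S o) = residue O o) → PowerSeries.map S D.t = D.t →
        S r0 = r0 → S a = a := by
  obtain ⟨V, F, hF, hV, hFV, hVF⟩ := exists_cusp_inverse he hU
  have he0 : e ≠ 0 := fun h => not_isUnit_zero (M₀ := O) (by simp [h] at he)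
  have hrm : r0 ∈ maximalIdeal O :=
    (maximalIdeal.isMaximal O).isPrime.mem_of_pow_mem e (hr ▸ hw)
  have hsF : PowerSeries.HasSubst F := PowerSeries.HasSubst.of_constantCoeff_zero' hF
  obtain ⟨R, hR, hR0⟩ := exists_root_series (Nat.pos_of_ne_zero he0) (f := W - PowerSeries.C (C.φ D.c))
    ((map_ne_zero_iff _ C.inj).mpr hr0)
    (by rw [map_sub, PowerSeries.constantCoeff_C, hW, ← map_sub, ← map_pow, hr])
  set z := mkPt C r0 hrm with hz
  set a := z.evO F with ha_def
  have ha : a ∈ maximalIdeal O := by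
    obtain ⟨G, hG⟩ := PowerSeries.X_dvd_iff.mpr hF
    rw [ha_def, hG, map_mul, MPoint.evO_X]
    exact Ideal.mul_mem_right _ _ hrm
  have hA : PowerSeries.constantCoeff (z.evAt R hR0 F) = C.φ a := by
    rw [MPoint.constantCoeff_evAt]
  refine ⟨a, ha, z.evAt R hR0 F, hA, ?_, fun S hres ht hr' => ?_⟩
  · have hΨ : (z.evAt R hR0).comp (PowerSeries.substAlgHom (R := O) hsF).toRingHom =
        (mkPt C a ha).evAt (z.evAt R hR0 F) hA := by
      refine MPoint.eq_evAt _ hA (fun o => ?_) ?_
      · rw [RingHom.comp_apply, AlgHom.toRingHom_eq_coe, RingHom.coe_coe,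
          show PowerSeries.C o = algebraMap O O⟦X⟧ o from rfl, AlgHom.commutes]
        exact MPoint.evAt_C z hR0 o
      · rw [RingHom.comp_apply, AlgHom.toRingHom_eq_coe, RingHom.coe_coe,
          PowerSeries.substAlgHom_X]
    rw [← hΨ, RingHom.comp_apply, AlgHom.toRingHom_eq_coe, RingHom.coe_coe,
      PowerSeries.coe_substAlgHom hsF, hD,
      show PowerSeries.X ^ e * U = (PowerSeries.X * V) ^ e by rw [mul_pow, hV],
      PowerSeries.subst_pow hsF, hFV, map_pow, MPoint.evAt_X, hR]
    ring
  · have hVS : PowerSeries.map S V = V := by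
      have hU' : PowerSeries.map S U = U := by
        have := ht
        rw [hD, map_mul, map_pow, PowerSeries.map_X] at this
        exact mul_left_cancel₀ (pow_ne_zero e PowerSeries.X_ne_zero) this
      refine eq_of_eval_eq_zero red (Polynomial.X ^ e - Polynomial.C U) ?_ ?_ (red_map S hres V) ?_
      · simp [← map_pow, hV, hU']
      · simp [hV]
      · rw [Polynomial.derivative_sub, Polynomial.derivative_C, sub_zero,
          Polynomial.derivative_X_pow, Polynomial.eval_mul, Polynomial.eval_C, Polynomial.eval_pow,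
          Polynomial.eval_X]
        refine IsUnit.ne_zero (IsUnit.map _ (IsUnit.mul ?_ (((isUnit_pow_iff he0).mp (hV ▸ hU)).pow _)))
        rw [← map_natCast (PowerSeries.C (R := O))]
        exact he.map _
    have hS : S a ∈ maximalIdeal O := by
      rw [← residue_eq_zero_iff, hres, residue_eq_zero_iff]; exact ha
    have hval : ∀ (b : O) (hb : b ∈ maximalIdeal O),
        (mkPt C b hb).evO (PowerSeries.X * V) = r0 → b = a := by
      intro b hb hbr
      have hsXV : PowerSeries.HasSubst (PowerSeries.X * V) :=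
        PowerSeries.HasSubst.of_constantCoeff_zero' (by simp)
      have hΨ : ((mkPt C b hb).evO).comp (PowerSeries.substAlgHom (R := O) hsXV).toRingHom =
          z.evO := by
        refine eq_evO z (fun o => ?_) ?_
        · rw [RingHom.comp_apply, AlgHom.toRingHom_eq_coe, RingHom.coe_coe,
            show PowerSeries.C o = algebraMap O O⟦X⟧ o from rfl, AlgHom.commutes]
          exact MPoint.evO_C _ o
        · rw [RingHom.comp_apply, AlgHom.toRingHom_eq_coe, RingHom.coe_coe,
            PowerSeries.substAlgHom_X]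
          exact hbr
      rw [ha_def, ← hΨ, RingHom.comp_apply, AlgHom.toRingHom_eq_coe, RingHom.coe_coe,
        PowerSeries.coe_substAlgHom hsXV, hVF, MPoint.evO_X]
    have haV : (mkPt C a ha).evO (PowerSeries.X * V) = r0 := by
      have hΨ : z.evO.comp (PowerSeries.substAlgHom (R := O) hsF).toRingHom =
          (mkPt C a ha).evO := by
        refine eq_evO _ (fun o => ?_) ?_
        · rw [RingHom.comp_apply, AlgHom.toRingHom_eq_coe, RingHom.coe_coe,
            show PowerSeries.C o = algebraMap O O⟦X⟧ o from rfl, AlgHom.commutes]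
          exact MPoint.evO_C _ o
        · rw [RingHom.comp_apply, AlgHom.toRingHom_eq_coe, RingHom.coe_coe,
            PowerSeries.substAlgHom_X]
      rw [← hΨ, RingHom.comp_apply, AlgHom.toRingHom_eq_coe, RingHom.coe_coe,
        PowerSeries.coe_substAlgHom hsF, hFV, MPoint.evO_X]
    refine hval (S a) hS ?_
    have := map_evO_eq (mkPt C a ha) (mkPt C (S a) hS) S rfl (PowerSeries.X * V)
    rw [map_mul (PowerSeries.map S), PowerSeries.map_X, hVS, haV, hr'] at this
    exact this.symm

end Fermat.Agent.Mazur3.AtEta
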