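import Fermat.Agent.Mazur3.AtEta.Config
import Fermat.Agent.Mazur3.AtEta.Factor
import Fermat.Agent.Mazur3.AtEta.Conjugate

/-!
# Leading values on a configuration

The quotient of the value of the transfer by the power of the value at the point is, for a function
given on the disc, a cross ratio of leading coefficients of evaluations.
-/

set_option autoImplicit false
set_option linter.unusedSectionVars false

noncomputable section

namespace Fermat.Agent.Mazur3.AtEta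

open GalRep GalRep.Model IsLocalRing
open UpperHalfPlane CongruenceSubgroup
open scoped MatrixGroups Manifold PowerSeries

local notation "Q̄" => AlgebraicClosure ℚ

/-- A series is its value plus a multiple of `X - a`, the cofactor having the derivative as value. -/
theorem MPoint.exists_sub_eq_mul {O : Type} [CommRing O] [IsDomain O] [IsDiscreteValuationRing O]
    [IsAdicComplete (maximalIdeal O) O] (z : MPoint O) (g : O⟦X⟧) :
    ∃ q : O⟦X⟧, g - PowerSeries.C (z.evO g) = (PowerSeries.X - PowerSeries.C z.a) * q ∧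
      z.evO q = z.evO (PowerSeries.derivative O g) := by
  obtain ⟨r, q, hr⟩ := z.exists_decomp g 0
  rw [zero_add, pow_one] at hr
  obtain ⟨r1, hr1⟩ := Polynomial.X_sub_C_dvd_sub_C_eval (a := z.a) (p := r)
  have hev : z.evO g = r.eval z.a := by
    rw [hr, map_add, map_mul, map_sub, MPoint.evO_X, MPoint.evO_C, sub_self, zero_mul, add_zero]
    have h : z.evO.comp Polynomial.coeToPowerSeries.ringHom = Polynomial.evalRingHom z.a :=
      Polynomial.ringHom_ext (fun c => by simp) (by simp)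
    simpa using RingHom.congr_fun h r
  have h1 := congrArg (fun p : Polynomial O => (p : O⟦X⟧)) hr1
  simp only [Polynomial.coe_sub, Polynomial.coe_mul, Polynomial.coe_X, Polynomial.coe_C] at h1
  have h2 : g - PowerSeries.C (z.evO g) =
      (PowerSeries.X - PowerSeries.C z.a) * ((r1 : O⟦X⟧) + q) := by
    rw [hev, mul_add, ← h1, hr]; ring
  refine ⟨_, h2, ?_⟩
  have h3 := congrArg (PowerSeries.derivative O) h2
  rw [map_sub, PowerSeries.derivative_C, sub_zero, Derivation.leibniz, map_sub,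
    PowerSeries.derivative_C, PowerSeries.derivative_X, sub_zero, smul_eq_mul, smul_eq_mul,
    mul_one] at h3
  rw [h3, map_add z.evO (_ * _), map_mul, map_sub, MPoint.evO_X, MPoint.evO_C, sub_self, zero_mul,
    zero_add]

variable {p η : ℕ} [NeZero p] {hg : GoodIndex p η} {x : RatPoint p}
  {M : ℕ} [NeZero M] {L : Lev M} {O : Type} [CommRing O] [IsDomain O] [IsDiscreteValuationRing O]
  [IsAdicComplete (maximalIdeal O) O] [IsAlgClosed (ResidueField O)]
  {C : Cyc O M} {L₀ : IntermediateField ℚ Q̄} {M0 : ℕ}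

local notation "al" => algebraMap (PowerSeries O) (SeriesField O)

variable (x) in
/-- The value of the transfer divided by the power of the value at the point. -/
def heckeRatio (hg : GoodIndex p η) (F : ℍ → ℂ) : ℂ :=
  x.val (heckeProd hg F) / x.val F ^ (η + 1)

theorem heckeProd_holo (hg : GoodIndex p η) {F : ℍ → ℂ} (hF : MDifferentiable 𝓘(ℂ) 𝓘(ℂ) F)
    (hF0 : F ≠ 0) : MDifferentiable 𝓘(ℂ) 𝓘(ℂ) (heckeProd hg F) ∧ heckeProd hg F ≠ 0 :=
  prod_holo _ fun i _ => ⟨mdifferentiable_comp_posMat hF _ _,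
    (PMap.ofMat (heckeRep η i) (det_heckeRep_pos hg i)).ne_zero hF0⟩

theorem heckeRatio_mul (hg : GoodIndex p η) {F G : ℍ → ℂ} (hF : MDifferentiable 𝓘(ℂ) 𝓘(ℂ) F)
    (hF0 : F ≠ 0) (hG : MDifferentiable 𝓘(ℂ) 𝓘(ℂ) G) (hG0 : G ≠ 0) :
    heckeRatio x hg (F * G) = heckeRatio x hg F * heckeRatio x hg G := by
  rw [heckeRatio, heckeRatio, heckeRatio, heckeProd_mul,
    x.val_mul (heckeProd_holo hg hF hF0).1 (heckeProd_holo hg hG hG0).1, x.val_mul hF hG, mul_pow,
    div_mul_div_comm]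

theorem heckeRatio_one (hg : GoodIndex p η) : heckeRatio x hg 1 = 1 := by
  have h : heckeProd hg (1 : ℍ → ℂ) = 1 := by
    funext τ
    simp [heckeProd]
  simp [heckeRatio, h, RatPoint.val, x.tay_one, Mazur3.lead_one]

theorem heckeRatio_pow (hg : GoodIndex p η) {F : ℍ → ℂ} (hF : MDifferentiable 𝓘(ℂ) 𝓘(ℂ) F)
    (hF0 : F ≠ 0) : ∀ k : ℕ, heckeRatio x hg (F ^ k) = heckeRatio x hg F ^ k
  | 0 => by rw [pow_zero, pow_zero, heckeRatio_one]
  | k + 1 => by
    rw [pow_succ, pow_succ, heckeRatio_mul hg (hF.pow k) ?_ hF hF0, heckeRatio_pow hg hF hF0 k]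
    intro h
    refine hF0 (funext fun τ => ?_)
    have := congrFun h τ
    simp only [Pi.pow_apply, Pi.zero_apply] at this
    exact eq_zero_of_pow_eq_zero this

theorem heckeRatio_ne_zero (hg : GoodIndex p η) {F : ℍ → ℂ} (hF : MDifferentiable 𝓘(ℂ) 𝓘(ℂ) F)
    (hF0 : F ≠ 0) : heckeRatio x hg F ≠ 0 :=
  div_ne_zero (x.val_ne_zero (heckeProd_holo hg hF hF0).1 (heckeProd_holo hg hF hF0).2)
    (pow_ne_zero _ (x.val_ne_zero hF hF0))

namespace Config

variable (Cf : Config (L := L) hg x C L₀ M0)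

/-- The moved maps. -/
abbrev pmap (i : Option (Option (Fin η))) : PMap := (pts hg i).smul (Cf.γ i : SL(2, ℤ))

/-- The parameters on the disc. -/
abbrev mp (i : Option (Option (Fin η))) : MPoint O := mkPt C (Cf.pt i).a (Cf.pt i).mem

/-- The evaluation at the expansion of the parameter. -/
def evS (i : Option (Option (Fin η))) : O⟦X⟧ →+* ℂ⟦X⟧ :=
  (Cf.mp i).evAt (Cf.pt i).A (Cf.pt i).hA

theorem constantCoeff_evS (i : Option (Option (Fin η))) (g : O⟦X⟧) :
    PowerSeries.constantCoeff (Cf.evS i g) = C.φ ((Cf.mp i).evO g) :=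
  MPoint.constantCoeff_evAt _ _ g

theorem lead_evS (i : Option (Option (Fin η))) {g : O⟦X⟧} (h : (Cf.mp i).evO g ≠ 0) :
    lead (Cf.evS i g) = C.φ ((Cf.mp i).evO g) := by
  rw [lead_of_constantCoeff_ne_zero, constantCoeff_evS]
  rw [constantCoeff_evS]
  exact (map_ne_zero_iff _ C.inj).mpr h

theorem lead_evS_unit (i : Option (Option (Fin η))) {g : O⟦X⟧} (h : IsUnit g) :
    lead (Cf.evS i g) = C.φ ((Cf.mp i).evO g) :=
  Cf.lead_evS i (h.map _).ne_zero

/-- The value of the cusp factors. -/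
def kap (i : Option (Option (Fin η))) : ℂ := lead (tayP x (Cf.pmap i) (toMF C (cuspElt L C)))

theorem kap_eq (i : Option (Option (Fin η))) :
    (Cf.mp i).evO (Polynomial.aeval (PowerSeries.C Cf.D.c + Cf.D.t) (L.cuspPoly C)) ≠ 0 ∧
      Cf.kap i = C.φ ((Cf.mp i).evO
        (Polynomial.aeval (PowerSeries.C Cf.D.c + Cf.D.t) (L.cuspPoly C))) := by
  have hs : tayP x (Cf.pmap i) (toMF C (cuspElt L C)) = Cf.evS i
      (Polynomial.aeval (PowerSeries.C Cf.D.c + Cf.D.t) (L.cuspPoly C)) :=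
    (Cf.pt i).spec (cuspElt L C) _ (ι_aeval_of Cf.D.ι Cf.D.ι_O Cf.D.ι_w _)
  have hne : (Cf.mp i).evO
      (Polynomial.aeval (PowerSeries.C Cf.D.c + Cf.D.t) (L.cuspPoly C)) ≠ 0 := by
    intro h0
    have h1 := constantCoeff_tayP x (Cf.pmap i) (L.wMF C)
    rw [(Cf.pt i).tay_w] at h1
    have h2 : C.φ (Cf.D.c + (Cf.mp i).evO Cf.D.t) =
        (L.wMF C : ℍ → ℂ) ((Cf.pmap i).toFun x.τ) := by
      rw [← h1, map_add, map_add, PowerSeries.constantCoeff_C]
      exact congrArg _ (Cf.constantCoeff_evS i _).symm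
    rw [Lev.cuspPoly, map_prod, map_prod, Finset.prod_eq_zero_iff] at h0
    obtain ⟨j, hj, hj0⟩ := h0
    rw [map_sub (Polynomial.aeval _), Polynomial.aeval_X, Polynomial.aeval_C, map_sub, map_add,
      MPoint.evO_C, PowerSeries.algebraMap_apply, Algebra.algebraMap_self, RingHom.id_apply,
      MPoint.evO_C, sub_eq_zero] at hj0
    exact L.w_ne_cval C hj ((Cf.pmap i).toFun x.τ) (h2.symm.trans (congrArg C.φ hj0))
  exact ⟨hne, by rw [kap, hs, Cf.lead_evS i hne]⟩

theorem kap_ne_zero (i : Option (Option (Fin η))) : Cf.kap i ≠ 0 := by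
  obtain ⟨h, h'⟩ := Cf.kap_eq i
  rw [h']
  exact (map_ne_zero_iff _ C.inj).mpr h

/-- The slope of the expansion of the parameter. -/
def sl (i : Option (Option (Fin η))) : ℂ :=
  lead ((Cf.pt i).A - PowerSeries.C (C.φ (Cf.pt i).a))

theorem evS_X_sub_C (i : Option (Option (Fin η))) :
    Cf.evS i (PowerSeries.X - PowerSeries.C (Cf.pt i).a) =
      (Cf.pt i).A - PowerSeries.C (C.φ (Cf.pt i).a) := by
  rw [map_sub, evS, MPoint.evAt_X, MPoint.evAt_C]

theorem sl_eq (i : Option (Option (Fin η))) :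
    lead (tayP x (Cf.pmap i) (L.wMF C) -
        PowerSeries.C ((L.wMF C : ℍ → ℂ) ((Cf.pmap i).toFun x.τ))) =
      Cf.sl i * C.φ ((Cf.mp i).evO (PowerSeries.derivative O Cf.D.t)) := by
  obtain ⟨q, hq, hq'⟩ := (Cf.mp i).exists_sub_eq_mul Cf.D.t
  have h1 := constantCoeff_tayP x (Cf.pmap i) (L.wMF C)
  rw [(Cf.pt i).tay_w, map_add, PowerSeries.constantCoeff_C] at h1
  have hw : tayP x (Cf.pmap i) (L.wMF C) =
      PowerSeries.C (C.φ Cf.D.c) + Cf.evS i Cf.D.t := (Cf.pt i).tay_w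
  rw [hw, ← h1, map_add, add_sub_add_left_eq_sub]
  have h2 : Cf.evS i Cf.D.t - PowerSeries.C (C.φ ((Cf.mp i).evO Cf.D.t)) =
      ((Cf.pt i).A - PowerSeries.C (C.φ (Cf.pt i).a)) * Cf.evS i q := by
    have h3 := congrArg (Cf.evS i) hq
    rw [map_mul] at h3
    rw [← Cf.evS_X_sub_C i]
    refine Eq.trans ?_ h3
    rw [map_sub (Cf.evS i), evS, MPoint.evAt_C]
  rw [show PowerSeries.constantCoeff ((mkPt C (Cf.pt i).a (Cf.pt i).mem).evAt (Cf.pt i).A
    (Cf.pt i).hA Cf.D.t) = C.φ ((Cf.mp i).evO Cf.D.t) from Cf.constantCoeff_evS i _, h2, lead_mul,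
    Cf.lead_evS i (hq' ▸ Cf.slope_ne i), hq']
  rfl

theorem sl_ne_zero (i : Option (Option (Fin η))) : Cf.sl i ≠ 0 := by
  intro h0
  have h := Cf.sl_eq i
  rw [h0, zero_mul] at h
  set P := Cf.pmap i
  set w0 : O := Cf.D.c + (Cf.mp i).evO Cf.D.t
  have h1 : (L.wMF C : ℍ → ℂ) (P.toFun x.τ) = C.φ w0 := by
    rw [← constantCoeff_tayP x P (L.wMF C), (Cf.pt i).tay_w, map_add,
      PowerSeries.constantCoeff_C, map_add C.φ]
    exact congrArg _ (Cf.constantCoeff_evS i _)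
  rw [h1, ← tayP_algebraMap x (M := M) P, ← map_sub] at h
  refine lead_ne_zero (tayP_ne_zero x P fun hf => ?_) h
  have hw : L.w C = algebraMap O (lvlField C) w0 := by
    refine Subtype.ext ?_
    rw [← L.algebraMap_wMF C, sub_eq_zero.mp hf]
    rfl
  have h2 := Cf.D.ι_w
  rw [hw, Cf.D.ι_O] at h2
  have h3 := congrArg (PowerSeries.derivative O) (IsFractionRing.injective _ (SeriesField O) h2)
  rw [PowerSeries.derivative_C, map_add, PowerSeries.derivative_C, zero_add] at h3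
  exact Cf.D.t_der (by rw [← h3, map_zero])

theorem conj_sl (i : Option (Option (Fin η))) {S : O →+* O} (hS : Function.Injective S)
    (hres : ∀ o, residue O (S o) = residue O o) (hfix : FixesLifts C.φ L₀ S)
    {A : ValuationSubring Q̄} (hlift : HasLifts A C.φ L₀) :
    ConjVal C.φ S (Cf.sl i) (Cf.sl i) := by
  obtain ⟨z, hz, hzs⟩ := Cf.slope i
  have heq : qbarToC z = Cf.sl i * C.φ ((Cf.mp i).evO (PowerSeries.derivative O Cf.D.t)) :=
    hzs.trans (Cf.sl_eq i)
  obtain ⟨-, -, ht, ha⟩ := Cf.fix_c S hres hfix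
  have hdt : S ((Cf.mp i).evO (PowerSeries.derivative O Cf.D.t)) =
      (Cf.mp i).evO (PowerSeries.derivative O Cf.D.t) := by
    rw [map_evO_eq (Cf.mp i) (Cf.mp i) S (ha i)]
    congr 1
    conv_rhs => rw [← ht]
    ext k
    simp [PowerSeries.coeff_derivative]
  have hd := (map_ne_zero_iff _ C.inj).mpr (Cf.slope_ne i)
  have key : ∀ z' ∈ L₀, z' ∈ A → ConjVal C.φ S (qbarToC z') (qbarToC z') := by
    intro z' hz' hzA
    obtain ⟨o, ho, -⟩ := hlift z' hz' hzA
    rw [← ho]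
    exact ConjVal.fixed (hfix z' hz' o ho)
  have hzc : ConjVal C.φ S (qbarToC z) (qbarToC z) := by
    rcases A.mem_or_inv_mem z with h | h
    · exact key z hz h
    · simpa using (key _ (inv_mem hz) h).inv C.inj hS
  rw [show Cf.sl i = qbarToC z / C.φ ((Cf.mp i).evO (PowerSeries.derivative O Cf.D.t)) by
    rw [heq, mul_div_cancel_right₀ _ (show C.φ _ ≠ 0 from hd)]]
  exact hzc.div C.inj hS (ConjVal.fixed hdt)

/-- The leading coefficient of a polynomial at a parameter. -/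
def lq (Q : Polynomial O) (i : Option (Option (Fin η))) : ℂ := lead (Cf.evS i (Q : O⟦X⟧))

theorem lq_decomp (i : Option (Option (Fin η))) (j : ℕ) {R : Polynomial O}
    (hR : R.eval (Cf.pt i).a ≠ 0) :
    Cf.lq ((Polynomial.X - Polynomial.C (Cf.pt i).a) ^ j * R) i =
      Cf.sl i ^ j * C.φ (R.eval (Cf.pt i).a) := by
  have hev : (Cf.mp i).evO (R : O⟦X⟧) = R.eval (Cf.pt i).a := by
    have h : (Cf.mp i).evO.comp Polynomial.coeToPowerSeries.ringHom =
        Polynomial.evalRingHom (Cf.pt i).a :=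
      Polynomial.ringHom_ext (fun c => by simp) (by simp [mp])
    simpa using RingHom.congr_fun h R
  rw [lq, Polynomial.coe_mul, Polynomial.coe_pow, Polynomial.coe_sub, Polynomial.coe_X,
    Polynomial.coe_C, map_mul, map_pow, Cf.evS_X_sub_C, lead_mul, lead_pow,
    Cf.lead_evS i (by rw [hev]; exact hR), hev]
  rfl

theorem exists_decomp_lq (i : Option (Option (Fin η))) {Q : Polynomial O} (hQ : Q ≠ 0) :
    ∃ (j : ℕ) (R : Polynomial O), Q = (Polynomial.X - Polynomial.C (Cf.pt i).a) ^ j * R ∧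
      R.eval (Cf.pt i).a ≠ 0 := by
  obtain ⟨R, hR, hnd⟩ := Q.exists_eq_pow_rootMultiplicity_mul_and_not_dvd hQ (Cf.pt i).a
  exact ⟨_, R, hR, fun h => hnd (Polynomial.dvd_iff_isRoot.mpr h)⟩

theorem lq_ne_zero (i : Option (Option (Fin η))) {Q : Polynomial O} (hQ : Q ≠ 0) :
    Cf.lq Q i ≠ 0 := by
  obtain ⟨j, R, rfl, hR⟩ := Cf.exists_decomp_lq i hQ
  rw [Cf.lq_decomp i j hR]
  exact mul_ne_zero (pow_ne_zero _ (Cf.sl_ne_zero i)) ((map_ne_zero_iff _ C.inj).mpr hR)

theorem conj_lq (i : Option (Option (Fin η))) {S : O →+* O} (hS : Function.Injective S)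
    (hres : ∀ o, residue O (S o) = residue O o) (hfix : FixesLifts C.φ L₀ S)
    {A : ValuationSubring Q̄} (hlift : HasLifts A C.φ L₀) {Q : Polynomial O} (hQ : Q ≠ 0) :
    ConjVal C.φ S (Cf.lq Q i) (Cf.lq (Q.map S) i) := by
  obtain ⟨-, -, -, ha⟩ := Cf.fix_c S hres hfix
  obtain ⟨j, R, rfl, hR⟩ := Cf.exists_decomp_lq i hQ
  have he : (R.map S).eval (Cf.pt i).a = S (R.eval (Cf.pt i).a) := by
    conv_lhs => rw [← ha i]
    rw [Polynomial.eval_map, Polynomial.eval₂_at_apply]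
  rw [Polynomial.map_mul, Polynomial.map_pow, Polynomial.map_sub, Polynomial.map_X,
    Polynomial.map_C, ha i, Cf.lq_decomp i j hR,
    Cf.lq_decomp i j (by rw [he]; exact (map_ne_zero_iff _ hS).mpr hR), he]
  exact ((Cf.conj_sl i hS hres hfix hlift).pow j).mul (ConjVal.of _)

/-- The cross ratio of leading values of the polynomial part. -/
def lam (N : ℕ) (Q : Polynomial O) : ℂ := crossRatio (η + 1) fun i => Cf.lq Q i / Cf.kap i ^ N

theorem lam_ne_zero (N : ℕ) {Q : Polynomial O} (hQ : Q ≠ 0) : Cf.lam N Q ≠ 0 :=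
  crossRatio_ne_zero fun i => div_ne_zero (Cf.lq_ne_zero i hQ) (pow_ne_zero _ (Cf.kap_ne_zero i))

theorem lam_mul (N N' : ℕ) (Q Q' : Polynomial O) :
    Cf.lam (N + N') (Q * Q') = Cf.lam N Q * Cf.lam N' Q' := by
  rw [lam, lam, lam, ← crossRatio_mul]
  congr 1
  funext i
  rw [lq, Polynomial.coe_mul, map_mul, lead_mul, pow_add, div_mul_div_comm]
  rfl

theorem lam_one : Cf.lam 0 1 = 1 := by
  have h : ∀ i, Cf.lq 1 i / Cf.kap i ^ 0 = 1 := fun i => by
    rw [lq, Polynomial.coe_one, map_one, lead_one, pow_zero, div_one]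
  simp only [lam, h, crossRatio_one]

theorem conj_lam (N : ℕ) {S : O →+* O} (hS : Function.Injective S)
    (hres : ∀ o, residue O (S o) = residue O o) (hζ : S C.ζ = C.ζ)
    (hfix : FixesLifts C.φ L₀ S)
    {A : ValuationSubring Q̄} (hlift : HasLifts A C.φ L₀) {Q : Polynomial O} (hQ : Q ≠ 0) :
    ConjVal C.φ S (Cf.lam N Q) (Cf.lam N (Q.map S)) := by
  refine ConjVal.crossRatio C.inj hS fun i =>
    (Cf.conj_lq i hS hres hfix hlift hQ).div C.inj hS (ConjVal.pow ?_ N)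
  obtain ⟨-, hc, ht, ha⟩ := Cf.fix_c S hres hfix
  rw [(Cf.kap_eq i).2]
  refine ConjVal.fixed ?_
  rw [map_evO_eq (Cf.mp i) (Cf.mp i) S (ha i)]
  congr 1
  simp only [Lev.cuspPoly, map_prod, map_sub (Polynomial.aeval _), Polynomial.aeval_X,
    Polynomial.aeval_C, map_sub (PowerSeries.map S), map_add, PowerSeries.algebraMap_apply,
    PowerSeries.map_C, Algebra.algebraMap_self, RingHom.id_apply, map_cval L C S hres hζ, hc, ht]

/-- The cross ratio of the values of a series. -/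
def uval (h : O⟦X⟧) : O := crossRatio (η + 1) fun i => (Cf.mp i).evO h

theorem uval_mul (h h' : O⟦X⟧) : Cf.uval (h * h') = Cf.uval h * Cf.uval h' := by
  rw [uval, uval, uval, ← crossRatio_mul]
  simp only [map_mul]

theorem uval_pow (h : O⟦X⟧) (k : ℕ) : Cf.uval (h ^ k) = Cf.uval h ^ k := by
  rw [uval, uval, ← crossRatio_pow]
  simp only [map_pow]

theorem isUnit_uval {h : O⟦X⟧} (hu : IsUnit h) : IsUnit (Cf.uval h) :=
  isUnit_crossRatio fun _ => hu.map _

theorem map_uval {h : O⟦X⟧} (hu : IsUnit h) {S : O →+* O}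
    (hres : ∀ o, residue O (S o) = residue O o) (hfix : FixesLifts C.φ L₀ S) :
    S (Cf.uval h) = Cf.uval (PowerSeries.map S h) := by
  obtain ⟨-, -, -, ha⟩ := Cf.fix_c S hres hfix
  rw [uval, uval, map_crossRatio S _ (hu.map _)]
  congr 1
  funext i
  exact map_evO_eq (Cf.mp i) (Cf.mp i) S (ha i) h

/-- The quotient of leading values of a function on the disc. -/
theorem heckeRatio_eq {H : modFuns (Gamma M)}
    (hinv : ∀ (γ : Gamma0 p) (τ : ℍ), (H : ℍ → ℂ) ((γ : SL(2, ℤ)) • τ) = (H : ℍ → ℂ) τ) :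
    heckeRatio x hg (H : ℍ → ℂ) = crossRatio (η + 1) fun i => lead (tayP x (Cf.pmap i) H) := by
  have hi : ∀ i, lead (tayP x (Cf.pmap i) H) = x.val ((H : ℍ → ℂ) ∘ (pts hg i).toFun) := by
    intro i
    have h : ((H : ℍ → ℂ) ∘ (Cf.pmap i).toFun) = (H : ℍ → ℂ) ∘ (pts hg i).toFun :=
      funext fun τ => hinv _ _
    rw [tayP_apply, h]
    rfl
  simp only [crossRatio, hi, Ring.inverse_eq_inv', ← div_eq_mul_inv]
  rw [heckeRatio]
  congr 1
  have hmd : ∀ i : Option (Fin η), MDifferentiable 𝓘(ℂ) 𝓘(ℂ)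
      ((H : ℍ → ℂ) ∘ (pts hg (some i)).toFun) := fun i => (pts hg (some i)).holo _ H.2.holo
  have h := map_prod (tayHom x) (fun i => (⟨_, hmd i⟩ : mdRing)) Finset.univ
  have hp : ((∏ i, (⟨_, hmd i⟩ : mdRing) : mdRing) : ℍ → ℂ) = heckeProd hg (H : ℍ → ℂ) :=
    (map_prod mdRing.val (fun i => (⟨_, hmd i⟩ : mdRing)) Finset.univ).trans rfl
  refine Eq.trans ?_ (lead_prod Finset.univ _)
  refine congrArg lead ?_
  refine Eq.trans ?_ h
  rw [← hp]
  rfl

/-- The quotient of leading values from a series on the disc. -/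
theorem heckeRatio_of_ser {H : modFuns (Gamma M)}
    (hinv : ∀ (γ : Gamma0 p) (τ : ℍ), (H : ℍ → ℂ) ((γ : SL(2, ℤ)) • τ) = (H : ℍ → ℂ) τ)
    {N n : ℕ} (y : holRing C) (hy : toMF C y = H * toMF C (cuspElt L C) ^ (n * N))
    {Q : Polynomial O} {h : O⟦X⟧} (hh : IsUnit h)
    (hser : Cf.D.ι (y : lvlField C) = al ((Q : O⟦X⟧) ^ n * h)) :
    heckeRatio x hg (H : ℍ → ℂ) = Cf.lam N Q ^ n * C.φ (Cf.uval h) := by
  have hi : ∀ i, lead (tayP x (Cf.pmap i) H) =
      (Cf.lq Q i / Cf.kap i ^ N) ^ n * C.φ ((Cf.mp i).evO h) := by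
    intro i
    have h1 : tayP x (Cf.pmap i) (toMF C y) = Cf.evS i ((Q : O⟦X⟧) ^ n * h) :=
      (Cf.pt i).spec y _ hser
    rw [hy, map_mul, map_pow, map_mul, map_pow] at h1
    have h2 := congrArg lead h1
    rw [lead_mul, lead_pow, lead_mul, lead_pow, Cf.lead_evS_unit i hh] at h2
    change _ * Cf.kap i ^ (n * N) = Cf.lq Q i ^ n * _ at h2
    rw [div_pow, div_mul_eq_mul_div, eq_div_iff (pow_ne_zero _ (pow_ne_zero _ (Cf.kap_ne_zero i))),
      ← pow_mul, mul_comm N n, h2]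
  rw [Cf.heckeRatio_eq hinv]
  simp only [hi, crossRatio_mul, crossRatio_pow]
  rw [uval, map_crossRatio C.φ _ (hh.map _)]
  rfl

end Config

end Fermat.Agent.Mazur3.AtEta
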