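import Fermat.Agent.Mazur3.AtEta.CuspPoint
import Fermat.Agent.Mazur3.AtEta.Base

/-!
# All the images on one disc

For a rational point of `X₀(p)` and a prime `η` of good reduction the point and its images under
the matrices of the transfer, translated by `Γ₀(p)`, lie on one disc at an auxiliary level. Where
`j` is integral this is the congruence relation; at a pole of `j` the two cusps of `Γ₀(p)` are told
apart by the valuations of `j` and `j(pτ)`.
-/

set_option autoImplicit false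
set_option linter.unusedSectionVars false
set_option linter.style.haveILetI false

noncomputable section

namespace Fermat.Agent.Mazur3.AtEta

open GalRep GalRep.Model IsLocalRing
open UpperHalfPlane CongruenceSubgroup
open Fermat.Agent.Period (jFun)
open scoped MatrixGroups Manifold PowerSeries

local notation "Q̄" => AlgebraicClosure ℚ

variable {p η : ℕ} [NeZero p] [Fact η.Prime] {M : ℕ} [NeZero M]

/-! ## The function `j(pτ)` at level `M` -/

/-- `j(pτ)` as a function of level `M`. -/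
def jpMF (p : ℕ) [NeZero p] {M : ℕ} (h : Gamma M ≤ Gamma0 p) : modFuns (Gamma M) :=
  ⟨jNFun p, modFuns_anti h (isModFun_jNFun p)⟩

theorem serHom_jMF : serHom M (jMF (Gamma M)) = expand M (NeZero.ne M) jq := by
  have h := hasQSeries_jq.refine_width one_pos M (NeZero.ne M)
  rw [one_mul] at h
  exact (hasQSeries_serHom (jMF (Gamma M))).unique (NeZero.pos M) h

theorem shift_jMF (g : SL(2, ℤ)) : shift M g (jMF (Gamma M)) = jMF (Gamma M) :=
  Subtype.ext (funext fun τ => Period.jFun_smul g τ)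

theorem serHom_jpMF (h : Gamma M ≤ Gamma0 p) : serHom M (jpMF p h) =
    expand M (NeZero.ne M) (expand p (NeZero.ne p) jq) := by
  have h1 := (hasQSeries_jNFun p).refine_width one_pos M (NeZero.ne M)
  rw [one_mul] at h1
  exact (hasQSeries_serHom (jpMF p h)).unique (NeZero.pos M) h1

theorem serHom_shift_jpMF (h : Gamma M ≤ Gamma0 p) {k : ℕ} (hM : M = p * k) (hk : k ≠ 0) :
    serHom M (shift M (cuspMat 0) (jpMF p h)) = expand k hk jq := by
  have h1 := hasQSeries_jq.comp_affine one_pos 1 p one_ne_zero (NeZero.pos p) 0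
    (fun τ => posMat _ (det_upper_pos 0 one_pos (NeZero.pos p)) • τ)
    (fun τ => by rw [coe_posMat_smul]; simp) 1 (by simp)
  have ht : twist (1 : ℂˣ) jq = jq := by ext; simp
  rw [ht, one_mul, expand_one] at h1
  have h2 := (h1.congr (G := (shift M (cuspMat 0) (jpMF p h) : ℍ → ℂ))
    (.of_forall fun τ => ?_)).refine_width (NeZero.pos p) k hk
  · rw [← hM] at h2
    exact (hasQSeries_serHom _).unique (NeZero.pos M) h2
  · rw [shift_apply]
    show _ = jFun (posMat _ (det_diagN p) • cuspMat 0 • τ)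
    have e : posMat _ (det_diagN p) • cuspMat 0 • τ =
        ModularGroup.S • posMat _ (det_upper_pos 0 one_pos (NeZero.pos p)) • τ :=
      UpperHalfPlane.ext (by
        have hS : cuspMat 0 = ModularGroup.S := rfl
        rw [hS, coe_posMat_smul, UpperHalfPlane.modular_S_smul, UpperHalfPlane.modular_S_smul]
        simp [coe_posMat_smul]
        field_simp)
    rw [e, Period.jFun_smul]

theorem expand_mem_coeffSubring (B : Subring ℂ) {a : ℕ} (ha : a ≠ 0) {f : LaurentSeries ℂ}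
    (hf : f ∈ coeffSubring B) : expand a ha f ∈ coeffSubring B := fun m => by
  by_cases hm : (a : ℤ) ∣ m
  · obtain ⟨l, rfl⟩ := hm
    rw [expand_coeff_mul]
    exact hf l
  · rw [expand_coeff_of_not_dvd _ _ _ _ hm]
    exact zero_mem B

/-! ## The field of values -/

/-- A field containing the values needed for the configurations. -/
structure HasValues (hg : GoodIndex p η) (x : RatPoint p) (L : Lev M)
    (L₀ : IntermediateField ℚ Q̄) : Prop where
  zeta : (cycBar M).ζ ∈ L₀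
  cval : ∀ k, cvQ L k ∈ L₀
  w : ∀ (i : Option (Option (Fin η))) (g : SL(2, ℤ)), ∃ z ∈ L₀,
    qbarToC z = (wQuad L).fn (g • (pts hg i).toFun x.τ) ∧ ∀ k, ∃ r ∈ L₀, r ^ L.e = z - cvQ L k
  gen : ∀ (i : Option (Option (Fin η))) (g : SL(2, ℤ)) c, ∃ z ∈ L₀,
    qbarToC z = (genQuad L c).fn (g • (pts hg i).toFun x.τ)
  slope : ∀ (i : Option (Option (Fin η))) (g : SL(2, ℤ)), ∃ s ∈ L₀,
    qbarToC s = lead (tayP x ((pts hg i).smul g) (L.wMF (cycBar M)) -
      PowerSeries.C ((L.wMF (cycBar M) : ℍ → ℂ) (g • (pts hg i).toFun x.τ)))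
  desc : ∀ (h : Gamma M ≤ Gamma0 p) (O : Type) [CommRing O] [IsDomain O] (C : Cyc O M),
    (∀ s ∈ L₀, qbarToC s ∈ C.kC) →
      algebraMap (modFuns (Gamma M)) (WFld M) (jMF (Gamma M)) ∈ lvlField C ∧
      algebraMap (modFuns (Gamma M)) (WFld M) (jpMF p h) ∈ lvlField C

theorem exists_hasValues (hg : GoodIndex p η) (x : RatPoint p) (L : Lev M)
    (hle : Gamma M ≤ Gamma0 p) :
    ∃ (L₀ : IntermediateField ℚ Q̄) (_ : FiniteDimensional ℚ L₀) (_ : Normal ℚ L₀),
      HasValues hg x L L₀ := by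
  classical
  have : Finite (SL(2, ℤ) ⧸ Gamma M) := Subgroup.finite_quotient_of_finiteIndex
  choose zw hzw using fun (i : Option (Option (Fin η))) (q : SL(2, ℤ) ⧸ Gamma M) =>
    (apply_pts_mem_qC hg x (cycBar M) (wQuad L) i q.out :
      ∃ y, qbarToC y = (wQuad L).fn (q.out • (pts hg i).toFun x.τ))
  choose rt hrt using fun (i : Option (Option (Fin η))) (q : SL(2, ℤ) ⧸ Gamma M) (k : Fin 4) =>
    IsAlgClosed.exists_pow_nat_eq (zw i q - cvQ L k) L.e_pos
  choose zg hzg using fun (i : Option (Option (Fin η))) (q : SL(2, ℤ) ⧸ Gamma M)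
      (c : {c : ZMod M × ZMod M // c ≠ 0}) =>
    (apply_pts_mem_qC hg x (cycBar M) (genQuad L c) i q.out :
      ∃ y, qbarToC y = (genQuad L c).fn (q.out • (pts hg i).toFun x.τ))
  choose zs hzs using fun (i : Option (Option (Fin η))) (q : SL(2, ℤ) ⧸ Gamma M) =>
    (slope_mem_qC hg x L (cycBar M) i q.out :
      ∃ y, qbarToC y = lead (tayP x ((pts hg i).smul q.out) (L.wMF (cycBar M)) -
        PowerSeries.C ((L.wMF (cycBar M) : ℍ → ℂ) (q.out • (pts hg i).toFun x.τ))))
  have hjser : ∀ m, (serHom M (jMF (Gamma M))).coeff m ∈ qbarToC.fieldRange :=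
    coeff_serHom_jMF_mem qC.toSubring mem_qC_of_isIntegral
  have hjpser : ∀ m, (serHom M (jpMF p hle)).coeff m ∈ qbarToC.fieldRange := by
    rw [serHom_jpMF]
    exact expand_mem_coeffSubring qC.toSubring _ (expand_mem_coeffSubring qC.toSubring _
      fun m => mem_qC_of_isIntegral _ (jq_mem_intLS m).tower_top)
  obtain ⟨S1, hS1⟩ := L.exists_descent _ hjser
  obtain ⟨S2, hS2⟩ := L.exists_descent _ hjpser
  set T : Set Q̄ := {(cycBar M).ζ} ∪ Set.range (cvQ L) ∪ (Set.range fun a : _ × _ => zw a.1 a.2) ∪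
    (Set.range fun a : _ × _ × _ => rt a.1 a.2.1 a.2.2) ∪
    (Set.range fun a : _ × _ × _ => zg a.1 a.2.1 a.2.2) ∪
    (Set.range fun a : _ × _ => zs a.1 a.2) ∪ (S1 : Set Q̄) ∪ (S2 : Set Q̄) with hT
  have hTfin : T.Finite := by
    simp only [hT, Set.finite_union, Set.finite_singleton, Set.finite_range, Finset.finite_toSet,
      and_self]
  obtain ⟨L₀, hfd, hn, hsub⟩ := exists_numberField T hTfin
  have hout : ∀ (y : modFuns (Gamma M)) (g : SL(2, ℤ)) (σ : ℍ),
      (y : ℍ → ℂ) ((g : SL(2, ℤ) ⧸ Gamma M).out • σ) = (y : ℍ → ℂ) (g • σ) := fun y g σ =>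
    congrFun (congrArg Subtype.val (shift_out g y)) σ
  refine ⟨L₀, hfd, hn, ⟨hsub (by simp [hT]), fun k => hsub (by simp [hT]), fun i g => ?_,
    fun i g c => ?_, fun i g => ?_, fun h O _ _ C hC => ⟨?_, ?_⟩⟩⟩
  · refine ⟨zw i g, hsub (by simp [hT]), ?_, fun k => ⟨rt i g k, hsub (by simp [hT]), hrt i g k⟩⟩
    rw [hzw]
    exact hout (L.wMF (cycBar M)) g _
  · refine ⟨zg i g c, hsub ?_, ?_⟩
    · exact Or.inl (Or.inl (Or.inl (Or.inr ⟨(i, (g : SL(2, ℤ) ⧸ Gamma M), c), rfl⟩)))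
    rw [hzg]
    exact hout (ratMF (cycBar M) (genQuad L c)) g _
  · refine ⟨zs i g, hsub (by simp [hT]), ?_⟩
    rw [hzs, hout, ← tayP_shift, ← tayP_shift, shift_out]
  · exact hS1 O C fun s hs => hC s (hsub (by simp [hT, hs]))
  · exact hS2 O C fun s hs => hC s (hsub (by simp [hT, hs]))

/-! ## Lifts -/

section Lifts

variable {A : ValuationSubring Q̄} {L₀ : IntermediateField ℚ Q̄} {O : Type} [CommRing O]
  [IsDomain O] [IsLocalRing O] {φ : O →+* ℂ}

theorem mem_of_lift (hφ : Function.Injective φ) (hL : HasLifts A φ L₀) {z : Q̄} (hz : z ∈ L₀)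
    {o : O} (ho : φ o = qbarToC z) : z ∈ A := by
  by_contra hzA
  have hz0 : z ≠ 0 := fun h => hzA (h ▸ zero_mem A)
  have hinv : z⁻¹ ∈ A := (A.mem_or_inv_mem z).resolve_left hzA
  obtain ⟨o', ho', hiff⟩ := hL z⁻¹ (inv_mem hz) hinv
  have hn : z⁻¹ ∈ A.nonunits := by
    rw [A.mem_nonunits_iff, map_inv₀]
    exact inv_lt_one_of_one_lt₀ (lt_of_not_ge fun h => hzA ((A.valuation_le_one_iff z).mp h))
  have h1 : o' * o = 1 := hφ (by
    rw [map_mul, ho', ho, ← map_mul, inv_mul_cancel₀ hz0, map_one, map_one])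
  exact (mem_maximalIdeal o').mp (hiff.mp hn) (IsUnit.of_mul_eq_one _ h1)

theorem lift_mem_iff (hφ : Function.Injective φ) (hL : HasLifts A φ L₀) {z : Q̄} (hz : z ∈ L₀)
    {o : O} (ho : φ o = qbarToC z) : z ∈ A.nonunits ↔ o ∈ maximalIdeal O := by
  obtain ⟨o', ho', hiff⟩ := hL z hz (mem_of_lift hφ hL hz ho)
  rwa [← hφ (ho'.trans ho.symm)]

theorem fixed_lift {S : O →+* O} (hS : FixesLifts φ L₀ S) {z : Q̄} (hz : z ∈ L₀) {o : O}
    (ho : φ o = qbarToC z) : S o = o :=
  hS z hz o ho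

theorem natCast_dvd_pow {η N : ℕ} (hη : (η : Q̄) ≠ 0) (hφ : Function.Injective φ)
    (hL : HasLifts A φ L₀)
    (hN : ∀ z ∈ L₀, A.valuation z < 1 → A.valuation z ^ N ≤ A.valuation (η : Q̄))
    {z : Q̄} (hz : z ∈ L₀) {o : O} (ho : φ o = qbarToC z) (hom : o ∈ maximalIdeal O) :
    (η : O) ∣ o ^ N := by
  have hlt : A.valuation z < 1 := A.mem_nonunits_iff.mp ((lift_mem_iff hφ hL hz ho).mpr hom)
  have hmem : z ^ N / (η : Q̄) ∈ A := by
    refine (A.valuation_le_one_iff _).mp ?_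
    rw [map_div₀, map_pow]
    exact div_le_one_of_le₀ (hN z hz hlt) zero_le
  obtain ⟨o', ho', -⟩ := hL _ (div_mem (pow_mem hz N) (natCast_mem L₀ η)) hmem
  refine ⟨o', hφ ?_⟩
  rw [map_pow, map_mul, map_natCast, ho, ho', ← map_pow, ← map_natCast qbarToC, ← map_mul,
    mul_div_cancel₀ _ hη]

theorem mem_kC_of_mem {M : ℕ} (C : Cyc O M) (hL : HasLifts A C.φ L₀) {s : Q̄} (hs : s ∈ L₀) :
    qbarToC s ∈ C.kC := by
  rcases A.mem_or_inv_mem s with h | h
  · obtain ⟨o, ho, -⟩ := hL s hs h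
    exact ho ▸ Subfield.subset_closure ⟨o, rfl⟩
  · obtain ⟨o, ho, -⟩ := hL _ (inv_mem hs) h
    rw [← inv_inv s, map_inv₀, ← ho]
    exact inv_mem (Subfield.subset_closure ⟨o, rfl⟩)

end Lifts

/-! ## The configurations -/

variable {hg : GoodIndex p η} {x : RatPoint p} {L : Lev M} {A : ValuationSubring Q̄}
  {L₀ : IntermediateField ℚ Q̄} {O : Type} [CommRing O] [IsDomain O] [IsDiscreteValuationRing O]
  [IsAdicComplete (maximalIdeal O) O] [IsAlgClosed (ResidueField O)] {C : Cyc O M} {N : ℕ}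

theorem fixed_zeta (hV : HasValues hg x L L₀) {S : O →+* O} (hS : FixesLifts C.φ L₀ S) :
    S C.ζ = C.ζ :=
  hS _ hV.zeta _ (C.map_ζ.trans (cycBar M).map_ζ.symm)

theorem slope_of_hasValues (hV : HasValues hg x L L₀) (i : Option (Option (Fin η)))
    (g : SL(2, ℤ)) : ∃ s ∈ L₀, qbarToC s = lead (tayP x ((pts hg i).smul g) (L.wMF C) -
      PowerSeries.C ((L.wMF C : ℍ → ℂ) (((pts hg i).smul g).toFun x.τ))) := by
  rw [wMF_eq L C (cycBar M)]
  exact hV.slope i g

theorem exists_w_lift (hV : HasValues hg x L L₀) (hL : HasLifts A C.φ L₀)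
    (i : Option (Option (Fin η))) (g : SL(2, ℤ)) {z : Q̄}
    (hz : qbarToC z = (wQuad L).fn (g • (pts hg i).toFun x.τ)) (hzA : z ∈ A) :
    z ∈ L₀ ∧ ∃ o : O, C.φ o = qbarToC z ∧
      C.φ o = (L.wMF C : ℍ → ℂ) (((pts hg i).smul g).toFun x.τ) := by
  obtain ⟨z', hz', he, -⟩ := hV.w i g
  obtain rfl := qbarToC.injective (he.trans hz.symm)
  obtain ⟨o, ho, -⟩ := hL z' hz' hzA
  exact ⟨hz', o, ho, ho.trans hz⟩

theorem sgR_apply {P : PMap} {D : Disc L C} (S : SheetPt x D P)
    {c : {c : ZMod M × ZMod M // c ≠ 0}} (y : L.genSet C) (hc : L.gen C c = (y : lvlField C))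
    {og ow : O} (hog : C.φ og = (genQuad L c).fn (P.toFun x.τ))
    (how : C.φ ow = (L.wMF C : ℍ → ℂ) (P.toFun x.τ)) :
    residue O (PowerSeries.constantCoeff (D.ser (sgR L C y))) =
      residue O og * (L.cuspPoly C).eval₂ (residue O) (residue O ow) := by
  have h := S.apply_eq ⟨L.sgen C y, (L.sgen_mem C y.2).1⟩ (f := sgR L C y) rfl
  rw [toMF_eq C (f := ratMF C (genQuad L c) *
      Polynomial.aeval (L.wMF C) ((L.cuspPoly C).map C.φ)) (by
    rw [map_mul, ← L.coe_aeval_w]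
    show _ = ((L.sgen C (y : lvlField C) : lvlField C) : WFld M)
    rw [Lev.sgen, ← hc]
    rfl)] at h
  have hev : ((ratMF C (genQuad L c) *
      Polynomial.aeval (L.wMF C) ((L.cuspPoly C).map C.φ) : modFuns (Gamma M)) : ℍ → ℂ)
      (P.toFun x.τ) = C.φ (og * (L.cuspPoly C).eval ow) := by
    set ev := (Pi.evalAlgHom ℂ (fun _ : ℍ => ℂ) (P.toFun x.τ)).comp (modFuns (Gamma M)).val
    show ev (_ * _) = _
    rw [map_mul, ← Polynomial.aeval_algHom_apply, Polynomial.coe_aeval_eq_eval,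
      Polynomial.eval_map, show ev (L.wMF C) = C.φ ow from how.symm, Polynomial.eval₂_at_apply,
      map_mul, show ev (ratMF C (genQuad L c)) = C.φ og from hog.symm]
  rw [← residue_evO (mkPt C S.a S.mem), ← C.inj (hev.symm.trans h), map_mul,
    ← Polynomial.eval₂_at_apply]

set_option maxHeartbeats 1000000 in
/-- The configuration where `j` is integral. -/
theorem config_of_mem (hA : A.LiesOverPrime η) (hle : Gamma M ≤ Gamma0 p) (hηM : ¬ η ∣ M)
    [Fact (IsUnit (M : A))] (ha : (x.a : Q̄) ∈ A) (hV : HasValues hg x L L₀)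
    (hL : HasLifts A C.φ L₀)
    (hN : ∀ z ∈ L₀, A.valuation z < 1 → A.valuation z ^ N ≤ A.valuation (η : Q̄)) :
    Nonempty (Config hg x C (L := L) L₀ (N * L.e)) := by
  classical
  have hη : (η : Q̄) ≠ 0 := Nat.cast_ne_zero.mpr (Fact.out : η.Prime).ne_zero
  -- the functions to match
  let Qs : Option {c : ZMod M × ZMod M // c ≠ 0} → Quad M := fun o => o.elim (wQuad L) (genQuad L)
  let en := Fintype.equivFin (Option {c : ZMod M × ZMod M // c ≠ 0})
  have hγ : ∀ i : Option (Option (Fin η)), ∃ γ : Gamma0 p, ∀ o (z z' : Q̄),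
      qbarToC z = (Qs o).fn ((γ : SL(2, ℤ)) • (pts hg i).toFun x.τ) →
      qbarToC z' = (Qs o).fn x.τ → z - z' ∈ A.nonunits := by
    rintro (_ | i)
    · refine ⟨1, fun o z z' hz hz' => ?_⟩
      rw [OneMemClass.coe_one, one_smul] at hz
      rw [qbarToC.injective (hz.trans hz'.symm), sub_self, A.mem_nonunits_iff, map_zero]
      exact zero_lt_one
    · obtain ⟨γ, hγ, hm⟩ := exists_residue_match hg x hA hle hηM ha
        (fun l => ratMF C (Qs (en.symm l))) (fun l δ m => by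
          obtain ⟨v, hv⟩ := coeff_shift_ratMF_A (A := A) C (Qs (en.symm l)) δ m
          exact ⟨v, v.2, hv⟩) i
      refine ⟨⟨γ, hγ⟩, fun o z z' hz hz' => ?_⟩
      obtain ⟨v, v', -, -, hv, hv', hd⟩ := hm (en o)
      simp only [Equiv.symm_apply_apply] at hv hv'
      rwa [qbarToC.injective (hz.trans hv.symm), qbarToC.injective (hz'.trans hv'.symm)]
  choose γ hγ using hγ
  choose zw hzwL hzw hzr using fun i => hV.w i (γ i : SL(2, ℤ))
  choose zg hzgL hzg using fun i => hV.gen i (γ i : SL(2, ℤ))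
  have hj : ∀ i, jFun ((γ i : SL(2, ℤ)) • (pts hg i).toFun x.τ) ∈ (toComplex A).range := fun i => by
    rw [Period.jFun_smul]; exact jFun_pts_mem hg x ha i
  have hwA := fun i => sub_cvQ_not_nonunit L (hj i) (hzw i)
  have hgA : ∀ i c, zg i c ∈ A := fun i c => by
    obtain ⟨u, hu⟩ := apply_mem_of_jFun_mem C (genQuad L c) (hj i)
    rw [qbarToC.injective ((hzg i c).trans hu.symm)]
    exact u.2
  choose ow how _ using fun i => hL _ (hzwL i) (hwA i).1
  choose og hog _ using fun i c => hL _ (hzgL i c) (hgA i c)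
  obtain ⟨z0, hz0L, hz0, -⟩ := hV.w none 1
  rw [one_smul] at hz0
  have hz0A : z0 ∈ A := (sub_cvQ_not_nonunit L (by
    have := jFun_pts_mem hg x ha (none : Option (Option (Fin η))); exact this) hz0).1
  obtain ⟨c, hc, -⟩ := hL z0 hz0L hz0A
  have hcu : ∀ k ∈ L.J, IsUnit (c - L.cval C k) := fun k hk => by
    by_contra h
    have h1 := (lift_mem_iff C.inj hL (sub_mem hz0L (hV.cval k))
      (o := c - L.cval C k) (by rw [map_sub, map_sub, hc, phi_cval])).mpr
      ((mem_maximalIdeal _).mpr h)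
    exact ((sub_cvQ_not_nonunit L (jFun_pts_mem hg x ha none) hz0).2 k hk).2 h1
  have hdiff : ∀ i, ow i - c ∈ maximalIdeal O := fun i =>
    (lift_mem_iff C.inj hL (sub_mem (hzwL i) hz0L) (by rw [map_sub, map_sub, how, hc])).mp
      (hγ i none _ _ (hzw i) hz0)
  -- the disc
  obtain ⟨SD, -, hSD⟩ := L.exists_noncusp C c hcu
  let D0 : Disc L C :=
    { ι := SD.ι ⟨0, SD.r_pos⟩
      c := c
      t := PowerSeries.X
      t_zero := PowerSeries.constantCoeff_X
      ι_O := SD.ι_O _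
      ι_w := hSD _
      t_der := by rw [PowerSeries.derivative_X, map_one]; exact one_ne_zero }
  have hpt : ∀ i, ∃ σ : L.gal C, ∃ S : SheetPt x (D0.twist σ) ((pts hg i).smul (γ i : SL(2, ℤ))),
      S.a = ow i - c := by
    intro i
    obtain ⟨A', hA', hW⟩ := exists_param_noncusp D0 rfl
      (W := tayP x ((pts hg i).smul (γ i : SL(2, ℤ))) (L.wMF C)) (w0 := ow i)
      (by rw [constantCoeff_tayP, how, hzw]; rfl) (hdiff i)
    obtain ⟨σ, ⟨S⟩⟩ := exists_sheetPt x D0 _ (hdiff i) hA' hW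
    refine ⟨σ, S, C.inj ?_⟩
    have h1 := congrArg PowerSeries.constantCoeff S.tay_w
    rw [map_add, PowerSeries.constantCoeff_C, MPoint.constantCoeff_evAt, constantCoeff_tayP,
      show (D0.twist σ).t = PowerSeries.X from rfl, MPoint.evO_X] at h1
    rw [map_sub, eq_sub_iff_add_eq, how, hzw, add_comm]
    exact h1.symm
  choose σ S hSa using hpt
  have hι : ∀ i, (D0.twist (σ none)).ι = (D0.twist (σ i)).ι := fun i => by
    refine Disc.ι_eq _ _ rfl rfl hcu fun y => ?_
    obtain ⟨cy, hcy⟩ := (L.mem_genSet C).mp y.2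
    have key : ∀ i, residue O (PowerSeries.constantCoeff ((D0.twist (σ i)).ser (sgR L C y))) =
        residue O (og none cy) * (L.cuspPoly C).eval₂ (residue O) (residue O c) := fun i => by
      rw [sgR_apply (S i) y hcy (og := og i cy) (ow := ow i) (by rw [hog, hzg]; rfl)
        (by rw [how, hzw]; rfl)]
      have h1 : residue O (ow i) = residue O c := by
        rw [← sub_eq_zero, ← map_sub, residue_eq_zero_iff]; exact hdiff i
      have h2 : residue O (og i cy) = residue O (og none cy) := by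
        rw [← sub_eq_zero, ← map_sub, residue_eq_zero_iff]
        refine (lift_mem_iff C.inj hL (sub_mem (hzgL i cy) (hzgL none cy))
          (by rw [map_sub, map_sub, hog, hog])).mp ?_
        have hnone : ∀ i, ∀ z', qbarToC z' = (genQuad L cy).fn x.τ →
            zg i cy - z' ∈ A.nonunits := fun i z' hz' => hγ i (some cy) _ _ (hzg i cy) hz'
        obtain ⟨u, hu⟩ := apply_pts_mem_qC hg x C (genQuad L cy) none 1
        rw [one_smul] at hu
        have h3 := A.mem_nonunits_iff.mp (hnone i u hu)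
        have h4 := A.mem_nonunits_iff.mp (hnone none u hu)
        rw [A.mem_nonunits_iff, show zg i cy - zg none cy = (zg i cy - u) - (zg none cy - u) by ring]
        exact (A.valuation.map_sub _ _).trans_lt (max_lt h3 h4)
      rw [h1, h2]
    rw [key none, key i]
  refine ⟨{
    D := D0.twist (σ none)
    sheet := Or.inr ⟨c, hcu, (D0.twist (σ none)).ι_w, (D0.twist (σ none)).ι_O⟩
    γ := γ
    pt := fun i => (S i).ofι (hι i)
    small := fun i => ?_
    slope_ne := fun i => ?_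
    slope := fun i => slope_of_hasValues hV i _
    fix_c := fun s hres hs => ?_ }⟩
  · show (η : O) ∣ (S i).a ^ (N * L.e)
    rw [hSa, pow_mul]
    exact (natCast_dvd_pow hη C.inj hL hN (sub_mem (hzwL i) hz0L)
      (by rw [map_sub, map_sub, how, hc]) (hdiff i)).trans (dvd_pow_self _ L.e_pos.ne')
  · show (mkPt C (S i).a (S i).mem).evO (PowerSeries.derivative O PowerSeries.X) ≠ 0
    rw [PowerSeries.derivative_X, map_one]
    exact one_ne_zero
  · have hc' : s c = c := hs z0 hz0L c hc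
    refine ⟨fixed_zeta hV hs, hc', PowerSeries.map_X s, fun i => ?_⟩
    show s (S i).a = (S i).a
    rw [hSa, map_sub, hc', hs _ (hzwL i) _ (how i)]

theorem exists_pole_point (hp : p.Prime) [Fact (IsUnit (M : A))] (ha : (x.a : Q̄) ∉ A)
    (hV : HasValues hg x L L₀) (hL : HasLifts A C.φ L₀)
    (hN : ∀ z ∈ L₀, A.valuation z < 1 → A.valuation z ^ N ≤ A.valuation (η : Q̄))
    (i : Option (Option (Fin η))) : ∃ (j : Fin 4) (hj : j = 2 ∨ j = 0) (γ : Gamma0 p)
      (S : SheetPt x (cuspDisc L C (isCusp_sel (L := L) hj).1 (isCusp_sel hj).2)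
        ((pts hg i).smul (γ : SL(2, ℤ)))),
      S.a ≠ 0 ∧ (η : O) ∣ S.a ^ (N * L.e) ∧ ∀ s : O →+* O,
        (∀ o, residue O (s o) = residue O o) → FixesLifts C.φ L₀ s → s S.a = S.a := by
  have hη : (η : Q̄) ≠ 0 := Nat.cast_ne_zero.mpr (Fact.out : η.Prime).ne_zero
  obtain ⟨g, l, u, hl, hu, hnu⟩ := exists_near_cusp hg x L i ha
  have hcA : cvQ L l ∈ A := mem_of_lift C.inj hL (hV.cval l) (phi_cval L C l)
  have huA : u ∈ A := by
    have := add_mem (A.nonunits_subset hnu) hcA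
    rwa [sub_add_cancel] at this
  obtain ⟨huL, ow, how, howW⟩ := exists_w_lift hV hL i g hu huA
  obtain ⟨z', -, he, hr⟩ := hV.w i g
  obtain rfl := qbarToC.injective (he.trans hu.symm)
  obtain ⟨r, hrL, hre⟩ := hr l
  have hrA : r ∈ A := by
    refine (A.valuation_le_one_iff r).mp (le_of_not_gt fun h => ?_)
    have h1 := A.mem_nonunits_iff.mp hnu
    rw [← hre, map_pow] at h1
    exact absurd h1 (not_lt.mpr (one_le_pow₀ h.le))
  obtain ⟨or', hor, -⟩ := hL r hrL hrA
  have hore : or' ^ L.e = ow - L.cval C l := C.inj (by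
    rw [map_pow, hor, ← map_pow, hre, map_sub, map_sub, how, phi_cval])
  have hwm : ow - L.cval C l ∈ maximalIdeal O :=
    (lift_mem_iff C.inj hL (sub_mem huL (hV.cval l))
      (by rw [map_sub, map_sub, how, phi_cval])).mp hnu
  obtain ⟨δ, D, S, hD, hne, hdvd, hfix⟩ := exists_cusp_point hl howW hore hwm
  obtain ⟨j, hj, g2, hg2, m, hdec⟩ := exists_gamma0_decomp hp (g⁻¹ * δ)
  have hh : (g * g2)⁻¹ * δ = cuspMat j * ModularGroup.T ^ m := by
    rw [mul_inv_rev, mul_assoc, hdec]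
    group
  let D' := cuspDisc L C (isCusp_sel (L := L) hj).1 (isCusp_sel hj).2
  let S1 : SheetPt x D' _ := S.toCusp (D' := D') hD rfl ((g * g2)⁻¹) m hh
  have hP : ((pts hg i).smul ((⟨g2⁻¹, inv_mem hg2⟩ : Gamma0 p) : SL(2, ℤ))).toFun =
      (((pts hg i).smul g).smul (g * g2)⁻¹).toFun := funext fun σ => by
    show g2⁻¹ • _ = (g * g2)⁻¹ • g • _
    rw [← mul_smul (g * g2)⁻¹ g, mul_inv_rev, inv_mul_cancel_right]
  refine ⟨j, hj, ⟨g2⁻¹, inv_mem hg2⟩, S1.ofFun hP, ?_, ?_, fun s hres hs => ?_⟩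
  · exact mul_ne_zero (Units.ne_zero _) hne
  · show (η : O) ∣ (((C.z ^ m : Oˣ) : O) * S.a) ^ (N * L.e)
    rw [mul_pow]
    exact dvd_mul_of_dvd_right (hdvd _ N (natCast_dvd_pow hη C.inj hL hN
      (sub_mem huL (hV.cval l)) (by rw [map_sub, map_sub, how, phi_cval]) hwm)) _
  · show s (((C.z ^ m : Oˣ) : O) * S.a) = ((C.z ^ m : Oˣ) : O) * S.a
    rw [map_mul, map_z_zpow s (fixed_zeta hV hs),
      hfix s hres (fixed_zeta hV hs) (hs r hrL or' hor)]

/-- The valuations of `j` and `j(pτ)` at a point of the disc at a cusp of `Γ₀(p)`. -/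
theorem pole_type {k : ℕ} (hM : M = p * k) (hle : Gamma M ≤ Gamma0 p)
    (hdj : algebraMap (modFuns (Gamma M)) (WFld M) (jMF (Gamma M)) ∈ lvlField C)
    (hdp : algebraMap (modFuns (Gamma M)) (WFld M) (jpMF p hle) ∈ lvlField C)
    (B : ValuationSubring ℂ) (hB1 : ∀ u : O, IsUnit u → B.valuation (C.φ u) = 1)
    (hBlt : ∀ a ∈ maximalIdeal O, B.valuation (C.φ a) < 1) {j : Fin 4} (hj : j = 2 ∨ j = 0)
    {γ : Gamma0 p} {P : PMap}
    (S : SheetPt x (cuspDisc L C (isCusp_sel (L := L) hj).1 (isCusp_sel hj).2)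
      (P.smul (γ : SL(2, ℤ)))) (hne : S.a ≠ 0) :
    1 < B.valuation (jFun (P.toFun x.τ)) ∧
      (j = 2 → B.valuation (jNFun p (P.toFun x.τ)) = B.valuation (jFun (P.toFun x.τ)) ^ p) ∧
      (j = 0 → B.valuation (jNFun p (P.toFun x.τ)) ^ p = B.valuation (jFun (P.toFun x.τ))) := by
  have hk : k ≠ 0 := fun h => NeZero.ne M (by rw [hM, h, mul_zero])
  have hinvj : jFun ((P.smul (γ : SL(2, ℤ))).toFun x.τ) = jFun (P.toFun x.τ) ∧
      jNFun p ((P.smul (γ : SL(2, ℤ))).toFun x.τ) = jNFun p (P.toFun x.τ) :=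
    ⟨Period.jFun_smul _ _, (jNMF p).2.invariant _ γ.2 _⟩
  obtain ⟨g0, hg0⟩ := exists_unit_expand C M (NeZero.ne M)
  obtain ⟨u1, hu1, h1⟩ := exists_unit_val _ _ S (jMF (Gamma M)) hdj
    (by rw [shift_jMF, serHom_jMF, hg0]) hne
  have hv1 := congrArg B.valuation h1
  rw [map_mul, map_pow, hB1 u1 hu1] at hv1
  change B.valuation (jFun _) * _ = 1 at hv1
  rw [hinvj.1] at hv1
  set t := B.valuation (C.φ S.a)
  have ht : t < 1 := hBlt _ S.mem
  have hY : B.valuation (jFun (P.toFun x.τ)) = (t ^ M)⁻¹ := eq_inv_of_mul_eq_one_left hv1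
  have ht0 : 0 < t := zero_lt_iff.mpr (by simpa [t] using (map_ne_zero_iff _ C.inj).mpr hne)
  refine ⟨?_, fun h2 => ?_, fun h0 => ?_⟩
  · rw [hY, one_lt_inv₀ (pow_pos ht0 _)]
    exact pow_lt_one₀ ht0.le ht (NeZero.ne M)
  · obtain ⟨g1, hg1⟩ := exists_unit_expand_expand C M p (NeZero.ne M) (NeZero.ne p)
    obtain ⟨u2, hu2, h2'⟩ := exists_unit_val _ _ S (jpMF p hle) hdp
      (g := g1) (d := M * p) (by
        rw [h2, cuspMat_two, show shift M 1 (jpMF p hle) = jpMF p hle from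
          Subtype.ext (funext fun σ => by rw [shift_apply, one_smul]), serHom_jpMF, hg1]) hne
    have hv2 := congrArg B.valuation h2'
    rw [map_mul, map_pow, hB1 u2 hu2] at hv2
    change B.valuation (jNFun p _) * _ = 1 at hv2
    rw [hinvj.2] at hv2
    rw [hY, eq_inv_of_mul_eq_one_left hv2, inv_pow, ← pow_mul]
  · obtain ⟨g1, hg1⟩ := exists_unit_expand C k hk
    obtain ⟨u2, hu2, h2'⟩ := exists_unit_val _ _ S (jpMF p hle) hdp
      (g := g1) (d := k) (by rw [h0, serHom_shift_jpMF hle hM hk, hg1]) hne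
    have hv2 := congrArg B.valuation h2'
    rw [map_mul, map_pow, hB1 u2 hu2] at hv2
    change B.valuation (jNFun p _) * _ = 1 at hv2
    rw [hinvj.2] at hv2
    rw [hY, eq_inv_of_mul_eq_one_left hv2, inv_pow, ← pow_mul, mul_comm k p,
      show p * k = M from hM.symm]

theorem exists_ofι {D D' : Disc L C} {P : PMap} (S : SheetPt x D P) (h : D'.ι = D.ι) :
    ∃ S' : SheetPt x D' P, S'.a = S.a :=
  ⟨S.ofι h, rfl⟩

/-- The configuration of points on one cusp disc. -/
theorem config_of_cusp (D : Disc L C) {δ : SL(2, ℤ)} (hD : D.ι = serAt C δ) {U : O⟦X⟧}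
    (hU : IsUnit U) (ht : D.t = PowerSeries.X ^ L.e * U) (hV : HasValues hg x L L₀)
    (hfixD : ∀ s : O →+* O, (∀ o, residue O (s o) = residue O o) → s C.ζ = C.ζ →
      s D.c = D.c ∧ PowerSeries.map s D.t = D.t)
    (γ : Option (Option (Fin η)) → Gamma0 p)
    (S : ∀ i, SheetPt x D ((pts hg i).smul (γ i : SL(2, ℤ))))
    (hne : ∀ i, (S i).a ≠ 0) (hdvd : ∀ i, (η : O) ∣ (S i).a ^ (N * L.e))
    (hfix : ∀ i, ∀ s : O →+* O, (∀ o, residue O (s o) = residue O o) → FixesLifts C.φ L₀ s →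
      s (S i).a = (S i).a) :
    Nonempty (Config hg x C (L := L) L₀ (N * L.e)) :=
  ⟨{ D := D
     sheet := Or.inl ⟨δ, hD⟩
     γ := γ
     pt := S
     small := hdvd
     slope_ne := fun i => by
       rw [ht]
       exact evO_derivative_ne (mkPt C (S i).a (S i).mem) (hne i) (L.isUnit_e C) hU
     slope := fun i => slope_of_hasValues hV i _
     fix_c := fun s hres hs => ⟨fixed_zeta hV hs, (hfixD s hres (fixed_zeta hV hs)).1,
       (hfixD s hres (fixed_zeta hV hs)).2, fun i => hfix i s hres hs⟩ }⟩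

/-- The configuration at a pole of `j`. -/
theorem config_of_not_mem (hp : p.Prime) {k : ℕ} (hM : M = p * k) (hle : Gamma M ≤ Gamma0 p)
    [Fact (IsUnit (M : A))] (ha : (x.a : Q̄) ∉ A) (hV : HasValues hg x L L₀)
    (hL : HasLifts A C.φ L₀)
    (hN : ∀ z ∈ L₀, A.valuation z < 1 → A.valuation z ^ N ≤ A.valuation (η : Q̄)) :
    Nonempty (Config hg x C (L := L) L₀ (N * L.e)) := by
  choose j hj γ S hne hdvd hfix using exists_pole_point hp ha hV hL hN
  obtain ⟨B, hB1, hBlt⟩ := exists_dominating_place C.φ C.inj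
  obtain ⟨hdj, hdp⟩ := hV.desc hle O C fun s hs => mem_kC_of_mem C hL hs
  have htype := fun i => pole_type hM hle hdj hdp B hB1 hBlt (hj i) (S i) (hne i)
  have hsame : ∀ i, j none = j i := by
    rintro (_ | i)
    · rfl
    obtain ⟨⟨b1, b2⟩, b3, b4⟩ := biEval_pts_some hg i x.τ
    have hne' : η ≠ p := fun h => hg.not_dvd (h ▸ dvd_rfl)
    obtain ⟨hX, hX2, hX0⟩ := htype none
    obtain ⟨hY, hY2, hY0⟩ := htype (some i)
    rcases hj none with h | h <;> rcases hj (some i) with h' | h' <;>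
      first
      | exact h.trans h'.symm
      | exact (dichotomy_type hp hne' B b1 b2 b3 b4 hX (hX2 h) (hY0 h')).elim
      | exact (dichotomy_type hp hne' B b2 b1 b4 b3 hY (hY2 h') (hX0 h)).elim
  have hι : ∀ i, (cuspDisc L C (isCusp_sel (L := L) (hj none)).1 (isCusp_sel (hj none)).2).ι =
      (cuspDisc L C (isCusp_sel (L := L) (hj i)).1 (isCusp_sel (hj i)).2).ι := fun i => by
    show serAt C (cuspMat (j none)) = serAt C (cuspMat (j i))
    rw [hsame i]
  choose S' hS' using fun i => exists_ofι (S i) (hι i)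
  exact config_of_cusp _ (δ := cuspMat (j none)) rfl (Units.isUnit _) rfl hV
    (fun s hres hζ => ⟨map_cval L C s hres hζ _, map_cuspDisc_param s hres hζ _ _⟩) γ S'
    (fun i => by rw [hS']; exact hne i) (fun i => by rw [hS']; exact hdvd i)
    (fun i s hres hs => by rw [hS']; exact hfix i s hres hs)

set_option maxHeartbeats 400000 in
/-- The point and its images on one disc. -/
theorem exists_config {p η : ℕ} [NeZero p] [Fact η.Prime] (hp : p.Prime) (hg : GoodIndex p η)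
    (x : RatPoint p) {A : ValuationSubring (AlgebraicClosure ℚ)} (hA : A.LiesOverPrime η) :
    ∃ (M : ℕ) (_ : NeZero M) (L : Lev M)
      (L₀ : IntermediateField ℚ (AlgebraicClosure ℚ)) (_ : FiniteDimensional ℚ L₀)
      (_ : Normal ℚ L₀) (M0 : ℕ), p ∣ M ∧ ¬ η ∣ M ∧ 0 < M0 ∧
      ∀ (O : Type) [CommRing O] [IsDomain O] [IsDiscreteValuationRing O]
        [IsAdicComplete (IsLocalRing.maximalIdeal O) O] [IsAlgClosed (IsLocalRing.ResidueField O)]
        (φ : O →+* ℂ), Function.Injective φ → (η : O) ∈ IsLocalRing.maximalIdeal O →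
        HasLifts A φ L₀ → ∃ C : Cyc O M, C.φ = φ ∧ Nonempty (Config hg x C (L := L) L₀ M0) := by
  classical
  have hη : η.Prime := Fact.out
  obtain ⟨k, hk, hηM, ⟨L⟩⟩ := exists_lev (M := p) hη hg.not_dvd
  have : NeZero (p * k) := ⟨mul_ne_zero (NeZero.ne p) hk.ne'⟩
  have hle : Gamma (p * k) ≤ Gamma0 p := Gamma_le_Gamma0_of_dvd' (dvd_mul_right p k)
  obtain ⟨L₀, hfd, hn, hV⟩ := exists_hasValues hg x L hle
  obtain ⟨ϖ, -, hϖ, hmax, N, hNle⟩ := exists_uniformizer A hη hA L₀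
  have hN0 : 0 < N := Nat.pos_of_ne_zero fun h => by
    rw [h, pow_zero] at hNle
    exact absurd hNle (not_le.mpr (val_natCast_lt_one A hA))
  have hN : ∀ z ∈ L₀, A.valuation z < 1 → A.valuation z ^ N ≤ A.valuation (η : Q̄) :=
    fun z hz hlt => (pow_le_pow_left₀ zero_le
      (hmax z (IntermediateField.subset_adjoin _ _ hz) hlt) N).trans hNle
  have hu : Fact (IsUnit ((p * k : ℕ) : A)) := ⟨Model.isUnit_natCast_of_not_dvd hη (by
    rw [mem_maximalIdeal]
    intro h
    have h1 := (A.valuation_eq_one_iff _).mp h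
    push_cast at h1
    exact absurd h1 (val_natCast_lt_one A hA).ne) hηM⟩
  refine ⟨p * k, inferInstance, L, L₀, hfd, hn, N * L.e, dvd_mul_right p k, hηM,
    Nat.mul_pos hN0 L.e_pos, fun O _ _ _ _ _ φ hφ hm hL => ?_⟩
  obtain ⟨ζ, hζ, -⟩ := hL _ hV.zeta (MCurve.Spec.zeta_mem (p * k) A)
  let C : Cyc O (p * k) := ⟨φ, hφ, ζ, hζ.trans (cycBar (p * k)).map_ζ,
    isUnit_natCast_of_not_dvd hm hηM⟩
  refine ⟨C, rfl, ?_⟩
  by_cases ha : (x.a : Q̄) ∈ A
  · exact config_of_mem hA hle hηM ha hV (C := C) hL hN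
  · exact config_of_not_mem hp rfl hle ha hV (C := C) hL hN

end Fermat.Agent.Mazur3.AtEta
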