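import Fermat.Agent.Mazur3.AtEta.Inertia
import Fermat.Agent.Mazur3.AtEta.SameDisc
import Fermat.Agent.Mazur3.AtEta.Cocycle

/-!
# Kummer classes of a rational point on inertia at `η`

At a place over the auxiliary prime `η` the Eisenstein combination of the Kummer classes of a
rational point is killed on inertia, for bounded classes, by a constant independent of the level.
-/

set_option autoImplicit false
set_option linter.style.haveILetI false

noncomputable section

namespace Fermat.Agent.Mazur3.AtEta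

open GalRep GalRep.Model IsLocalRing
open Fermat.Agent.Galois (GQ)
open UpperHalfPlane CongruenceSubgroup
open scoped MatrixGroups Manifold

local notation "Q̄" => AlgebraicClosure ℚ

/-- A power of a representative represents the reduction of the class. -/
theorem isKummerRep_castPow {N m n k : ℕ} [NeZero N] [NeZero m] [NeZero n] (hk : n = m * k)
    (hd : m ∣ n) {ψ : ParHom N (ZMod n)} {χ : ParHom N (ZMod m)} {F : ℍ → ℂ}
    (hF : IsKummerRep N n ψ F) (hc : IsCastHom hd ψ χ) : IsKummerRep N m χ (F ^ k) := by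
  subst hk
  exact isKummerRep_cast hF hc

theorem heckeProd_one {p η : ℕ} (hg : GoodIndex p η) : heckeProd hg (1 : ℍ → ℂ) = 1 := by
  funext τ
  simp [heckeProd]

theorem heckeProd_pow {p η : ℕ} (hg : GoodIndex p η) (F : ℍ → ℂ) :
    ∀ k : ℕ, heckeProd hg (F ^ k) = heckeProd hg F ^ k
  | 0 => by rw [pow_zero, pow_zero, heckeProd_one]
  | k + 1 => by rw [pow_succ, pow_succ, heckeProd_mul, heckeProd_pow hg F k]

/-- A conjugation of the quotient of values gives the relation of the classes. -/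
theorem kClass_heckeHom_of_ratio {p η n : ℕ} [NeZero p] [NeZero n] [Fact η.Prime]
    (hg : GoodIndex p η) (x : RatPoint p) {σ : ℂ ≃+* ℂ} {χ χ' : ParHom p (ZMod n)} {G G' : ℍ → ℂ}
    {g : LaurentSeries ℂ} (hG : IsKummerRep p n χ G) (hG' : IsKummerRep p n χ' G')
    (hgs : HasQSeries 1 G g) (hgs' : HasQSeries 1 G' (lmap σ.toRingHom g))
    (h : σ (heckeRatio x hg G) = heckeRatio x hg G') :
    x.kClass σ (heckeHom hg χ) = (η + 1) • x.kClass σ χ := by
  have : NeZero η := ⟨hg.prime.ne_zero⟩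
  have hT := heckeProd_rep hg hG (isHeckeTransfer_heckeHom hg χ)
  have hT' := heckeProd_rep hg hG' (isHeckeTransfer_heckeHom hg χ')
  obtain ⟨t, ht, -⟩ := hT.exists_series_one
  obtain ⟨t', ht', -⟩ := hT'.exists_series_one
  have hexp : ∀ {H : ℍ → ℂ} {s : LaurentSeries ℂ}, HasQSeries 1 H s →
      HasQSeries η H (expand η (NeZero.ne η) s) := fun hs => by
    have := hs.refine_width one_pos η (NeZero.ne η)
    rwa [one_mul] at this
  have h1 := (hexp ht).unique (NeZero.pos η) (hasQSeries_heckeProd hg hgs)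
  have h2 := (hexp ht').unique (NeZero.pos η) (hasQSeries_heckeProd hg hgs')
  have htt : t' = lmap σ.toRingHom t := by
    refine expand_injective η (NeZero.ne η) ?_
    rw [h2, ← lmap_heckeSeries, ← h1, lmap_expand]
  have hv := x.val_ne_zero hG'.holo hG'.ne_zero
  have hvT := x.val_ne_zero hT'.holo hT'.ne_zero
  refine x.kClass_unique hT ht hT' (htt ▸ ht') ?_
  have ha := x.kClass_spec_rep hG hgs hG' hgs'
  rw [heckeRatio, map_div₀, map_pow, heckeRatio, ← ha, mul_pow] at h
  rw [AddChar.map_nsmul_eq_pow]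
  have hψ : ZMod.stdAddChar (x.kClass σ χ) ^ (η + 1) ≠ (0 : ℂ) := by
    refine pow_ne_zero _ fun h0 => ?_
    have h3 := congrArg (· ^ n) h0
    rw [zero_pow (NeZero.ne n), ← AddChar.map_nsmul_eq_pow, nsmul_eq_mul, ZMod.natCast_self,
      zero_mul, AddChar.map_zero_eq_one] at h3
    exact one_ne_zero h3
  field_simp at h
  linear_combination -h

end Fermat.Agent.Mazur3.AtEta

namespace Fermat.Agent.Mazur3

open GalRep GalRep.Model AtEta
open Fermat.Agent.Galois (GQ)
open UpperHalfPlane CongruenceSubgroup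

/-- The Eisenstein combination of Kummer classes of a rational point dies on inertia at `η`. -/
theorem exists_kClass_eisenstein_eq_zero {p η : ℕ} [NeZero p] [Fact η.Prime] (hp : p.Prime)
    (hg : GoodIndex p η) (x : RatPoint p) {A : ValuationSubring (AlgebraicClosure ℚ)}
    (hA : A.LiesOverPrime η) :
    ∃ C D : ℕ, 0 < D ∧
      ∀ (K : ℕ) (χ : ParHom p (ZMod (η ^ (2 * K + C)))) (χK : ParHom p (ZMod (η ^ K))),
        IsBoundedChar p (η ^ (2 * K + C)) A χ →
        IsCastHom (pow_dvd_pow η (by omega : K ≤ 2 * K + C)) χ χK →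
        ∀ σ ∈ A.inertiaSubgroupIn ℚ, D • (x.kClass (liftAut σ) (heckeHom hg χK) -
          (η + 1) • x.kClass (liftAut σ) χK) = 0 := by
  obtain ⟨M, _, L, L₀, _, _, M0, hpM, -, hM0, hcfg⟩ := exists_config hp hg x hA
  refine ⟨2 * M0 + 3, Module.finrank ℚ L₀, Module.finrank_pos, fun K χ χK hχ hc σ hσ => ?_⟩
  refine smul_eisenstein_eq_zero hg x hA L₀ (isBoundedChar_cast _ hχ hc) (fun u hu hfix => ?_) σ hσ
  obtain ⟨F, F', f, hF, hf, hF', hf', hρ⟩ := exists_rep_heckeRatio_conj hg x hA hpM hM0 hcfg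
    (fun n _ ψ G g hG hg' => heckeRatio_mem_qC hg x hG hg') (K := K) (e := 2 * K + (2 * M0 + 3))
    (by omega) hχ hu hfix
  have hke : η ^ (2 * K + (2 * M0 + 3)) = η ^ K * η ^ (2 * K + (2 * M0 + 3) - K) := by
    rw [← pow_add]; congr 1; omega
  have hG := isKummerRep_castPow hke _ hF hc
  have hG' := isKummerRep_castPow hke (pow_dvd_pow η (by omega : K ≤ 2 * K + (2 * M0 + 3))) hF'
    (χ := parMap (ZMod.castHom (pow_dvd_pow η (by omega : K ≤ 2 * K + (2 * M0 + 3)))
      (ZMod (η ^ K))).toAddMonoidHom _) rfl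
  refine kClass_heckeHom_of_ratio hg x (g := seriesToC f ^ η ^ (2 * K + (2 * M0 + 3) - K)) hG hG' (hf.pow _) ?_ ?_
  · rw [map_pow, lmap_seriesToC (liftAut_spec u)]
    exact hf'.pow _
  · rw [heckeRatio_pow hg hF.holo hF.ne_zero, heckeRatio_pow hg hF'.holo hF'.ne_zero]
    exact hρ

end Fermat.Agent.Mazur3
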