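import Fermat.Agent.Mazur3.AtEta.Ratio

/-!
# The root of unity of a function on a configuration

A power of the quotient of leading values is a root of unity times the conjugation-equivariant part
read on the disc. The root of unity is multiplicative and is trivial for modular functions.
-/

set_option autoImplicit false
set_option linter.unusedSectionVars false

noncomputable section

namespace Fermat.Agent.Mazur3.AtEta

open GalRep GalRep.Model IsLocalRing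
open UpperHalfPlane CongruenceSubgroup
open scoped MatrixGroups Manifold PowerSeries

local notation "Q̄" => AlgebraicClosure ℚ

/-- A root congruent to one. -/
def IsRt {O : Type*} [CommRing O] (η K : ℕ) (v R : O) : Prop :=
  R ^ η ^ K = v ∧ (η : O) ^ 2 ∣ R - 1

theorem IsRt.mul {O : Type*} [CommRing O] {η K : ℕ} {v v' R R' : O} (h : IsRt η K v R)
    (h' : IsRt η K v' R') : IsRt η K (v * v') (R * R') := by
  refine ⟨by rw [mul_pow, h.1, h'.1], ?_⟩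
  rw [show R * R' - 1 = R * (R' - 1) + (R - 1) by ring]
  exact dvd_add (h'.2.mul_left _) h.2

theorem IsRt.unique {O : Type} [CommRing O] [IsDomain O] [IsDiscreteValuationRing O]
    [IsAdicComplete (maximalIdeal O) O] {η : ℕ} [Fact η.Prime] {φ : O →+* ℂ}
    (hφ : Function.Injective φ) (hm : (η : O) ∈ maximalIdeal O) {K : ℕ} {v R R' : O}
    (hv : IsUnit v) (h : IsRt η K v R) (h' : IsRt η K v R') : R = R' := by
  obtain ⟨u, rfl⟩ : IsUnit R' :=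
    (isUnit_pow_iff (pow_ne_zero K (Fact.out : η.Prime).ne_zero)).mp (h'.1 ▸ hv)
  have h1 : R * (u⁻¹ : Oˣ) = 1 := by
    refine eq_one_of_pow_eq_one hφ hm K ?_ ?_
    · rw [mul_pow, h.1, ← h'.1, ← mul_pow, Units.mul_inv, one_pow]
    · rw [show R * (u⁻¹ : Oˣ) - 1 = ((R - 1) - ((u : O) - 1)) * (u⁻¹ : Oˣ) by
        rw [sub_mul, sub_mul, sub_mul, one_mul, Units.mul_inv]; ring]
      exact (dvd_sub h.2 h'.2).mul_right _
  rw [← mul_one R, ← Units.inv_mul u, ← mul_assoc, h1, one_mul]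

theorem IsRt.map {O : Type*} [CommRing O] {η K : ℕ} {v R : O} (h : IsRt η K v R) (S : O →+* O) :
    IsRt η K (S v) (S R) := by
  refine ⟨by rw [← map_pow, h.1], ?_⟩
  have := map_dvd S h.2
  rwa [map_pow, map_natCast, map_sub, map_one] at this

variable {O : Type} [CommRing O] [IsDomain O] [IsDiscreteValuationRing O]

theorem exists_dvd_all {ι : Type*} [Fintype ι] [Nonempty ι] (a : ι → O) :
    ∃ i, ∀ j, a i ∣ a j := by
  classical
  suffices h : ∀ s : Finset ι, s.Nonempty → ∃ i ∈ s, ∀ j ∈ s, a i ∣ a j by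
    obtain ⟨i, -, hi⟩ := h Finset.univ Finset.univ_nonempty
    exact ⟨i, fun j => hi j (Finset.mem_univ j)⟩
  intro s hs
  induction hs using Finset.Nonempty.cons_induction with
  | singleton i => exact ⟨i, Finset.mem_singleton_self i, fun j hj => by rw [Finset.mem_singleton.mp hj]⟩
  | cons i s hi hs ih =>
    obtain ⟨k, hk, hk'⟩ := ih
    rcases ValuationRing.dvd_total (a i) (a k) with h | h
    · exact ⟨i, Finset.mem_cons_self i s, fun j hj => (Finset.mem_cons.mp hj).elim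
        (fun e => e ▸ dvd_rfl) fun hj => h.trans (hk' j hj)⟩
    · exact ⟨k, Finset.mem_cons.mpr (Or.inr hk), fun j hj => (Finset.mem_cons.mp hj).elim
        (fun e => e ▸ h) fun hj => hk' j hj⟩

variable {p η : ℕ} [NeZero p] [Fact η.Prime] {hg : GoodIndex p η} {x : RatPoint p}
  {M : ℕ} [NeZero M] {L : Lev M} [IsAdicComplete (maximalIdeal O) O]
  [IsAlgClosed (ResidueField O)] {C : Cyc O M} {L₀ : IntermediateField ℚ Q̄} {M0 : ℕ}

local notation "al" => algebraMap (PowerSeries O) (SeriesField O)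

namespace Config

variable (Cf : Config (L := L) hg x C L₀ M0) (hm : (η : O) ∈ maximalIdeal O) (hM0 : 0 < M0)

include hm hM0 in
/-- The value of a unit whose derivative is divisible by a high power has a root near one. -/
theorem exists_isRt {e K : ℕ} (he : 2 * M0 + 3 + K ≤ e) {h : O⟦X⟧} (hu : IsUnit h)
    (hsmall : PowerSeries.C ((η ^ e : ℕ) : O) ∣ PowerSeries.derivative O h) :
    ∃ R, IsRt η K (Cf.uval h) R := by
  have hd : ∀ i : ℕ, (η : O) ^ e ∣ (i : O) * PowerSeries.coeff i h := by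
    intro i
    cases i with
    | zero => simp
    | succ i =>
      obtain ⟨q, hq⟩ := hsmall
      have h1 := congrArg (PowerSeries.coeff i) hq
      rw [PowerSeries.coeff_derivative, PowerSeries.coeff_C_mul, Nat.cast_pow] at h1
      exact ⟨PowerSeries.coeff i q, by rw [← h1]; push_cast; ring⟩
  have h1 : ∀ i, (Cf.mp i).evO h - PowerSeries.constantCoeff h ∈
      Ideal.span {(η : O) ^ (e - 2 * M0)} := fun i =>
    Ideal.mem_span_singleton.mpr ((Cf.mp i).pow_dvd_evO_sub hm hM0 (Cf.small i) hd)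
  have hcard : Fintype.card (Option (Fin η)) = η + 1 := by simp
  have h2 := Ideal.mem_span_singleton.mp
    (crossRatio_sub_one_mem (k := η + 1) hcard (hu.map (Cf.mp none).evO) h1)
  obtain ⟨R, hR, hR1⟩ := exists_pow_root_near_one C.inj hm K 3 le_rfl
    ((pow_dvd_pow _ (by omega : 3 + K ≤ e - 2 * M0)).trans h2)
  exact ⟨R, hR, (pow_dvd_pow _ (by omega : 2 ≤ 3)).trans hR1⟩

include hm hM0 in
/-- A high power of the value of a unit is near one. -/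
theorem sq_dvd_uval_pow {h : O⟦X⟧} (hu : IsUnit h) {j : ℕ} (hj : 2 + 2 * M0 ≤ j) :
    (η : O) ^ 2 ∣ Cf.uval h ^ η ^ j - 1 := by
  obtain ⟨i0, hi0⟩ := exists_dvd_all fun i => (Cf.pt i).a
  have h1 : ∀ i, (Cf.mp i).evO h - PowerSeries.constantCoeff h ∈
      Ideal.span {(Cf.pt i0).a} := by
    intro i
    obtain ⟨G, hG⟩ := PowerSeries.X_dvd_iff.mpr
      (show PowerSeries.constantCoeff (h - PowerSeries.C (PowerSeries.constantCoeff h)) = 0 by simp)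
    have h2 := congrArg (Cf.mp i).evO hG
    rw [map_sub, MPoint.evO_C, map_mul, MPoint.evO_X] at h2
    rw [h2, Ideal.mem_span_singleton]
    exact dvd_mul_of_dvd_left (hi0 i) _
  have hcard : Fintype.card (Option (Fin η)) = η + 1 := by simp
  obtain ⟨c, hc⟩ := Ideal.mem_span_singleton.mp
    (crossRatio_sub_one_mem (k := η + 1) hcard (hu.map (Cf.mp none).evO) h1)
  have hs : (η : O) ∣ ((Cf.pt i0).a * c) ^ M0 := by
    rw [mul_pow]; exact (Cf.small i0).mul_right _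
  have h3 := exists_pow_sub_one_dvd C.inj hm hM0 hs 2
  rw [← hc, add_sub_cancel] at h3
  obtain ⟨l, rfl⟩ : ∃ l, j = 2 + 2 * M0 + l := ⟨j - (2 + 2 * M0), by omega⟩
  rw [pow_add, pow_mul]
  exact h3.trans (sub_one_dvd_pow_sub_one _ _)

variable {n : ℕ} {H H' : modFuns (Gamma M)}

/-- The root of unity of a function. -/
def IsZ (K m : ℕ) (Fc : Fac Cf.D n H) (F : ℍ → ℂ) (Z : ℂ) : Prop :=
  ∃ R, IsRt η K (Cf.uval Fc.h) R ∧ heckeRatio x hg F ^ m = Z * Cf.lam Fc.N Fc.Q ^ m * C.φ R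

theorem IsZ.mul {K m : ℕ} {Fc : Fac Cf.D n H} {Fc' : Fac Cf.D n H'} {F F' : ℍ → ℂ} {Z Z' : ℂ}
    (hF : MDifferentiable 𝓘(ℂ) 𝓘(ℂ) F) (hF0 : F ≠ 0) (hF' : MDifferentiable 𝓘(ℂ) 𝓘(ℂ) F')
    (hF0' : F' ≠ 0) (h : Cf.IsZ K m Fc F Z) (h' : Cf.IsZ K m Fc' F' Z') :
    Cf.IsZ K m (Fc.mul Fc') (F * F') (Z * Z') := by
  obtain ⟨R, hR, he⟩ := h
  obtain ⟨R', hR', he'⟩ := h'
  refine ⟨R * R', ?_, ?_⟩
  · show IsRt η K (Cf.uval (Fc.h * Fc'.h)) _
    rw [uval_mul]; exact hR.mul hR'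
  · show _ = Z * Z' * Cf.lam (Fc.N + Fc'.N) (Fc.Q * Fc'.Q) ^ m * C.φ (R * R')
    rw [heckeRatio_mul hg hF hF0 hF' hF0', lam_mul, mul_pow, mul_pow, he, he', map_mul]
    ring

theorem IsZ.one {K m : ℕ} : Cf.IsZ K m (Fac.one (D := Cf.D) (n := n)) 1 1 := by
  refine ⟨1, ⟨?_, by simp⟩, ?_⟩
  · show _ = Cf.uval 1
    simp only [uval, map_one, crossRatio_one, one_pow]
  · show _ = _ * Cf.lam 0 1 ^ m * _
    rw [lam_one, heckeRatio_one, one_pow, map_one, one_mul, one_mul]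

theorem IsZ.pow {K m : ℕ} {Fc : Fac Cf.D n H} {F : ℍ → ℂ} {Z : ℂ}
    (hF : MDifferentiable 𝓘(ℂ) 𝓘(ℂ) F) (hF0 : F ≠ 0) (h : Cf.IsZ K m Fc F Z) :
    ∀ k : ℕ, Cf.IsZ K m (Fc.pow k) (F ^ k) (Z ^ k)
  | 0 => by
    rw [pow_zero (M := ℍ → ℂ), pow_zero (M := ℂ)]
    exact IsZ.one Cf (K := K) (m := m)
  | k + 1 => by
    have hk : F ^ k ≠ 0 := fun h0 => hF0 (funext fun τ => eq_zero_of_pow_eq_zero (congrFun h0 τ))
    rw [pow_succ F k, pow_succ Z k]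
    exact IsZ.mul Cf (hF.pow k) hk hF hF0 (IsZ.pow hF hF0 h k) h

theorem heckeRatio_pow_eq (Fc : Fac Cf.D n H) {F : ℍ → ℂ} (hF : MDifferentiable 𝓘(ℂ) 𝓘(ℂ) F)
    (hF0 : F ≠ 0) (hH : (H : ℍ → ℂ) = F ^ n)
    (hinv : ∀ (γ : Gamma0 p) (τ : ℍ), (H : ℍ → ℂ) ((γ : SL(2, ℤ)) • τ) = (H : ℍ → ℂ) τ) :
    heckeRatio x hg F ^ n = Cf.lam Fc.N Fc.Q ^ n * C.φ (Cf.uval Fc.h) := by
  rw [← heckeRatio_pow hg hF hF0, ← hH]
  refine Cf.heckeRatio_of_ser hinv Fc.yhol Fc.htoMF Fc.unit ?_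
  rw [Fc.hy, ← Fc.eq, Disc.al_ser]

include hm hM0 in
/-- Existence of the root of unity. -/
theorem exists_isZ {e K : ℕ} (he : 2 * M0 + 3 + K ≤ e) (hn : n = η ^ e) (Fc : Fac Cf.D n H)
    {F : ℍ → ℂ} (hF : MDifferentiable 𝓘(ℂ) 𝓘(ℂ) F) (hF0 : F ≠ 0) (hH : (H : ℍ → ℂ) = F ^ n)
    (hinv : ∀ (γ : Gamma0 p) (τ : ℍ), (H : ℍ → ℂ) ((γ : SL(2, ℤ)) • τ) = (H : ℍ → ℂ) τ) :
    ∃ Z, Cf.IsZ K (η ^ (e - K)) Fc F Z ∧ Z ^ η ^ K = 1 := by
  subst hn
  obtain ⟨R, hR⟩ := Cf.exists_isRt hm hM0 he Fc.unit Fc.small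
  set m := η ^ (e - K)
  have hmn : m * η ^ K = η ^ e := by rw [← pow_add]; congr 1; omega
  have hR0 : C.φ R ≠ 0 := (map_ne_zero_iff _ C.inj).mpr fun h0 => (Cf.isUnit_uval Fc.unit).ne_zero
    (by rw [← hR.1, h0, zero_pow (pow_ne_zero K (Fact.out : η.Prime).ne_zero)])
  have hl0 := Cf.lam_ne_zero Fc.N Fc.dist.monic.ne_zero
  refine ⟨heckeRatio x hg F ^ m / (Cf.lam Fc.N Fc.Q ^ m * C.φ R), ⟨R, hR, ?_⟩, ?_⟩
  · rw [mul_assoc, div_mul_cancel₀ _ (mul_ne_zero (pow_ne_zero _ hl0) hR0)]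
  · rw [div_pow, mul_pow, ← pow_mul, ← pow_mul, ← map_pow, hR.1, hmn,
      Cf.heckeRatio_pow_eq Fc hF hF0 hH hinv,
      div_self (mul_ne_zero (pow_ne_zero _ hl0)
        ((map_ne_zero_iff _ C.inj).mpr (Cf.isUnit_uval Fc.unit).ne_zero))]

theorem IsZ.unique (hm : (η : O) ∈ maximalIdeal O) {K m : ℕ} {Fc : Fac Cf.D n H} {F : ℍ → ℂ}
    {Z Z' : ℂ} (h : Cf.IsZ K m Fc F Z) (h' : Cf.IsZ K m Fc F Z') : Z = Z' := by
  obtain ⟨R, hR, he⟩ := h
  obtain ⟨R', hR', he'⟩ := h'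
  have hu := Cf.isUnit_uval Fc.unit
  obtain rfl := IsRt.unique C.inj hm hu hR hR'
  have hR0 : C.φ R ≠ 0 := (map_ne_zero_iff _ C.inj).mpr fun h0 => hu.ne_zero
    (by rw [← hR.1, h0, zero_pow (pow_ne_zero K (Fact.out : η.Prime).ne_zero)])
  rw [he, mul_assoc, mul_assoc] at he'
  exact mul_right_cancel₀
    (mul_ne_zero (pow_ne_zero _ (Cf.lam_ne_zero Fc.N Fc.dist.monic.ne_zero)) hR0) he'

include hm hM0 in
/-- The root of unity of a modular function is trivial. -/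
theorem IsZ.eq_one {e K : ℕ} (he : 2 * M0 + 3 + K ≤ e) (hn : n = η ^ e) {Fc : Fac Cf.D n H}
    {G : modFuns (Gamma M)} {yG : holRing C} (hyG : toMF C yG = G) (hH : H = G ^ n)
    (hinv : ∀ (γ : Gamma0 p) (τ : ℍ), (G : ℍ → ℂ) ((γ : SL(2, ℤ)) • τ) = (G : ℍ → ℂ) τ)
    {Z : ℂ} (h : Cf.IsZ K (η ^ (e - K)) Fc (G : ℍ → ℂ) Z) : Z = 1 := by
  have hn0 : n ≠ 0 := hn ▸ pow_ne_zero _ (Fact.out : η.Prime).ne_zero
  set m := η ^ (e - K)
  set z : holRing C := yG * cuspElt L C ^ Fc.N with hz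
  have hzy : z ^ n = Fc.yhol := toMF_injective C (by
    rw [map_pow, hz, map_mul, map_pow, hyG, Fc.htoMF, mul_pow, ← hH, ← pow_mul, mul_comm Fc.N n])
  have hser : Cf.D.ι (z : lvlField C) ^ n = al ((Fc.Q : O⟦X⟧) ^ n * Fc.h) := by
    rw [← map_pow, ← SubmonoidClass.coe_pow, hzy, Fc.hy, ← Fc.eq, Disc.al_ser]
  have hQ0 : al (Fc.Q : O⟦X⟧) ≠ 0 := by
    rw [Ne, map_eq_zero_iff _ (IsFractionRing.injective _ _), Polynomial.coe_eq_zero_iff]
    exact Fc.dist.monic.ne_zero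
  have hint : IsIntegral O⟦X⟧ (Cf.D.ι (z : lvlField C) / al (Fc.Q : O⟦X⟧)) := by
    refine ⟨Polynomial.X ^ n - Polynomial.C Fc.h, Polynomial.monic_X_pow_sub_C _ hn0, ?_⟩
    rw [Polynomial.eval₂_sub, Polynomial.eval₂_X_pow, Polynomial.eval₂_C, sub_eq_zero, div_pow,
      hser, map_mul, map_pow, mul_div_cancel_left₀ _ (pow_ne_zero _ hQ0)]
  obtain ⟨hy, hhy⟩ := IsIntegrallyClosed.isIntegral_iff.mp hint
  have hyn : hy ^ n = Fc.h := IsFractionRing.injective O⟦X⟧ (SeriesField O) (by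
    rw [map_pow, hhy, div_pow, hser, map_mul, map_pow, mul_div_cancel_left₀ _ (pow_ne_zero _ hQ0)])
  have hyu : IsUnit hy := (isUnit_pow_iff hn0).mp (hyn ▸ Fc.unit)
  have hr : heckeRatio x hg (G : ℍ → ℂ) = Cf.lam Fc.N Fc.Q * C.φ (Cf.uval hy) := by
    have := Cf.heckeRatio_of_ser hinv (N := Fc.N) (n := 1) z
      (by rw [one_mul, hz, map_mul, map_pow, hyG]) hyu
      (Q := Fc.Q) (by rw [pow_one, map_mul, hhy, mul_div_cancel₀ _ hQ0])
    rwa [pow_one] at this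
  refine IsZ.unique Cf hm h ⟨Cf.uval hy ^ m, ⟨?_, ?_⟩, ?_⟩
  · rw [← pow_mul, ← pow_add, Nat.sub_add_cancel (by omega : K ≤ e), ← hn, ← uval_pow, hyn]
  · exact Cf.sq_dvd_uval_pow hm hM0 hyu (by omega)
  · rw [hr, mul_pow, one_mul, map_pow]

/-- Conjugate factorisations give conjugate parts. -/
theorem exists_conj_part (hm : (η : O) ∈ maximalIdeal O) {S : O →+* O}
    (hS : Function.Injective S) (hres : ∀ o, residue O (S o) = residue O o) (hζ : S C.ζ = C.ζ)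
    (hfix : FixesLifts C.φ L₀ S) {A : ValuationSubring Q̄} (hlift : HasLifts A C.φ L₀)
    {K m : ℕ} {Fc : Fac Cf.D n H} {Fc' : Fac Cf.D n H'} (hN : Fc'.N = Fc.N)
    (hQ : Fc'.Q = Fc.Q.map S) (hh : Fc'.h = PowerSeries.map S Fc.h) {F F' : ℍ → ℂ} {Z Z' : ℂ}
    (h : Cf.IsZ K m Fc F Z) (h' : Cf.IsZ K m Fc' F' Z') :
    ∃ w w' : ℂ, w ≠ 0 ∧ w' ≠ 0 ∧ ConjVal C.φ S w w' ∧ heckeRatio x hg F ^ m = Z * w ∧
      heckeRatio x hg F' ^ m = Z' * w' := by
  obtain ⟨R, hR, he⟩ := h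
  obtain ⟨R', hR', he'⟩ := h'
  have hu := Cf.isUnit_uval Fc.unit
  have hu' := Cf.isUnit_uval Fc'.unit
  have hR0 : R ≠ 0 := fun h0 => hu.ne_zero
    (by rw [← hR.1, h0, zero_pow (pow_ne_zero K (Fact.out : η.Prime).ne_zero)])
  have hRR : R' = S R := by
    refine IsRt.unique C.inj hm hu' hR' ?_
    rw [hh, ← Cf.map_uval Fc.unit hres hfix]
    exact hR.map S
  refine ⟨Cf.lam Fc.N Fc.Q ^ m * C.φ R, Cf.lam Fc'.N Fc'.Q ^ m * C.φ R', ?_, ?_, ?_,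
    by rw [he, mul_assoc], by rw [he', mul_assoc]⟩
  · exact mul_ne_zero (pow_ne_zero _ (Cf.lam_ne_zero _ Fc.dist.monic.ne_zero))
      ((map_ne_zero_iff _ C.inj).mpr hR0)
  · exact mul_ne_zero (pow_ne_zero _ (Cf.lam_ne_zero _ Fc'.dist.monic.ne_zero))
      ((map_ne_zero_iff _ C.inj).mpr (hRR ▸ (map_ne_zero_iff _ hS).mpr hR0))
  · rw [hN, hQ, hRR]
    exact ((Cf.conj_lam Fc.N hS hres hζ hfix hlift Fc.dist.monic.ne_zero).pow m).mul (ConjVal.of R)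

end Config

end Fermat.Agent.Mazur3.AtEta
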