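import Fermat.Agent.Mazur3.AtEta.Config
import Fermat.Agent.Mazur3.AtEta.Congr
import Fermat.Agent.MCurve.Spec.Level

/-!
# Values at the images of a rational point

The values of the coordinate and of the generators at the images of a rational point under the
matrices of the transfer are algebraic. Where `j` is integral they avoid the cusp values modulo the
place, and where it is not the coordinate can be moved next to a finite cusp.
-/

set_option autoImplicit false
set_option linter.unusedSectionVars false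
set_option linter.style.haveILetI false

noncomputable section

namespace Fermat.Agent.Mazur3.AtEta

open GalRep GalRep.Model
open UpperHalfPlane CongruenceSubgroup
open Fermat.Agent.Period (jFun)
open scoped MatrixGroups Manifold PowerSeries

local notation "Q̄" => AlgebraicClosure ℚ

variable {p η : ℕ} [NeZero p] [Fact η.Prime] {M : ℕ} [NeZero M]

theorem ratMF_eq {O O' : Type*} [CommRing O] [IsDomain O] [CommRing O'] [IsDomain O']
    (C : Cyc O M) (C' : Cyc O' M) (q : Quad M) : ratMF C q = ratMF C' q :=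
  Subtype.ext rfl

theorem wMF_eq {O O' : Type*} [CommRing O] [IsDomain O] [CommRing O'] [IsDomain O'] (L : Lev M)
    (C : Cyc O M) (C' : Cyc O' M) : L.wMF C = L.wMF C' :=
  Subtype.ext rfl

/-- The quadruple of `w`. -/
def wQuad (L : Lev M) : Quad M := L.vq 0 1 0 2 L.valid0 L.valid2 (by decide)

theorem wMF_apply {O : Type*} [CommRing O] [IsDomain O] (L : Lev M) (C : Cyc O M) (σ : ℍ) :
    (L.wMF C : ℍ → ℂ) σ = (wQuad L).fn σ := rfl

/-- The quadruple of a generator. -/
def genQuad (L : Lev M) (c : {c : ZMod M × ZMod M // c ≠ 0}) : Quad M :=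
  ⟨repVec c, L.V 0, L.V 1, L.V 0, nz_repVec c, L.nz_V 0, L.nz_V 1, L.nz_V 0,
    L.not_pm L.valid1 L.valid0 (by decide)⟩

/-- The cusp values as algebraic numbers. -/
def cvQ (L : Lev M) (i : Fin 4) : Q̄ := L.cval (cycBar M) i

theorem kappa_eq_apply {O : Type*} [CommRing O] [IsDomain O] (L : Lev M) (C : Cyc O M)
    (h3 : L.m = 3) (σ : ℍ) : C.φ (L.kappa C) =
      (wQuad L).fn σ * (L.vq 2 3 1 3 L.valid1 (Or.inr h3) (by decide)).fn σ := by
  have hk : L.w C * rat C (L.vq 2 3 1 3 L.valid1 (Or.inr h3) (by decide)) =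
      algebraMap O (lvlField C) (L.kappa C) := by
    rw [Lev.kappa, dif_pos h3]
    exact (L.exists_kappa C h3).choose_spec
  have hfun : L.wMF C * ratMF C (L.vq 2 3 1 3 L.valid1 (Or.inr h3) (by decide)) =
      algebraMap ℂ (modFuns (Gamma M)) (C.φ (L.kappa C)) :=
    IsFractionRing.injective (modFuns (Gamma M)) (WFld M) (by
      rw [map_mul]; exact congrArg Subtype.val hk)
  exact (congrFun (congrArg Subtype.val hfun) σ).symm

theorem phi_cval {O : Type*} [CommRing O] [IsDomain O] (L : Lev M) (C : Cyc O M) (i : Fin 4) :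
    C.φ (L.cval C i) = qbarToC (cvQ L i) := by
  have hk : C.φ (L.kappa C) = qbarToC (L.kappa (cycBar M)) := by
    by_cases h3 : L.m = 3
    · rw [kappa_eq_apply L C h3 UpperHalfPlane.I,
        ← kappa_eq_apply L (cycBar M) h3 UpperHalfPlane.I]
      rfl
    · rw [Lev.kappa, Lev.kappa, dif_neg h3, dif_neg h3, map_zero, map_zero]
  fin_cases i <;> simp [cvQ, Lev.cval, hk]

theorem coeff_shift_ratMF_mem {O : Type*} [CommRing O] [IsDomain O] (C : Cyc O M) (q : Quad M)
    (δ : SL(2, ℤ)) (m : ℤ) : (serHom M (shift M δ (ratMF C q))).coeff m ∈ C.φ.range := by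
  obtain ⟨g, hg⟩ := serAt_rat_mul_X_pow C δ q
  set n := pOrd M (q.mul δ).u' (q.mul δ).t'
  have h := congrArg C.toC hg
  rw [map_mul, C.toC_algebraMap, C.toC_algebraMap,
    ← serHom_shift_eq C (f := ratMF C q) rfl, C.gC_X_pow] at h
  have h1 := congrArg (fun f : LaurentSeries ℂ => f.coeff (m + n)) h
  simp only [HahnSeries.coeff_mul_single_add, mul_one] at h1
  rw [← h1]
  rcases lt_or_ge (m + n : ℤ) 0 with hl | hl
  · rw [coeff_gC_neg C g hl]; exact zero_mem _
  · obtain ⟨l, hl⟩ := Int.eq_ofNat_of_zero_le hl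
    rw [hl, Cyc.gC, RingHom.comp_apply, HahnSeries.ofPowerSeries_apply_coeff,
      PowerSeries.coeff_map]
    exact ⟨_, rfl⟩

theorem coeff_shift_ratMF_qC {O : Type*} [CommRing O] [IsDomain O] (C : Cyc O M) (q : Quad M)
    (δ : SL(2, ℤ)) (m : ℤ) : (serHom M (shift M δ (ratMF C q))).coeff m ∈ qC := by
  obtain ⟨v, hv⟩ := coeff_shift_ratMF_mem (cycBar M) q δ m
  rw [ratMF_eq C (cycBar M)]
  exact ⟨v, hv⟩

theorem shift_out (g : SL(2, ℤ)) (y : modFuns (Gamma M)) :
    shift M (Quotient.out (g : SL(2, ℤ) ⧸ Gamma M)) y = shift M g y := by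
  obtain ⟨⟨h, hh⟩, hgo⟩ := QuotientGroup.mk_out_eq_mul (Gamma M) g
  refine Subtype.ext (funext fun σ => ?_)
  rw [hgo, shift_apply, shift_apply, mul_smul]
  have hc : g * h * g⁻¹ ∈ Gamma M := (Gamma_normal M).conj_mem h hh g
  have h1 := y.2.invariant _ hc (g • σ)
  simp only [← mul_smul, inv_mul_cancel_right] at h1
  rw [mul_smul] at h1
  exact h1

theorem Gamma_le_Gamma0_of_dvd' {p M : ℕ} (h : p ∣ M) : Gamma M ≤ Gamma0 p := fun γ hγ => by
  have h1 := congrArg (ZMod.castHom h (ZMod p)) (Gamma_mem.mp hγ).2.2.1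
  rw [map_intCast, map_zero] at h1
  exact Gamma0_mem.mpr h1

/-! ## The images of the point -/

variable (hg : GoodIndex p η) (x : RatPoint p)

theorem biEval_pts_some (i : Option (Fin η)) (σ : ℍ) :
    (biEval (jFun σ) (jFun ((pts hg (some i)).toFun σ)) (modPoly η) = 0 ∧
      biEval (jFun ((pts hg (some i)).toFun σ)) (jFun σ) (modPoly η) = 0) ∧
    (biEval (jNFun p σ) (jNFun p ((pts hg (some i)).toFun σ)) (modPoly η) = 0 ∧
      biEval (jNFun p ((pts hg (some i)).toFun σ)) (jNFun p σ) (modPoly η) = 0) := by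
  have hη : (η : ℂ) ≠ 0 := Nat.cast_ne_zero.mpr (Fact.out : η.Prime).ne_zero
  show (biEval (jFun σ) (jFun (posMat (heckeRep η i) (det_heckeRep_pos hg i) • σ)) _ = 0 ∧ _) ∧ _
  refine ⟨biEval_jFun_isog η ?_, biEval_jFun_isog η ?_⟩ <;> rcases i with _ | b
  · exact Or.inr (by rw [coe_posMat_smul]; simp [heckeRep])
  · refine Or.inl ⟨b, ?_⟩
    rw [coe_posMat_smul]
    simp [heckeRep]
    field_simp
  · refine Or.inr ?_
    show ((posMat _ (det_diagN p) • posMat _ _ • σ : ℍ) : ℂ) = η * (posMat _ (det_diagN p) • σ : ℍ)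
    simp only [coe_posMat_smul]
    simp [heckeRep]
    ring
  · refine Or.inl ⟨p * b, ?_⟩
    show (η : ℂ) * ((posMat _ (det_diagN p) • posMat _ _ • σ : ℍ) : ℂ) =
      (posMat _ (det_diagN p) • σ : ℍ) + ((p * b : ℕ) : ℂ)
    simp only [coe_posMat_smul]
    simp [heckeRep]
    field_simp

theorem isIntegralElem_pts (i : Option (Option (Fin η))) (g : SL(2, ℤ)) :
    (PowerSeries.map qbarToC).IsIntegralElem (x.tay (jFun ∘ ((pts hg i).smul g).toFun)) := by
  have e : jFun ∘ ((pts hg i).smul g).toFun = jFun ∘ (pts hg i).toFun :=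
    funext fun σ => Period.jFun_smul g _
  rw [e]
  cases i with
  | none => exact isIntegralElem_tay_jFun_self x
  | some i => exact isIntegralElem_tay_jFun x η _ fun σ => (biEval_pts_some hg i σ).1.1

theorem constantCoeff_mem_qC {f : ℂ⟦X⟧} (hf : (PowerSeries.map qbarToC).IsIntegralElem f) :
    PowerSeries.constantCoeff f ∈ qC := by
  obtain ⟨P, hP, hPf⟩ := hf
  have h := congrArg PowerSeries.constantCoeff hPf
  rw [Polynomial.hom_eval₂, map_zero] at h
  refine mem_qC_of_root (P := P.map PowerSeries.constantCoeff) (hP.map _).ne_zero ?_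
  rw [Polynomial.map_map, Polynomial.eval_map]
  refine Eq.trans (congrArg (fun r => Polynomial.eval₂ r _ P) (RingHom.ext fun a => ?_)) h
  simp only [RingHom.comp_apply, ← PowerSeries.coeff_zero_eq_constantCoeff_apply,
    PowerSeries.coeff_map]

theorem apply_pts_mem_qC {O : Type*} [CommRing O] [IsDomain O] (C : Cyc O M) (q : Quad M)
    (i : Option (Option (Fin η))) (g : SL(2, ℤ)) :
    q.fn (g • (pts hg i).toFun x.τ) ∈ qC := by
  have h := constantCoeff_mem_qC (isIntegralElem_tayP x _ (isIntegralElem_pts hg x i g) (ratMF C q)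
    (coeff_shift_ratMF_qC C q))
  rw [constantCoeff_tayP] at h
  exact h

theorem slope_mem_qC {O : Type*} [CommRing O] [IsDomain O] (L : Lev M) (C : Cyc O M)
    (i : Option (Option (Fin η))) (g : SL(2, ℤ)) :
    lead (tayP x ((pts hg i).smul g) (L.wMF C) -
      PowerSeries.C ((L.wMF C : ℍ → ℂ) (g • (pts hg i).toFun x.τ))) ∈ qC :=
  lead_tayP_sub_mem x _ (isIntegralElem_pts hg x i g) _ (coeff_shift_ratMF_qC C _)
    (apply_pts_mem_qC hg x C (wQuad L) i g)

/-! ## Where `j` is integral -/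

variable {A : ValuationSubring Q̄}

theorem toComplex_closed (z : ℂ) (hz : IsIntegral (toComplex A).range z) :
    z ∈ (toComplex A).range := by
  obtain ⟨P, hP, hPz⟩ := hz
  obtain ⟨Q, hQ, -, hQm⟩ := Polynomial.lifts_and_degree_eq_and_monic
    ((Polynomial.mem_lifts P).mpr (Polynomial.map_surjective (toComplex A).rangeRestrict
      (toComplex A).rangeRestrict_surjective P)) hP
  obtain ⟨v, hv, -⟩ := exists_val_of_root (RingHom.id A) hQm (z := z) (by
    rw [← hQ, Polynomial.eval₂_map] at hPz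
    exact hPz)
  exact ⟨v, hv⟩

theorem jFun_pts_mem (ha : (x.a : Q̄) ∈ A) (i : Option (Option (Fin η))) :
    jFun ((pts hg i).toFun x.τ) ∈ (toComplex A).range := by
  have haj : jFun x.τ = toComplex A ⟨_, ha⟩ := by
    rw [x.hj, toComplex_apply, map_ratCast]
  cases i with
  | none => exact ⟨_, haj.symm⟩
  | some i =>
    obtain ⟨b, hb⟩ := exists_jFun_heckePoint hg x haj i
    exact ⟨b, hb.symm⟩

theorem jFun_pts_not_mem (ha : (x.a : Q̄) ∉ A) (i : Option (Option (Fin η))) :
    jFun ((pts hg i).toFun x.τ) ∉ (toComplex A).range := by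
  have key : jFun x.τ ∉ (toComplex A).range := by
    rintro ⟨v, hv⟩
    refine ha ?_
    have hv' : qbarToC (v : Q̄) = qbarToC (x.a : Q̄) := by
      rw [← toComplex_apply, hv, x.hj, map_ratCast]
    exact qbarToC.injective hv' ▸ v.2
  cases i with
  | none => exact key
  | some i =>
    rintro ⟨v, hv⟩
    obtain ⟨P, hP⟩ := exists_modPolyInt η
    have hPm : P.Monic := Polynomial.monic_of_injective
      (f := Polynomial.mapRingHom (Int.castRingHom ℂ))
      (Polynomial.map_injective _ Int.cast_injective) (hP ▸ orbitPoly_monic _)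
    obtain ⟨b, hb, -⟩ := exists_val_of_root (Polynomial.eval₂RingHom (Int.castRingHom A) v) hPm
      (z := jFun x.τ) (by
        have hroot := (biEval_pts_some hg i x.τ).1.2
        rw [← hP, biEval, Polynomial.coe_eval₂RingHom, Polynomial.eval₂_map] at hroot
        refine Eq.trans ?_ hroot
        exact congrArg (fun f => Polynomial.eval₂ f (jFun x.τ) P)
          (Polynomial.ringHom_ext (fun c => by simp) (by simp [hv])))
    exact key ⟨b, hb⟩

variable [hu : Fact (IsUnit (M : A))]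

theorem cyc_phi : (MCurve.Spec.cyc M A).φ = toComplex A := rfl

theorem coeff_shift_ratMF_A {O : Type*} [CommRing O] [IsDomain O] (C : Cyc O M) (q : Quad M)
    (δ : SL(2, ℤ)) (m : ℤ) :
    (serHom M (shift M δ (ratMF C q))).coeff m ∈ (toComplex A).range := by
  rw [ratMF_eq C (MCurve.Spec.cyc M A), ← cyc_phi (M := M)]
  exact coeff_shift_ratMF_mem (MCurve.Spec.cyc M A) q δ m

theorem apply_mem_of_jFun_mem {O : Type*} [CommRing O] [IsDomain O] (C : Cyc O M) (q : Quad M)
    {σ : ℍ} (hj : jFun σ ∈ (toComplex A).range) : q.fn σ ∈ (toComplex A).range := by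
  have h := apply_mem_of_series_mem (toComplex A).range toComplex_closed
    (ratMF C q) (coeff_shift_ratMF_A C q) σ hj
  exact h

theorem sub_cvQ_not_nonunit (L : Lev M) {σ : ℍ} (hj : jFun σ ∈ (toComplex A).range) {v : Q̄}
    (hv : qbarToC v = (wQuad L).fn σ) :
    v ∈ A ∧ ∀ i ∈ L.J, v - cvQ L i ∈ A ∧ v - cvQ L i ∉ A.nonunits := by
  have hmem : ∀ q : Quad M, ∃ u : Q̄, u ∈ A ∧ qbarToC u = q.fn σ := fun q => by
    obtain ⟨u, hu⟩ := apply_mem_of_jFun_mem (cycBar M) q hj
    exact ⟨u, u.2, hu⟩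
  have hvA : v ∈ A := by
    obtain ⟨u, hu, he⟩ := hmem (wQuad L)
    rwa [qbarToC.injective (he.trans hv.symm)] at hu
  refine ⟨hvA, fun i hi => ?_⟩
  have hcA : cvQ L i ∈ A := by
    have h := (phi_cval L (MCurve.Spec.cyc M A) i).symm
    rw [qbarToC.injective (h.trans (toComplex_apply _))]
    exact Subtype.coe_prop _
  have hne : ∀ {a b : Fin 4}, L.Valid a → L.Valid b → a ≠ b → wpDiff M (L.V a) (L.V b) σ ≠ 0 :=
    fun ha hb hab => wpDiff_ne_zero (L.nz_V _) (L.nz_V _) (L.not_pm ha hb hab) σ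
  have inv : ∃ u : Q̄, u ∈ A ∧ (v - cvQ L i) * u = 1 := by
    obtain ⟨hiv, hi1⟩ := L.mem_J.mp hi
    fin_cases i
    · obtain ⟨u, huA, hu⟩ := hmem (L.vq 0 2 2 1 L.valid2 L.valid1 (by decide))
      refine ⟨u, huA, qbarToC.injective ?_⟩
      rw [map_mul, map_sub, map_one, hv, hu, ← phi_cval L (cycBar M)]
      simp only [Fin.zero_eta, Lev.cval, Matrix.cons_val_zero, map_one]
      show (wpDiff M (L.V 0) (L.V 1) σ / wpDiff M (L.V 0) (L.V 2) σ - 1) *
        (wpDiff M (L.V 0) (L.V 2) σ / wpDiff M (L.V 2) (L.V 1) σ) = 1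
      have h1 := hne L.valid0 L.valid2 (by decide)
      have h2 := hne L.valid2 L.valid1 (by decide)
      field_simp
      simp only [wpDiff]
      ring
    · exact absurd rfl hi1
    · obtain ⟨u, huA, hu⟩ := hmem (L.vq 0 2 0 1 L.valid0 L.valid1 (by decide))
      refine ⟨u, huA, qbarToC.injective ?_⟩
      rw [map_mul, map_sub, map_one, hv, hu, ← phi_cval L (cycBar M)]
      simp only [Fin.reduceFinMk, Lev.cval, Matrix.cons_val, map_zero, sub_zero]
      show wpDiff M (L.V 0) (L.V 1) σ / wpDiff M (L.V 0) (L.V 2) σ *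
        (wpDiff M (L.V 0) (L.V 2) σ / wpDiff M (L.V 0) (L.V 1) σ) = 1
      have h1 := hne L.valid0 L.valid2 (by decide)
      have h2 := hne L.valid0 L.valid1 (by decide)
      field_simp
    · have h3 : L.m = 3 := hiv.resolve_left (by decide)
      obtain ⟨u, huA, hu⟩ := hmem (L.vq 2 3 1 2 L.valid1 L.valid2 (by decide))
      have hk : IsUnit (L.kappa (MCurve.Spec.cyc M A)) := by
        rw [Lev.kappa, dif_pos h3]; exact Units.isUnit _
      set k := hk.unit
      refine ⟨((k⁻¹ : Aˣ) : A) * u, mul_mem (SetLike.coe_mem _) huA, qbarToC.injective ?_⟩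
      rw [map_mul, map_sub, map_mul, map_one, hv, hu, ← phi_cval L (MCurve.Spec.cyc M A)]
      simp only [Fin.reduceFinMk, Lev.cval, Matrix.cons_val]
      have hk' := kappa_eq_apply L (MCurve.Spec.cyc M A) h3 σ
      have hkk : toComplex A (k⁻¹ : Aˣ) * (MCurve.Spec.cyc M A).φ (L.kappa (MCurve.Spec.cyc M A)) =
          1 := by
        show toComplex A _ * toComplex A (L.kappa _) = 1
        rw [← map_mul, IsUnit.val_inv_mul, map_one]
      rw [← toComplex_apply]
      have hw : (wQuad L).fn σ ≠ 0 := div_ne_zero (hne L.valid0 L.valid1 (by decide))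
        (hne L.valid0 L.valid2 (by decide))
      have hid : ((wQuad L).fn σ -
          (wQuad L).fn σ * (L.vq 2 3 1 3 L.valid1 (Or.inr h3) (by decide)).fn σ) *
          (L.vq 2 3 1 2 L.valid1 L.valid2 (by decide)).fn σ =
          (wQuad L).fn σ * (L.vq 2 3 1 3 L.valid1 (Or.inr h3) (by decide)).fn σ := by
        have h12 := hne L.valid1 L.valid2 (by decide)
        have h13 := hne L.valid1 (Or.inr h3 : L.Valid 3) (by decide)
        show (_ - _ * (wpDiff M (L.V 2) (L.V 3) σ / wpDiff M (L.V 1) (L.V 3) σ)) *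
          (wpDiff M (L.V 2) (L.V 3) σ / wpDiff M (L.V 1) (L.V 2) σ) =
          _ * (wpDiff M (L.V 2) (L.V 3) σ / wpDiff M (L.V 1) (L.V 3) σ)
        field_simp
        simp only [wpDiff]
        ring
      rw [hk'] at hkk ⊢
      linear_combination toComplex A (k⁻¹ : Aˣ) * hid + hkk
  obtain ⟨u, huA, hu⟩ := inv
  refine ⟨sub_mem hvA hcA, fun h => ?_⟩
  have h1 := A.mem_nonunits_iff.mp h
  have h2 := congrArg A.valuation hu
  rw [map_mul, map_one] at h2
  have h3 := mul_lt_one_of_lt_of_le h1 ((A.valuation_le_one_iff u).mpr huA)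
  exact h3.ne h2

/-! ## Where `j` is not integral -/

theorem coeff_serHom_jMF_mem (B : Subring ℂ) (hB : ∀ z : ℂ, IsIntegral B z → z ∈ B) :
    serHom M (jMF (Gamma M)) ∈ coeffSubring B := by
  intro m
  have h := hasQSeries_jq.refine_width one_pos M (NeZero.ne M)
  rw [one_mul] at h
  rw [← h.unique (NeZero.pos M) (hasQSeries_serHom (jMF (Gamma M)))]
  by_cases hm : (M : ℤ) ∣ m
  · obtain ⟨k, rfl⟩ := hm
    rw [expand_coeff_mul]
    exact hB _ (jq_mem_intLS k).tower_top
  · rw [expand_coeff_of_not_dvd _ _ _ _ hm]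
    exact zero_mem B

/-- A value of `w` at a pole of `j` reduces to a cusp value. -/
theorem exists_cvQ_near (L : Lev M) {σ : ℍ} (hj : jFun σ ∉ (toComplex A).range) {v : Q̄}
    (hvA : v ∈ A) (hv : qbarToC v = (wQuad L).fn σ) :
    ∃ i ∈ L.J, v - cvQ L i ∈ A.nonunits := by
  classical
  by_contra hno
  push Not at hno
  set CA := MCurve.Spec.cyc M A
  have hφ : CA.φ = toComplex A := rfl
  set R := (toComplex A).range
  obtain ⟨K, hK⟩ := L.exists_bddFin CA (jMF (Gamma M))
  set P₀ := (L.cuspPoly CA ^ K).map CA.φ with hP₀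
  have hshift : ∀ g : SL(2, ℤ), shift M g (jMF (Gamma M)) = jMF (Gamma M) := fun g =>
    Subtype.ext (funext fun τ => Period.jFun_smul g τ)
  have hinv : L.Inv (jMF (Gamma M) * Polynomial.aeval (L.wMF CA) P₀) := fun γ hγ => by
    rw [map_mul, hshift, ← Polynomial.aeval_algHom_apply, L.inv_wMF CA γ hγ]
  obtain ⟨P, hP, hPeq⟩ := L.exists_poly CA R (fun a => ⟨a, rfl⟩) hinv (hK K le_rfl) fun k => by
    rw [map_mul, hshift, map_mul]
    refine mul_mem (coeff_serHom_jMF_mem R toComplex_closed) ?_ k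
    rw [← Polynomial.aeval_algHom_apply, Polynomial.aeval_eq_sum_range, map_sum]
    refine sum_mem fun n _ => ?_
    rw [Algebra.smul_def, map_mul, map_pow, serHom_algebraMap]
    refine mul_mem (fun m => ?_) (pow_mem (fun m => ?_) n)
    swap
    · exact coeff_shift_ratMF_A CA _ _ m
    rw [HahnSeries.C_apply, HahnSeries.coeff_single]
    split_ifs
    · rw [hP₀, Polynomial.coeff_map]; exact ⟨_, rfl⟩
    · exact zero_mem R
  have hev := congrArg
    ((Pi.evalAlgHom ℂ (fun _ : ℍ => ℂ) σ).comp (modFuns (Gamma M)).val) hPeq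
  rw [map_mul, ← Polynomial.aeval_algHom_apply, ← Polynomial.aeval_algHom_apply] at hev
  have hwσ : ((Pi.evalAlgHom ℂ (fun _ : ℍ => ℂ) σ).comp (modFuns (Gamma M)).val) (L.wMF CA) =
      toComplex A ⟨v, hvA⟩ := hv.symm
  rw [hwσ, Polynomial.coe_aeval_eq_eval] at hev
  change jFun σ * P₀.eval _ = _ at hev
  rw [hP₀, hφ, Polynomial.eval_map, Polynomial.eval₂_at_apply] at hev
  set u := (L.cuspPoly CA ^ K).eval (⟨v, hvA⟩ : A)
  have hu : IsUnit u := by
    simp only [u, Polynomial.eval_pow, Lev.cuspPoly, Polynomial.eval_prod, Polynomial.eval_sub,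
      Polynomial.eval_X, Polynomial.eval_C]
    refine IsUnit.pow _ (IsUnit.prod_iff.mpr fun i hi => ?_)
    by_contra hnu
    refine hno i hi ?_
    have hc : ((L.cval CA i : A) : Q̄) = cvQ L i := qbarToC.injective (phi_cval L CA i)
    rw [← hc]
    exact ValuationSubring.coe_mem_nonunits_iff.mpr ((IsLocalRing.mem_maximalIdeal _).mpr hnu)
  refine hj ?_
  have hPR : P.eval (toComplex A ⟨v, hvA⟩) ∈ R := by
    rw [Polynomial.eval_eq_sum_range]
    exact sum_mem fun n _ => mul_mem (hP n) (pow_mem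
      (RingHom.mem_range.mpr ⟨_, rfl⟩ : toComplex A ⟨v, hvA⟩ ∈ R) n)
  obtain ⟨r, hr⟩ := hPR
  rw [← hr] at hev
  refine ⟨r * (hu.unit⁻¹ : Aˣ), ?_⟩
  rw [map_mul, ← hev, mul_assoc, ← map_mul, IsUnit.mul_val_inv, map_one, mul_one]

/-- A pole of `j` can be moved next to a finite cusp. -/
theorem exists_near_cusp (L : Lev M) (i : Option (Option (Fin η))) (ha : (x.a : Q̄) ∉ A) :
    ∃ (g : SL(2, ℤ)) (k : Fin 4) (u : Q̄), k ∈ L.J ∧
      qbarToC u = (wQuad L).fn (g • (pts hg i).toFun x.τ) ∧ u - cvQ L k ∈ A.nonunits := by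
  set σ := (pts hg i).toFun x.τ with hσ
  obtain ⟨v, hv⟩ := apply_pts_mem_qC hg x (cycBar M) (wQuad L) i 1
  rw [one_smul, ← hσ] at hv
  by_cases hvA : v ∈ A
  · obtain ⟨k, hk, h⟩ := exists_cvQ_near L (jFun_pts_not_mem hg x ha i) hvA hv
    exact ⟨1, k, v, hk, by rw [one_smul, hv], h⟩
  obtain ⟨u, hu⟩ := apply_pts_mem_qC hg x (cycBar M) (wQuad L) i ModularGroup.T
  rw [← hσ] at hu
  refine ⟨ModularGroup.T, 0, u, L.mem_J.mpr ⟨L.valid0, by decide⟩, hu, ?_⟩
  have hne : ∀ {a b : Fin 4}, L.Valid a → L.Valid b → a ≠ b → wpDiff M (L.V a) (L.V b) σ ≠ 0 :=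
    fun ha hb hab => wpDiff_ne_zero (L.nz_V _) (L.nz_V _) (L.not_pm ha hb hab) σ
  have hrow : ∀ j : Fin 4, rowMul (L.V j) ModularGroup.T =
      ((L.e : ℤ) * (base j).1, (L.e : ℤ) * (base j).1 + (L.e : ℤ) * (base j).2) := fun j => by
    simp [rowMul, Lev.V, ModularGroup.coe_T]
  have hV0 : rowMul (L.V 0) ModularGroup.T = L.V 1 := by
    rw [hrow]; simp [Lev.V, base]
  have hV2 : rowMul (L.V 2) ModularGroup.T = L.V 2 := by
    rw [hrow]; simp [Lev.V, base]
  -- the constant of the transformation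
  obtain ⟨c, hcA, hc⟩ : ∃ c : Q̄, c ∈ A ∧ (wQuad L).fn (ModularGroup.T • σ) *
      ((wQuad L).fn σ - qbarToC c) = (wQuad L).fn σ := by
    rcases L.hm with h2 | h3
    · refine ⟨1, one_mem _, ?_⟩
      have hpm : PM M (rowMul (L.V 1) ModularGroup.T) (L.V 0) := by
        rw [hrow]
        refine Or.inl ⟨by simp [Lev.V, base], ?_⟩
        simp [Lev.V, base, L.eq, h2]
        ring_nf
        exact dvd_rfl
      have h02 := hne L.valid0 L.valid2 (by decide)
      have h12 := hne L.valid1 L.valid2 (by decide)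
      rw [Quad.fn_smul, map_one]
      show wpDiff M (rowMul (L.V 0) _) (rowMul (L.V 1) _) σ /
        wpDiff M (rowMul (L.V 0) _) (rowMul (L.V 2) _) σ *
        (wpDiff M (L.V 0) (L.V 1) σ / wpDiff M (L.V 0) (L.V 2) σ - 1) =
        wpDiff M (L.V 0) (L.V 1) σ / wpDiff M (L.V 0) (L.V 2) σ
      rw [hV0, hV2, congrFun (wpDiff_congr (u := L.V 1) (u' := L.V 1) (Or.inl ⟨by simp, by simp⟩) hpm) σ]
      field_simp
      simp only [wpDiff]
      ring
    · refine ⟨cvQ L 3, ?_, ?_⟩
      · have h := (phi_cval L (MCurve.Spec.cyc M A) 3).symm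
        rw [qbarToC.injective (h.trans (toComplex_apply _))]
        exact Subtype.coe_prop _
      have h02 := hne L.valid0 L.valid2 (by decide)
      have h12 := hne L.valid1 L.valid2 (by decide)
      have h13 := hne L.valid1 (Or.inr h3 : L.Valid 3) (by decide)
      have hV1 : rowMul (L.V 1) ModularGroup.T = L.V 3 := by
        rw [hrow]; simp [Lev.V, base]; ring
      rw [← phi_cval L (cycBar M),
        show L.cval (cycBar M) 3 = L.kappa (cycBar M) by simp [Lev.cval],
        kappa_eq_apply L (cycBar M) h3 σ, Quad.fn_smul]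
      show wpDiff M (rowMul (L.V 0) _) (rowMul (L.V 1) _) σ /
        wpDiff M (rowMul (L.V 0) _) (rowMul (L.V 2) _) σ *
        (wpDiff M (L.V 0) (L.V 1) σ / wpDiff M (L.V 0) (L.V 2) σ -
          wpDiff M (L.V 0) (L.V 1) σ / wpDiff M (L.V 0) (L.V 2) σ *
            (wpDiff M (L.V 2) (L.V 3) σ / wpDiff M (L.V 1) (L.V 3) σ)) =
        wpDiff M (L.V 0) (L.V 1) σ / wpDiff M (L.V 0) (L.V 2) σ
      rw [hV0, hV1, hV2]
      field_simp
      simp only [wpDiff]
      ring
  rw [show cvQ L 0 = 1 by simp [cvQ, Lev.cval]]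
  rw [← hu, ← hv, ← map_sub, ← map_mul] at hc
  replace hc := qbarToC.injective hc
  have hv0 : v ≠ 0 := fun h => hvA (h ▸ zero_mem A)
  have hinv : A.valuation v⁻¹ < 1 := by
    rw [map_inv₀]
    exact inv_lt_one_of_one_lt₀ (lt_of_not_ge fun h => hvA ((A.valuation_le_one_iff v).mp h))
  have hlt : A.valuation (c * v⁻¹) < 1 := by
    rw [map_mul]
    exact (mul_le_of_le_one_left' ((A.valuation_le_one_iff c).mpr hcA)).trans_lt hinv
  have hone : A.valuation (1 - c * v⁻¹) = 1 := by
    rw [Valuation.map_sub_eq_of_lt_left]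
    · exact map_one _
    · rwa [map_one]
  have he : (u - 1) * (1 - c * v⁻¹) = c * v⁻¹ := by
    linear_combination v⁻¹ * hc + (1 - u) * mul_inv_cancel₀ hv0
  refine A.mem_nonunits_iff.mpr ?_
  have h2 := congrArg A.valuation he
  rw [map_mul, hone, mul_one] at h2
  rw [h2]
  exact hlt

/-! ## A number field with the values -/

omit [NeZero M] in
theorem exists_numberField (S : Set Q̄) (hS : S.Finite) :
    ∃ (L₀ : IntermediateField ℚ Q̄) (_ : FiniteDimensional ℚ L₀) (_ : Normal ℚ L₀),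
      S ⊆ L₀ := by
  have := hS.to_subtype
  have : FiniteDimensional ℚ (IntermediateField.adjoin ℚ S) :=
    IntermediateField.finiteDimensional_adjoin fun z _ => (Algebra.IsAlgebraic.isAlgebraic z).isIntegral
  exact ⟨IntermediateField.normalClosure ℚ (IntermediateField.adjoin ℚ S) Q̄,
    normalClosure.is_finiteDimensional ℚ _ Q̄, normalClosure.normal ℚ _ Q̄, fun z hz => IntermediateField.le_normalClosure _
      (IntermediateField.subset_adjoin _ _ hz)⟩

end Fermat.Agent.Mazur3.AtEta
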